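import Fermat.Agent.RTLift.Sq.Transport

/-!
# Systems of ratios carried by functions

`HasRatios C n f c` says that the ratios of roots of `f` on the two ends are `c` up to a constant.
The relation follows products and the correspondence; an eigen system that is carried by a
function and is not constant gives a character of the ring of operators.
-/

set_option autoImplicit false
set_option linter.unusedSectionVars false
set_option maxHeartbeats 800000

noncomputable section

namespace FermatAgent.RTLift.Sq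

open Polynomial IsLocalRing
open FermatAgent.BadRed.Carayol

variable {q : ℕ} [Fact q.Prime] {W K F F₁ F₂ : Type*}
  [CommRing W] [IsDomain W] [IsDiscreteValuationRing W] [IsAlgClosed (IsLocalRing.ResidueField W)]
  [Field K] [CharZero K] [Algebra W K] [IsFractionRing W K]
  [Field F] [Field F₁] [Field F₂] [Algebra K F] [Algebra K F₁] [Algebra K F₂]
  [Algebra W F] [Algebra W F₁] [Algebra W F₂]
  [IsScalarTower W K F] [IsScalarTower W K F₁] [IsScalarTower W K F₂]
  {T : QTower q K F F₁ F₂} {u : F}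
  {hq : maximalIdeal W = Ideal.span {(q : W)}} {D : ChartData W T u}

variable (hq) (D) in
/-- `c` is, up to a constant, the system of ratios of roots of `f` on the two ends. -/
def HasRatios (C : Comps W T u) (n : ℕ) (f : F₂) (c : SSPoint hq D → IsLocalRing.ResidueField W) :
    Prop :=
  DivisibleOn K f n ∧ ∃ (R : Roots C n f) (r : IsLocalRing.ResidueField W),
    r ≠ 0 ∧ ∀ x : SSPoint hq D, x.Ratio C.VI C.V0 n f R.hI R.h₀ (r * c x)

theorem HasRatios.mul {C : Comps W T u} {n : ℕ} {f f' : F₂}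
    {c c' : SSPoint hq D → IsLocalRing.ResidueField W} (h : HasRatios hq D C n f c)
    (h' : HasRatios hq D C n f' c') : HasRatios hq D C n (f * f') (c * c') := by
  obtain ⟨hd, R, r, hr, hR⟩ := h
  obtain ⟨hd', R', r', hr', hR'⟩ := h'
  refine ⟨fun V hV => ?_, R.mul R', r * r', mul_ne_zero hr hr', fun x => ?_⟩
  · obtain ⟨g, hg⟩ := hd V hV
    obtain ⟨g', hg'⟩ := hd' V hV
    exact ⟨g * g', by rw [map_mul, hg, hg', map_mul, mul_pow]⟩
  · rw [Pi.mul_apply, mul_mul_mul_comm]
    exact (hR x).mul x (Or.inl rfl) (Or.inr (Or.inl rfl)) (hR' x)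

theorem HasRatios.scale {C : Comps W T u} {n : ℕ} {f : F₂}
    {c : SSPoint hq D → IsLocalRing.ResidueField W} {a : IsLocalRing.ResidueField W} (ha : a ≠ 0)
    (h : HasRatios hq D C n f c) : HasRatios hq D C n f (fun x => a * c x) := by
  obtain ⟨hd, R, r, hr, hR⟩ := h
  refine ⟨hd, R, r / a, div_ne_zero hr ha, fun x => ?_⟩
  show x.Ratio _ _ _ _ _ _ (r / a * (a * c x))
  rw [← mul_assoc, div_mul_cancel₀ _ ha]
  exact hR x

/-- A constant times an `n`-th power only carries constant systems. -/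
theorem HasRatios.eq_const {C : Comps W T u} {n : ℕ} (hn : 0 < n) {k : K} (hk : k ≠ 0) {w : F₂}
    (hw : w ≠ 0) {c : SSPoint hq D → IsLocalRing.ResidueField W}
    (h : HasRatios hq D C n (algebraMap K F₂ k * w ^ n) c) :
    ∀ x y, c x = c y := by
  obtain ⟨-, R, r, hr, hR⟩ := h
  have hroot : IsRootOn C.VI n (algebraMap K F₂ k) (R.hI / w) := by
    have := R.rootI
    rw [IsRootOn] at this ⊢
    rwa [div_pow, div_div_eq_mul_div]
  obtain ⟨κ, e, hκ, hke, he⟩ := exists_const_roots (hq := hq) (D := D) hn hk hroot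
  have heq : algebraMap K F₂ k * w ^ n = algebraMap W F₂ (e : W) * (κ * w) ^ n := by
    rw [hke, mul_pow, mul_assoc]
  have hself : ∀ {V : ValuationSubring F₂}, IsVertical W q (T.α (T.t u)) V →
      IsRootOn V n (algebraMap K F₂ k * w ^ n) (κ * w) := fun {V} hV => by
    rw [IsRootOn, heq, mul_div_assoc, div_self (pow_ne_zero n (mul_ne_zero hκ hw)), mul_one,
      ← constRes_residue hq hV, he, map_one]
  obtain ⟨ζ, hζ, hu, eζ⟩ := (hself C.vI).exists_const (hq := hq) C.vI hn R.rootI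
  obtain ⟨ζ', hζ', hu', eζ'⟩ := (hself C.v0).exists_const (hq := hq) C.v0 hn R.root₀
  have hζ0 : residue W ζ ≠ 0 := fun h0 => by
    rw [h0, zero_pow hn.ne'] at hζ; exact zero_ne_one hζ
  have key : ∀ x, r * c x = 1 * (residue W ζ' / residue W ζ) := fun x => by
    have h1 : x.Ratio C.VI C.V0 n (algebraMap K F₂ k * w ^ n) (κ * w) (κ * w) 1 := by
      rw [heq]; exact ratio_self x C.vI C.v0 (mul_ne_zero hκ hw)
    refine SSPoint.Ratio.unique x (C := C) (Or.inl rfl) (Or.inr (Or.inl rfl)) hn (hR x) ?_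
    exact h1.change x C.vI C.v0 (x.through_comp hq D (Or.inl rfl))
      (x.through_comp hq D (Or.inr (Or.inl rfl))) hζ0 (mul_ne_zero hκ hw) (mul_ne_zero hκ hw)
      eζ hu.mem eζ' hu'.mem
  exact fun x y => mul_left_cancel₀ hr ((key x).trans (key y).symm)

section Single

variable {G G₁ G₂ : Type*} [Field G] [Field G₁] [Field G₂] [Algebra K G] [Algebra K G₁]
  [Algebra K G₂] [Algebra W G] [Algebra W G₁] [Algebra W G₂]
  [IsScalarTower W K G] [IsScalarTower W K G₁] [IsScalarTower W K G₂]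
  {T' : QTower q K G G₁ G₂} {u' : G}
  (D' : ChartData W T' u') (a b : TowerMap W T T' u u') (C : Comps W T u) (C' : Comps W T' u')

/-- The product over the points below. -/
def corrSys (c : SSPoint hq D → IsLocalRing.ResidueField W) :
    SSPoint hq D → IsLocalRing.ResidueField W :=
  fun x => ∏ i, c (below hq D D' a b C C' x i)

include D' C' in
/-- The relation follows the correspondence. -/
theorem HasRatios.corr {n : ℕ} (hn : 0 < n) {f f' : F₂}
    {c : SSPoint hq D → IsLocalRing.ResidueField W} (h : HasRatios hq D C n f c)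
    (hdiv : DivisibleOn K f' n) (hf' : f' ≠ 0) {k : K} (hk : k ≠ 0) {w : F₂} (hw : w ≠ 0)
    (hrel : corrOp a b f = algebraMap K F₂ k * f' * w ^ n)
    (hroot : ∃ g : F₂, IsRootOn C.VI n f' g) :
    HasRatios hq D C n f' (corrSys D' a b C C' c) := by
  obtain ⟨-, R, r, hr, hR⟩ := h
  obtain ⟨g, hg⟩ := hroot
  have hk' : IsRootOn C.VI n (algebraMap K F₂ k) (corrOp a b R.hI / (g * w)) := by
    have h1 := (isRootOn_corrOp hq D D' a b C C' (Or.inl rfl) R.rootI).mul hg.inv
    rw [IsRootOn] at h1 ⊢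
    have hg0 := hg.ne_zero hn
    have hc0 := (isRootOn_corrOp hq D D' a b C C' (Or.inl rfl) R.rootI).ne_zero hn
    rw [← h1]
    congr 1
    rw [hrel]
    have := hg.f_ne_zero
    simp only [div_pow, mul_pow, inv_pow]
    field_simp
  obtain ⟨κ, e, hκ, hke, he⟩ := exists_const_roots (hq := hq) (D := D) hn hk hk'
  rw [hke] at hrel
  obtain ⟨R'⟩ := exists_transport_roots D' a b C C' (hq := hq) (D := D) hn hf' hw hκ he R hrel
  obtain ⟨η, hη, hη'⟩ := exists_ratio_below D' a b C C' (hq := hq) (D := D) hn hdiv hw hκ he hrel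
    (Or.inl rfl) (Or.inr (Or.inl rfl)) R.rootI R.root₀ R' R'.rootI R'.root₀
  have hη0 : η ≠ 0 := fun h0 => by rw [h0, zero_pow hn.ne'] at hη; exact zero_ne_one hη
  refine ⟨hdiv, R', η * r ^ a.deg, mul_ne_zero hη0 (pow_ne_zero _ hr), fun x => ?_⟩
  have h2 := hη' x (fun i => r * c (below hq D D' a b C C' x i)) (fun i => hR _)
  rw [Finset.prod_mul_distrib, Finset.prod_const, Finset.card_univ, Fintype.card_fin,
    ← mul_assoc] at h2
  exact h2

/-- Powers of roots. -/
def Roots.pow {C : Comps W T u} {n : ℕ} {f : F₂} (R : Roots C n f) (k : ℕ) :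
    Roots C n (f ^ k) where
  hI := R.hI ^ k
  h₀ := R.h₀ ^ k
  hm := R.hm ^ k
  rootI := R.rootI.pow k
  root₀ := R.root₀.pow k
  rootm := R.rootm.pow k

end Single

section Family

variable {ι : Type*} {G G₁ G₂ : ι → Type*} [∀ i, Field (G i)] [∀ i, Field (G₁ i)] [∀ i, Field (G₂ i)]
  [∀ i, Algebra K (G i)] [∀ i, Algebra K (G₁ i)] [∀ i, Algebra K (G₂ i)]
  [∀ i, Algebra W (G i)] [∀ i, Algebra W (G₁ i)] [∀ i, Algebra W (G₂ i)]
  [∀ i, IsScalarTower W K (G i)] [∀ i, IsScalarTower W K (G₁ i)] [∀ i, IsScalarTower W K (G₂ i)]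
  {T' : ∀ i, QTower q K (G i) (G₁ i) (G₂ i)} {u' : ∀ i, G i}
  (D'' : ∀ i, ChartData W (T' i) (u' i)) (C : Comps W T u) (C' : ∀ i, Comps W (T' i) (u' i))
  (A B : ∀ i, TowerMap W T (T' i) u (u' i)) (e : ι → ℕ)

include D'' C' in
/-- An eigen function gives an eigen system of ratios for each pair of components. -/
theorem exists_eigen_system {n : ℕ} (hn : 0 < n) {f : F₂} (hdiv : DivisibleOn K f n)
    (R : Roots C n f)
    (hrel : ∀ i, ∃ (k : K) (w : F₂), k ≠ 0 ∧ w ≠ 0 ∧
      corrOp (A i) (B i) f = algebraMap K F₂ k * f ^ e i * w ^ n)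
    {V V' : ValuationSubring F₂} (hV : IsComp C V) (hV' : IsComp C V') {h h' : F₂}
    (H : IsRootOn V n f h) (H' : IsRootOn V' n f h') :
    ∃ c : SSPoint hq D → IsLocalRing.ResidueField W, (∀ x, c x ^ n = 1) ∧
      (∀ x : SSPoint hq D, x.Ratio V V' n f h h' (c x)) ∧
      ∀ i, ∃ η : IsLocalRing.ResidueField W, η ≠ 0 ∧
        ∀ x, corrSys (D'' i) (A i) (B i) C (C' i) c x = η * c x ^ e i := by
  have hex : ∀ x : SSPoint hq D, ∃ r : IsLocalRing.ResidueField W,
      r ^ n = 1 ∧ x.Ratio V V' n f h h' r := fun x =>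
    x.exists_ratio hn R.rootI.f_ne_zero hdiv R hV.isVertical (x.through_comp hq D hV)
      hV'.isVertical (x.through_comp hq D hV') H H'
  choose c hc1 hc2 using hex
  refine ⟨c, hc1, hc2, fun i => ?_⟩
  obtain ⟨k, w, hk, hw, hki⟩ := hrel i
  have hf := R.rootI.f_ne_zero
  have hroot : IsRootOn C.VI n (algebraMap K F₂ k)
      (corrOp (A i) (B i) R.hI / (R.hI ^ e i * w)) := by
    have h1 := (isRootOn_corrOp hq D (D'' i) (A i) (B i) C (C' i) (Or.inl rfl) R.rootI).mul
      (R.rootI.pow (e i)).inv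
    rw [IsRootOn] at h1 ⊢
    have hg0 := R.rootI.ne_zero hn
    have hc0 := (isRootOn_corrOp hq D (D'' i) (A i) (B i) C (C' i) (Or.inl rfl) R.rootI).ne_zero hn
    rw [← h1]
    congr 1
    rw [hki]
    simp only [div_pow, mul_pow, inv_pow]
    field_simp
  obtain ⟨κ, ε, hκ, hke, hε⟩ := exists_const_roots (hq := hq) (D := D) hn hk hroot
  rw [hke] at hki
  obtain ⟨η, hη, hη'⟩ := exists_ratio_below (D'' i) (A i) (B i) C (C' i) (hq := hq) (D := D) hn
    (f' := f ^ e i) (by simpa using hdiv.mul_const (e i) (one_ne_zero (α := K))) hw hκ hε hki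
    hV hV' H H' (R.pow (e i)) (H.pow (e i)) (H'.pow (e i))
  have hη0 : η ≠ 0 := fun h0 => by rw [h0, zero_pow hn.ne'] at hη; exact zero_ne_one hη
  refine ⟨η⁻¹, inv_ne_zero hη0, fun x => ?_⟩
  rw [SSPoint.Ratio.unique x hV hV' hn ((hc2 x).pow x hV hV' (e i))
    (hη' x (fun j => c (below hq D (D'' i) (A i) (B i) C (C' i) x j)) (fun j => hc2 _)),
    ← mul_assoc, inv_mul_cancel₀ hη0, one_mul]
  rfl

end Family

end FermatAgent.RTLift.Sq
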