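import Fermat.Agent.RTLift.Sq.Mid
import Fermat.Agent.RTLift.Sq.Rel

/-!
# Constant eigen systems balance the roots in both charts

When every eigen system on the supersingular points is constant, one root of unity on each
component makes the ratios one; such roots are balanced in the chart of `u` and in that of `1/u`.
-/

set_option autoImplicit false
set_option linter.unusedSectionVars false
set_option maxHeartbeats 800000

noncomputable section

namespace FermatAgent.RTLift.Sq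

open Polynomial IsLocalRing
open FermatAgent.BadRed.Carayol

variable {q : ℕ} [Fact q.Prime] {W K F F₁ F₂ : Type*}
  [CommRing W] [IsDomain W] [IsDiscreteValuationRing W] [IsAlgClosed (IsLocalRing.ResidueField W)]
  [Field K] [CharZero K] [Algebra W K] [IsFractionRing W K]
  [Field F] [Field F₁] [Field F₂] [Algebra K F] [Algebra K F₁] [Algebra K F₂]
  [Algebra W F] [Algebra W F₁] [Algebra W F₂]
  [IsScalarTower W K F] [IsScalarTower W K F₁] [IsScalarTower W K F₂]
  {T : QTower q K F F₁ F₂} {u : F} {C : Comps W T u} {n : ℕ} {f : F₂}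
  (hq : maximalIdeal W = Ideal.span {(q : W)}) (D : ChartData W T u)
include hq D

/-- The roots of a root set, at the scale of the function. -/
theorem isRootOn_of_root {V : ValuationSubring F₂} {h : F₂} {d : ℤ}
    (hd : HasExp q V f ((n : ℤ) * d)) (hh : h ∈ V)
    (hroot : res V h ^ n = res V (f / (q : F₂) ^ ((n : ℤ) * d))) :
    IsRootOn V n f (h * (q : F₂) ^ d) := by
  have hu := (hasExp_iff (natCast_ne_zero₂ hq D)).mp hd
  have hhn : IsUnitAt V (h ^ n) := (isUnitAt_iff (pow_mem hh n)).mpr (by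
    rw [res_pow hh, hroot]; exact hu.res_ne_zero)
  rw [IsRootOn, mul_pow, ← zpow_natCast ((q : F₂) ^ d), ← zpow_mul, mul_comm d, div_mul_eq_div_div,
    div_right_comm, res_div hu.mem hhn, res_pow hh, hroot, div_self hu.res_ne_zero]

/-- A root set gives roots. -/
theorem exists_roots_of_rootSet {N : Normal C n f} (R : RootSet N) :
    ∃ R' : Roots C n f, R'.hI = R.hI * (q : F₂) ^ N.dI ∧ R'.h₀ = R.h₀ * (q : F₂) ^ N.d₀ ∧
      R'.hm = R.hm * (q : F₂) ^ N.dm :=
  ⟨⟨_, _, _, isRootOn_of_root hq D N.expI R.memI R.rootI,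
    isRootOn_of_root hq D N.exp₀ R.mem₀ R.root₀, isRootOn_of_root hq D N.expm R.memm R.rootm⟩,
    rfl, rfl, rfl⟩

/-- A ratio equal to one gives equal values. -/
theorem pval_eq_of_ratio_one (x : SSPoint hq D) {V V' : ValuationSubring F₂} (hV : IsComp C V)
    (hV' : IsComp C V') (hn : 0 < n) {h h' ε γ y y' : F₂}
    (H : IsRootOn V n f h) (H' : IsRootOn V' n f h') (hε : Loc (T.α (T.t u)) x.P ε)
    (hεi : Loc (T.α (T.t u)) x.P ε⁻¹) (hε0 : ε ≠ 0) (hγ : γ ≠ 0) (hf : f = ε * γ ^ n)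
    (hy : Loc (T.α (T.t u)) x.P y) (hy' : Loc (T.α (T.t u)) x.P y')
    (e : res V y = res V (h / γ)) (e' : res V' y' = res V' (h' / γ))
    (hR : x.Ratio V V' n f h h' 1) : pval hq x.mem y' = pval hq x.mem y := by
  obtain ⟨hm, y₁, hy₁, e₁, hne₁, -⟩ := exists_root_lift hq D x.mem hV.isVertical
    (x.through_comp hq D hV) hn H hε hεi hε0 hγ hf
  obtain ⟨hm', -⟩ := exists_root_lift hq D x.mem hV'.isVertical
    (x.through_comp hq D hV') hn H' hε hεi hε0 hγ hf
  have hne : pval hq x.mem y ≠ 0 := by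
    rwa [pval_eq_of_res_eq hq x.mem hV.isVertical (x.through_comp hq D hV) hy hy₁
      (e.trans e₁.symm)]
  have h1 : x.Ratio V V' n f h h' (pval hq x.mem y' / pval hq x.mem y) :=
    ⟨ε, γ, y, y', hε0, hγ, hε, hεi, hf, hy, hy', hm, hm', e, e', hne, (div_mul_cancel₀ _ hne).symm⟩
  exact (div_eq_one_iff_eq hne).mp ((hR.unique x hV hV' hn h1).symm)

/-- Ratios one on both pairs of components make a root set balanced. -/
theorem balanced_of_ratio_one (hn : 0 < n) {N : Normal C n f} (R : RootSet N)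
    (h : ∀ x : SSPoint hq D,
      x.Ratio C.VI C.V0 n f (R.hI * (q : F₂) ^ N.dI) (R.h₀ * (q : F₂) ^ N.d₀) 1 ∧
        x.Ratio C.VI C.Vm n f (R.hI * (q : F₂) ^ N.dI) (R.hm * (q : F₂) ^ N.dm) 1) :
    R.Balanced hq D := by
  intro P hP hqP hss ε γ hε hεi hε0 hγ hf yI y₀ ym hyI hy₀ hym eI e₀ em
  obtain ⟨R', hI, h₀, hm⟩ := exists_roots_of_rootSet hq D R
  let x : SSPoint hq D := ⟨P, hP, hqP, hss⟩
  obtain ⟨h1, h2⟩ := h x
  have HI := hI ▸ R'.rootI
  exact ⟨pval_eq_of_ratio_one hq D x (C := C) (Or.inl rfl) (Or.inr (Or.inl rfl)) hn HI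
      (h₀ ▸ R'.root₀) hε hεi hε0 hγ hf hyI hy₀ eI e₀ h1,
    pval_eq_of_ratio_one hq D x (C := C) (Or.inl rfl) (Or.inr (Or.inr rfl)) hn HI
      (hm ▸ R'.rootm) hε hεi hε0 hγ hf hyI hym eI em h2⟩

variable (D₁ : ChartData W T u⁻¹)
include D₁

/-- A supersingular point of the chart at infinity, seen in the chart of `u`. -/
theorem exists_point_inv (C : Comps W T u) (h0 : (0 : W) ∈ D₁.cusps) (x' : SSPoint hq D₁) :
    ∃ x : SSPoint hq D,
      (∀ w : chartRing W (T.α (T.t u)), Loc (T.α (T.t u⁻¹)) x'.P (AlgHom.id K F₂ (w : F₂))) ∧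
      ∀ w : chartRing W (T.α (T.t u)), w ∈ x.P → InMax x'.P (AlgHom.id K F₂ (w : F₂)) := by
  set z := T.α (T.t u)
  set z' := T.α (T.t u⁻¹)
  have ez : z' = z⁻¹ := by simp only [z, z', map_inv₀]
  -- the inverse of the coordinate is regular at the point
  have hz'0 : pval hq x'.mem z' ≠ 0 := fun h => x'.ss.1 ⟨0, h0, by
    rw [map_zero]; exact h.symm⟩
  have hzloc : Loc z' x'.P z := by
    have h1 := (loc_inv_of_pval_ne_zero hq x'.mem loc_self hz'0).2
    have e : z'⁻¹ = z := by rw [ez, inv_inv]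
    rwa [e] at h1
  have hloc : ∀ w : chartRing W z, Loc z' x'.P (w : F₂) := fun w =>
    loc_of_valuations x'.P fun V hA hP => mem_of_mem_chartRing
      (fun a => by simpa using hA (algebraMap W (chartRing W z') a))
      ((through_of_centred hA hP).mem hA hzloc) w.2
  let ev : chartRing W z →+* IsLocalRing.ResidueField W :=
    { toFun := fun w => pval hq x'.mem (w : F₂)
      map_one' := pval_one hq x'.mem
      map_mul' := fun v w => pval_mul hq x'.mem (hloc v) (hloc w)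
      map_zero' := pval_zero hq x'.mem
      map_add' := fun v w => pval_add hq x'.mem (hloc v) (hloc w) }
  have hev : Function.Surjective ev := fun r => by
    obtain ⟨w, rfl⟩ := residue_surjective r
    exact ⟨algebraMap W (chartRing W z) w, pval_const hq x'.mem w⟩
  let P : Ideal (chartRing W z) := RingHom.ker ev
  have hP : P.IsMaximal := RingHom.ker_isMaximal_of_surjective _ hev
  have hqP : (q : chartRing W z) ∈ P := by
    show pval hq x'.mem ((q : chartRing W z) : F₂) = 0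
    rw [show ((q : chartRing W z) : F₂) = (q : F₂) from map_natCast (chartRing W z).val q,
      pval_natCast_q]
  have hPP : ∀ w : chartRing W z, w ∈ P → InMax x'.P (AlgHom.id K F₂ (w : F₂)) := fun w hw =>
    (pval_eq_zero_iff hq x'.mem (hloc w)).mp hw
  have hT : ∀ {V : ValuationSubring F₂}, IsVertical W q z' V → Through x'.P V → Through P V := by
    intro V hV hT
    have := through_comap (P := P) (AlgHom.id K F₂) hloc hPP (U := V)
      (fun w => hV.chartRing_le w.2) hT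
    have e : V.comap (AlgHom.id K F₂).toRingHom = V := by ext; rfl
    rwa [e] at this
  obtain ⟨hTI, -, hTm⟩ := x'.through (C.inv hq D)
  exact ⟨⟨P, hP, hqP, isSSPt_of_inf hq D hqP C.vI (hT (C.inv hq D).vI hTI) C.inf C.vm
    (hT (C.inv hq D).vm hTm) C.mid.1⟩, hloc, hPP⟩

/-- Ratios transfer to the chart at infinity. -/
theorem ratio_inv {x : SSPoint hq D} {x' : SSPoint hq D₁}
    (hloc : ∀ w : chartRing W (T.α (T.t u)), Loc (T.α (T.t u⁻¹)) x'.P (AlgHom.id K F₂ (w : F₂)))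
    (hPP : ∀ w : chartRing W (T.α (T.t u)), w ∈ x.P → InMax x'.P (AlgHom.id K F₂ (w : F₂)))
    {V V' : ValuationSubring F₂} (hV : IsComp (C.inv hq D) V) (hV' : IsComp (C.inv hq D) V')
    {h h' : F₂} {r : IsLocalRing.ResidueField W} (H : x.Ratio V V' n f h h' r) :
    x'.Ratio V V' n f h h' r := by
  have e : ∀ U : ValuationSubring F₂, U.comap (AlgHom.id K F₂).toRingHom = U := fun U => by ext; rfl
  have H' : RatioAt hq x.P x.mem (V.comap (AlgHom.id K F₂).toRingHom)
      (V'.comap (AlgHom.id K F₂).toRingHom) n f h h' r := by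
    rw [e, e]; exact H
  exact RatioAt.map (hqP' := x'.mem) hq (AlgHom.id K F₂) hloc hPP
    (fun w => hV.isVertical.chartRing_le w.2) (fun w => hV'.isVertical.chartRing_le w.2)
    (x'.through_comp hq D₁ hV) (x'.through_comp hq D₁ hV') H'

variable {ι : Type*} {G G₁ G₂ : ι → Type*} [∀ i, Field (G i)] [∀ i, Field (G₁ i)] [∀ i, Field (G₂ i)]
  [∀ i, Algebra K (G i)] [∀ i, Algebra K (G₁ i)] [∀ i, Algebra K (G₂ i)]
  [∀ i, Algebra W (G i)] [∀ i, Algebra W (G₁ i)] [∀ i, Algebra W (G₂ i)]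
  [∀ i, IsScalarTower W K (G i)] [∀ i, IsScalarTower W K (G₁ i)] [∀ i, IsScalarTower W K (G₂ i)]
  {T' : ∀ i, QTower q K (G i) (G₁ i) (G₂ i)} {u' : ∀ i, G i}
  (D' : ∀ i, ChartData W (T' i) (u' i)) (C' : ∀ i, Comps W (T' i) (u' i))
  (A B : ∀ i, TowerMap W T (T' i) u (u' i)) (e : ι → ℕ)

omit D₁ in
variable (n) in
/-- Every eigen system of roots of unity on the supersingular points is constant. -/
def NoEigenSystem (C : Comps W T u) : Prop :=
  ∀ c : SSPoint hq D → IsLocalRing.ResidueField W, (∀ x, c x ^ n = 1) →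
    (∀ i, ∃ η : IsLocalRing.ResidueField W, η ≠ 0 ∧
      ∀ x, corrSys (D' i) (A i) (B i) C (C' i) c x = η * c x ^ e i) → ∀ x y, c x = c y

/-- **Balanced roots for an eigen function.** -/
theorem exists_balanced_of_no_eigen [Nonempty ι] (hn : 0 < n) (h0 : (0 : W) ∈ D₁.cusps) {N : Normal C n f}
    (R : RootSet N)
    (hrel : ∀ i, ∃ (k : K) (w : F₂), k ≠ 0 ∧ w ≠ 0 ∧
      corrOp (A i) (B i) f = algebraMap K F₂ k * f ^ e i * w ^ n)
    (hno : NoEigenSystem n hq D D' C' A B e C) :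
    ∃ (N' : Normal C n f) (R' : RootSet N'),
      R'.Balanced hq D ∧ (R'.inv hq D).Balanced hq D₁ := by
  obtain ⟨Ro, hI, h₀, hm⟩ := exists_roots_of_rootSet hq D R
  -- the two twists
  have key : ∀ (V : ValuationSubring F₂), IsComp C V → ∀ h : F₂, IsRootOn V n f h →
      ∃ a : W, residue W a ^ n = 1 ∧
        ∀ x : SSPoint hq D, x.Ratio C.VI V n f Ro.hI (h * algebraMap W F₂ a) 1 := by
    intro V hV h H
    obtain ⟨c, hc1, hc, heig⟩ :=
      exists_eigen_system D' C C' A B e hn N.div Ro hrel (Or.inl rfl) hV Ro.rootI H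
    have hconst := hno c hc1 heig
    by_cases hne : Nonempty (SSPoint hq D)
    · obtain ⟨x₀⟩ := hne
      obtain ⟨a, ha⟩ := residue_surjective (c x₀)⁻¹
      refine ⟨a, by rw [ha, inv_pow, hc1, inv_one], fun x => ?_⟩
      have hu : IsUnitAt V (algebraMap W F₂ a) := isUnitAt_const hq hV.isVertical (by
        rw [ha]; exact inv_ne_zero fun h => by
          have := hc1 x₀; rw [h, zero_pow hn.ne'] at this; exact zero_ne_one this)
      have hh := H.ne_zero hn
      have := (hc x).change x C.vI hV.isVertical (x.through_comp hq D (Or.inl rfl))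
        (x.through_comp hq D hV) (ζ := (1 : W)) (ζ' := a) (by rw [map_one]; exact one_ne_zero)
        (Ro.rootI.ne_zero hn) hh (h₂ := Ro.hI) (h₂' := h * algebraMap W F₂ a)
        (by rw [div_self (Ro.rootI.ne_zero hn), map_one])
        (by rw [div_self (Ro.rootI.ne_zero hn)]; exact one_mem _)
        (by rw [mul_div_cancel_left₀ _ hh]) (by rw [mul_div_cancel_left₀ _ hh]; exact hu.mem)
      rwa [map_one, div_one, ha, hconst x x₀, mul_inv_cancel₀ (fun h => by
        have := hc1 x₀; rw [h, zero_pow hn.ne'] at this; exact zero_ne_one this)] at this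
    · exact ⟨1, by rw [map_one, one_pow], fun x => absurd ⟨x⟩ hne⟩
  obtain ⟨a₀, ha₀, k₀⟩ := key C.V0 (Or.inr (Or.inl rfl)) Ro.h₀ Ro.root₀
  obtain ⟨am, ham, km⟩ := key C.Vm (Or.inr (Or.inr rfl)) Ro.hm Ro.rootm
  obtain ⟨N₁, R₁, ⟨hdI, hd₀, hdm⟩, eI, e₀, em⟩ := R.exists_twist hq D 1 ha₀ ham
  have hN : ∀ {N₂ : Normal C n (f ^ 1)} (R₂ : RootSet N₂), ∃ (N' : Normal C n f) (R' : RootSet N'),
      N'.dI = N₂.dI ∧ N'.d₀ = N₂.d₀ ∧ N'.dm = N₂.dm ∧ R'.hI = R₂.hI ∧ R'.h₀ = R₂.h₀ ∧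
        R'.hm = R₂.hm := by
    rw [pow_one]
    exact fun {N₂} R₂ => ⟨N₂, R₂, rfl, rfl, rfl, rfl, rfl, rfl⟩
  obtain ⟨N', R', f1, f2, f3, g1, g2, g3⟩ := hN R₁
  rw [Nat.cast_one, one_mul] at hdI hd₀ hdm
  rw [pow_one R.hI] at eI
  rw [pow_one R.h₀] at e₀
  rw [pow_one R.hm] at em
  have hall : ∀ x : SSPoint hq D,
      x.Ratio C.VI C.V0 n f (R'.hI * (q : F₂) ^ N'.dI) (R'.h₀ * (q : F₂) ^ N'.d₀) 1 ∧
        x.Ratio C.VI C.Vm n f (R'.hI * (q : F₂) ^ N'.dI) (R'.hm * (q : F₂) ^ N'.dm) 1 := fun x => by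
    rw [g1, eI, g2, e₀, g3, em, f1, hdI, f2, hd₀, f3, hdm, mul_right_comm R.h₀,
      mul_right_comm R.hm, ← hI, ← h₀, ← hm]
    exact ⟨k₀ x, km x⟩
  refine ⟨N', R', balanced_of_ratio_one hq D hn R' hall,
    balanced_of_ratio_one hq D₁ hn (R'.inv hq D) fun x' => ?_⟩
  obtain ⟨x, hloc, hPP⟩ := exists_point_inv hq D D₁ C h0 x'
  exact ⟨ratio_inv hq D D₁ (C := C) hloc hPP (Or.inl rfl) (Or.inr (Or.inl rfl)) (hall x).1,
    ratio_inv hq D D₁ (C := C) hloc hPP (Or.inl rfl) (Or.inr (Or.inr rfl)) (hall x).2⟩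

end FermatAgent.RTLift.Sq
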