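import Fermat.Agent.RTLift.Sq.Towers
import Fermat.Agent.BadRed.Carayol.Instance.Lift
import Fermat.Agent.BadRed.Carayol.Instance.ChartVar
import Fermat.Agent.BadRed.Carayol.Base
import Fermat.Agent.MazurPrinciple.HeckePaired

/-!
# The vertical valuation of the base and the reduced function field

The Gauss valuation of the expansion is vertical for the coordinate of level `4`; its residue
field maps onto the function field of the reduction.
-/

set_option autoImplicit false
set_option linter.unusedSectionVars false
set_option maxHeartbeats 1600000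

noncomputable section

namespace FermatAgent.RTLift.Sq

open Polynomial ModularCurve
open FermatAgent.BadRed.Carayol (res res_of_mem IsVertical IsUnitAt)
open FermatAgent.BadRed.Carayol.Instance (LevelField inertiaRing inertiaRes inertiaIncl
  hauptmodul4 uSeries toBar)
open FermatAgent.BadRed.Semistable (IsSeriesRep seriesGauss seriesGauss_red_of_rep)
open FermatAgent.MazurPrinciple (inertiaField)

local notation "ℚbar" => AlgebraicClosure ℚ

variable {A : ValuationSubring ℚbar} {q : ℕ} [hq : Fact q.Prime] [NeZero q]
  {L : ℕ} [NeZero L] (hA : A.LiesOverPrime q)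

local notation "kA" => IsLocalRing.ResidueField A

include hA in
theorem charP_kA : CharP kA q := Igusa.Down.charP_residueField hq.out hA

variable (L) in
/-- The Gauss datum of the expansion over the inertia field. -/
def baseGauss :
    BadRed.Semistable.GaussRed (inertiaRing A) (inertiaRes A) (LevelField (inertiaField A) L)
      (LaurentSeries kA) :=
  haveI := charP_kA (q := q) hA
  seriesGauss q L (BadRed.Carayol.Instance.inertiaRes_surjective hq.out hA)

variable (L) in
/-- The vertical valuation ring of the base. -/
def baseVal : ValuationSubring (LevelField (inertiaField A) L) where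
  toSubring := (baseGauss L hA).integers
  mem_or_inv_mem' x :=
    (baseGauss L hA).mem_or_inv_mem (BadRed.Carayol.Instance.inertiaRes_surjective hq.out hA) x

theorem red_of_rep {x : LevelField (inertiaField A) L} {y z : LaurentSeries (inertiaRing A)}
    (h : IsSeriesRep (inertiaRing A) (inertiaRes A) (x : LaurentSeries (inertiaField A)) y z) :
    ∃ hx : x ∈ (baseGauss L hA).integers, (baseGauss L hA).red ⟨x, hx⟩ =
      coeffMap (inertiaRes A) y / coeffMap (inertiaRes A) z := by
  have := charP_kA (q := q) hA
  exact seriesGauss_red_of_rep q (BadRed.Carayol.Instance.inertiaRes_surjective hq.out hA) h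

theorem isUnit_baseVal_iff (x : baseVal L hA) :
    IsUnit x ↔ (baseGauss L hA).red ⟨x.1, x.2⟩ ≠ 0 := by
  refine ⟨fun h => ?_, fun h => ?_⟩
  · exact (h.map ((baseGauss L hA).red : baseVal L hA →+* LaurentSeries kA)).ne_zero
  · obtain ⟨hi, -⟩ := (baseGauss L hA).inv_mem (BadRed.Carayol.Instance.inertiaRes_surjective hq.out hA) x.2 h
    refine isUnit_iff_exists_inv.mpr ⟨⟨x.1⁻¹, hi⟩, Subtype.ext (mul_inv_cancel₀ fun h0 => h ?_)⟩
    rw [(baseGauss L hA).red_congr h0 x.2]
    exact map_zero _

variable (L) in
/-- The reduction on the vertical valuation ring. -/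
def redHom : baseVal L hA →+* LaurentSeries kA := (baseGauss L hA).red

instance isLocalHom_red : IsLocalHom (redHom L hA) :=
  ⟨fun x hx => (isUnit_baseVal_iff hA x).mpr hx.ne_zero⟩

variable (L) in
/-- The residue field inside the Laurent series. -/
def baseRed : IsLocalRing.ResidueField (baseVal L hA) →+* LaurentSeries kA :=
  IsLocalRing.ResidueField.lift (redHom L hA)

theorem baseRed_of_rep {x : LevelField (inertiaField A) L} {y z : LaurentSeries (inertiaRing A)}
    (h : IsSeriesRep (inertiaRing A) (inertiaRes A) (x : LaurentSeries (inertiaField A)) y z) :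
    x ∈ baseVal L hA ∧ baseRed L hA (res (baseVal L hA) x) =
      coeffMap (inertiaRes A) y / coeffMap (inertiaRes A) z := by
  obtain ⟨hx, hr⟩ := red_of_rep hA h
  refine ⟨hx, ?_⟩
  rw [res_of_mem (V := baseVal L hA) hx]
  exact (IsLocalRing.ResidueField.lift_residue_apply (redHom L hA) _).trans hr

/-- Functions with integral series. -/
theorem baseRed_of_series {x : LevelField (inertiaField A) L} {y : LaurentSeries (inertiaRing A)}
    (h : coeffMap (inertiaRing A).subtype y = (x : LaurentSeries (inertiaField A))) :
    x ∈ baseVal L hA ∧ baseRed L hA (res (baseVal L hA) x) = coeffMap (inertiaRes A) y := by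
  have h' := baseRed_of_rep hA (x := x) (y := y) (z := 1)
    ⟨by rw [map_one]; exact one_ne_zero, by rw [map_one, mul_one, h]⟩
  rwa [map_one, div_one] at h'

theorem baseRed_const (a : inertiaRing A) :
    baseRed L hA (res (baseVal L hA) (algebraMap (inertiaRing A) _ a)) =
      algebraMap kA (LaurentSeries kA) (inertiaRes A a) := by
  have h := baseRed_of_series hA (y := HahnSeries.C a)
    (x := algebraMap (inertiaRing A) (LevelField (inertiaField A) L) a) (by
      rw [BadRed.Semistable.coeffMap_const', IsScalarTower.algebraMap_apply (inertiaRing A)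
        (inertiaField A) (LevelField (inertiaField A) L), IntermediateField.coe_algebraMap_apply,
        algebraMap_laurentSeries_eq_single, HahnSeries.C_apply]
      rfl)
  rw [h.2, BadRed.Semistable.coeffMap_const', algebraMap_laurentSeries_eq_single,
    HahnSeries.C_apply]

/-- The Gauss valuation is vertical for the coordinate. -/
theorem isVertical_baseVal [IsDiscreteValuationRing (inertiaRing A)] (hq2 : ¬ 2 ∣ q) (h4 : 4 ∣ L) :
    IsVertical (inertiaRing A) q (coord4 A hq2 h4) (baseVal L hA) where
  const_mem a := (baseGauss L hA).algebraMap_mem a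
  q_mem := by
    have hm : (q : LevelField (inertiaField A) L) ∈ baseVal L hA := natCast_mem _ q
    refine ValuationSubring.mem_nonunits_iff_exists_mem_maximalIdeal.mpr ⟨hm, ?_⟩
    refine (IsLocalRing.mem_maximalIdeal _).mpr fun hu => (isUnit_baseVal_iff hA _).mp hu ?_
    rw [show (⟨(q : LevelField (inertiaField A) L), hm⟩ : (baseGauss L hA).integers) = (q : _) from
      Subtype.ext (by simp), map_natCast]
    have := charP_kA (q := q) hA
    rw [← map_natCast (algebraMap kA (LaurentSeries kA)), CharP.cast_eq_zero, map_zero]
  isUnitAt P hP := by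
    set H := hauptmodul4 q hq2
    set y : LaurentSeries (inertiaRing A) :=
      P.eval₂ HahnSeries.C (coeffMap (Int.castRingHom (inertiaRing A)) (uSeries H)) with hy
    have hred : coeffMap (inertiaRes A) y =
        aeval (coeffMap (Int.castRingHom kA) (uSeries H)) (P.map (inertiaRes A)) := by
      rw [hy, aeval_def, hom_eval₂, eval₂_map, coeffMap_coeffMap,
        RingHom.ext_int ((inertiaRes A).comp (Int.castRingHom (inertiaRing A)))
          (Int.castRingHom kA)]
      refine eval₂_congr (RingHom.ext fun a => ?_) rfl rfl
      rw [RingHom.comp_apply, RingHom.comp_apply, algebraMap_laurentSeries_eq_single,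
        HahnSeries.C_apply, coeffMap_single]
    have hx : coeffMap (inertiaRing A).subtype y =
        ((aeval (coord4 A hq2 h4) P : LevelField (inertiaField A) L) :
          LaurentSeries (inertiaField A)) := by
      show _ = (LevelField (inertiaField A) L).val.toRingHom (aeval (coord4 A hq2 h4) P)
      rw [hy, aeval_def, hom_eval₂, hom_eval₂]
      refine eval₂_congr (RingHom.ext fun a => ?_) ?_ rfl
      · rw [RingHom.comp_apply, RingHom.comp_apply, HahnSeries.C_apply, coeffMap_single]
        show _ = ((algebraMap (inertiaRing A) (LevelField (inertiaField A) L) a :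
          LevelField (inertiaField A) L) : LaurentSeries (inertiaField A))
        rw [IsScalarTower.algebraMap_apply (inertiaRing A) (inertiaField A)
          (LevelField (inertiaField A) L), IntermediateField.coe_algebraMap_apply,
          algebraMap_laurentSeries_eq_single]
        rfl
      · rw [coeffMap_coeffMap, RingHom.ext_int
          ((inertiaRing A).subtype.comp (Int.castRingHom (inertiaRing A)))
          (Int.castRingHom (inertiaField A))]
        exact (coe_coord4 hq2 h4).symm
    obtain ⟨hm, hr⟩ := baseRed_of_series hA hx
    refine (BadRed.Carayol.isUnitAt_iff hm).mpr fun h0 => hP ?_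
    rw [h0, map_zero] at hr
    have hP0 := BadRed.Carayol.Instance.eq_zero_of_aeval_uSeries H kA (hred ▸ hr.symm)
    have hinj : Function.Injective (BadRed.Carayol.Instance.residueEquiv hq.out hA) :=
      (BadRed.Carayol.Instance.residueEquiv hq.out hA).injective
    refine map_injective (BadRed.Carayol.Instance.residueEquiv hq.out hA).toRingHom hinj ?_
    rw [Polynomial.map_zero, map_map, ← hP0]
    congr 1

/-- The residue field of the base lands in the reduced function field. -/
theorem baseRed_mem (hqL : ¬ q ∣ L) (r : IsLocalRing.ResidueField (baseVal L hA)) :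
    baseRed L hA r ∈ modularFunctionFieldFullC kA L := by
  obtain ⟨⟨x, hx⟩, rfl⟩ := IsLocalRing.residue_surjective r
  obtain ⟨y, z, h⟩ := id hx
  have := Igusa.Down.isAlgClosed_residueField A
  have := Igusa.Down.isFunctionField1_fibre' L hq.out hqL hA
  obtain ⟨fb, -, hfb⟩ := MazurPrinciple.redsTo_of_seriesRep
    (Igusa.Down.isLaurent_datum L hq.out hqL hA) (f := toBar A L x)
    (y := coeffMap (inertiaIncl A) y) (z := coeffMap (inertiaIncl A) z) (rep_toBar h)
  rw [← res_of_mem (V := baseVal L hA) hx, (baseRed_of_rep hA h).2]
  rw [coeffMap_coeffMap, coeffMap_coeffMap] at hfb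
  exact hfb ▸ fb.2
where
  rep_toBar {x : LevelField (inertiaField A) L} {y z : LaurentSeries (inertiaRing A)}
      (h : IsSeriesRep (inertiaRing A) (inertiaRes A) (x : LaurentSeries (inertiaField A)) y z) :
      IsSeriesRep A (IsLocalRing.residue A) (toBar A L x : LaurentSeries ℚbar)
        (coeffMap (inertiaIncl A) y) (coeffMap (inertiaIncl A) z) := by
    refine ⟨by rw [coeffMap_coeffMap]; exact h.1, ?_⟩
    rw [coeffMap_coeffMap, coeffMap_coeffMap]
    have e := congrArg (coeffMap (BadRed.Carayol.Instance.inertiaVal A : inertiaField A →+* ℚbar)) h.2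
    rw [map_mul, coeffMap_coeffMap, coeffMap_coeffMap] at e
    exact e

variable (L) in
/-- The residue field of the base in the reduced function field. -/
def baseRed' (hqL : ¬ q ∣ L) :
    IsLocalRing.ResidueField (baseVal L hA) →+* modularFunctionFieldFullC kA L :=
  (baseRed L hA).codRestrict (modularFunctionFieldFullC kA L).toSubfield.toSubring
    (baseRed_mem hA hqL)

theorem coe_baseRed' (hqL : ¬ q ∣ L) (r : IsLocalRing.ResidueField (baseVal L hA)) :
    (baseRed' L hA hqL r : LaurentSeries kA) = baseRed L hA r := rfl

/-- The residue field of the base is the whole function field of the reduction. -/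
theorem baseRed'_surjective (hqL : ¬ q ∣ L) : Function.Surjective (baseRed' L hA hqL) := by
  let E : IntermediateField kA (LaurentSeries kA) := (baseRed L hA).fieldRange.toIntermediateField
    fun c => by
      obtain ⟨a, rfl⟩ := BadRed.Carayol.Instance.inertiaRes_surjective hq.out hA c
      exact ⟨_, baseRed_const hA a⟩
  have hle : modularFunctionFieldFullC kA L ≤ E := by
    rw [modularFunctionFieldFullC, IntermediateField.adjoin_le_iff]
    rintro _ ⟨d, hd0, hd, rfl⟩
    refine ⟨res (baseVal L hA) (BadRed.Carayol.jdElt (inertiaField A) d hd), ?_⟩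
    have h := baseRed_of_series hA (x := BadRed.Carayol.jdElt (inertiaField A) d hd)
      (y := qExpand (inertiaRing A) d (jqModC (inertiaRing A))) (by
        rw [coeffMap_qExpand, coeffMap_jqModC]
        show _ = coeffEmb (inertiaField A) (qExpand ℚ d jq)
        rw [coeffEmb, coeffMap_qExpand, show jq = jqModC ℚ from rfl, coeffMap_jqModC])
    rw [h.2, coeffMap_qExpand, coeffMap_jqModC]
  intro φ
  obtain ⟨r, hr⟩ := hle φ.2
  exact ⟨r, Subtype.ext hr⟩

end FermatAgent.RTLift.Sq
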