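import Fermat.Agent.MazurPrinciple.NodeChart

/-!
# A branch of a node is smooth

A local ring with maximal ideal `(X, Y)` mapped birationally to a function field, killing `Y`, has
`X` as a uniformiser at its point, and every unit at the point is the image of a unit of the ring.
-/

set_option autoImplicit false
set_option linter.unusedSectionVars false

noncomputable section

namespace FermatAgent.RTLift.Sq

open IsLocalRing AlgebraicCurve
open FermatAgent.Curve FermatAgent.Curve.RR FermatAgent.BadRed.Semistable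

variable {k G : Type*} [Field k] [IsAlgClosed k] [Field G] [Algebra k G] [IsFunctionField1 k G]
  {R : Type*} [CommRing R] [IsLocalRing R] (ρ : R →+* G) (v : Place k G) {X Y : R}
  (hmax : maximalIdeal R = Ideal.span {X, Y}) (hY : ρ Y = 0)
  (hreg : ∀ r, v.adicValuation (ρ r) ≤ 1)
  (hval : ∀ r ∈ maximalIdeal R, valueAt v (ρ r) = 0)

include hreg in
theorem ord_branch_nonneg (r : R) : 0 ≤ v.ord (ρ r) :=
  (mem_iff_ord_nonneg' v).mp (mem_of_le_one (hreg r))

include hreg in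
theorem ord_branch_unit (e : Rˣ) : ρ e ≠ 0 ∧ v.ord (ρ e) = 0 := by
  have h : ρ e * ρ ↑e⁻¹ = 1 := by rw [← map_mul, Units.mul_inv, map_one]
  have h1 : ρ e ≠ 0 := left_ne_zero_of_mul_eq_one h
  have h2 : ρ ↑e⁻¹ ≠ 0 := right_ne_zero_of_mul_eq_one h
  have h3 := congrArg v.ord h
  rw [v.ord_mul h1 h2, v.ord_one] at h3
  have := ord_branch_nonneg ρ v hreg (e : R)
  have := ord_branch_nonneg ρ v hreg (↑e⁻¹ : R)
  exact ⟨h1, by omega⟩

include hreg hval in
theorem ord_branch_pos {r : R} (hr : r ∈ maximalIdeal R) (h0 : ρ r ≠ 0) : 0 < v.ord (ρ r) :=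
  ((valueAt_eq_zero_iff v (mem_of_le_one (hreg r))).mp (hval r hr)).resolve_left h0

include hmax hY hreg hval in
/-- Images are images of units times powers of the parameter. -/
theorem exists_unit_mul_param (r : R) (h0 : ρ r ≠ 0) :
    ∃ (m : ℕ) (e : Rˣ), ρ r = ρ e * ρ X ^ m := by
  suffices key : ∀ (n : ℕ) (r : R), ρ r ≠ 0 → v.ord (ρ r) ≤ n →
      ∃ (m : ℕ) (e : Rˣ), ρ r = ρ e * ρ X ^ m from
    key (v.ord (ρ r)).toNat r h0 (Int.self_le_toNat _)
  intro n
  induction n with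
  | zero =>
    intro r h0 hn
    by_cases hu : IsUnit r
    · exact ⟨0, hu.unit, by rw [pow_zero, mul_one, IsUnit.unit_spec]⟩
    · have := ord_branch_pos ρ v hreg hval ((IsLocalRing.mem_maximalIdeal r).mpr hu) h0
      omega
  | succ n ih =>
    intro r h0 hn
    by_cases hu : IsUnit r
    · exact ⟨0, hu.unit, by rw [pow_zero, mul_one, IsUnit.unit_spec]⟩
    · have hr := (IsLocalRing.mem_maximalIdeal r).mpr hu
      rw [hmax, Ideal.mem_span_pair] at hr
      obtain ⟨a, b, hab⟩ := hr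
      have e : ρ r = ρ a * ρ X := by rw [← hab, map_add, map_mul, map_mul, hY, mul_zero, add_zero]
      have ha : ρ a ≠ 0 := left_ne_zero_of_mul (e ▸ h0)
      have hX : ρ X ≠ 0 := right_ne_zero_of_mul (e ▸ h0)
      have hpos := ord_branch_pos ρ v hreg hval (r := X)
        (hmax ▸ Ideal.subset_span (Set.mem_insert _ _)) hX
      rw [e, v.ord_mul ha hX] at hn
      obtain ⟨m, e', he'⟩ := ih a ha (by push_cast at hn; omega)
      exact ⟨m + 1, e', by rw [e, he', pow_succ, mul_assoc]⟩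

variable (hX : ρ X ≠ 0) (hfrac : ∀ z : G, ∃ a b : R, ρ b ≠ 0 ∧ z * ρ b = ρ a)
include hmax hY hreg hval hX hfrac

/-- The parameter is a uniformiser and units at the point lift to units. -/
theorem branch_structure : v.ord (ρ X) = 1 ∧
    ∀ z : G, z ≠ 0 → v.ord z = 0 → ∃ e : Rˣ, ρ e = z := by
  have hpos := ord_branch_pos ρ v hreg hval (r := X)
    (hmax ▸ Ideal.subset_span (Set.mem_insert _ _)) hX
  have key : ∀ z : G, z ≠ 0 → ∃ (m n : ℕ) (a b : Rˣ),
      z * (ρ b * ρ X ^ n) = ρ a * ρ X ^ m ∧ v.ord z = ((m : ℤ) - n) * v.ord (ρ X) := by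
    intro z hz
    obtain ⟨a, b, hb, he⟩ := hfrac z
    obtain ⟨n, b', hb'⟩ := exists_unit_mul_param ρ v hmax hY hreg hval b hb
    obtain ⟨m, a', ha'⟩ := exists_unit_mul_param ρ v hmax hY hreg hval a
      (he ▸ mul_ne_zero hz hb)
    rw [hb', ha'] at he
    refine ⟨m, n, a', b', he, ?_⟩
    obtain ⟨ha0, hao⟩ := ord_branch_unit ρ v hreg a'
    obtain ⟨hb0, hbo⟩ := ord_branch_unit ρ v hreg b'
    have h := congrArg v.ord he
    rw [v.ord_mul hz (mul_ne_zero hb0 (pow_ne_zero _ hX)), v.ord_mul hb0 (pow_ne_zero _ hX),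
      v.ord_mul ha0 (pow_ne_zero _ hX), hao, hbo, Curve.ord_pow', Curve.ord_pow'] at h
    rw [sub_mul]
    omega
  have hone : v.ord (ρ X) = 1 := by
    obtain ⟨t, ht0, ho⟩ := Curve.exists_ord_eq v 1
    obtain ⟨m, n, -, -, -, hmn⟩ := key t ht0
    rw [ho] at hmn
    exact Int.eq_one_of_dvd_one hpos.le ⟨_, hmn.trans (mul_comm _ _)⟩
  refine ⟨hone, fun z hz ho => ?_⟩
  obtain ⟨m, n, a, b, he, hmn⟩ := key z hz
  rw [ho, hone, mul_one, eq_comm, sub_eq_zero, Int.natCast_inj] at hmn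
  subst hmn
  refine ⟨a * b⁻¹, ?_⟩
  obtain ⟨hb0, -⟩ := ord_branch_unit ρ v hreg b
  rw [← mul_assoc] at he
  have h := mul_right_cancel₀ (pow_ne_zero _ hX) he
  rw [Units.val_mul, map_mul, ← h, mul_assoc, ← map_mul, Units.mul_inv, map_one, mul_one]

end FermatAgent.RTLift.Sq
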