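import Mathlib.Algebra.Ring.Subring.Basic
import Mathlib.Data.ZMod.Basic
import Mathlib.Algebra.Module.NatInt
import Mathlib.Algebra.Module.LinearMap.End
import Mathlib.Tactic
import Mathlib.Algebra.Field.Basic

/-!
# A character from an eigen system

`G y d` relates a torsion class `y` to a system `d` of `n`-th roots of unity up to constants,
compatibly with sums and with operators.  A non-constant system which is an eigen system for the
operators then gives a character of the ring they generate.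
-/

set_option autoImplicit false

namespace FermatAgent.RTLift.Sq

variable {X k Y R ι : Type*} [Field k] [AddCommGroup Y] [CommRing R]

theorem exists_character {n : ℕ} [NeZero n] (hY : ∀ y : Y, n • y = 0)
    (φ : R →+* AddMonoid.End Y) (g : ι → R) (hgen : Subring.closure (Set.range g) = ⊤)
    (a : ι → ZMod n) (T : ι → (X → k) → (X → k)) (deg : ι → ℕ)
    (hT : ∀ i (s : k) d x, T i (fun x => s * d x) x = s ^ deg i * T i d x)
    (hTpow : ∀ i (d : X → k) (e : ℕ) x, T i (fun x => d x ^ e) x = T i d x ^ e)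
    (G : Y → (X → k) → Prop)
    (_hscale : ∀ y (s : k) d, s ≠ 0 → G y d → G y fun x => s * d x)
    (hadd : ∀ y y' d d', G y d → G y' d' → G (y + y') (d * d'))
    (hop : ∀ i y d, G y d → G (φ (g i) y) (T i d))
    (hzero : ∀ d, G 0 d → ∀ x x', d x = d x')
    {c : X → k} (hc : ∀ x, c x ^ n = 1) (heig : ∀ i, ∃ η : k, η ≠ 0 ∧ ∀ x, T i c x = η * c x ^ (a i).val)
    (hcarry : ∃ y s, s ≠ 0 ∧ G y fun x => s * c x) (hnc : ∃ x x', c x ≠ c x')
    (hn : n.Prime) :
    ∃ χ : R →+* ZMod n, ∀ i, χ (g i) = a i := by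
  classical
  have : Fact n.Prime := ⟨hn⟩
  have hc0 : ∀ x, c x ≠ 0 := fun x h => by
    have := hc x
    rw [h, zero_pow hn.ne_zero] at this
    exact zero_ne_one this
  have hmod : ∀ x (e e' : ℕ), (e : ZMod n) = e' → c x ^ e = c x ^ e' := fun x e e' h =>
    pow_eq_pow_of_modEq ((ZMod.natCast_eq_natCast_iff _ _ _).mp h) (hc x)
  have hnsmul : ∀ (m : ℕ), 0 < m → ∀ y d, G y d → G (m • y) (d ^ m) := fun m hm y d h => by
    induction m, hm using Nat.le_induction with
    | base => simpa using h
    | succ m hm ih => rw [succ_nsmul, pow_succ]; exact hadd _ _ _ _ ih h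
  let P : R × ZMod n → Prop := fun p => ∀ (y : Y) (e : ℕ) (s : k), s ≠ 0 →
    G y (fun x => s * c x ^ e) → ∃ t, t ≠ 0 ∧ G (φ p.1 y) fun x => t * c x ^ (e * p.2.val)
  have hg : ∀ i, P (g i, a i) := fun i y e s hs h => by
    obtain ⟨η, hη, hη'⟩ := heig i
    refine ⟨s ^ deg i * η ^ e, mul_ne_zero (pow_ne_zero _ hs) (pow_ne_zero _ hη), ?_⟩
    convert hop i y _ h using 1
    funext x
    rw [hT i s (fun x => c x ^ e) x, hTpow, hη', mul_pow, ← pow_mul, mul_comm e, mul_assoc]
  let S : Subring (R × ZMod n) :=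
    { carrier := {p | P p}
      mul_mem' := fun {p p'} hp hp' y e s hs h => by
        obtain ⟨t, ht, h'⟩ := hp' y e s hs h
        obtain ⟨t', ht', h''⟩ := hp _ _ t ht h'
        refine ⟨t', ht', ?_⟩
        rw [Prod.fst_mul, map_mul]
        show G (φ p.1 (φ p'.1 y)) _
        convert h'' using 2 with x
        rw [Prod.snd_mul, hmod x (e * p'.2.val * p.2.val) (e * (p.2 * p'.2).val) (by
          push_cast [ZMod.natCast_zmod_val]; ring)]
      one_mem' := fun y e s hs h => by
        refine ⟨s, hs, ?_⟩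
        rw [Prod.fst_one, map_one, Prod.snd_one, ZMod.val_one, mul_one]
        exact h
      add_mem' := fun {p p'} hp hp' y e s hs h => by
        obtain ⟨t, ht, h₁⟩ := hp y e s hs h
        obtain ⟨t', ht', h₂⟩ := hp' y e s hs h
        refine ⟨t * t', mul_ne_zero ht ht', ?_⟩
        rw [Prod.fst_add, map_add]
        show G (φ p.1 y + φ p'.1 y) _
        convert hadd _ _ _ _ h₁ h₂ using 2 with x
        rw [Pi.mul_apply, mul_mul_mul_comm, ← pow_add, Prod.snd_add,
          hmod x (e * p.2.val + e * p'.2.val) (e * (p.2 + p'.2).val) (by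
            push_cast [ZMod.natCast_zmod_val]; ring)]
      zero_mem' := fun y e s hs h => by
        refine ⟨s ^ n, pow_ne_zero _ hs, ?_⟩
        rw [Prod.fst_zero, map_zero, Prod.snd_zero, ZMod.val_zero, mul_zero]
        have := hnsmul n hn.pos y _ h
        rw [hY] at this
        show G 0 _
        convert this using 2 with x
        rw [Pi.pow_apply, mul_pow, ← pow_mul, mul_comm e, pow_mul, hc, one_pow, pow_zero]
      neg_mem' := fun {p} hp y e s hs h => by
        obtain ⟨t, ht, h₁⟩ := hp y e s hs h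
        have h₂ := hnsmul (n - 1) (by have := hn.two_le; omega) _ _ h₁
        refine ⟨t ^ (n - 1), pow_ne_zero _ ht, ?_⟩
        have e1 : (n - 1) • φ p.1 y = φ (-p).1 y := by
          refine Eq.trans ?_ (show -(φ p.1 y) = φ (-p).1 y by rw [Prod.fst_neg, map_neg]; rfl)
          rw [eq_neg_iff_add_eq_zero, ← succ_nsmul, Nat.sub_add_cancel hn.one_lt.le, hY]
        rw [← e1]
        convert h₂ using 1
        funext x
        rw [Pi.pow_apply, mul_pow, ← pow_mul, Prod.snd_neg,
          hmod x (e * p.2.val * (n - 1)) (e * (-p.2).val) (by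
            push_cast [ZMod.natCast_zmod_val, Nat.cast_sub hn.one_lt.le, ZMod.natCast_self]; ring)] }
  obtain ⟨y₀, s₀, hs₀, hy₀⟩ := hcarry
  have huniq : ∀ r m m', (r, m) ∈ S → (r, m') ∈ S → m = m' := by
    intro r m m' hm hm'
    have hdiff : (0, m - m') ∈ S := by simpa using sub_mem hm hm'
    obtain ⟨t, ht, h⟩ := hdiff y₀ 1 s₀ hs₀ (by simpa using hy₀)
    rw [map_zero, one_mul] at h
    obtain ⟨x, x', hne⟩ := hnc
    by_contra hmm
    have e := mul_left_cancel₀ ht (hzero _ h x x')
    -- invert the exponent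
    have := congrArg (· ^ ((m - m')⁻¹).val) e
    simp only [← pow_mul] at this
    rw [hmod x _ 1 (by push_cast [ZMod.natCast_zmod_val]; rw [mul_inv_cancel₀ (sub_ne_zero.mpr hmm)]),
      hmod x' _ 1 (by push_cast [ZMod.natCast_zmod_val]; rw [mul_inv_cancel₀ (sub_ne_zero.mpr hmm)]),
      pow_one, pow_one] at this
    exact hne this
  have hex : ∀ r, ∃ m, (r, m) ∈ S := by
    have : Subring.closure (Set.range g) ≤ S.map (RingHom.fst R (ZMod n)) := by
      rw [Subring.closure_le]
      rintro _ ⟨i, rfl⟩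
      exact ⟨(g i, a i), hg i, rfl⟩
    intro r
    obtain ⟨⟨r', m⟩, hm, rfl⟩ := this (hgen ▸ Subring.mem_top r)
    exact ⟨m, hm⟩
  choose χ hχ using hex
  exact ⟨{ toFun := χ
           map_one' := huniq _ _ _ (hχ 1) (one_mem S)
           map_mul' := fun r r' => huniq _ _ _ (hχ _) (mul_mem (hχ r) (hχ r'))
           map_zero' := huniq _ _ _ (hχ 0) (zero_mem S)
           map_add' := fun r r' => huniq _ _ _ (hχ _) (add_mem (hχ r) (hχ r')) },
    fun i => huniq _ _ _ (hχ _) (hg i)⟩

end FermatAgent.RTLift.Sq
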