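import Fermat.Agent.RTLift.Sq.Corr
import Fermat.Agent.BadRed.Carayol.Instance.JLine
import Fermat.Agent.BadRed.Carayol.Instance.Fields
import Fermat.Agent.BadRed.Carayol.Assembly.NormChange
import Fermat.Agent.BadRed.AtP.UpContract

/-!
# The two maps to the tower with an auxiliary prime in the level

For a prime `l` not dividing `Lq`, the forgetful map and `z ↦ l z` carry the tower of `L` to that
of `Ll`; the coordinates stay mutually integral by the modular equation of degree `l + 1`, and
the correspondence they define is the norm of the Hecke correspondence at `l`.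
-/

set_option autoImplicit false
set_option linter.unusedSectionVars false
set_option maxHeartbeats 1600000

noncomputable section

namespace FermatAgent.RTLift.Sq

open ModularCurve Polynomial AlgebraicCurve
open FermatAgent.ModFun
open FermatAgent.BadRed.Carayol
open FermatAgent.BadRed.Carayol.Instance (LevelField degreeAlong castLevel coe_castLevel
  hauptmodul4 uElt coe_uElt uSeries modPoly inertiaRing)
open FermatAgent.MazurPrinciple (inertiaField)

local notation "ℚbar" => AlgebraicClosure ℚ

section General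

variable (K : Type*) [Field K] [Algebra ℚ K] (l : ℕ) [NeZero l]

/-- The forgetful map to a level `M * l`. -/
def upA {M M' : ℕ} [NeZero M] (h : M * l = M') : LevelField K M →ₐ[K] LevelField K M' :=
  (castLevel K h).toAlgHom.comp (heckeAlphaBar K M l)

/-- The map `q ↦ q ^ l` to a level `M * l`. -/
def upB {M M' : ℕ} [NeZero M] (h : M * l = M') : LevelField K M →ₐ[K] LevelField K M' :=
  (castLevel K h).toAlgHom.comp (heckeBetaBar K M l)

variable {l}

omit [Algebra ℚ K] in
theorem qExpand_mul_comm (a b : ℕ) [NeZero a] [NeZero b] (x : LaurentSeries K) :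
    qExpand K (a * b) x = qExpand K (b * a) x := by
  have key : ∀ (c d : ℕ) [NeZero c] [NeZero d], c = d → qExpand K c x = qExpand K d x := by
    intro c d _ _ h; subst h; rfl
  exact key _ _ (mul_comm a b)

theorem coe_upA {M M' : ℕ} [NeZero M] (h : M * l = M') (x : LevelField K M) :
    (upA K l h x : LaurentSeries K) = x :=
  (coe_castLevel K h _).trans (coe_heckeAlphaBar M l x)

theorem coe_upB {M M' : ℕ} [NeZero M] (h : M * l = M') (x : LevelField K M) :
    (upB K l h x : LaurentSeries K) = qExpand K l (x : LaurentSeries K) :=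
  (coe_castLevel K h _).trans (coe_heckeBetaBar M l x)

theorem degreeAlong_upA [Fact l.Prime] {M M' : ℕ} [NeZero M] (h : M * l = M') (hl : ¬ l ∣ M) :
    degreeAlong (upA K l h) = l + 1 :=
  (Instance.degreeAlong_equiv_comp _ _).trans (Instance.degreeAlong_s K M hl)

theorem degreeAlong_upB [Fact l.Prime] {M M' : ℕ} [NeZero M] (h : M * l = M') (hl : ¬ l ∣ M) :
    degreeAlong (upB K l h) = l + 1 :=
  (Instance.degreeAlong_equiv_comp _ _).trans (Instance.degreeAlong_t K M hl)

variable [Fact l.Prime]

/-- The norm along one map of the image under the other is the norm of the correspondence. -/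
theorem norm_upA_upB {M M' : ℕ} [NeZero M] [NeZero (l * M)] (h : M * l = M')
    (hco : l.Coprime M) (f : LevelField K M) :
    normAlongRing (upA K l h).toRingHom (upB K l h f) = BadRed.AtP.heckeNorm K hco f := by
  have h' : M' = l * M := by rw [← h, mul_comm]
  rw [BadRed.AtP.heckeNorm_apply]
  let e₂ := castLevel K h'
  have key : e₂ (upB K l h f) =
      atkinLehnerBar hco K (BadRed.AtP.levelIncl l M K f) :=
    Subtype.ext (((coe_castLevel K h' _).trans (coe_upB K h f)).trans
      (BadRed.AtP.coe_atkinLehnerBar_levelIncl hco K f).symm)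
  rw [← key]
  let := (upA K l h).toRingHom.toAlgebra
  let := algebraAlong (BadRed.AtP.levelIncl l M K)
  exact Algebra.norm_eq_of_equiv_equiv (RingEquiv.refl _) e₂.toRingEquiv
    (RingHom.ext fun x => Subtype.ext (by
      show (BadRed.AtP.levelIncl l M K x : LaurentSeries K) = (e₂ (upA K l h x) : LaurentSeries K)
      rw [BadRed.AtP.coe_levelIncl, coe_castLevel, coe_upA])) _

/-- The norms of the correspondence commute with maps which keep expansions. -/
theorem heckeNorm_comm {M N : ℕ} [NeZero M] [NeZero N] [NeZero (l * M)] [NeZero (l * N)]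
    (hM : l.Coprime M) (hN : l.Coprime N) {ζ : Kˣ} (hζ : IsPrimitiveRoot ζ l)
    (σ : LevelField K M → LevelField K N)
    (hσ : ∀ x, (σ x : LaurentSeries K) = (x : LaurentSeries K)) (x : LevelField K M) :
    BadRed.AtP.heckeNorm K hN (σ x) = σ (BadRed.AtP.heckeNorm K hM x) := by
  refine Subtype.ext (qExpand_injective (R := K) l ?_)
  rw [BadRed.AtP.qExpand_heckeNorm hN hζ, hσ, hσ, BadRed.AtP.qExpand_heckeNorm hM hζ]

end General

section Roots

theorem exists_root_of_unity_inertiaField {q : ℕ} (hq : q.Prime) {A : ValuationSubring ℚbar}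
    (hA : A.LiesOverPrime q) {l : ℕ} [NeZero l] (hql : ¬ q ∣ l) :
    ∃ ζ : (inertiaField A)ˣ, IsPrimitiveRoot ζ l := by
  obtain ⟨z, hz⟩ := HasEnoughRootsOfUnity.exists_primitiveRoot ℚbar l
  have hzm := FermatAgent.MazurPrinciple.mem_inertiaField_of_pow_eq_one hq hA hql hz.pow_eq_one
  have hz' : IsPrimitiveRoot (⟨z, hzm⟩ : inertiaField A) l :=
    IsPrimitiveRoot.of_map_of_injective (f := (inertiaField A).val) hz Subtype.val_injective
  exact ⟨(hz'.isUnit (NeZero.ne l)).unit, IsPrimitiveRoot.coe_units_iff.mp hz'⟩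

end Roots

section Inertia

variable {A : ValuationSubring ℚbar} {q : ℕ} [Fact q.Prime] [NeZero q]
  {L l : ℕ} [NeZero L] [Fact l.Prime] [NeZero l]

local notation "K₀" => inertiaField A

/-- The coordinate at level `L`, for `4 ∣ L` and odd `q`. -/
def coord4 (A : ValuationSubring ℚbar) (hq2 : ¬ 2 ∣ q) (h4 : 4 ∣ L) : LevelField (inertiaField A) L :=
  uElt (inertiaField A) (hauptmodul4 q hq2) h4

variable (hq2 : ¬ 2 ∣ q) (h4 : 4 ∣ L) (hl2 : ¬ 2 ∣ l)

theorem coe_coord4 : (coord4 A hq2 h4 : LaurentSeries K₀) =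
    coeffMap (Int.castRingHom K₀) (uSeries (hauptmodul4 q hq2)) :=
  coe_uElt K₀ (hauptmodul4 q hq2) h4

theorem upA_coord4 :
    upA K₀ l (rfl : L * l = L * l) (coord4 A hq2 h4) = coord4 A hq2 (h4.mul_right l) :=
  Subtype.ext (by rw [coe_upA, coe_coord4, coe_coord4])

include hl2 in
/-- The modular equation at `l` between the coordinate and its image. -/
theorem evalTwo_modPoly :
    evalTwo ((modPoly (hauptmodul4 l hl2)).map (mapRingHom (Int.castRingHom (inertiaRing A))))
      (upA K₀ l (rfl : L * l = L * l) (coord4 A hq2 h4))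
      (upB K₀ l (rfl : L * l = L * l) (coord4 A hq2 h4)) = 0 := by
  set H := hauptmodul4 l hl2
  have e : uSeries (hauptmodul4 q hq2) = uSeries H := rfl
  refine (LevelField K₀ (L * l)).val.toRingHom.injective ?_
  rw [Instance.evalTwo_comm (n := l + 1)
    ((natDegree_map_le).trans (Instance.natDegree_modPoly H).le)
    (fun i j => by simp [Instance.modPoly_symm H i j]), map_zero, evalTwo, eval₂_map, hom_eval₂]
  refine Eq.trans ?_ (Instance.root_aux H (Int.castRingHom (LaurentSeries K₀))
    (coeffMap (Int.castRingHom K₀)) (uSeries H) (qExpand ℤ l (uSeries H))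
    (Instance.modPoly_root_series H))
  refine eval₂_congr (ringHom_ext (fun c => by simp) ?_) ?_ rfl
  · simp [coe_upA, coe_coord4, e]
  · show (upB K₀ l rfl (coord4 A hq2 h4) : LaurentSeries K₀) = _
    rw [coe_upB, coe_coord4, e]
    exact (Instance.coeffMap_comm_qExpand _ l _).symm

variable [IsDiscreteValuationRing (inertiaRing A)] (hqL : ¬ q ∣ L) (hqLl : ¬ q ∣ L * l)
  (hlL : ¬ l ∣ L)

omit [Fact q.Prime] [NeZero q] [Fact l.Prime] [NeZero l] in
theorem mul_eq_level (M : ℕ) : M * q * l = M * l * q := by ring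

omit [Fact q.Prime] [NeZero q] [Fact l.Prime] [NeZero l] in
theorem mul_eq_level₂ (M : ℕ) : M * q * q * l = M * l * q * q := by ring

/-- The forgetful map between the towers. -/
def towerA : TowerMap (inertiaRing A) (Instance.tower K₀ L hqL) (Instance.tower K₀ (L * l) hqLl)
    (coord4 A hq2 h4) (coord4 A hq2 (h4.mul_right l)) where
  b₀ := upA K₀ l rfl
  b₁ := upA K₀ l (mul_eq_level L)
  b₂ := upA K₀ l (mul_eq_level₂ L)
  comm_s x := Subtype.ext (by simp [Instance.tower, coe_upA])
  comm_t x := Subtype.ext (by simp [Instance.tower, coe_upA])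
  comm_α x := Subtype.ext (by simp [Instance.tower, coe_upA])
  comm_β x := Subtype.ext (by simp [Instance.tower, coe_upA])
  finite₀ := Instance.finite_of_degreeAlong (by rw [degreeAlong_upA K₀ rfl hlL]; exact Nat.succ_ne_zero _)
  int := by rw [upA_coord4]; exact self_mem_chartRing
  int' := by rw [upA_coord4]; exact self_mem_chartRing

/-- The map `q ↦ q ^ l` between the towers. -/
def towerB : TowerMap (inertiaRing A) (Instance.tower K₀ L hqL) (Instance.tower K₀ (L * l) hqLl)
    (coord4 A hq2 h4) (coord4 A hq2 (h4.mul_right l)) where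
  b₀ := upB K₀ l rfl
  b₁ := upB K₀ l (mul_eq_level L)
  b₂ := upB K₀ l (mul_eq_level₂ L)
  comm_s x := Subtype.ext (by simp [Instance.tower, coe_upB])
  comm_t x := Subtype.ext (by
    simp only [Instance.tower, coe_upB, coe_heckeBetaBar, qExpand_qExpand]
    exact qExpand_mul_comm _ l q _)
  comm_α x := Subtype.ext (by simp [Instance.tower, coe_upB])
  comm_β x := Subtype.ext (by
    simp only [Instance.tower, coe_upB, coe_heckeBetaBar, qExpand_qExpand]
    exact qExpand_mul_comm _ l q _)
  finite₀ := Instance.finite_of_degreeAlong (by rw [degreeAlong_upB K₀ rfl hlL]; exact Nat.succ_ne_zero _)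
  int := by
    have h := evalTwo_modPoly (A := A) hq2 h4 hl2
    rw [upA_coord4, Instance.evalTwo_comm (n := l + 1)
      ((natDegree_map_le).trans (Instance.natDegree_modPoly _).le)
      (fun i j => by simp [Instance.modPoly_symm _ i j])] at h
    exact mem_chartRing_of_evalTwo _ ((Instance.modPoly_monic _).map _) h
  int' := by
    have h := evalTwo_modPoly (A := A) hq2 h4 hl2
    rw [upA_coord4] at h
    exact mem_chartRing_of_evalTwo _ ((Instance.modPoly_monic _).map _) h

omit [NeZero q] [NeZero l] in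
include hlL in
theorem not_dvd_level₂ (hlq : l ≠ q) : ¬ l ∣ L * q * q := fun h => by
  have hl : l.Prime := Fact.out
  have hne : ¬ l ∣ q := fun h => hlq ((Nat.prime_dvd_prime_iff_eq hl Fact.out).mp h)
  rcases hl.dvd_mul.mp h with h | h
  · exact (hl.dvd_mul.mp h).elim hlL hne
  · exact hne h

/-- The degree of the forgetful map. -/
theorem deg_towerA (hlq : l ≠ q) : (towerA (A := A) hq2 h4 hqL hqLl hlL).deg = l + 1 :=
  degreeAlong_upA K₀ (mul_eq_level₂ L) (not_dvd_level₂ hlL hlq)

/-- The correspondence of the two maps is the norm of the Hecke correspondence. -/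
theorem corrOp_towers (hco : l.Coprime (L * q * q)) [NeZero (l * (L * q * q))]
    (f : LevelField K₀ (L * q * q)) :
    corrOp (towerA (A := A) hq2 h4 hqL hqLl hlL) (towerB (A := A) hq2 h4 hl2 hqL hqLl hlL) f =
      BadRed.AtP.heckeNorm K₀ hco f :=
  norm_upA_upB K₀ (mul_eq_level₂ L) hco f

/-- The correspondence on functions of the middle level. -/
theorem corrOp_towers_α (hA : A.LiesOverPrime q) (hlq : l ≠ q) [NeZero (l * (L * q))]
    [NeZero (l * (L * q * q))] (hco : l.Coprime (L * q)) (hco₂ : l.Coprime (L * q * q))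
    (g : LevelField K₀ (L * q)) :
    corrOp (towerA (A := A) hq2 h4 hqL hqLl hlL) (towerB (A := A) hq2 h4 hl2 hqL hqLl hlL)
        ((Instance.tower K₀ L hqL).α g) =
      (Instance.tower K₀ L hqL).α (BadRed.AtP.heckeNorm K₀ hco g) := by
  obtain ⟨ζ, hζ⟩ := exists_root_of_unity_inertiaField (Fact.out : q.Prime) hA (l := l) fun h =>
    hlq ((Nat.prime_dvd_prime_iff_eq Fact.out Fact.out).mp h).symm
  rw [corrOp_towers hq2 h4 hl2 hqL hqLl hlL hco₂]
  exact heckeNorm_comm K₀ hco hco₂ hζ _ (fun x => coe_heckeAlphaBar (L * q) q x) g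

/-- The correspondence on functions of the base. -/
theorem corrOp_towers_αs (hA : A.LiesOverPrime q) (hlq : l ≠ q) [NeZero (l * L)]
    [NeZero (l * (L * q * q))] (hco : l.Coprime L) (hco₂ : l.Coprime (L * q * q))
    (g : LevelField K₀ L) :
    corrOp (towerA (A := A) hq2 h4 hqL hqLl hlL) (towerB (A := A) hq2 h4 hl2 hqL hqLl hlL)
        ((Instance.tower K₀ L hqL).α ((Instance.tower K₀ L hqL).s g)) =
      (Instance.tower K₀ L hqL).α
        ((Instance.tower K₀ L hqL).s (BadRed.AtP.heckeNorm K₀ hco g)) := by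
  obtain ⟨ζ, hζ⟩ := exists_root_of_unity_inertiaField (Fact.out : q.Prime) hA (l := l) fun h =>
    hlq ((Nat.prime_dvd_prime_iff_eq Fact.out Fact.out).mp h).symm
  rw [corrOp_towers hq2 h4 hl2 hqL hqLl hlL hco₂]
  exact heckeNorm_comm K₀ hco hco₂ hζ
    (fun x => (Instance.tower K₀ L hqL).α ((Instance.tower K₀ L hqL).s x))
    (fun x => (coe_heckeAlphaBar (L * q) q _).trans (coe_heckeAlphaBar L q x)) g

end Inertia

end FermatAgent.RTLift.Sq
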