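import Fermat.Agent.BadRed.Carayol.Assembly.Kill
import Fermat.Agent.MazurPrinciple.Bridge
import Fermat.Agent.MazurPrinciple.Plane
import Fermat.Agent.RTLift.Sq.Towers

/-!
# Functions over the inertia field representing torsion classes

`ClassFun A M n y g`: `n` times a divisor of the class `y` is the divisor of `g`. The relation is
additive, determines `g` up to constants and `n`-th powers, and carries the Hecke operator to the
norm of the correspondence.
-/

set_option autoImplicit false
set_option linter.unusedSectionVars false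
set_option maxHeartbeats 1600000

noncomputable section

namespace FermatAgent.RTLift.Sq

open AlgebraicCurve ModularCurve IntermediateField
open FermatAgent.Curve (divisorOf IsFunctionField1)
open FermatAgent.BadRed.Carayol (fromInertia fromInertia_injective fromInertia_algebraMap
  mem_range_fromInertia exists_fixed_fun exists_function_of_fixed_torsion DivisibleOn
  coe_fromInertia)
open FermatAgent.BadRed.Carayol.Instance (LevelField)
open FermatAgent.ModCurveTorsion (galN isFunctionField1_laurent coe_galN_smul)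
open FermatAgent.MazurPrinciple (inertiaField heckeAt)

local notation "ℚbar" => AlgebraicClosure ℚ
local notation "GQ" => AlgebraicClosure ℚ ≃ₐ[ℚ] AlgebraicClosure ℚ
local notation "𝐅" N:max => laurentBaseChange ℚbar (modularFunctionFieldFull N)

attribute [local instance] isFunctionField1_laurent

variable (A : ValuationSubring ℚbar) (M : ℕ) [NeZero M]

/-- `n` times a divisor in the class `y` is the divisor of `g`. -/
def ClassFun (n : ℕ) (y : JZero M) (g : LevelField (inertiaField A) M) : Prop :=
  g ≠ 0 ∧ ∃ D : Divisor.degZero (K := ℚbar) (F := 𝐅 M), Pic0.mk D = y ∧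
    n • (D : Divisor ℚbar (𝐅 M)) = divisorOf (fromInertia A M g)

variable {A M}

theorem fromInertia_ne_zero {g : LevelField (inertiaField A) M} (hg : g ≠ 0) :
    fromInertia A M g ≠ 0 := fun e => hg (fromInertia_injective A M (e.trans (map_zero _).symm))

/-- Functions over the inertia field are fixed. -/
theorem galN_smul_fromInertia {σ : GQ} (hσ : σ ∈ A.inertiaSubgroupIn ℚ)
    (g : LevelField (inertiaField A) M) : galN M σ • fromInertia A M g = fromInertia A M g := by
  refine Subtype.ext (HahnSeries.ext (funext fun i => ?_))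
  rw [coe_galN_smul, coe_fromInertia, coeffMap_coeff, coeffMap_coeff]
  exact MazurPrinciple.mem_inertiaField.mp (Subtype.prop _) σ hσ

/-- A function with a principal root of its divisor is a constant times a power. -/
theorem exists_const_mul_pow_of_divisor {n : ℕ} (hn : 0 < n) {g : LevelField (inertiaField A) M}
    (hg : g ≠ 0) {E : Divisor ℚbar (𝐅 M)} (hE : E ∈ Divisor.principal (K := ℚbar) (F := 𝐅 M))
    (hgE : n • E = divisorOf (fromInertia A M g)) :
    ∃ (k : inertiaField A) (w : LevelField (inertiaField A) M), k ≠ 0 ∧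
      g = algebraMap (inertiaField A) (LevelField (inertiaField A) M) k * w ^ n := by
  obtain ⟨h₀, hh₀, hEh₀⟩ := hE
  have hEfix : ∀ σ ∈ A.inertiaSubgroupIn ℚ, galN M σ • E = E := fun σ hσ => by
    have h : n • (galN M σ • E) = n • E := by
      rw [← smul_comm, hgE, ModCurveTorsion.smul_divisorOf, galN_smul_fromInertia hσ]
    exact Finsupp.ext fun v => by
      have h1 := DFunLike.congr_fun h v
      rw [Finsupp.smul_apply, Finsupp.smul_apply, nsmul_eq_mul, nsmul_eq_mul] at h1
      exact mul_left_cancel₀ (Int.natCast_ne_zero.mpr hn.ne') h1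
  obtain ⟨h, hh, hEh, hhfix⟩ := exists_fixed_fun A M hEfix hh₀ (Finsupp.ext hEh₀)
  obtain ⟨w, rfl⟩ := mem_range_fromInertia A M hhfix
  have hw : w ≠ 0 := fun e => hh (by rw [e, map_zero])
  obtain ⟨c, hc⟩ : ∃ c : ℚbar,
      algebraMap ℚbar (𝐅 M) c = fromInertia A M (g / w ^ n) := by
    refine FermatAgent.Curve.forall_ord_eq_zero_iff.mp fun v => ?_
    have h1 := DFunLike.congr_fun hgE v
    rw [hEh, Finsupp.smul_apply, FermatAgent.Curve.divisorOf_apply,
      FermatAgent.Curve.divisorOf_apply, nsmul_eq_mul] at h1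
    rw [map_div₀, map_pow, div_eq_mul_inv,
      v.ord_mul (fromInertia_ne_zero hg) (inv_ne_zero (pow_ne_zero _ hh)), v.ord_inv,
      ← zpow_natCast, v.ord_zpow, h1, add_neg_cancel]
  have hcmem : c ∈ inertiaField A := by
    have h0 := congrArg (fun y : 𝐅 M => (y : LaurentSeries ℚbar).coeff 0) hc
    simp only [IntermediateField.coe_algebraMap_apply, algebraMap_laurentSeries_eq_single,
      HahnSeries.coeff_single_same, coe_fromInertia, coeffMap_coeff] at h0
    rw [h0]
    exact Subtype.prop _
  have hgw : g / w ^ n = algebraMap (inertiaField A) _ (⟨c, hcmem⟩ : inertiaField A) :=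
    fromInertia_injective A M (by rw [fromInertia_algebraMap]; exact hc.symm)
  refine ⟨⟨c, hcmem⟩, w, fun e => ?_, ?_⟩
  · rw [e, map_zero, div_eq_zero_iff] at hgw
    exact hgw.elim hg (pow_ne_zero _ hw)
  · rw [← hgw, div_mul_cancel₀ _ (pow_ne_zero _ hw)]

theorem ClassFun.nsmul_eq_zero {n : ℕ} {y : JZero M} {g : LevelField (inertiaField A) M}
    (h : ClassFun A M n y g) : n • y = 0 := by
  obtain ⟨hg, D, hD, hDg⟩ := h
  rw [← hD, show n • Pic0.mk D = Pic0.mk (n • D) from
    (map_nsmul (QuotientAddGroup.mk' _) n D).symm]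
  refine (QuotientAddGroup.eq_zero_iff _).mpr (AddSubgroup.mem_addSubgroupOf.mpr ?_)
  exact ⟨fromInertia A M g, fromInertia_ne_zero hg, fun v => by
    rw [← FermatAgent.Curve.divisorOf_apply, ← hDg]; rfl⟩

theorem ClassFun.mul {n : ℕ} {y y' : JZero M} {g g' : LevelField (inertiaField A) M}
    (h : ClassFun A M n y g) (h' : ClassFun A M n y' g') :
    ClassFun A M n (y + y') (g * g') := by
  obtain ⟨hg, D, hD, hDg⟩ := h
  obtain ⟨hg', D', hD', hDg'⟩ := h'
  refine ⟨mul_ne_zero hg hg', D + D', ?_, Finsupp.ext fun v => ?_⟩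
  · rw [← hD, ← hD']; rfl
  · rw [map_mul, FermatAgent.Curve.divisorOf_apply,
      v.ord_mul (fromInertia_ne_zero hg) (fromInertia_ne_zero hg'),
      ← FermatAgent.Curve.divisorOf_apply, ← FermatAgent.Curve.divisorOf_apply, ← hDg, ← hDg',
      ← Finsupp.add_apply, ← nsmul_add]
    rfl

theorem ClassFun.inv {n : ℕ} {y : JZero M} {g : LevelField (inertiaField A) M}
    (h : ClassFun A M n y g) : ClassFun A M n (-y) g⁻¹ := by
  obtain ⟨hg, D, hD, hDg⟩ := h
  refine ⟨inv_ne_zero hg, -D, by rw [← hD]; rfl, Finsupp.ext fun v => ?_⟩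
  rw [map_inv₀, FermatAgent.Curve.divisorOf_apply, v.ord_inv,
    ← FermatAgent.Curve.divisorOf_apply, ← hDg, ← Finsupp.neg_apply, ← smul_neg]
  rfl

theorem classFun_zero_one (n : ℕ) :
    ClassFun A M n (0 : JZero M) (1 : LevelField (inertiaField A) M) :=
  ⟨one_ne_zero, 0, rfl, Finsupp.ext fun v => by
    rw [map_one, FermatAgent.Curve.divisorOf_apply, ← zpow_zero (1 : 𝐅 M), v.ord_zpow]
    simp⟩

theorem ClassFun.pow {n : ℕ} {y : JZero M} {g : LevelField (inertiaField A) M}
    (h : ClassFun A M n y g) (k : ℕ) : ClassFun A M n (k • y) (g ^ k) := by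
  induction k with
  | zero => rw [zero_nsmul, pow_zero]; exact classFun_zero_one n
  | succ k ih => rw [succ_nsmul, pow_succ]; exact ih.mul h

theorem ClassFun.of_zero {n : ℕ} (hn : 0 < n) {g : LevelField (inertiaField A) M}
    (h : ClassFun A M n (0 : JZero M) g) :
    ∃ (k : inertiaField A) (w : LevelField (inertiaField A) M), k ≠ 0 ∧
      g = algebraMap (inertiaField A) (LevelField (inertiaField A) M) k * w ^ n := by
  obtain ⟨hg, D, hD, hDg⟩ := h
  exact exists_const_mul_pow_of_divisor hn hg
    (AddSubgroup.mem_addSubgroupOf.mp ((QuotientAddGroup.eq_zero_iff _).mp hD)) hDg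

/-- A class determines its function up to constants and powers. -/
theorem ClassFun.unique {n : ℕ} (hn : 0 < n) {y : JZero M} {g g' : LevelField (inertiaField A) M}
    (h : ClassFun A M n y g) (h' : ClassFun A M n y g') :
    ∃ (k : inertiaField A) (w : LevelField (inertiaField A) M), k ≠ 0 ∧ w ≠ 0 ∧
      g = algebraMap (inertiaField A) (LevelField (inertiaField A) M) k * g' * w ^ n := by
  have h0 := h.mul h'.inv
  rw [add_neg_cancel] at h0
  obtain ⟨k, w, hk, he⟩ := h0.of_zero hn
  refine ⟨k, w, hk, fun e => h0.1 (by rw [he, e, zero_pow hn.ne', mul_zero]), ?_⟩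
  rw [mul_right_comm, ← he, inv_mul_cancel_right₀ h'.1]

/-- The class of a constant times a power vanishes. -/
theorem ClassFun.eq_zero {n : ℕ} (hn : 0 < n) {y : JZero M} {g : LevelField (inertiaField A) M}
    (h : ClassFun A M n y g) {k : inertiaField A} {w : LevelField (inertiaField A) M}
    (hgw : g = algebraMap (inertiaField A) (LevelField (inertiaField A) M) k * w ^ n) :
    y = 0 := by
  obtain ⟨hg, D, hD, hDg⟩ := h
  subst hgw
  have hk : (k : ℚbar) ≠ 0 := fun e => hg (by
    rw [show k = 0 from Subtype.ext e, map_zero, zero_mul])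
  have hw : w ≠ 0 := fun e => hg (by rw [e, zero_pow hn.ne', mul_zero])
  rw [← hD]
  refine (QuotientAddGroup.eq_zero_iff _).mpr (AddSubgroup.mem_addSubgroupOf.mpr
    ⟨fromInertia A M w, fromInertia_ne_zero hw, fun v => ?_⟩)
  have h1 := DFunLike.congr_fun hDg v
  rw [map_mul, map_pow, fromInertia_algebraMap, Finsupp.smul_apply,
    FermatAgent.Curve.divisorOf_apply,
    v.ord_mul ((_root_.map_ne_zero _).mpr hk) (pow_ne_zero _ (fromInertia_ne_zero hw)),
    FermatAgent.Curve.RR.ord_algebraMap v hk, zero_add, ← zpow_natCast, v.ord_zpow,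
    nsmul_eq_mul] at h1
  exact mul_left_cancel₀ (Int.natCast_ne_zero.mpr hn.ne') h1

/-- The function of a class has divisible valuations. -/
theorem ClassFun.divisible {n : ℕ} (hn : 0 < n) {y : JZero M}
    {g : LevelField (inertiaField A) M} (h : ClassFun A M n y g) :
    DivisibleOn (inertiaField A) g n := by
  obtain ⟨hg, D, hD, hDg⟩ := id h
  have hy : ∀ σ ∈ A.inertiaSubgroupIn ℚ, σ • y = y := fun σ hσ => by
    have hDfix : galN M σ • (D : Divisor ℚbar (𝐅 M)) = D := Finsupp.ext fun v => by
      have h1 : n • (galN M σ • (D : Divisor ℚbar (𝐅 M))) = n • (D : Divisor ℚbar (𝐅 M)) := by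
        rw [← smul_comm, hDg, ModCurveTorsion.smul_divisorOf, galN_smul_fromInertia hσ]
      have h2 := DFunLike.congr_fun h1 v
      rw [Finsupp.smul_apply, Finsupp.smul_apply, nsmul_eq_mul, nsmul_eq_mul] at h2
      exact mul_left_cancel₀ (Int.natCast_ne_zero.mpr hn.ne') h2
    rw [← hD, galois_smul_pic0_def, SemilinearAut.pic0_smul_mk]
    exact congrArg Pic0.mk (Subtype.ext hDfix)
  obtain ⟨D', g', hD', -, hg', hDg', hdiv⟩ :=
    exists_function_of_fixed_torsion A M y h.nsmul_eq_zero hy
  obtain ⟨k, w, hk, hw, he⟩ := h.unique hn ⟨hg', D', hD', hDg'⟩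
  intro V hV
  obtain ⟨u, hu⟩ := hdiv V hV
  have h1 : V.valuation (algebraMap (inertiaField A) (LevelField (inertiaField A) M) k) = 1 := by
    refine le_antisymm ((V.valuation_le_one_iff _).mpr (hV k)) ?_
    have h2 := (V.valuation_le_one_iff _).mpr (hV k⁻¹)
    rw [map_inv₀, map_inv₀, inv_le_one₀ (zero_lt_iff.mpr
      ((_root_.map_ne_zero _).mpr ((_root_.map_ne_zero _).mpr hk)))] at h2
    exact h2
  exact ⟨u * w, by rw [he, map_mul, map_mul, h1, one_mul, map_pow, hu, map_mul, mul_pow]⟩

/-- A function with divisible valuations is the function of a class. -/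
theorem exists_classFun {n : ℕ} (hn : 0 < n) {g : LevelField (inertiaField A) M} (hg : g ≠ 0)
    (hd : DivisibleOn (inertiaField A) g n) : ∃ y : JZero M, ClassFun A M n y g := by
  classical
  set G := fromInertia A M g
  have hG : G ≠ 0 := fromInertia_ne_zero hg
  have hord : ∀ v : Place ℚbar (𝐅 M), (n : ℤ) ∣ v.ord G := fun v => by
    obtain ⟨w, hw⟩ := hd (v.toValuationSubring.comap (fromInertia A M)) fun c => by
      rw [ValuationSubring.mem_comap, fromInertia_algebraMap]
      exact v.algebraMap_mem' _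
    have h1 := BadRed.Carayol.map_valuation_eq (fromInertia A M) v.toValuationSubring hg hw
    have hv0 : v.toValuationSubring.valuation G ≠ 0 := (_root_.map_ne_zero _).mpr hG
    have hw0 : fromInertia A M w ≠ 0 := fun e => hv0 (by
      rw [h1, e, map_zero, zero_pow hn.ne'])
    have hq : v.toValuationSubring.valuation (G / fromInertia A M w ^ n) = 1 := by
      rw [map_div₀, map_pow, h1, div_self (fun e => hv0 (h1.trans e))]
    have hz0 : G / fromInertia A M w ^ n ≠ 0 := div_ne_zero hG (pow_ne_zero _ hw0)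
    have hm := ((FermatAgent.Curve.RR.mem_iff_ord_nonneg v hz0).mp
      ((ValuationSubring.valuation_le_one_iff _ _).mp hq.le))
    have hm' := ((FermatAgent.Curve.RR.mem_iff_ord_nonneg v (inv_ne_zero hz0)).mp
      ((ValuationSubring.valuation_le_one_iff _ (G / fromInertia A M w ^ n)⁻¹).mp
        (by rw [map_inv₀, hq, inv_one])))
    rw [v.ord_inv] at hm'
    have hz : v.ord (G / fromInertia A M w ^ n) = 0 := by omega
    rw [div_eq_mul_inv, v.ord_mul hG (inv_ne_zero (pow_ne_zero _ hw0)), v.ord_inv, ← zpow_natCast,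
      v.ord_zpow] at hz
    exact ⟨v.ord (fromInertia A M w), by omega⟩
  set E : Divisor ℚbar (𝐅 M) :=
    Finsupp.mapRange (fun m : ℤ => m / (n : ℤ)) (Int.zero_ediv _) (divisorOf G)
  have hE : n • E = divisorOf G := Finsupp.ext fun v => by
    rw [Finsupp.smul_apply, nsmul_eq_mul, Finsupp.mapRange_apply,
      FermatAgent.Curve.divisorOf_apply, Int.mul_ediv_cancel' (hord v)]
  have hdeg : E ∈ Divisor.degZero (K := ℚbar) (F := 𝐅 M) := by
    rw [Divisor.mem_degZero]
    have h := congrArg (Divisor.degree (K := ℚbar) (F := 𝐅 M)) hE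
    rw [map_nsmul, FermatAgent.Curve.degree_divisorOf, nsmul_eq_mul] at h
    exact (mul_eq_zero.mp h).resolve_left (Int.natCast_ne_zero.mpr hn.ne')
  exact ⟨Pic0.mk ⟨E, hdeg⟩, hg, ⟨E, hdeg⟩, rfl, hE⟩

/-- The Hecke operator is the norm of the correspondence on representing functions. -/
theorem ClassFun.hecke {q : ℕ} (hq : q.Prime) (hA : A.LiesOverPrime q) {l : ℕ} [Fact l.Prime]
    [NeZero (l * M)] (hlq : ¬ q ∣ l) (hco : l.Coprime M) {n : ℕ} {y : JZero M}
    {g : LevelField (inertiaField A) M} (h : ClassFun A M n y g) :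
    ClassFun A M n (heckeAt M l y) (BadRed.AtP.heckeNorm (inertiaField A) hco g) := by
  have hl : l.Prime := Fact.out
  have : NeZero l := ⟨hl.ne_zero⟩
  obtain ⟨hg, D, hD, hDg⟩ := h
  obtain ⟨ζ, hζ⟩ := exists_root_of_unity_inertiaField hq hA hlq
  have hN : fromInertia A M (BadRed.AtP.heckeNorm (inertiaField A) hco g) =
      ModCurveTorsion.heckeNorm ℚbar M l (fromInertia A M g) := by
    rw [MazurPrinciple.torsion_heckeNorm_eq hco]
    have hζ' : IsPrimitiveRoot
        (Units.map ((inertiaField A).val : inertiaField A →+* ℚbar).toMonoidHom ζ) l :=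
      hζ.map_of_injective (f := Units.map ((inertiaField A).val : inertiaField A →+* ℚbar).toMonoidHom)
        (Units.map_injective ((inertiaField A).val : inertiaField A →+* ℚbar).injective)
    refine Subtype.ext (qExpand_injective (R := ℚbar) l ?_)
    rw [BadRed.AtP.qExpand_heckeNorm hco hζ', coe_fromInertia, coe_fromInertia, ← coeffMap_qExpand,
      BadRed.AtP.qExpand_heckeNorm hco hζ, map_mul, coeffMap_qExpand, coeffMap_qExpand,
      BadRed.AtP.coeffMap_twistProd']
  have hG := fromInertia_ne_zero hg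
  refine ⟨fun e => ModCurveTorsion.heckeNorm_ne_zero ℚbar M l hG
    (by rw [← hN, e, map_zero]), ⟨_, ModCurveTorsion.heckeDiv_mem_degZero ℚbar M l D.2⟩, ?_, ?_⟩
  · rw [← ModCurveTorsion.heckeOperatorAlong_mk, hD, MazurPrinciple.heckeAt_prime M hl]
    exact (heckeOperatorBar_apply M ⟨l, hl⟩ y).symm
  · rw [hN, ← ModCurveTorsion.heckeDiv_divisorOf ℚbar M l hG, ← hDg, map_nsmul]

end FermatAgent.RTLift.Sq
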