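import Fermat.Agent.RTLift.Sq.UPoly
import Fermat.Agent.RTLift.Sq.Towers
import Fermat.Agent.BadRed.Carayol.Instance.Etale

/-!
# The charts of the coordinate of level `4` and its integrality over `j`
-/

set_option autoImplicit false
set_option linter.unusedSectionVars false
set_option maxHeartbeats 1600000

noncomputable section

namespace FermatAgent.RTLift.Sq

open Polynomial
open FermatAgent.BadRed.Carayol
open FermatAgent.BadRed.Carayol.Instance (LevelField hauptmodul4 uElt uSeries inertiaRing cuspSet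
  hauptmodul4_isCuspPoly hauptmodul4_isCoord)
open FermatAgent.MazurPrinciple (inertiaField)
open FermatAgent.ModFun (jBar)

local notation "ℚbar" => AlgebraicClosure ℚ

variable {A : ValuationSubring ℚbar} {q : ℕ} [Fact q.Prime] [NeZero q]
  [IsDiscreteValuationRing (inertiaRing A)]
  {L : ℕ} [NeZero L] (hA : A.LiesOverPrime q) (hq2 : ¬ 2 ∣ q) (hqL : ¬ q ∣ L) (h4 : 4 ∣ L)

theorem cusp4_coeff_zero : cusp4.coeff 0 = 0 := by simp [cusp4]

/-- The chart of the coordinate of level `4`. -/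
def chart4 : ChartData (inertiaRing A) (Instance.tower (inertiaField A) L hqL) (coord4 A hq2 h4) :=
  Instance.uChartData hqL (hauptmodul4 q hq2) h4 (hauptmodul4_isCuspPoly hq2) cusp4_coeff_zero hA
    (hauptmodul4_isCoord q hq2)
    (Instance.etaleAway_uElt hA hqL (hauptmodul4 q hq2) h4 (hauptmodul4_isCuspPoly hq2)
      cusp4_coeff_zero (hauptmodul4_isCoord q hq2))

/-- The chart of its inverse. -/
def chart4Inv :
    ChartData (inertiaRing A) (Instance.tower (inertiaField A) L hqL) (coord4 A hq2 h4)⁻¹ :=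
  Instance.uInvChartData hqL (hauptmodul4 q hq2) h4 (hauptmodul4_isCuspPoly hq2) cusp4_coeff_zero
    hA (hauptmodul4_isCoord q hq2)
    (Instance.etaleAway_uInv hA hqL (hauptmodul4 q hq2) h4 (hauptmodul4_isCuspPoly hq2)
      cusp4_coeff_zero (hauptmodul4_isCoord q hq2))

theorem zero_mem_chart4_cusps : (0 : inertiaRing A) ∈ (chart4 hA hq2 hqL h4).cusps :=
  (Instance.inertiaChart (hauptmodul4 q hq2) h4 (hauptmodul4_isCuspPoly hq2) cusp4_coeff_zero
    hA).zero_mem

theorem zero_mem_chart4Inv_cusps : (0 : inertiaRing A) ∈ (chart4Inv hA hq2 hqL h4).cusps :=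
  (Instance.inertiaChartInv (hauptmodul4 q hq2) h4 (hauptmodul4_isCuspPoly hq2) cusp4_coeff_zero
    hA).zero_mem

/-- The identity `j R(u) ^ 4 = P(u)` in the field of level `L`. -/
theorem exists_uPoly_coord4 : ∃ P : ℤ[X], P.Monic ∧ P.natDegree = 9 ∧
    (P.coeff 0).natAbs = 2 ^ 48 ∧
    aeval (coord4 A hq2 h4) P =
      jBar (inertiaField A) L * aeval (coord4 A hq2 h4) cusp4 ^ 4 := by
  obtain ⟨P, hm, hd, hP⟩ := exists_monic_uPoly (q := q) hq2
  refine ⟨P, hm, hd, natAbs_coeff_zero hq2 hP, Subtype.ext ?_⟩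
  have haev : ∀ Q : ℤ[X], ((aeval (coord4 A hq2 h4) Q : LevelField (inertiaField A) L) :
      LaurentSeries (inertiaField A)) =
      ModularCurve.coeffMap (Int.castRingHom _) (aeval (uSeries (hauptmodul4 q hq2)) Q) := fun Q => by
    show (LevelField (inertiaField A) L).val.toRingHom (aeval (coord4 A hq2 h4) Q) = _
    rw [aeval_def, aeval_def, hom_eval₂, hom_eval₂]
    exact eval₂_congr (RingHom.ext_int _ _) (coe_coord4 hq2 h4) rfl
  rw [MulMemClass.coe_mul, SubmonoidClass.coe_pow, haev, haev, hP, map_mul, map_pow,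
    FermatAgent.ModFun.coe_jBar, ModularCurve.coeffMap_jqModC]

include hA hq2 in
theorem isUnit_of_natAbs_eq {c : ℤ} {k : ℕ} (hc : c.natAbs = 2 ^ k) :
    IsUnit (c : inertiaRing A) := by
  have h2 : IsUnit ((2 : ℕ) : inertiaRing A) := by
    by_contra h
    rw [← IsLocalRing.residue_ne_zero_iff_isUnit, not_not] at h
    obtain ⟨a, b, hab⟩ : IsCoprime (2 : ℤ) (q : ℤ) :=
      Int.prime_two.coprime_iff_not_dvd.mpr (by exact_mod_cast hq2)
    have h1 := congrArg (fun z : ℤ => IsLocalRing.residue (inertiaRing A) (z : inertiaRing A)) hab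
    simp only [Int.cast_add, Int.cast_mul, Int.cast_natCast, Int.cast_one, map_add, map_mul,
      map_one, Instance.residue_natCast_inertiaRing hA] at h1
    rw [show ((2 : ℤ) : inertiaRing A) = ((2 : ℕ) : inertiaRing A) by norm_num, h] at h1
    simp at h1
  have h3 : IsUnit ((2 : ℕ) ^ k : inertiaRing A) := h2.pow k
  rcases Int.natAbs_eq c with e | e <;> rw [e, hc]
  · simpa using h3
  · simpa using h3.neg

/-- The coordinate is integral over `j`. -/
theorem coord4_mem_chartRing_jBar :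
    coord4 A hq2 h4 ∈ chartRing (inertiaRing A) (jBar (inertiaField A) L) := by
  obtain ⟨P, hm, hd, -, hP⟩ := exists_uPoly_coord4 (A := A) hq2 h4
  let Φ : (inertiaRing A)[X][X] :=
    (P.map (Int.castRingHom (inertiaRing A))).map C - C X * (X ^ 2 + C (C 16) * X) ^ 4
  have hΦ : Φ.Monic := by
    refine ((hm.map _).map _).sub_of_left (degree_lt_degree ?_)
    rw [(hm.map _).natDegree_map, hm.natDegree_map, hd]
    have : (C X * (X ^ 2 + C (C 16) * X) ^ 4 : (inertiaRing A)[X][X]).natDegree ≤ 8 := by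
      compute_degree
    omega
  refine mem_chartRing_of_evalTwo Φ hΦ ?_
  have e : (aeval (jBar (inertiaField A) L)).toRingHom.comp
      (C : inertiaRing A →+* (inertiaRing A)[X]) = algebraMap _ _ := RingHom.ext fun a => aeval_C _ a
  simp only [Φ, evalTwo, eval₂_sub, eval₂_map, eval₂_mul, eval₂_C, eval₂_pow, eval₂_add,
    eval₂_X, AlgHom.toRingHom_eq_coe, RingHom.coe_coe, aeval_X, map_ofNat]
  rw [sub_eq_zero]
  refine (Eq.trans ?_ hP).trans ?_
  · rw [aeval_def]
    exact eval₂_congr (RingHom.ext_int _ _) rfl rfl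
  · congr 2
    simp [cusp4, map_ofNat]

/-- The inverse of the coordinate is integral over `j`. -/
theorem coord4_inv_mem_chartRing_jBar (hA : A.LiesOverPrime q) :
    (coord4 A hq2 h4)⁻¹ ∈ chartRing (inertiaRing A) (jBar (inertiaField A) L) := by
  obtain ⟨P, hm, hd, h0, hP⟩ := exists_uPoly_coord4 (A := A) hq2 h4
  obtain ⟨c, hc⟩ := isUnit_of_natAbs_eq (A := A) hA hq2 h0
  set v := (coord4 A hq2 h4)⁻¹ with hv
  set j := jBar (inertiaField A) L
  have hu0 : coord4 A hq2 h4 ≠ 0 := Instance.uElt_ne_zero (hauptmodul4 q hq2) _ h4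
  have hv0 : v ≠ 0 := inv_ne_zero hu0
  let Q : (inertiaRing A)[X][X] :=
    ∑ i ∈ Finset.range 9, C (C ((↑c⁻¹ : inertiaRing A) * (P.coeff (i + 1) : inertiaRing A))) *
      X ^ (8 - i) - C (C (↑c⁻¹ : inertiaRing A) * X) * (X * (1 + C (C 16) * X) ^ 4)
  have hQ : Q.degree < ((9 : ℕ) : WithBot ℕ) := by
    refine (degree_sub_le _ _).trans_lt (max_lt ((degree_sum_le _ _).trans_lt
      ((Finset.sup_lt_iff (WithBot.bot_lt_coe 9)).mpr fun i hi => ?_)) ?_)
    · exact (degree_C_mul_X_pow_le _ _).trans_lt (by exact_mod_cast (by omega : 8 - i < 9))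
    · refine lt_of_le_of_lt degree_le_natDegree ?_
      have : (C (C (↑c⁻¹ : inertiaRing A) * X) * (X * (1 + C (C 16) * X) ^ 4) :
          (inertiaRing A)[X][X]).natDegree ≤ 5 := by compute_degree
      exact_mod_cast (by omega : _ < 9)
  refine mem_chartRing_of_evalTwo (X ^ 9 + Q) (monic_X_pow_add hQ) ?_
  simp only [Q, evalTwo, eval₂_add, eval₂_sub, eval₂_finsetSum, eval₂_mul, eval₂_C, eval₂_pow,
    eval₂_X, eval₂_one, eval₂_ofNat, AlgHom.toRingHom_eq_coe, RingHom.coe_coe, aeval_X, aeval_C, map_mul,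
    map_ofNat]
  have hPsum : aeval (coord4 A hq2 h4) P =
      ∑ i ∈ Finset.range 10, (P.coeff i : LevelField (inertiaField A) L) * coord4 A hq2 h4 ^ i := by
    rw [aeval_eq_sum_range, hd]
    exact Finset.sum_congr rfl fun i _ => zsmul_eq_mul _ _
  rw [hPsum, Finset.sum_range_succ'] at hP
  simp only [cusp4, map_add, map_pow, map_mul, aeval_X, pow_zero, mul_one,
    map_ofNat] at hP
  have hc' : algebraMap (inertiaRing A) (LevelField (inertiaField A) L) ↑c⁻¹ *
      (P.coeff 0 : LevelField (inertiaField A) L) = 1 := by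
    rw [← map_intCast (algebraMap (inertiaRing A) (LevelField (inertiaField A) L)), ← hc, ← map_mul,
      Units.inv_mul, map_one]
  have hterm : ∀ i ∈ Finset.range 9, (P.coeff (i + 1) : LevelField (inertiaField A) L) *
      coord4 A hq2 h4 ^ (i + 1) * v ^ 9 =
      (P.coeff (i + 1) : LevelField (inertiaField A) L) * v ^ (8 - i) := fun i hi => by
    rw [Finset.mem_range] at hi
    rw [show v ^ 9 = v ^ (i + 1) * v ^ (8 - i) by rw [← pow_add]; congr 1; omega, mul_assoc,
      ← mul_assoc (coord4 A hq2 h4 ^ (i + 1)), ← mul_pow, hv, mul_inv_cancel₀ hu0, one_pow, one_mul]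
  have hmain := congrArg (fun z => z * v ^ 9) hP
  simp only [add_mul, Finset.sum_mul] at hmain
  rw [Finset.sum_congr rfl hterm] at hmain
  have hrhs : jBar (inertiaField A) L * (coord4 A hq2 h4 ^ 2 + 16 * coord4 A hq2 h4) ^ 4 * v ^ 9 =
      j * (v * (1 + 16 * v) ^ 4) := by
    rw [hv]; field_simp; ring
  rw [hrhs] at hmain
  simp only [map_intCast, mul_assoc, ← Finset.mul_sum]
  linear_combination (algebraMap (inertiaRing A) (LevelField (inertiaField A) L) ↑c⁻¹) * hmain -
    v ^ 9 * hc'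

/-- `j` times a power of the cusp polynomial is integral over the coordinate. -/
theorem exists_pow_mul_jBar_mem_chartRing :
    ∃ k : ℕ, aeval (coord4 A hq2 h4)
        (∏ a ∈ (chart4 hA hq2 hqL h4).cusps, (X - C a)) ^ k * jBar (inertiaField A) L ∈
      chartRing (inertiaRing A) (coord4 A hq2 h4) := by
  obtain ⟨P, -, -, -, hP⟩ := exists_uPoly_coord4 (A := A) hq2 h4
  refine ⟨4, ?_⟩
  change aeval _ (∏ a ∈ cuspSet cusp4 (inertiaRing A), (X - C a)) ^ 4 * _ ∈ _
  rw [show (cusp4 : ℤ[X]) = X ^ 2 + C 16 * X from rfl, Instance.prod_cuspSet (hauptmodul4 q hq2)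
      (hauptmodul4_isCuspPoly hq2)
      (Instance.splits_inertiaRing Fact.out hA (hauptmodul4_isCuspPoly (q := q) hq2).monic
        (hauptmodul4_isCuspPoly (q := q) hq2).separable)
      (Instance.residue_natCast_inertiaRing hA), mul_comm]
  have e : ∀ R : ℤ[X], aeval (coord4 A hq2 h4) (R.map (Int.castRingHom (inertiaRing A))) =
      aeval (coord4 A hq2 h4) R := fun R => by
    rw [aeval_def, aeval_def, eval₂_map]
    exact eval₂_congr (RingHom.ext_int _ _) rfl rfl
  rw [show (X ^ 2 + C 16 * X : ℤ[X]) = cusp4 from rfl, e, ← hP, ← e]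
  exact aeval_mem_chartRing _

end FermatAgent.RTLift.Sq
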