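import Fermat.Agent.BadRed.Carayol.Inv
import Mathlib.FieldTheory.Relrank

/-!
# Maps between two towers keep the types of the vertical components

A compatible system of maps from the tower of levels `N, Nq, Nq²` to the tower of levels
`Nl, Nlq, Nlq²` carries the branch `s u ≡ (t u) ^ q` to the same branch: otherwise the degrees of
the residue extensions would give `q = 1`.
-/

set_option autoImplicit false
set_option linter.unusedSectionVars false

noncomputable section

namespace FermatAgent.RTLift.Sq

open Polynomial IsLocalRing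
open FermatAgent.BadRed.Carayol

section ResidueDegree

variable {A B : Type*} [Field A] [Field B]

/-- The residual image of a field map. -/
def resImage (σ : A →+* B) (U : ValuationSubring B) : Subfield (IsLocalRing.ResidueField U) :=
  (comapResidue σ U).fieldRange

variable {σ : A →+* B} {U : ValuationSubring B}

theorem res_mem_resImage {a : A} (ha : σ a ∈ U) : res U (σ a) ∈ resImage σ U :=
  ⟨_, comapResidue_res ha⟩

theorem exists_of_mem_resImage {r : IsLocalRing.ResidueField U} (hr : r ∈ resImage σ U) :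
    ∃ a : A, σ a ∈ U ∧ res U (σ a) = r := by
  obtain ⟨z, rfl⟩ := hr
  exact exists_comapResidue z

/-- The residual degree of a finite extension is positive. -/
theorem finrank_resImage_pos (hfin : letI := σ.toAlgebra; Module.Finite A B) :
    0 < Module.finrank (resImage σ U) (IsLocalRing.ResidueField U) := by
  let _ : Algebra A B := σ.toAlgebra
  have := hfin
  have key : ∀ (m : ℕ) (r : Fin m → IsLocalRing.ResidueField U),
      LinearIndependent (resImage σ U) r → m ≤ Module.finrank A B := by
    intro m r hr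
    choose y hy using fun i => residue_surjective (r i)
    suffices h : LinearIndependent A fun i => (y i : B) by
      simpa using h.fintype_card_le_finrank
    rw [Fintype.linearIndependent_iff]
    intro c hc
    by_contra hne
    push Not at hne
    obtain ⟨i₁, hi₁⟩ := hne
    obtain ⟨i₀, -, hmax⟩ := Finset.exists_max_image Finset.univ
      (fun i => U.valuation (σ (c i))) ⟨i₁, Finset.mem_univ _⟩
    have hc0 : c i₀ ≠ 0 := fun h => hi₁ (by
      have := hmax i₁ (Finset.mem_univ _)
      rw [h, map_zero, map_zero, le_zero_iff, map_eq_zero, map_eq_zero] at this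
      exact this)
    have hmem : ∀ i, σ (c i / c i₀) ∈ U := fun i => by
      rw [← U.valuation_le_one_iff, map_div₀ σ, map_div₀]
      exact div_le_one_of_le₀ (hmax i (Finset.mem_univ _)) zero_le
    have h0 : (∑ i, (⟨σ (c i / c i₀), hmem i⟩ : U) * y i) = 0 := by
      refine Subtype.ext ?_
      show U.subtype _ = 0
      rw [map_sum]
      calc ∑ i, U.subtype ((⟨σ (c i / c i₀), hmem i⟩ : U) * y i)
          = ∑ i, σ (c i₀)⁻¹ * (σ (c i) * (y i : B)) := by
            refine Finset.sum_congr rfl fun i _ => ?_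
            show σ (c i / c i₀) * (y i : B) = _
            rw [div_eq_mul_inv, map_mul]; ring
        _ = σ (c i₀)⁻¹ * ∑ i, c i • (y i : B) := by
            rw [Finset.mul_sum]; rfl
        _ = 0 := by rw [hc, mul_zero]
    have h1 := congrArg (residue U) h0
    rw [map_sum, map_zero] at h1
    have h2 := Fintype.linearIndependent_iff.mp hr
      (fun i => ⟨res U (σ (c i / c i₀)), res_mem_resImage (hmem i)⟩) (by
        rw [← h1]
        refine Finset.sum_congr rfl fun i _ => ?_
        rw [map_mul, hy, ← res_of_mem (hmem i)]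
        rfl) i₀
    have h3 : res U (σ (c i₀ / c i₀)) = 0 := congrArg Subtype.val h2
    rw [div_self hc0, map_one, res_one] at h3
    exact one_ne_zero h3
  have : Module.Finite (resImage σ U) (IsLocalRing.ResidueField U) := by
    refine Module.rank_lt_aleph0_iff.mp (lt_of_le_of_lt
      (rank_le (n := Module.finrank A B) fun s hs => ?_) Cardinal.natCast_lt_aleph0)
    refine key _ (fun i => ((s.equivFin.symm i : s) : IsLocalRing.ResidueField U)) ?_
    exact hs.comp _ s.equivFin.symm.injective
  exact Module.finrank_pos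

end ResidueDegree

variable {q : ℕ} [Fact q.Prime] {W K F F₁ F₂ G G₁ G₂ : Type*}
  [CommRing W] [IsDomain W] [IsDiscreteValuationRing W] [IsAlgClosed (IsLocalRing.ResidueField W)]
  [Field K] [CharZero K] [Algebra W K] [IsFractionRing W K]
  [Field F] [Field F₁] [Field F₂] [Algebra K F] [Algebra K F₁] [Algebra K F₂]
  [Algebra W F] [Algebra W F₁] [Algebra W F₂]
  [IsScalarTower W K F] [IsScalarTower W K F₁] [IsScalarTower W K F₂]
  [Field G] [Field G₁] [Field G₂] [Algebra K G] [Algebra K G₁] [Algebra K G₂]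
  [Algebra W G] [Algebra W G₁] [Algebra W G₂]
  [IsScalarTower W K G] [IsScalarTower W K G₁] [IsScalarTower W K G₂]

/-- A map between two towers, with mutually integral coordinates. -/
structure TowerMap (W : Type*) [CommRing W] [Algebra W G] {K : Type*} [Field K] [Algebra K F]
    [Algebra K F₁] [Algebra K F₂] [Algebra K G] [Algebra K G₁] [Algebra K G₂]
    (T : QTower q K F F₁ F₂) (T' : QTower q K G G₁ G₂) (u : F) (u' : G) where
  b₀ : F →ₐ[K] G
  b₁ : F₁ →ₐ[K] G₁
  b₂ : F₂ →ₐ[K] G₂
  comm_s : ∀ x, b₁ (T.s x) = T'.s (b₀ x)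
  comm_t : ∀ x, b₁ (T.t x) = T'.t (b₀ x)
  comm_α : ∀ x, b₂ (T.α x) = T'.α (b₁ x)
  comm_β : ∀ x, b₂ (T.β x) = T'.β (b₁ x)
  finite₀ : letI := b₀.toRingHom.toAlgebra; Module.Finite F G
  int : b₀ u ∈ chartRing W u'
  int' : u' ∈ chartRing W (b₀ u)

variable {T : QTower q K F F₁ F₂} {T' : QTower q K G G₁ G₂} {u : F} {u' : G}

/-- The map for the interchanged towers. -/
def TowerMap.swap (M : TowerMap W T T' u u') : TowerMap W T.swap T'.swap u u' where
  b₀ := M.b₀
  b₁ := M.b₁
  b₂ := M.b₂
  comm_s := M.comm_t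
  comm_t := M.comm_s
  comm_α := M.comm_β
  comm_β := M.comm_α
  finite₀ := M.finite₀
  int := M.int
  int' := M.int'

/-- Mutually integral coordinates have the same vertical valuations. -/
theorem isVertical_of_integral {L : Type*} [Field L] [Algebra K L] [Algebra W L]
    [IsScalarTower W K L] (hq : maximalIdeal W = Ideal.span {(q : W)}) {x z : L}
    (hxz : x ∈ chartRing W z) (hzx : z ∈ chartRing W x) {V : ValuationSubring L}
    (hV : IsVertical W q z V) : IsVertical W q x V where
  const_mem := hV.const_mem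
  q_mem := hV.q_mem
  isUnitAt P hP := by
    have hx : x ∈ V := hV.chartRing_le hxz
    obtain ⟨hm, hr⟩ := res_aeval hq hV hx P
    refine (isUnitAt_iff hm).mpr ?_
    rw [hr]
    intro h0
    -- a root in the constants makes the residue of `z` constant
    set Pb := P.map (residue W)
    have hroots := prod_multiset_X_sub_C_of_monic_of_roots_card_eq
      (monic_mul_leadingCoeff_inv hP)
      (splits_iff_card_roots.mp (IsAlgClosed.splits _))
    have h1 : (Pb * Polynomial.C Pb.leadingCoeff⁻¹).eval₂ (constRes hq hV) (res V x) = 0 := by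
      rw [eval₂_mul, h0, zero_mul]
    rw [← hroots, ← coe_eval₂RingHom, map_multiset_prod, Multiset.map_map,
      Multiset.prod_eq_zero_iff, Multiset.mem_map] at h1
    obtain ⟨r, -, hr0⟩ := h1
    simp only [Function.comp_apply, coe_eval₂RingHom, eval₂_sub, eval₂_X, eval₂_C,
      sub_eq_zero] at hr0
    obtain ⟨β, rfl⟩ := residue_surjective r
    rw [constRes_residue hq hV] at hr0
    have hxβ : x - algebraMap W L β ∈ V.nonunits :=
      (res_eq_iff hx (hV.const_mem β)).mp hr0
    obtain ⟨a, ha⟩ := exists_const_residue hq hV.const_mem hV.q_mem hxβ hzx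
    have := (hV.isUnitAt (Polynomial.X - Polynomial.C a) (by
      rw [Polynomial.map_sub, map_X, map_C]; exact X_sub_C_ne_zero _))
    rw [map_sub, aeval_X, aeval_C] at this
    exact (ne_of_lt (ha : V.valuation _ < 1)) this

variable (hq : maximalIdeal W = Ideal.span {(q : W)}) (D : ChartData W T u)
  (D' : ChartData W T' u') (M : TowerMap W T T' u u')
include hq D D'

theorem TowerMap.isVertical₁ {U : ValuationSubring G₁} (hU : IsVertical W q (T'.t u') U) :
    IsVertical W q (T.t u) (U.comap M.b₁.toRingHom) := by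
  refine IsVertical.comap M.b₁ ?_
  rw [M.comm_t]
  exact isVertical_of_integral (K := K) hq (map_mem_chartRing T'.t M.int)
    (map_mem_chartRing T'.t M.int') hU

theorem TowerMap.isVertical₂ {U : ValuationSubring G₂}
    (hU : IsVertical W q (T'.α (T'.t u')) U) :
    IsVertical W q (T.α (T.t u)) (U.comap M.b₂.toRingHom) := by
  refine IsVertical.comap M.b₂ ?_
  rw [M.comm_α, M.comm_t]
  refine isVertical_of_integral (K := K) hq ?_ ?_ hU
  · exact map_mem_chartRing (T'.α.comp T'.t) M.int
  · exact map_mem_chartRing (T'.α.comp T'.t) M.int'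

/-- The branch `s u ≡ (t u) ^ q` is kept. -/
theorem TowerMap.can_of_can {U : ValuationSubring G₁} (hU : IsVertical W q (T'.t u') U)
    (h : res U (T'.s u') = res U (T'.t u') ^ q) :
    res (U.comap M.b₁.toRingHom) (T.s u) = res (U.comap M.b₁.toRingHom) (T.t u) ^ q := by
  have hV := M.isVertical₁ hq D D' hU
  rcases level1_cases hq D hV with hc | ho
  · exact hc
  exfalso
  set V := U.comap M.b₁.toRingHom
  -- images of the residue fields
  let Rt := resImage T'.t.toRingHom U
  let Rs := resImage T'.s.toRingHom U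
  let J := resImage M.b₁.toRingHom U
  let S₁ := resImage (T'.t.comp M.b₀).toRingHom U
  let S₂ := resImage (T'.s.comp M.b₀).toRingHom U
  have hRt : Rt = ⊤ := eq_top_iff.mpr fun r _ => by
    obtain ⟨⟨y, hy⟩, rfl⟩ := residue_surjective r
    obtain ⟨c, hc, hcy⟩ := resSurj_of_can hq D' hU h y hy
    rw [← res_of_mem hy, hcy]
    exact res_mem_resImage hc
  have hS₁t : S₁ ≤ Rt := fun r hr => by
    obtain ⟨a, ha, rfl⟩ := exists_of_mem_resImage hr
    exact res_mem_resImage (σ := T'.t.toRingHom) (a := M.b₀ a) ha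
  have hS₂s : S₂ ≤ Rs := fun r hr => by
    obtain ⟨a, ha, rfl⟩ := exists_of_mem_resImage hr
    exact res_mem_resImage (σ := T'.s.toRingHom) (a := M.b₀ a) ha
  have hS₁J : S₁ ≤ J := fun r hr => by
    obtain ⟨a, ha, rfl⟩ := exists_of_mem_resImage hr
    have e : (T'.t.comp M.b₀).toRingHom a = M.b₁.toRingHom (T.t a) := (M.comm_t a).symm
    rw [e] at ha ⊢
    exact res_mem_resImage ha
  have hS₂J : S₂ = J := by
    refine le_antisymm (fun r hr => ?_) fun r hr => ?_
    · obtain ⟨a, ha, rfl⟩ := exists_of_mem_resImage hr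
      have e : (T'.s.comp M.b₀).toRingHom a = M.b₁.toRingHom (T.s a) := (M.comm_s a).symm
      rw [e] at ha ⊢
      exact res_mem_resImage ha
    · obtain ⟨y, hy, rfl⟩ := exists_of_mem_resImage hr
      obtain ⟨c, hc, hyc⟩ := resSurj_of_can hq D.swap (isVertical_s hq D hV) ho y hy
      have e := (res_eq_iff_map M.b₁.toRingHom U hy hc).mp hyc
      have e2 : M.b₁.toRingHom (T.s c) = (T'.s.comp M.b₀).toRingHom c := M.comm_s c
      rw [e]
      show res U (M.b₁.toRingHom (T.s c)) ∈ S₂
      have hc' : (T'.s.comp M.b₀).toRingHom c ∈ U := e2 ▸ hc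
      rw [e2]
      exact res_mem_resImage hc'
  have hne : ¬ J ≤ S₁ := fun hle => by
    have hsu : M.b₁.toRingHom (T.s u) ∈ U := (isVertical_s hq D hV).u_mem.mem
    obtain ⟨z, hz, hzu⟩ := exists_of_mem_resImage (hle (res_mem_resImage hsu))
    have e : (T'.t.comp M.b₀).toRingHom z = M.b₁.toRingHom (T.t z) := (M.comm_t z).symm
    rw [e] at hz hzu
    have hzV : T.t z ∈ V := hz
    have h1 : res V (T.s u) = res V (T.t z) :=
      (res_eq_iff_map M.b₁.toRingHom U hsu hz).mpr hzu.symm
    rw [h1] at ho
    have hB := hV.comap T.t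
    refine res_pow_ne_res hq D hB (y := z) hzV ?_
    exact ((res_comap_eq_pow_iff (σ := T.t.toRingHom) q hV.u_mem.mem hzV).mpr ho).symm
  -- degrees over the images of the base
  have hb : U.comap T'.s.toRingHom = U.comap T'.t.toRingHom :=
    isVertical_base_unique hq D' ((isVertical_s hq D' hU).comap T'.s) (hU.comap T'.t)
  have hdeg : ∀ φ : G →ₐ[K] G₁, U.comap φ.toRingHom = U.comap T'.t.toRingHom →
      Subfield.relfinrank (resImage (φ.comp M.b₀).toRingHom U) (resImage φ.toRingHom U) =
        Module.finrank (resImage M.b₀.toRingHom (U.comap T'.t.toRingHom))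
          (IsLocalRing.ResidueField (U.comap T'.t.toRingHom)) := by
    intro φ hφ
    rw [← hφ, ← Subfield.relfinrank_top_right,
      ← Subfield.relfinrank_map_map _ _ (comapResidue φ.toRingHom U)]
    congr 1
    · ext r
      constructor
      · intro hr
        obtain ⟨a, ha, rfl⟩ := exists_of_mem_resImage hr
        refine Subfield.mem_map.mpr ⟨res (U.comap φ.toRingHom) (M.b₀ a), ?_, comapResidue_res ha⟩
        exact res_mem_resImage (σ := M.b₀.toRingHom) (U := U.comap φ.toRingHom) ha
      · intro hr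
        obtain ⟨z, hz, rfl⟩ := Subfield.mem_map.mp hr
        obtain ⟨a, ha, rfl⟩ := exists_of_mem_resImage hz
        rw [comapResidue_res (σ := φ.toRingHom) (y := M.b₀.toRingHom a) ha]
        exact res_mem_resImage (σ := (φ.comp M.b₀).toRingHom) (a := a) ha
    · exact (RingHom.fieldRange_eq_map _)
  set d₀ := Module.finrank (resImage M.b₀.toRingHom (U.comap T'.t.toRingHom))
    (IsLocalRing.ResidueField (U.comap T'.t.toRingHom))
  have hd₀ : 0 < d₀ := finrank_resImage_pos M.finite₀
  have h1 : Subfield.relfinrank S₁ Rt = d₀ := hdeg T'.t rfl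
  have h2 : Subfield.relfinrank S₂ Rs = d₀ := hdeg T'.s hb
  have h3 : Subfield.relfinrank S₁ J * Subfield.relfinrank J ⊤ = d₀ := by
    rw [Subfield.relfinrank_mul_relfinrank hS₁J le_top, ← h1, hRt]
  have h4 : d₀ * Subfield.relfinrank Rs ⊤ = Subfield.relfinrank J ⊤ := by
    rw [← h2, Subfield.relfinrank_mul_relfinrank hS₂s le_top, hS₂J]
  rw [← h4] at h3
  have h5 : Subfield.relfinrank S₁ J * Subfield.relfinrank Rs ⊤ = 1 :=
    Nat.eq_of_mul_eq_mul_left hd₀ (by rw [mul_one]; linear_combination h3)
  exact hne (Subfield.relfinrank_eq_one_iff.mp (Nat.eq_one_of_mul_eq_one_right h5))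

/-- The other branch is kept. -/
theorem TowerMap.oth_of_oth {U : ValuationSubring G₁} (hU : IsVertical W q (T'.t u') U)
    (h : res U (T'.t u') = res U (T'.s u') ^ q) :
    res (U.comap M.b₁.toRingHom) (T.t u) = res (U.comap M.b₁.toRingHom) (T.s u) ^ q :=
  M.swap.can_of_can hq D.swap D'.swap (isVertical_s hq D' hU) h

theorem TowerMap.isInf_comap {U : ValuationSubring G₂}
    (hU : IsVertical W q (T'.α (T'.t u')) U) (h : IsInf T' u' U) :
    IsInf T u (U.comap M.b₂.toRingHom) := by
  have h' : res (U.comap T'.α.toRingHom) (T'.s u') = res (U.comap T'.α.toRingHom) (T'.t u') ^ q :=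
    (res_comap_eq_pow_iff (σ := T'.α.toRingHom) q (isVertical_x₁ hq D' hU).u_mem.mem
      hU.u_mem.mem).mpr h
  have h1 := M.can_of_can hq D D' (hU.comap T'.α) h'
  have e : (U.comap T'.α.toRingHom).comap M.b₁.toRingHom =
      (U.comap M.b₂.toRingHom).comap T.α.toRingHom := by
    rw [ValuationSubring.comap_comap, ValuationSubring.comap_comap]
    exact congrArg U.comap (RingHom.ext fun x => (M.comm_α x).symm)
  have hV := M.isVertical₂ hq D D' hU
  rw [e] at h1
  exact (res_comap_eq_pow_iff (σ := T.α.toRingHom) q (isVertical_x₁ hq D hV).u_mem.mem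
    hV.u_mem.mem).mp h1

theorem TowerMap.isZero_comap {U : ValuationSubring G₂}
    (hU : IsVertical W q (T'.α (T'.t u')) U) (h : IsZero' T' u' U) :
    IsZero' T u (U.comap M.b₂.toRingHom) :=
  isInf_swap_iff.mp
    (M.swap.isInf_comap hq D.swap D'.swap (isVertical_swap_iff.mpr hU) (isInf_swap_iff.mpr h))

theorem TowerMap.not_inf_comap {U : ValuationSubring G₂}
    (hU : IsVertical W q (T'.α (T'.t u')) U) (h : IsMid T' u' U) :
    ¬ IsInf T u (U.comap M.b₂.toRingHom) := by
  intro hi
  have h1 := M.oth_of_oth hq D D' (hU.comap T'.α) (mid_comap_α hq D' hU h)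
  have e : (U.comap T'.α.toRingHom).comap M.b₁.toRingHom =
      (U.comap M.b₂.toRingHom).comap T.α.toRingHom := by
    rw [ValuationSubring.comap_comap, ValuationSubring.comap_comap]
    exact congrArg U.comap (RingHom.ext fun x => (M.comm_α x).symm)
  rw [e] at h1
  have hV := M.isVertical₂ hq D D' hU
  have h2 : res ((U.comap M.b₂.toRingHom).comap T.α.toRingHom) (T.s u) =
      res ((U.comap M.b₂.toRingHom).comap T.α.toRingHom) (T.t u) ^ q :=
    (res_comap_eq_pow_iff (σ := T.α.toRingHom) q (isVertical_x₁ hq D hV).u_mem.mem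
      hV.u_mem.mem).mpr hi
  exact level1_not_both hq D (hV.comap T.α) h2 h1

theorem TowerMap.isMid_comap {U : ValuationSubring G₂}
    (hU : IsVertical W q (T'.α (T'.t u')) U) (h : IsMid T' u' U) :
    IsMid T u (U.comap M.b₂.toRingHom) := by
  rcases level2_cases hq D (M.isVertical₂ hq D D' hU) with hi | hz | hm
  · exact absurd hi (M.not_inf_comap hq D D' hU h)
  · exact absurd (isInf_swap_iff.mpr hz) (M.swap.not_inf_comap hq D.swap D'.swap
      (isVertical_swap_iff.mpr hU) (isMid_swap_iff.mpr h))
  · exact hm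

/-- The components pull back to the components. -/
theorem TowerMap.comps (C : Comps W T u) (C' : Comps W T' u') :
    C'.VI.comap M.b₂.toRingHom = C.VI ∧ C'.V0.comap M.b₂.toRingHom = C.V0 ∧
      C'.Vm.comap M.b₂.toRingHom = C.Vm :=
  ⟨inf_unique hq D (M.isVertical₂ hq D D' C'.vI) (M.isInf_comap hq D D' C'.vI C'.inf) C.vI C.inf,
    zero_unique hq D (M.isVertical₂ hq D D' C'.v0) (M.isZero_comap hq D D' C'.v0 C'.zero) C.v0
      C.zero,
    mid_unique hq D (M.isVertical₂ hq D D' C'.vm) (M.isMid_comap hq D D' C'.vm C'.mid) C.vm C.mid⟩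

end FermatAgent.RTLift.Sq
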