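import Fermat.Agent.RTLift.Sq.Through
import Fermat.Agent.RTLift.Sq.Types
import Mathlib.RingTheory.Norm.Basic
import Mathlib.FieldTheory.IsAlgClosed.AlgebraicClosure

/-!
# The correspondence of two tower maps

For two maps `a, b` between towers, `corrOp f` is the norm along `a` of `b f`.  It multiplies
exponents by the degree of `a`, carries residual roots to residual roots, and the ratio of its
roots at a supersingular point is the product of ratios at supersingular points.
-/

set_option autoImplicit false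
set_option linter.unusedSectionVars false
set_option synthInstance.maxHeartbeats 100000
set_option maxHeartbeats 800000

noncomputable section

namespace FermatAgent.RTLift.Sq

open Polynomial IsLocalRing
open FermatAgent.BadRed.Carayol

variable {q : ℕ} [Fact q.Prime] {W K F F₁ F₂ G G₁ G₂ : Type*}
  [CommRing W] [IsDomain W] [IsDiscreteValuationRing W] [IsAlgClosed (IsLocalRing.ResidueField W)]
  [Field K] [CharZero K] [Algebra W K] [IsFractionRing W K]
  [Field F] [Field F₁] [Field F₂] [Algebra K F] [Algebra K F₁] [Algebra K F₂]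
  [Algebra W F] [Algebra W F₁] [Algebra W F₂]
  [IsScalarTower W K F] [IsScalarTower W K F₁] [IsScalarTower W K F₂]
  [Field G] [Field G₁] [Field G₂] [Algebra K G] [Algebra K G₁] [Algebra K G₂]
  [Algebra W G] [Algebra W G₁] [Algebra W G₂]
  [IsScalarTower W K G] [IsScalarTower W K G₁] [IsScalarTower W K G₂]
  {T : QTower q K F F₁ F₂} {T' : QTower q K G G₁ G₂} {u : F} {u' : G}
  (hq : maximalIdeal W = Ideal.span {(q : W)}) (D : ChartData W T u) (D' : ChartData W T' u')
  (a b : TowerMap W T T' u u')

/-- Valuation subrings are vertical when they are so after restriction. -/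
theorem isVertical_of_comap {L L' : Type*} [Field L] [Field L'] [Algebra K L] [Algebra K L']
    [Algebra W L] [Algebra W L'] [IsScalarTower W K L] [IsScalarTower W K L'] (σ : L →ₐ[K] L')
    {v : L} {U : ValuationSubring L'} (h : IsVertical W q v (U.comap σ.toRingHom)) :
    IsVertical W q (σ v) U where
  const_mem w := by
    rw [← map_algebraMap_const σ w]
    exact h.const_mem w
  q_mem := by
    rw [← map_natCast σ.toRingHom]
    exact (mem_nonunits_comap _ _).mp h.q_mem
  isUnitAt P hP := by
    rw [← map_aeval_const σ]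
    exact (isUnitAt_comap _ _).mp (h.isUnitAt P hP)

include hq D in
/-- Vertical valuation subrings with the same centre on the chart are equal. -/
theorem eq_of_centre (C : Comps W T u) {V V' : ValuationSubring F₂}
    (hV : IsVertical W q (T.α (T.t u)) V) (hV' : IsVertical W q (T.α (T.t u)) V')
    (h : ∀ x : chartRing W (T.α (T.t u)), (x : F₂) ∈ V.nonunits ↔ (x : F₂) ∈ V'.nonunits) :
    V = V' := by
  have hx₁ := mem_chartRing_of_evalTwo D.Φ D.monic D.root_α
  have hx₂ := mem_chartRing_of_evalTwo D.Φ D.monic D.root_β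
  have hz := self_mem_chartRing (W := W) (u := T.α (T.t u))
  have key : ∀ (k : ℕ) (x y : F₂), x ∈ chartRing W (T.α (T.t u)) → y ∈ chartRing W (T.α (T.t u)) →
      res V x = res V y ^ k → res V' x = res V' y ^ k := by
    intro k x y hx hy e
    rw [← res_pow (hV.chartRing_le hy), res_eq_iff (hV.chartRing_le hx)
      (hV.chartRing_le (pow_mem hy k))] at e
    rw [← res_pow (hV'.chartRing_le hy), res_eq_iff (hV'.chartRing_le hx)
      (hV'.chartRing_le (pow_mem hy k))]
    exact (h ⟨x - y ^ k, sub_mem hx (pow_mem hy k)⟩).mp e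
  rcases C.cases hq D hV with rfl | rfl | rfl
  · exact inf_unique hq D C.vI C.inf hV' (key q _ _ hx₁ hz C.inf)
  · exact zero_unique hq D C.v0 C.zero hV' (key q _ _ hx₂ hz C.zero)
  · exact mid_unique hq D C.vm C.mid hV' ⟨key q _ _ hz hx₁ C.mid.1, key q _ _ hz hx₂ C.mid.2⟩

include D in
/-- The map on the top fields is finite. -/
theorem TowerMap.finite₂ : letI := a.b₂.toRingHom.toAlgebra; Module.Finite F₂ G₂ := by
  have h0 : RingHom.Finite a.b₀.toRingHom := a.finite₀
  have h1 : RingHom.Finite T'.t.toRingHom := T'.finite_t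
  have h2 : RingHom.Finite T'.α.toRingHom := T'.finite_α
  have e : a.b₂.toRingHom.comp (T.α.toRingHom.comp T.t.toRingHom) =
      T'.α.toRingHom.comp (T'.t.toRingHom.comp a.b₀.toRingHom) := RingHom.ext fun x => by
    show a.b₂ (T.α (T.t x)) = T'.α (T'.t (a.b₀ x))
    rw [a.comm_α, a.comm_t]
  have h := h2.comp (h1.comp h0)
  rw [← e] at h
  exact RingHom.Finite.of_comp_finite h

/-- The degree of a tower map on the top fields. -/
def TowerMap.deg : ℕ :=
  letI := a.b₂.toRingHom.toAlgebra
  Module.finrank F₂ G₂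

/-- The norm along `a` of the image under `b`. -/
def corrOp : F₂ →* F₂ :=
  letI := a.b₂.toRingHom.toAlgebra
  (Algebra.norm F₂).comp (b.b₂ : F₂ →* G₂)

variable (K F₂) in
/-- The inclusion in an algebraic closure. -/
def toClosure : F₂ →ₐ[K] AlgebraicClosure F₂ :=
  IsScalarTower.toAlgHom K F₂ (AlgebraicClosure F₂)

include hq D D' in
/-- The correspondence as a product over embeddings. -/
theorem exists_embeddings (C : Comps W T u) (C' : Comps W T' u') :
    ∃ φ : Fin a.deg → F₂ →ₐ[K] AlgebraicClosure F₂,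
      (∀ f, toClosure K F₂ (corrOp a b f) = ∏ i, φ i f) ∧
      (∀ i, φ i (T.α (T.t u)) ∈ chartRing W (toClosure K F₂ (T.α (T.t u)))) ∧
      ∀ i (U : ValuationSubring (AlgebraicClosure F₂)),
        (U.comap (toClosure K F₂).toRingHom = C.VI → U.comap (φ i).toRingHom = C.VI) ∧
        (U.comap (toClosure K F₂).toRingHom = C.V0 → U.comap (φ i).toRingHom = C.V0) ∧
        (U.comap (toClosure K F₂).toRingHom = C.Vm → U.comap (φ i).toRingHom = C.Vm) := by
  classical
  let _ : Algebra F₂ G₂ := a.b₂.toRingHom.toAlgebra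
  have : Module.Finite F₂ G₂ := a.finite₂ D
  have : IsScalarTower K F₂ G₂ := IsScalarTower.of_algebraMap_eq fun c => (a.b₂.commutes c).symm
  have : CharZero F₂ := charZero_of_injective_algebraMap (algebraMap K F₂).injective
  let Ω := AlgebraicClosure F₂
  let s : (G₂ →ₐ[F₂] Ω) → (G₂ →ₐ[K] Ω) := fun σ => σ.restrictScalars K
  have hs : ∀ σ (x : F₂), s σ (a.b₂ x) = toClosure K F₂ x := fun σ x => σ.commutes x
  have hz : ∀ c : TowerMap W T T' u u',
      c.b₂ (T.α (T.t u)) = T'.α (T'.t (c.b₀ u)) := fun c => by rw [c.comm_α, c.comm_t]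
  have hza : T'.α (T'.t u') ∈ chartRing W (a.b₂ (T.α (T.t u))) := by
    rw [hz]; exact map_mem_chartRing (T'.α.comp T'.t) a.int'
  have haz : a.b₂ (T.α (T.t u)) ∈ chartRing W (T'.α (T'.t u')) := by
    rw [hz]; exact map_mem_chartRing (T'.α.comp T'.t) a.int
  obtain ⟨haI, ha0, ham⟩ := a.comps hq D D' C C'
  obtain ⟨hbI, hb0, hbm⟩ := b.comps hq D D' C C'
  let e : Fin a.deg ≃ (G₂ →ₐ[F₂] Ω) :=
    (Fintype.equivFinOfCardEq (AlgHom.card F₂ G₂ Ω)).symm
  refine ⟨fun i => (s (e i)).comp b.b₂,
    fun f => (Algebra.norm_eq_prod_embeddings F₂ Ω (b.b₂ f)).trans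
      (e.prod_comp fun σ : G₂ →ₐ[F₂] Ω => σ (b.b₂ f)).symm,
    fun i => ?_, fun i U => ?_⟩
  all_goals set σ := e i
  · have h1 : b.b₂ (T.α (T.t u)) ∈ chartRing W (a.b₂ (T.α (T.t u))) := by
      refine chartRing_le_chartRing hza ?_
      rw [hz]
      exact map_mem_chartRing (T'.α.comp T'.t) b.int
    have := map_mem_chartRing (s σ) h1
    rwa [hs] at this
  · have key : ∀ {X : ValuationSubring F₂}, IsVertical W q (T.α (T.t u)) X →
        U.comap (toClosure K F₂).toRingHom = X → U.comap ((s σ).comp b.b₂).toRingHom = X := by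
      intro X hX hU
      have e : (U.comap (s σ).toRingHom).comap a.b₂.toRingHom = X := by
        rw [ValuationSubring.comap_comap, ← hU]
        exact congrArg U.comap (RingHom.ext (hs σ))
      have hv := isVertical_of_integral (K := K) hq hza haz (isVertical_of_comap a.b₂ (e ▸ hX))
      show U.comap ((s σ).toRingHom.comp b.b₂.toRingHom) = X
      rw [← ValuationSubring.comap_comap]
      rcases C'.cases hq D' hv with h | h | h <;> rw [h] at e ⊢
      · exact hbI.trans (haI.symm.trans e)
      · exact hb0.trans (ha0.symm.trans e)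
      · exact hbm.trans (ham.symm.trans e)
    exact ⟨key C.vI, key C.v0, key C.vm⟩

/-- `V` is one of the three components. -/
def IsComp (C : Comps W T u) (V : ValuationSubring F₂) : Prop :=
  V = C.VI ∨ V = C.V0 ∨ V = C.Vm

theorem IsComp.isVertical {C : Comps W T u} {V : ValuationSubring F₂} (h : IsComp C V) :
    IsVertical W q (T.α (T.t u)) V := by
  rcases h with rfl | rfl | rfl
  exacts [C.vI, C.v0, C.vm]

include hq D in
theorem SSPoint.through_comp (x : SSPoint hq D) {C : Comps W T u} {V : ValuationSubring F₂}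
    (h : IsComp C V) : Through x.P V := by
  obtain ⟨h1, h2, h3⟩ := x.through C
  rcases h with rfl | rfl | rfl
  exacts [h1, h2, h3]

variable (C : Comps W T u) (C' : Comps W T' u')
include hq D D' C'

theorem hasExp_corrOp {V : ValuationSubring F₂} (hV : IsComp C V) {f : F₂} {k : ℤ}
    (hk : HasExp q V f k) : HasExp q V (corrOp a b f) ((a.deg : ℤ) * k) := by
  have hq0 := natCast_ne_zero₂ hq D
  obtain ⟨U, hU⟩ := exists_extension (toClosure K F₂).toRingHom V
  obtain ⟨φ, hprod, -, hφ⟩ := exists_embeddings hq D D' a b C C'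
  have he : ∀ i, HasExp q U (φ i f) k := fun i => by
    refine (hasExp_comap hq0).mp ?_
    rcases hV with rfl | rfl | rfl
    exacts [((hφ i U).1 hU).symm ▸ hk, ((hφ i U).2.1 hU).symm ▸ hk, ((hφ i U).2.2 hU).symm ▸ hk]
  rw [← hU]
  refine (hasExp_comap hq0).mpr ?_
  show HasExp q U (toClosure K F₂ (corrOp a b f)) _
  have hval : ∀ i, U.valuation (φ i f) = U.valuation (q : AlgebraicClosure F₂) ^ k := he
  rw [hprod, HasExp, map_prod, Finset.prod_congr rfl fun i _ => hval i, Finset.prod_const,
    Finset.card_univ, Fintype.card_fin, mul_comm, zpow_mul, zpow_natCast]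

theorem isRootOn_corrOp {V : ValuationSubring F₂} (hV : IsComp C V) {n : ℕ} {f h : F₂}
    (H : IsRootOn V n f h) : IsRootOn V n (corrOp a b f) (corrOp a b h) := by
  obtain ⟨U, hU⟩ := exists_extension (toClosure K F₂).toRingHom V
  obtain ⟨φ, hprod, -, hφ⟩ := exists_embeddings hq D D' a b C C'
  have he : ∀ i, IsRootOn U n (φ i f) (φ i h) := fun i => by
    refine (isRootOn_comap_iff (σ := (φ i).toRingHom)).mp ?_
    rcases hV with rfl | rfl | rfl
    exacts [((hφ i U).1 hU).symm ▸ H, ((hφ i U).2.1 hU).symm ▸ H, ((hφ i U).2.2 hU).symm ▸ H]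
  rw [← hU]
  refine isRootOn_comap_iff.mpr ?_
  show IsRootOn U n (toClosure K F₂ (corrOp a b f)) (toClosure K F₂ (corrOp a b h))
  rw [hprod, hprod]
  classical
  induction (Finset.univ : Finset (Fin a.deg)) using Finset.induction_on with
  | empty => simpa using isRootOn_one
  | insert i s hi ih => simp only [Finset.prod_insert hi]; exact (he i).mul ih

/-- The supersingular points below a point, and the ratios of the correspondence there. -/
theorem exists_points (x : SSPoint hq D) :
    ∃ pts : Fin a.deg → SSPoint hq D, ∀ (V V' : ValuationSubring F₂), IsComp C V → IsComp C V' →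
      ∀ {n : ℕ}, 0 < n → ∀ (f h h' : F₂) (r : Fin a.deg → IsLocalRing.ResidueField W)
        (r₀ : IsLocalRing.ResidueField W),
        (∀ i, (pts i).Ratio V V' n f h h' (r i)) →
        x.Ratio V V' n (corrOp a b f) (corrOp a b h) (corrOp a b h') r₀ → r₀ = ∏ i, r i := by
  obtain ⟨φ, hprod, hloc, hφ⟩ := exists_embeddings hq D D' a b C C'
  let ι := toClosure K F₂
  set z := T.α (T.t u)
  obtain ⟨P', hP', hqP', hPP, hlift⟩ := exists_point_over ι hq x.P x.mem
  have hlift' : ∀ {V : ValuationSubring F₂}, IsComp C V → ∃ U : ValuationSubring (AlgebraicClosure F₂),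
      IsVertical W q (ι z) U ∧ Through P' U ∧ U.comap ι.toRingHom = V := by
    intro V hV
    obtain ⟨U, hU, hUT, hc⟩ := hlift V hV.isVertical (x.through_comp hq D hV)
    exact ⟨U, hU, hUT, eq_of_centre hq D C (hU.comap ι) hV.isVertical hc⟩
  have hA : ∀ {U : ValuationSubring (AlgebraicClosure F₂)}, IsVertical W q (ι z) U →
      ∀ w : chartRing W (ι z), (w : AlgebraicClosure F₂) ∈ U := fun hU w => hU.chartRing_le w.2
  have hmem : ∀ i, ∀ w : chartRing W z, φ i (w : F₂) ∈ chartRing W (ι z) := fun i w =>
    chartRing_le_chartRing (hloc i) (map_mem_chartRing (φ i) w.2)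
  -- the point below along each embedding
  let rest : ∀ i, chartRing W z →+* chartRing W (ι z) := fun i =>
    { toFun := fun w => ⟨φ i w, hmem i w⟩
      map_one' := Subtype.ext (map_one _)
      map_mul' := fun v w => Subtype.ext (map_mul (φ i) (v : F₂) (w : F₂))
      map_zero' := Subtype.ext (map_zero _)
      map_add' := fun v w => Subtype.ext (map_add (φ i) (v : F₂) (w : F₂)) }
  let ev : ∀ _i : Fin a.deg, chartRing W z →+* IsLocalRing.ResidueField W := fun i =>
    { toFun := fun w => pval hq hqP' (rest i w : AlgebraicClosure F₂)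
      map_one' := by rw [map_one]; exact pval_one hq hqP'
      map_mul' := fun v w => by
        rw [map_mul]
        exact pval_mul hq hqP' (chartRing_le_locRing P' (rest i v).2)
          (chartRing_le_locRing P' (rest i w).2)
      map_zero' := by rw [map_zero]; exact pval_zero hq hqP'
      map_add' := fun v w => by
        rw [map_add]
        exact pval_add hq hqP' (chartRing_le_locRing P' (rest i v).2)
          (chartRing_le_locRing P' (rest i w).2) }
  have hev : ∀ i, Function.Surjective (ev i) := fun i r => by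
    obtain ⟨w, rfl⟩ := residue_surjective r
    refine ⟨algebraMap W (chartRing W z) w, ?_⟩
    show pval hq hqP' (φ i (algebraMap W F₂ w)) = _
    rw [map_algebraMap_const, pval_const]
  let Q : Fin a.deg → Ideal (chartRing W z) := fun i => RingHom.ker (ev i)
  have hQmax : ∀ i, (Q i).IsMaximal := fun i => RingHom.ker_isMaximal_of_surjective _ (hev i)
  have hqQ : ∀ i, (q : chartRing W z) ∈ Q i := fun i => by
    show pval hq hqP' (φ i ((q : chartRing W z) : F₂)) = 0
    rw [show ((q : chartRing W z) : F₂) = (q : F₂) from map_natCast (chartRing W z).val q,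
      map_natCast, pval_natCast_q]
  have hPi : ∀ i (w : chartRing W z), w ∈ Q i → InMax P' (φ i w) := fun i w hw =>
    (pval_eq_zero_iff hq hqP' (chartRing_le_locRing P' (hmem i w))).mp hw
  have hli : ∀ i (w : chartRing W z), Loc (ι z) P' (φ i w) := fun i w =>
    chartRing_le_locRing P' (hmem i w)
  have hthrough : ∀ i {V : ValuationSubring F₂}, IsComp C V → Through (Q i) V := by
    intro i V hV
    have := hQmax i
    obtain ⟨U, hU, hUT, hc⟩ := hlift' hV
    have e : U.comap (φ i).toRingHom = V := by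
      rcases hV with rfl | rfl | rfl
      exacts [(hφ i U).1 hc, (hφ i U).2.1 hc, (hφ i U).2.2 hc]
    rw [← e]
    exact through_comap (φ i) (hli i) (hPi i) (hA hU) hUT
  let pts : Fin a.deg → SSPoint hq D := fun i => ⟨Q i, hQmax i, hqQ i,
    letI := hQmax i
    isSSPt_of_inf hq D (hqQ i) C.vI (hthrough i (Or.inl rfl)) C.inf C.vm
      (hthrough i (Or.inr (Or.inr rfl))) C.mid.1⟩
  refine ⟨pts, fun V V' hV hV' n hn f h h' r r₀ H H₀ => ?_⟩
  obtain ⟨U, hU, hUT, hc⟩ := hlift' hV
  obtain ⟨U', hU', hUT', hc'⟩ := hlift' hV'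
  have hcomap : ∀ i {X : ValuationSubring F₂} {Y : ValuationSubring (AlgebraicClosure F₂)},
      IsComp C X → Y.comap ι.toRingHom = X → Y.comap (φ i).toRingHom = X := by
    intro i X Y hX hY
    rcases hX with rfl | rfl | rfl
    exacts [(hφ i Y).1 hY, (hφ i Y).2.1 hY, (hφ i Y).2.2 hY]
  have h1 : ∀ i, RatioAt hq P' hqP' U U' n (φ i f) (φ i h) (φ i h') (r i) := fun i => by
    refine RatioAt.map (P := (pts i).P) (hqP := (pts i).mem) hq (φ i)
      (hli i) (hPi i) (hA hU) (hA hU') hUT hUT' ?_
    rw [hcomap _ hV hc, hcomap _ hV' hc']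
    exact H i
  have h2 : RatioAt hq P' hqP' U U' n (ι (corrOp a b f)) (ι (corrOp a b h)) (ι (corrOp a b h'))
      r₀ := by
    refine RatioAt.map (P := x.P) (hqP := x.mem) hq ι
      (fun w => chartRing_le_locRing P' (map_mem_chartRing ι w.2))
      (fun w hw => inMax_of_mem (hPP w hw)) (hA hU) (hA hU') hUT hUT' ?_
    rw [hc, hc']
    exact H₀
  have h3 := RatioAt.prod hq hU hUT hU' hUT' Finset.univ (fun i _ => h1 i)
  rw [← hprod, ← hprod, ← hprod] at h3
  exact RatioAt.unique hq hU hUT hU' hUT' hn h2 h3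

end FermatAgent.RTLift.Sq
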