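import Fermat.Agent.RTLift.Sq.Balanced
import Fermat.Agent.BadRed.Carayol.Main

/-!
# An eigen function without eigen systems is a constant times an `n`-th power

The abstract descent at `q ^ 2`: no exponent is lost, whatever the relation of `n` with
`(q - 1) * (q + 1)`.
-/

set_option autoImplicit false
set_option maxHeartbeats 1600000

noncomputable section

namespace FermatAgent.RTLift.Sq

open Polynomial IsLocalRing
open FermatAgent.BadRed.Carayol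

variable {q : ℕ} [Fact q.Prime] {W K F F₁ F₂ : Type*}
  [CommRing W] [IsDomain W] [IsDiscreteValuationRing W] [IsAlgClosed (IsLocalRing.ResidueField W)]
  [Field K] [CharZero K] [Algebra W K] [IsFractionRing W K]
  [Field F] [Field F₁] [Field F₂] [Algebra K F] [Algebra K F₁] [Algebra K F₂]
  [Algebra W F] [Algebra W F₁] [Algebra W F₂]
  [IsScalarTower W K F] [IsScalarTower W K F₁] [IsScalarTower W K F₂]
  {T : QTower q K F F₁ F₂} {u : F}
  (hq : maximalIdeal W = Ideal.span {(q : W)}) (D : ChartData W T u) (D₁ : ChartData W T u⁻¹)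
  {ι : Type*} {G G₁ G₂ : ι → Type*} [∀ i, Field (G i)] [∀ i, Field (G₁ i)] [∀ i, Field (G₂ i)]
  [∀ i, Algebra K (G i)] [∀ i, Algebra K (G₁ i)] [∀ i, Algebra K (G₂ i)]
  [∀ i, Algebra W (G i)] [∀ i, Algebra W (G₁ i)] [∀ i, Algebra W (G₂ i)]
  [∀ i, IsScalarTower W K (G i)] [∀ i, IsScalarTower W K (G₁ i)] [∀ i, IsScalarTower W K (G₂ i)]
  {T' : ∀ i, QTower q K (G i) (G₁ i) (G₂ i)} {u' : ∀ i, G i}
  (D' : ∀ i, ChartData W (T' i) (u' i))
  (C : Comps W T u) (C' : ∀ i, Comps W (T' i) (u' i))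
  (A B : ∀ i, TowerMap W T (T' i) u (u' i)) (e : ι → ℕ)

include hq D D₁ D' C' in
/-- **Descent without loss of exponents.** -/
theorem exists_eq_const_mul_pow_of_no_eigen [Nonempty ι]
    (hconst : ∀ x : F₂, IsAlgebraic K x → x ∈ Set.range (algebraMap K F₂))
    (h0 : (0 : W) ∈ D₁.cusps) {n : ℕ} (hn : 0 < n) (hqn : ¬ q ∣ n) {f : F₂} (hf : f ≠ 0)
    (hdiv : DivisibleOn K f n)
    (hα : ∃ (c : K) (g : F₁), T.normα f = algebraMap K F₁ c * g ^ n)
    (hβ : ∃ (c : K) (g : F₁), T.normβ f = algebraMap K F₁ c * g ^ n)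
    (hrel : ∀ i, ∃ (k : K) (w : F₂), k ≠ 0 ∧ w ≠ 0 ∧
      corrOp (A i) (B i) f = algebraMap K F₂ k * f ^ e i * w ^ n)
    (hdeg : ∃ i, IsCoprime (n : ℤ) (((A i).deg : ℤ) - e i))
    (hno : NoEigenSystem n hq D D' C' A B e C)
    (hmid : (q - 1).Coprime n ∨ ∃ T₀ : ι → F → F, MidInput W q u T₀ e n ∧
      ∀ i x, corrOp (A i) (B i) (T.α (T.s x)) = T.α (T.s (T₀ i x))) :
    ∃ (c : K) (y : F₂), c ≠ 0 ∧ f = algebraMap K F₂ c * y ^ n := by
  have hqp : q.Prime := Fact.out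
  obtain ⟨i₀, hi₀⟩ := hdeg
  obtain ⟨k₀, w₀, hk₀, hw₀, hki₀⟩ := hrel i₀
  obtain ⟨c, π, hc, hπ, ⟨N⟩⟩ := exists_normal_of_eigen hq D (D' i₀) (A i₀) (B i₀) C (C' i₀) hn hf hk₀
    hw₀ hki₀ hi₀ hdiv hα hβ
  set f' := f * algebraMap K F₂ c * π ^ n
  have hrel' : ∀ i, ∃ (k : K) (w : F₂), k ≠ 0 ∧ w ≠ 0 ∧
      corrOp (A i) (B i) f' = algebraMap K F₂ k * f' ^ e i * w ^ n := fun i => by
    obtain ⟨k, w, hk, hw, hki⟩ := hrel i
    have hπ' : corrOp (A i) (B i) π ≠ 0 := by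
      let _ : Algebra F₂ (G₂ i) := (A i).b₂.toRingHom.toAlgebra
      have : Module.Finite F₂ (G₂ i) := (A i).finite₂ D
      exact Algebra.norm_ne_zero_iff.mpr
        ((map_ne_zero_iff (B i).b₂ (B i).b₂.toRingHom.injective).mpr hπ)
    refine ⟨k * (c ^ (A i).deg / c ^ e i), w * (corrOp (A i) (B i) π / π ^ e i),
      mul_ne_zero hk (div_ne_zero (pow_ne_zero _ hc) (pow_ne_zero _ hc)),
      mul_ne_zero hw (div_ne_zero hπ' (pow_ne_zero _ hπ)), ?_⟩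
    have hc' : algebraMap K F₂ c ≠ 0 := (_root_.map_ne_zero _).mpr hc
    simp only [f', map_mul, map_pow, corrOp_const hq D (D' i) (A i) (B i), hki, map_div₀, mul_pow,
      div_pow]
    rw [pow_right_comm π]
    field_simp
  have hroot : Nonempty (RootSet N) := by
    obtain ⟨hI, hIm, hIr⟩ := exists_root_inf hq D hn hqn N
    obtain ⟨h₀, h₀m, h₀r⟩ := exists_root_inf hq D.swap hn hqn N.swap
    obtain ⟨hm, hmm, hmr⟩ : ∃ h : F₂, h ∈ C.Vm ∧
        res C.Vm h ^ n = res C.Vm (f' / (q : F₂) ^ ((n : ℤ) * N.dm)) := by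
      rcases hmid with hco | ⟨T₀, hin, hcomm⟩
      · exact exists_root_mid_of_coprime hq D hn hqn hco N
      · exact exists_root_mid_of_input hq D D₁ D' C' A B T₀ e hn N hin hcomm hrel'
    exact ⟨⟨hI, h₀, hm, hIm, h₀m, hmm, hIr, h₀r, hmr⟩⟩
  obtain ⟨R⟩ := hroot
  obtain ⟨N', R', hbal, hbal'⟩ :=
    exists_balanced_of_no_eigen hq D D₁ D' C' A B e hn h0 R hrel' hno
  have hnu : IsUnit (n : W) := by
    have := charP_residue hq D
    by_contra h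
    have h1 : residue W (n : W) = 0 := (residue_eq_zero_iff _).mpr h
    rw [map_natCast, CharP.cast_eq_zero_iff _ q] at h1
    exact hqn h1
  obtain ⟨y₀, hy₀, hy₀'⟩ := exists_section hq D hn hnu R' hbal
  obtain ⟨y₁, hy₁, hy₁'⟩ := exists_section hq D₁ hn hnu (R'.inv hq D) hbal'
  have hy₁s : y₁ ∈ (R'.frame hq D hn hnu).sections {(T.α (T.t u))⁻¹} := by
    rw [show (T.α (T.t u))⁻¹ = T.α (T.t u⁻¹) by rw [map_inv₀, map_inv₀]]
    exact hy₁
  obtain ⟨c₂, y, hc₂, hy⟩ := (R'.frame hq D hn hnu).exists_global_root hq hconst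
    ⟨y₀, hy₀, hy₀'⟩ ⟨y₁, hy₁s, hy₁'⟩
  refine ⟨c⁻¹ * c₂⁻¹, y / π, mul_ne_zero (inv_ne_zero hc) (inv_ne_zero hc₂), ?_⟩
  have h1 : algebraMap K F₂ c ≠ 0 := (_root_.map_ne_zero _).mpr hc
  have h2 : algebraMap K F₂ c₂ ≠ 0 := (_root_.map_ne_zero _).mpr hc₂
  rw [div_pow, hy, map_mul, map_inv₀, map_inv₀]
  simp only [f']
  field_simp

end FermatAgent.RTLift.Sq
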