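import Fermat.Agent.RTLift.Sq.Main
import Fermat.Agent.RTLift.Sq.Two.Main

/-!
# Lowering the level to a squarefree one, from the toric input at odd primes
-/

set_option autoImplicit false

noncomputable section

namespace FermatAgent.RTLift.Sq

open FermatAgent.BadRed.Carayol.Instance (inertiaRing)
open FermatAgent.BadRed.Semistable (place₀ liesOverPrime_place₀)

/-- **Lowering the level to a squarefree one**, given the toric input at odd primes. -/
theorem sqLoweringStep_of_toric
    (hT : ∀ (q : ℕ) [Fact q.Prime] [NeZero q] [IsDiscreteValuationRing (inertiaRing (place₀ q))],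
      ¬ 2 ∣ q → ToricRootsInput q (place₀ q) (liesOverPrime_place₀ q)) :
    Finish.SqLoweringStep :=
  sqLoweringStep_of hT fun W hW N hN hN2 h => by
    have : NeZero N := ⟨hN⟩
    rw [show N * 2 * 2 = 4 * N by ring] at h
    rw [show N * 2 = 2 * N by ring]
    exact Two.isResiduallyModularOfLevel_two_mul hW hN2 h

end FermatAgent.RTLift.Sq
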