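import Fermat.Agent.RTLift.Sq.SS
import Fermat.Agent.BadRed.Carayol.Assembly.Kill

/-!
# Statement of the toric input

`ToricRootsInput q A`: every system of `p`-th roots of unity on the supersingular points of level
`Lq²` is, up to a constant factor, the system of ratios of a function pulled back from level `Lq`.
-/

set_option autoImplicit false
set_option maxHeartbeats 1600000

noncomputable section

namespace FermatAgent.RTLift.Sq

open FermatAgent.BadRed.Carayol
open FermatAgent.BadRed.Carayol.Instance (LevelField inertiaRing maximalIdeal_inertiaRing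
  isAlgClosed_residue_inertiaRing)
open FermatAgent.MazurPrinciple (inertiaField)

local notation "ℚbar" => AlgebraicClosure ℚ

variable (q : ℕ) [Fact q.Prime] [NeZero q] (A : ValuationSubring ℚbar)

/-- Ratios of functions from level `Lq` exhaust the systems of roots of unity. -/
def ToricRootsInput (hA : A.LiesOverPrime q) [IsDiscreteValuationRing (inertiaRing A)] : Prop :=
  letI := isAlgClosed_residue_inertiaRing (Fact.out : q.Prime) hA
  ∀ (L : ℕ) [NeZero L] (hqL : ¬ q ∣ L), coordLevel q ∣ L →
    ∀ (u : LevelField (inertiaField A) L)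
      (D : ChartData (inertiaRing A) (Instance.tower (inertiaField A) L hqL) u)
      (C : Comps (inertiaRing A) (Instance.tower (inertiaField A) L hqL) u)
      (p : ℕ), p.Prime → p ≠ q →
    u ∈ chartRing (inertiaRing A) (FermatAgent.ModFun.jBar (inertiaField A) L) →
    u⁻¹ ∈ chartRing (inertiaRing A) (FermatAgent.ModFun.jBar (inertiaField A) L) →
    (∃ k : ℕ, Polynomial.aeval u (∏ a ∈ D.cusps, (Polynomial.X - Polynomial.C a)) ^ k *
      FermatAgent.ModFun.jBar (inertiaField A) L ∈ chartRing (inertiaRing A) u) →
    (0 : inertiaRing A) ∈ D.cusps →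
    (∃ s : LaurentSeries ℤ, Instance.PoleLE 1 s ∧ s.coeff (-1) = 1 ∧
      (u : LaurentSeries (inertiaField A)) =
        ModularCurve.coeffMap (Int.castRingHom (inertiaField A)) s) →
    ∀ c : SSPoint (maximalIdeal_inertiaRing (Fact.out : q.Prime) hA) D →
        IsLocalRing.ResidueField (inertiaRing A), (∀ x, c x ^ p = 1) →
      ∃ g : LevelField (inertiaField A) (L * q), g ≠ 0 ∧ DivisibleOn (inertiaField A) g p ∧
        ∃ (R : Roots C p ((Instance.tower (inertiaField A) L hqL).α g))
          (r : IsLocalRing.ResidueField (inertiaRing A)), r ≠ 0 ∧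
          ∀ x : SSPoint (maximalIdeal_inertiaRing (Fact.out : q.Prime) hA) D, x.Ratio C.VI C.V0 p ((Instance.tower (inertiaField A) L hqL).α g) R.hI R.h₀ (r * c x)

end FermatAgent.RTLift.Sq
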