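import Fermat.Agent.RTLift.Finish.Interface
import Mathlib.Data.Nat.Squarefree

/-!
# From one square at a time to a squarefree level

The level is kept in the shape `4 m` with `m` odd: the squares of odd primes are removed first,
the square of `2` last.
-/

set_option autoImplicit false

namespace FermatAgent.RTLift.Sq

open WeierstrassCurve

/-- The combinatorics of the steps. -/
theorem exists_squarefree_of_steps (W : WeierstrassCurve ℤ) {p : ℕ} (hp : p ≠ 2)
    (hmono : ∀ M M' : ℕ, M ≠ 0 → M' ≠ 0 → M ∣ M' →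
      W.IsResiduallyModularOfLevel p M → W.IsResiduallyModularOfLevel p M')
    (hodd : ∀ L q : ℕ, L ≠ 0 → q.Prime → q ≠ p → ¬ 2 ∣ q → ¬ q ∣ L → 4 ∣ L →
      W.IsResiduallyModularOfLevel p (L * q * q) → W.IsResiduallyModularOfLevel p (L * q))
    (htwo : ∀ N : ℕ, N ≠ 0 → ¬ 2 ∣ N →
      W.IsResiduallyModularOfLevel p (N * 2 * 2) → W.IsResiduallyModularOfLevel p (N * 2))
    {M₀ : ℕ} (h0 : M₀ ≠ 0) (hM₀ : W.IsResiduallyModularOfLevel p M₀) (hpp : ¬ p ^ 2 ∣ M₀)
    (hcube : ∀ q : ℕ, q.Prime → q ≠ p → ¬ q ^ 3 ∣ M₀) :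
    ∃ M : ℕ, Squarefree M ∧ W.IsResiduallyModularOfLevel p M := by
  obtain ⟨e, m, hm2, rfl⟩ := Nat.exists_eq_pow_mul_and_not_dvd h0 2 (by norm_num)
  have he : e ≤ 2 := by
    by_contra h
    exact hcube 2 Nat.prime_two (fun h => hp h.symm) (Dvd.dvd.mul_right (pow_dvd_pow 2 (by omega)) m)
  have hm0 : m ≠ 0 := fun h => h0 (by rw [h, mul_zero])
  have h4 : W.IsResiduallyModularOfLevel p (m * 2 * 2) :=
    hmono _ _ h0 (by omega) (by
      rw [mul_assoc, mul_comm m]
      exact Nat.mul_dvd_mul_right (by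
        rw [show 2 * 2 = 2 ^ 2 by norm_num]; exact pow_dvd_pow 2 he) m) hM₀
  have hpm : ¬ p ^ 2 ∣ m := fun h => hpp (h.mul_left _)
  have hcm : ∀ q : ℕ, q.Prime → q ≠ p → ¬ q ^ 3 ∣ m := fun q hq hqp h => hcube q hq hqp (h.mul_left _)
  clear hM₀ hpp hcube h0 he
  induction m using Nat.strong_induction_on with
  | _ m ih =>
    by_cases hsf : Squarefree m
    · exact ⟨m * 2, (Nat.squarefree_mul (Nat.Coprime.symm
        (Nat.prime_two.coprime_iff_not_dvd.mpr hm2))).mpr ⟨hsf, Nat.prime_two.squarefree⟩,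
        htwo m hm0 hm2 h4⟩
    · obtain ⟨q, hq, hqq⟩ : ∃ q : ℕ, q.Prime ∧ q * q ∣ m := by
        by_contra h
        exact hsf (Nat.squarefree_iff_prime_squarefree.mpr fun q hq hqq => h ⟨q, hq, hqq⟩)
      obtain ⟨N, rfl⟩ := hqq
      have hN0 : N ≠ 0 := fun h => hm0 (by rw [h, mul_zero])
      have hqp : q ≠ p := fun h => hpm (h ▸ ⟨N, by rw [sq]⟩)
      have hq2 : ¬ 2 ∣ q := fun h => hm2 (h.trans (dvd_mul_of_dvd_left (dvd_mul_right q q) N))
      have hN2 : ¬ 2 ∣ q * N := fun h => hm2 (by rw [mul_assoc]; exact h.mul_left q)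
      have hqN : ¬ q ∣ N := fun h => hcm q hq hqp (by
        rw [show q ^ 3 = q * q * q by ring]; exact mul_dvd_mul_left _ h)
      have hq4 : ¬ q ∣ N * 2 * 2 := fun h => by
        rcases hq.dvd_mul.mp h with h | h
        · exact (hq.dvd_mul.mp h).elim hqN fun h =>
            hq2 (((Nat.prime_dvd_prime_iff_eq hq Nat.prime_two).mp h).symm ▸ dvd_rfl)
        · exact hq2 (((Nat.prime_dvd_prime_iff_eq hq Nat.prime_two).mp h).symm ▸ dvd_rfl)
      have h4' : W.IsResiduallyModularOfLevel p (N * 2 * 2 * q * q) := by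
        rwa [show N * 2 * 2 * q * q = q * q * N * 2 * 2 by ring]
      have hstep := hodd _ q (by omega) hq hqp hq2 hq4 ⟨N, by ring⟩ h4'
      rw [show N * 2 * 2 * q = q * N * 2 * 2 by ring] at hstep
      refine ih (q * N) ?_ hN2 (mul_ne_zero hq.ne_zero hN0) hstep
        (fun h => hpm (by rw [mul_assoc]; exact h.mul_left q))
        fun r hr hrp h => hcm r hr hrp (by rw [mul_assoc]; exact h.mul_left q)
      rw [mul_assoc q q N]
      exact lt_mul_left (Nat.pos_of_ne_zero (mul_ne_zero hq.ne_zero hN0)) hq.one_lt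

end FermatAgent.RTLift.Sq
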