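import Fermat.Agent.RTLift.Sq.Normal
import Fermat.Agent.BadRed.Carayol.Inv

/-!
# The residual roots of a normalised eigen function

At the two ends roots always exist.  In the middle the residue lives on the base: its orders are
divisible by `n`, and it satisfies the eigen relations of the base.
-/

set_option autoImplicit false
set_option linter.unusedSectionVars false
set_option maxHeartbeats 800000

noncomputable section

namespace FermatAgent.RTLift.Sq

open Polynomial IsLocalRing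
open FermatAgent.BadRed.Carayol

section Input

variable (W : Type*) [CommRing W] [IsLocalRing W] {F : Type*} [Field F] [Algebra W F]

/-- A residue on the base whose orders are divisible by `n` and which satisfies the eigen
relations is an `n`-th power. -/
def MidInput (q : ℕ) (u : F) {ι : Type*} (T₀ : ι → F → F) (e : ι → ℕ) (n : ℕ) : Prop :=
  ∀ U : ValuationSubring F, IsVertical W q u U → ∀ r : F, IsUnitAt U r →
    (∀ O : ValuationSubring (IsLocalRing.ResidueField U), (∀ w : W, res U (algebraMap W F w) ∈ O) →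
      ∃ g, O.valuation (res U r) = O.valuation g ^ n) →
    (∀ i, ∃ g : IsLocalRing.ResidueField U, res U (T₀ i r) = res U r ^ e i * g ^ n) →
    ∃ g : IsLocalRing.ResidueField U, res U r = g ^ n

end Input

variable {q : ℕ} [Fact q.Prime] {W K F F₁ F₂ G G₁ G₂ : Type*}
  [CommRing W] [IsDomain W] [IsDiscreteValuationRing W] [IsAlgClosed (IsLocalRing.ResidueField W)]
  [Field K] [CharZero K] [Algebra W K] [IsFractionRing W K]
  [Field F] [Field F₁] [Field F₂] [Algebra K F] [Algebra K F₁] [Algebra K F₂]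
  [Algebra W F] [Algebra W F₁] [Algebra W F₂]
  [IsScalarTower W K F] [IsScalarTower W K F₁] [IsScalarTower W K F₂]
  [Field G] [Field G₁] [Field G₂] [Algebra K G] [Algebra K G₁] [Algebra K G₂]
  [Algebra W G] [Algebra W G₁] [Algebra W G₂]
  [IsScalarTower W K G] [IsScalarTower W K G₁] [IsScalarTower W K G₂]
  {T : QTower q K F F₁ F₂} {u : F} {C : Comps W T u} {n : ℕ} {f : F₂}
  (hq : maximalIdeal W = Ideal.span {(q : W)}) (D : ChartData W T u)
include hq D

/-- The middle residue field is that of the base. -/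
theorem comapResidue_mid_bijective :
    Function.Bijective (comapResidue (T.α.comp T.s).toRingHom C.Vm) := by
  refine ⟨(comapResidue _ C.Vm).injective, fun x => ?_⟩
  obtain ⟨⟨y, hy⟩, rfl⟩ := residue_surjective x
  obtain ⟨c, hc, hyc⟩ := exists_rep hq D (T.α.comp T.s) (isVertical_x₁ hq D C.vm)
    (rational_mid hq D C.vm C.mid) hy
  exact ⟨res (C.Vm.comap (T.α.comp T.s).toRingHom) c,
    (comapResidue_res hc).trans (hyc.symm.trans (res_of_mem hy))⟩

/-- The middle residue has orders divisible by `n` where the coordinate is integral. -/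
theorem exists_valuation_mid (hn : 0 < n) (N : Normal C n f)
    (O : ValuationSubring (IsLocalRing.ResidueField C.Vm))
    (hc : ∀ w : W, res C.Vm (algebraMap W F₂ w) ∈ O)
    (hz : res C.Vm (T.α (T.t u)) ∈ O) :
    ∃ g, O.valuation (res C.Vm (f / (q : F₂) ^ ((n : ℤ) * N.dm))) = O.valuation g ^ n := by
  set z := T.α (T.t u)
  have hV : IsVertical W q z C.Vm := C.vm
  -- the residues of the chart lie in `O`
  let φ : chartRing W z →+* IsLocalRing.ResidueField C.Vm :=
    (residue C.Vm).comp (((chartRing W z).val.toRingHom).codRestrict C.Vm.toSubring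
      fun x => hV.chartRing_le x.2)
  have hφ : ∀ x : chartRing W z, φ x = res C.Vm (x : F₂) := fun x => (res_of_mem _).symm
  have hO : ∀ x : chartRing W z, φ x ∈ O := by
    intro x
    obtain ⟨p, hp, hpx⟩ := mem_chartRing_iff.mp x.2
    have hA : ∀ a : Algebra.adjoin W ({z} : Set F₂), ((a : F₂) ∈ C.Vm) ∧ res C.Vm (a : F₂) ∈ O := by
      rintro ⟨a, ha⟩
      induction ha using Algebra.adjoin_induction with
      | mem y hy => rw [Set.mem_singleton_iff] at hy; subst hy; exact ⟨hV.u_mem.mem, hz⟩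
      | algebraMap w => exact ⟨hV.const_mem w, hc w⟩
      | add a b _ _ iha ihb =>
        exact ⟨add_mem iha.1 ihb.1, by rw [res_add iha.1 ihb.1]; exact add_mem iha.2 ihb.2⟩
      | mul a b _ _ iha ihb =>
        exact ⟨mul_mem iha.1 ihb.1, by rw [res_mul iha.1 ihb.1]; exact mul_mem iha.2 ihb.2⟩
    let ψ : Algebra.adjoin W ({z} : Set F₂) →+* O :=
      RingHom.codRestrict ((residue C.Vm).comp
        (((Algebra.adjoin W ({z} : Set F₂)).val.toRingHom).codRestrict C.Vm.toSubring
          fun a => (hA a).1)) O.toSubring fun a => by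
        show residue C.Vm ⟨(a : F₂), _⟩ ∈ O
        rw [← res_of_mem]; exact (hA a).2
    have hint : IsIntegral O (φ x) := by
      refine ⟨p.map ψ, hp.map _, ?_⟩
      rw [eval₂_map]
      obtain ⟨-, h⟩ := res_eval₂ (V := C.Vm) (algebraMap _ F₂) (fun a => (hA a).1) (hV.chartRing_le x.2) p
      rw [hφ]
      refine Eq.trans ?_ (h.symm.trans (by rw [hpx, res_zero]))
      exact eval₂_congr (RingHom.ext fun a => rfl) rfl rfl
    obtain ⟨y, hy⟩ := (IsIntegrallyClosed.isIntegral_iff (R := O)).mp hint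
    rw [← hy]; exact y.2
  -- a point below the centre
  let φO : chartRing W z →+* O := φ.codRestrict O.toSubring hO
  let 𝔭 : Ideal (chartRing W z) := (maximalIdeal O).comap φO
  have h𝔭 : 𝔭 ≠ ⊤ := (Ideal.IsPrime.comap φO).ne_top
  obtain ⟨P, hP, hle⟩ := Ideal.exists_le_maximal 𝔭 h𝔭
  have hqP : (q : chartRing W z) ∈ P := hle (by
    rw [Ideal.mem_comap, show φO (q : chartRing W z) = 0 from Subtype.ext (by
      show φ (q : chartRing W z) = 0
      rw [hφ, show ((q : chartRing W z) : F₂) = (q : F₂) from map_natCast (chartRing W z).val q]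
      exact res_eq_zero_of_mem_nonunits hV.q_mem)]
    exact zero_mem _)
  have hA : ∀ x : chartRing W z, (x : F₂) ∈ C.Vm := fun x => hV.chartRing_le x.2
  have hT : Through P C.Vm := fun x hx => hle (by
    rw [Ideal.mem_comap, show φO x = 0 from Subtype.ext (by
      show φ x = 0
      rw [hφ]; exact res_eq_zero_of_mem_nonunits hx)]
    exact zero_mem _)
  obtain ⟨ε, γ, hε0, -, hε, hεi, hf⟩ := exists_decomp hq D hqP hn N
  have hmemO : ∀ {y : F₂}, Loc z P y → res C.Vm y ∈ O := by
    rintro y ⟨r, a, hr, ha⟩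
    have hu : IsUnit (φO r) := by
      by_contra h
      exact hr (hle ((mem_maximalIdeal _).mpr h))
    obtain ⟨v, hv⟩ := hu
    have e : φ r * res C.Vm y = φ a := by
      rw [hφ, hφ, ← res_mul (hA r) (hT.mem hA ⟨r, a, hr, ha⟩), ha]
    have hr0 : φ r ≠ 0 := fun h0 => v.ne_zero (hv.trans (Subtype.ext h0))
    have hinv : ((v⁻¹ : Oˣ) : O) * φO r = 1 := by rw [← hv, Units.inv_mul]
    have hinv' : (((v⁻¹ : Oˣ) : O) : IsLocalRing.ResidueField C.Vm) * φ r = 1 :=
      congrArg Subtype.val hinv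
    have : res C.Vm y = (((v⁻¹ : Oˣ) : O) : IsLocalRing.ResidueField C.Vm) * φ a := by
      rw [← e, ← mul_assoc, hinv', one_mul]
    rw [this]
    exact mul_mem (Subtype.mem _) (hO a)
  have hεV : IsUnitAt C.Vm ε := by
    refine le_antisymm ((C.Vm.valuation_le_one_iff _).mpr (hT.mem hA hε)) ?_
    have := (C.Vm.valuation_le_one_iff _).mpr (hT.mem hA hεi)
    rwa [map_inv₀, inv_le_one₀ (zero_lt_iff.mpr ((Valuation.ne_zero_iff _).mpr hε0))] at this
  have hεO : O.valuation (res C.Vm ε) = 1 := by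
    refine le_antisymm ((O.valuation_le_one_iff _).mpr (hmemO hε)) ?_
    have := (O.valuation_le_one_iff _).mpr (hmemO hεi)
    rwa [res_inv hεV, map_inv₀, inv_le_one₀ (zero_lt_iff.mpr
      ((Valuation.ne_zero_iff _).mpr hεV.res_ne_zero))] at this
  set γ' := γ / (q : F₂) ^ N.dm
  have e : f / (q : F₂) ^ ((n : ℤ) * N.dm) = ε * γ' ^ n := by
    refine (congrArg (· / (q : F₂) ^ ((n : ℤ) * N.dm)) hf).trans ?_
    rw [div_pow, ← zpow_natCast ((q : F₂) ^ N.dm) n, ← zpow_mul, mul_comm N.dm, mul_div_assoc]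
  have hγ : IsUnitAt C.Vm γ' := by
    have h1 := (hasExp_iff (natCast_ne_zero₂ hq D)).mp N.expm
    rw [e, IsUnitAt, map_mul, hεV, one_mul, map_pow] at h1
    exact (pow_eq_one_iff.mp h1).resolve_right hn.ne'
  refine ⟨res C.Vm γ', ?_⟩
  rw [e, res_mul hεV.mem (pow_mem hγ.mem n), res_pow hγ.mem, map_mul, hεO, one_mul, map_pow]

variable (D₁ : ChartData W T u⁻¹)
include D₁

/-- The middle residue has orders divisible by `n`. -/
theorem exists_valuation_mid' (hn : 0 < n) (N : Normal C n f)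
    (O : ValuationSubring (IsLocalRing.ResidueField C.Vm))
    (hc : ∀ w : W, res C.Vm (algebraMap W F₂ w) ∈ O) :
    ∃ g, O.valuation (res C.Vm (f / (q : F₂) ^ ((n : ℤ) * N.dm))) = O.valuation g ^ n := by
  rcases O.mem_or_inv_mem (res C.Vm (T.α (T.t u))) with h | h
  · exact exists_valuation_mid hq D hn N O hc h
  · refine exists_valuation_mid hq D₁ hn (N.inv hq D) O hc ?_
    show res C.Vm (T.α (T.t u⁻¹)) ∈ O
    rwa [map_inv₀, map_inv₀, res_inv C.vm.u_mem]

omit D₁ in
/-- A residual root in the middle when `n` is prime to `q - 1`. -/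
theorem exists_root_mid_of_coprime (hn : 0 < n) (hqn : ¬ q ∣ n) (hco : (q - 1).Coprime n)
    (N : Normal C n f) :
    ∃ h : F₂, h ∈ C.Vm ∧ res C.Vm h ^ n = res C.Vm (f / (q : F₂) ^ ((n : ℤ) * N.dm)) := by
  obtain ⟨N', ⟨R⟩⟩ := exists_roots hq D hn hqn N
  have hq0 := natCast_ne_zero₂ hq D
  have hu := (hasExp_iff hq0).mp N.expm
  have hdm : (n : ℤ) * N'.dm = ((q - 1 : ℕ) : ℤ) * ((n : ℤ) * N.dm) :=
    N'.expm.unique (N.expm.pow (q - 1)) hq0 C.vm.q_mem
  obtain ⟨z, hz⟩ := exists_pow_eq_of_pow_eq_pow hco hu.res_ne_zero (y := res C.Vm R.hm) (by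
    rw [R.rootm, ← res_pow hu.mem, hdm, div_pow, ← zpow_natCast ((q : F₂) ^ ((n : ℤ) * N.dm)),
      ← zpow_mul, mul_comm ((n : ℤ) * N.dm)])
  obtain ⟨⟨h, hh⟩, rfl⟩ := residue_surjective z
  exact ⟨h, hh, by rw [res_of_mem hh]; exact hz⟩

variable {T' : QTower q K G G₁ G₂} {u' : G} (D' : ChartData W T' u')
include D'

omit D₁ in
/-- The correspondence of constants. -/
theorem corrOp_const (a b : TowerMap W T T' u u') (c : K) :
    corrOp a b (algebraMap K F₂ c) = algebraMap K F₂ (c ^ a.deg) := by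
  let _ : Algebra F₂ G₂ := a.b₂.toRingHom.toAlgebra
  show Algebra.norm F₂ (b.b₂ (algebraMap K F₂ c)) = _
  rw [b.b₂.commutes, show algebraMap K G₂ c = algebraMap F₂ G₂ (algebraMap K F₂ c) from
    (a.b₂.commutes c).symm, Algebra.norm_algebraMap, map_pow]
  rfl

omit D₁ in
/-- The correspondence of quotients. -/
theorem corrOp_div (a b : TowerMap W T T' u u') (x y : F₂) :
    corrOp a b (x / y) = corrOp a b x / corrOp a b y := by
  let _ : Algebra F₂ G₂ := a.b₂.toRingHom.toAlgebra
  have : Module.Finite F₂ G₂ := a.finite₂ D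
  rcases eq_or_ne y 0 with rfl | hy
  · have h0 : corrOp a b (0 : F₂) = 0 := by
      show Algebra.norm F₂ (b.b₂ 0) = 0
      rw [map_zero, Algebra.norm_zero]
    rw [div_zero, h0, div_zero]
  · have hne : corrOp a b y ≠ 0 := Algebra.norm_ne_zero_iff.mpr ((map_ne_zero_iff b.b₂ b.b₂.toRingHom.injective).mpr hy)
    rw [eq_div_iff hne, ← map_mul, div_mul_cancel₀ _ hy]

section Family

omit D'

variable {ι : Type*} {H H₁ H₂ : ι → Type*} [∀ i, Field (H i)] [∀ i, Field (H₁ i)] [∀ i, Field (H₂ i)]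
  [∀ i, Algebra K (H i)] [∀ i, Algebra K (H₁ i)] [∀ i, Algebra K (H₂ i)]
  [∀ i, Algebra W (H i)] [∀ i, Algebra W (H₁ i)] [∀ i, Algebra W (H₂ i)]
  [∀ i, IsScalarTower W K (H i)] [∀ i, IsScalarTower W K (H₁ i)] [∀ i, IsScalarTower W K (H₂ i)]
  {S' : ∀ i, QTower q K (H i) (H₁ i) (H₂ i)} {v' : ∀ i, H i}
  (DH : ∀ i, ChartData W (S' i) (v' i)) (CH : ∀ i, Comps W (S' i) (v' i))
  (A B : ∀ i, TowerMap W T (S' i) u (v' i)) (T₀ : ι → F → F) (e : ι → ℕ)
include DH CH

/-- A residual root in the middle from the eigen relations of the base. -/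
theorem exists_root_mid_of_input (hn : 0 < n) (N : Normal C n f)
    (hinput : MidInput W q u T₀ e n)
    (hcomm : ∀ i x, corrOp (A i) (B i) (T.α (T.s x)) = T.α (T.s (T₀ i x)))
    (hrel : ∀ i, ∃ (k : K) (w : F₂), k ≠ 0 ∧ w ≠ 0 ∧
      corrOp (A i) (B i) f = algebraMap K F₂ k * f ^ e i * w ^ n) :
    ∃ h : F₂, h ∈ C.Vm ∧ res C.Vm h ^ n = res C.Vm (f / (q : F₂) ^ ((n : ℤ) * N.dm)) := by
  have hq0 := natCast_ne_zero₂ hq D
  set σ := (T.α.comp T.s).toRingHom
  set f' := f / (q : F₂) ^ ((n : ℤ) * N.dm)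
  have hu : IsUnitAt C.Vm f' := (hasExp_iff hq0).mp N.expm
  obtain ⟨r, hrV, hr⟩ := exists_rep hq D (T.α.comp T.s) (isVertical_x₁ hq D C.vm)
    (rational_mid hq D C.vm C.mid) hu.mem
  set U := C.Vm.comap σ
  have hU : IsVertical W q u U := (isVertical_x₁ hq D C.vm).comap (T.α.comp T.s)
  have hru : IsUnitAt C.Vm (σ r) := isUnitAt_of_res_eq hrV hu hr.symm
  have hrU : IsUnitAt U r := (isUnitAt_comap σ C.Vm).mpr hru
  let E := RingEquiv.ofBijective _ (comapResidue_mid_bijective (C := C) hq D)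
  have hE : ∀ {x : F}, σ x ∈ C.Vm → E (res U x) = res C.Vm (σ x) := fun hx => comapResidue_res hx
  have hEr : E (res U r) = res C.Vm f' := (hE hrV).trans hr.symm
  refine (hinput U hU r hrU (fun O hO => ?_) (fun i => ?_)).elim fun g hg => ?_
  · have hO' : ∀ w : W, res C.Vm (algebraMap W F₂ w) ∈ O.comap E.symm.toRingHom := fun w => by
      have h1 : σ (algebraMap W F w) = algebraMap W F₂ w :=
        map_algebraMap_const (T.α.comp T.s) w
      rw [ValuationSubring.mem_comap, ← h1, ← hE (by rw [h1]; exact C.vm.const_mem w)]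
      show E.symm (E (res U (algebraMap W F w))) ∈ O
      rw [E.symm_apply_apply]
      exact hO w
    obtain ⟨g, hg⟩ := exists_valuation_mid' hq D D₁ hn N _ hO'
    have hf0 : res C.Vm f' ≠ 0 := hu.res_ne_zero
    have hg0 : g ^ n ≠ 0 := fun e0 => by
      rw [← map_pow, e0, map_zero] at hg
      exact hf0 ((map_eq_zero _).mp hg)
    have h2 : IsUnitAt (O.comap E.symm.toRingHom) (res C.Vm f' / g ^ n) := by
      rw [IsUnitAt, map_div₀, map_pow, ← hg, div_self ((_root_.map_ne_zero _).mpr hf0)]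
    have h3 := (isUnitAt_comap E.symm.toRingHom O).mp h2
    refine ⟨E.symm g, ?_⟩
    rw [map_div₀, map_pow, IsUnitAt, map_div₀, map_pow,
      show E.symm.toRingHom (res C.Vm f') = res U r by
        rw [← hEr]; exact E.symm_apply_apply _] at h3
    exact eq_of_div_eq_one h3
  · -- the eigen relation on the middle component
    obtain ⟨k, w, hk, hw, hki⟩ := hrel i
    obtain ⟨j, v, rfl⟩ := exists_zpow_mul_unit hq hk
    obtain ⟨yI, hyI⟩ := exists_hasExp_of_disc (disc_inf hq D C.vI C.inf) hq0 hw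
    have hj : (n : ℤ) * (((A i).deg : ℤ) * N.dI - (e i : ℤ) * N.dI - yI) = j := by
      have h1 := hasExp_corrOp hq D (DH i) (A i) (B i) C (CH i) (Or.inl rfl) N.expI
      rw [hki] at h1
      have h2 := ((hasExp_const (K := K) hq C.vI j v).mul (N.expI.pow (e i)) hq0).mul
        (hyI.pow n) hq0
      have := h1.unique h2 hq0 C.vI.q_mem
      linear_combination this
    set s := ((A i).deg : ℤ) * N.dI - (e i : ℤ) * N.dI - yI
    set m := ((e i : ℤ) - (A i).deg) * N.dm + s
    obtain ⟨w', hw'def⟩ : ∃ w', w' = w * (q : F₂) ^ m := ⟨_, rfl⟩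
    have hcq : ∀ a : ℤ, corrOp (A i) (B i) ((q : F₂) ^ a) = (q : F₂) ^ (((A i).deg : ℤ) * a) :=
      fun a => by
        rw [← map_natCast (algebraMap K F₂), ← map_zpow₀, corrOp_const hq D (DH i) (A i) (B i), ← map_zpow₀,
          ← zpow_natCast ((q : K) ^ a), ← zpow_mul, mul_comm a]
    have hrel' : corrOp (A i) (B i) f' = algebraMap W F₂ (v : W) * f' ^ e i * w' ^ n := by
      have e1 : f' ^ e i = f ^ e i * (q : F₂) ^ (-((n : ℤ) * N.dm * (e i : ℤ))) := by
        simp only [f']
        rw [div_pow, div_eq_mul_inv, ← zpow_natCast ((q : F₂) ^ _), ← zpow_mul, ← zpow_neg]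
      have e2 : w' ^ n = w ^ n * (q : F₂) ^ (m * n) := by
        rw [hw'def, mul_pow, ← zpow_natCast ((q : F₂) ^ _), ← zpow_mul]
      have e3 : (q : F₂) ^ (-((n : ℤ) * N.dm * (e i : ℤ))) * (q : F₂) ^ (m * n) =
          (q : F₂) ^ ((n : ℤ) * s) * (q : F₂) ^ (-(((A i).deg : ℤ) * ((n : ℤ) * N.dm))) := by
        rw [← zpow_add₀ hq0, ← zpow_add₀ hq0]
        congr 1
        simp only [m]; ring
      rw [corrOp_div hq D (DH i) (A i) (B i) _ _, hki, hcq, map_mul, map_zpow₀,
        map_natCast, ← IsScalarTower.algebraMap_apply, e1, e2, div_eq_mul_inv, ← zpow_neg, ← hj]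
      linear_combination -(algebraMap W F₂ (v : W) * f ^ e i * w ^ n) * e3
    have hR : IsRootOn C.Vm 1 f' (σ r) := by
      rw [IsRootOn, pow_one, res_div hu.mem hru, hr]
      exact div_self hru.res_ne_zero
    have hR' := isRootOn_corrOp hq D (DH i) (A i) (B i) C (CH i) (Or.inr (Or.inr rfl)) hR
    rw [show σ r = T.α (T.s r) from rfl, hcomm] at hR'
    have hc : IsUnitAt C.Vm (corrOp (A i) (B i) f') := hasExp_zero_iff.mp (by
      simpa using hasExp_corrOp hq D (DH i) (A i) (B i) C (CH i) (Or.inr (Or.inr rfl))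
        (hasExp_zero_iff.mpr hu))
    have hT₀ : IsUnitAt C.Vm (σ (T₀ i r)) := by
      have := hR'.val_eq
      rw [hc, pow_one] at this
      exact this.symm
    have hres : res C.Vm (σ (T₀ i r)) = res C.Vm (corrOp (A i) (B i) f') := by
      have := hR'
      rw [IsRootOn, pow_one] at this
      have h4 : corrOp (A i) (B i) f' = corrOp (A i) (B i) f' / σ (T₀ i r) * σ (T₀ i r) :=
        (div_mul_cancel₀ _ hT₀.ne_zero).symm
      rw [h4, res_mul (mem_of_res_ne_zero (by
          rw [show res C.Vm (corrOp (A i) (B i) f' / σ (T₀ i r)) = 1 from this]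
          exact one_ne_zero)) hT₀.mem,
        show res C.Vm (corrOp (A i) (B i) f' / σ (T₀ i r)) = 1 from this, one_mul]
    have hv : IsUnitAt C.Vm (algebraMap W F₂ (v : W)) :=
      isUnitAt_const hq C.vm (v.isUnit.map (residue W)).ne_zero
    have hw' : IsUnitAt C.Vm w' := by
      have h1 : C.Vm.valuation (algebraMap W F₂ (v : W) * f' ^ e i * w' ^ n) = 1 := hrel' ▸ hc
      rw [map_mul, map_mul, hv, (hu.pow (e i) : _), one_mul, one_mul, map_pow] at h1
      exact (pow_eq_one_iff.mp h1).resolve_right hn.ne'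
    obtain ⟨ω, -, hω⟩ := exists_const_root hq C.vm hn v
    obtain ⟨g, hg⟩ := E.surjective (ω * res C.Vm w')
    refine ⟨g, E.injective ?_⟩
    rw [map_mul, map_pow, map_pow, hE hT₀.mem, hres, hrel', hEr, hg, mul_pow, hω,
      res_mul (hv.mul (hu.pow _)).mem (hw'.pow n).mem, res_mul hv.mem (hu.pow _).mem,
      res_pow hu.mem, res_pow hw'.mem]
    ring
  · obtain ⟨⟨h, hh⟩, hh'⟩ := residue_surjective (E g)
    exact ⟨h, hh, by rw [res_of_mem hh, hh', ← map_pow, ← hg, hEr]⟩

end Family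

end FermatAgent.RTLift.Sq
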