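import Fermat.Agent.RTLift.Sq.BaseResidue
import Fermat.Agent.RTLift.Sq.Mid
import Fermat.Agent.RTLift.Sq.Coord
import Fermat.Agent.MazurPrinciple.Residual

/-!
# The eigen relations on the base give powers

For an eigen system absent at level `L`, a residue on the base with orders divisible by `p` and
satisfying the eigen relations is a `p`-th power.
-/

set_option autoImplicit false
set_option maxHeartbeats 1600000

noncomputable section

namespace FermatAgent.RTLift.Sq

open ModularCurve AlgebraicCurve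
open FermatAgent.BadRed.Carayol (res IsUnitAt chartRing isVertical_base_unique)
open FermatAgent.BadRed.Carayol.Instance (LevelField inertiaRing inertiaRes inertiaIncl toBar
  maximalIdeal_inertiaRing isAlgClosed_residue_inertiaRing inertiaVal)
open FermatAgent.BadRed.Semistable (IsSeriesRep seriesGauss)
open FermatAgent.MazurPrinciple (inertiaField HasCongruentForm)

local notation "ℚbar" => AlgebraicClosure ℚ

variable {A : ValuationSubring ℚbar} {q : ℕ} [hq : Fact q.Prime] [NeZero q]
  {L : ℕ} [NeZero L] (hA : A.LiesOverPrime q)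

local notation "kA" => IsLocalRing.ResidueField A

/-- The norm of a correspondence commutes with the extension of constants. -/
theorem toBar_heckeNorm {l : ℕ} [Fact l.Prime] [NeZero (l * L)] (hco : l.Coprime L)
    {ζ : (inertiaField A)ˣ} (hζ : IsPrimitiveRoot ζ l) (x : LevelField (inertiaField A) L) :
    toBar A L (BadRed.AtP.heckeNorm (inertiaField A) hco x) =
      BadRed.AtP.heckeNorm ℚbar hco (toBar A L x) := by
  have : NeZero l := ⟨(Fact.out : l.Prime).ne_zero⟩
  have hζ' : IsPrimitiveRoot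
      (Units.map (inertiaVal A : inertiaField A →+* ℚbar).toMonoidHom ζ) l :=
    hζ.map_of_injective (f := Units.map (inertiaVal A : inertiaField A →+* ℚbar).toMonoidHom)
      (Units.map_injective (inertiaVal A : inertiaField A →+* ℚbar).injective)
  refine Subtype.ext (qExpand_injective (R := ℚbar) l ?_)
  rw [BadRed.AtP.qExpand_heckeNorm hco hζ']
  show qExpand ℚbar l (coeffMap (inertiaVal A : inertiaField A →+* ℚbar)
      (BadRed.AtP.heckeNorm (inertiaField A) hco x : LaurentSeries (inertiaField A))) = _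
  rw [← coeffMap_qExpand, BadRed.AtP.qExpand_heckeNorm hco hζ, map_mul, coeffMap_qExpand,
    coeffMap_qExpand, BadRed.AtP.coeffMap_twistProd']
  rfl

include hA in
/-- The norm of a correspondence keeps units of the base valuation. -/
theorem isUnitAt_heckeNorm {l : ℕ} [Fact l.Prime] [NeZero (l * L)] (hco : l.Coprime L)
    (hlq : ¬ q ∣ l) {x : LevelField (inertiaField A) L} (hx : IsUnitAt (baseVal L hA) x) :
    IsUnitAt (baseVal L hA) (BadRed.AtP.heckeNorm (inertiaField A) hco x) := by
  have : NeZero l := ⟨(Fact.out : l.Prime).ne_zero⟩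
  have := charP_kA (q := q) hA
  obtain ⟨ζ, hζ⟩ := exists_root_of_unity_inertiaField hq.out hA hlq
  have hm : (ζ : inertiaField A) ∈ inertiaRing A := MazurPrinciple.mem_of_pow_eq_one (NeZero.ne l)
    (congrArg (fun z : (inertiaField A)ˣ => ((z : inertiaField A) : ℚbar)) hζ.pow_eq_one)
  have hu : IsPrimitiveRoot (⟨(ζ : inertiaField A), hm⟩ : inertiaRing A) l :=
    IsPrimitiveRoot.of_map_of_injective (f := (inertiaRing A).subtype)
      (IsPrimitiveRoot.coe_units_iff.mpr hζ) Subtype.val_injective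
  have hG : ∀ y, IsUnitAt (baseVal L hA) y ↔
      MazurPrinciple.IsUnitAt (seriesGauss q L
        (BadRed.Carayol.Instance.inertiaRes_surjective hq.out hA)) y := fun y => by
    constructor
    · intro h
      exact ⟨h.mem, (isUnit_baseVal_iff hA ⟨y, h.mem⟩).mp
        ((ValuationSubring.valuation_eq_one_iff _ ⟨y, h.mem⟩).mpr h)⟩
    · rintro ⟨h, h'⟩
      exact (ValuationSubring.valuation_eq_one_iff _ (⟨y, h⟩ : baseVal L hA)).mp
        ((isUnit_baseVal_iff hA ⟨y, h⟩).mpr h')
  refine (hG _).mpr (BadRed.AtP.heckeNorm_isUnitAt hco q _ (u := (hu.isUnit (NeZero.ne l)).unit)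
    (IsPrimitiveRoot.coe_units_iff.mp hu) ((hG _).mp hx))

include hA in
theorem redsTo_baseRed' (hqL : ¬ q ∣ L) {x : LevelField (inertiaField A) L}
    (hx : x ∈ baseVal L hA) :
    (Igusa.Down.datum L hq.out hqL hA).RedsTo (toBar A L x)
      (baseRed' L hA hqL (res (baseVal L hA) x)) := by
  have := Igusa.Down.isAlgClosed_residueField A
  have := Igusa.Down.isFunctionField1_fibre' L hq.out hqL hA
  obtain ⟨y, z, h⟩ := id hx
  obtain ⟨fb, hfb, hfb'⟩ := MazurPrinciple.redsTo_of_seriesRep
    (Igusa.Down.isLaurent_datum L hq.out hqL hA) (baseRed_mem.rep_toBar (L := L) h)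
  rw [coeffMap_coeffMap, coeffMap_coeffMap] at hfb'
  convert hfb using 1
  refine Subtype.ext ?_
  rw [coe_baseRed', (baseRed_of_rep hA h).2, hfb']
  rfl

/-- **The eigen relations on the base give powers.** -/
theorem midInput_of_absent (hA : A.LiesOverPrime q) [IsDiscreteValuationRing (inertiaRing A)] (hq2 : ¬ 2 ∣ q)
    (hqL : ¬ q ∣ L) (h4 : 4 ∣ L) {p : ℕ} [Fact p.Prime] {S : Set ℕ} {a : ℕ → ℤ}
    (hLS : ∀ r : ℕ, r.Prime → r ∣ L → r ∈ S) (hqS : q ∈ S)
    (hno : ¬ HasCongruentForm a p L S) {ι : Type*}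
    (T₀ : ι → LevelField (inertiaField A) L → LevelField (inertiaField A) L) (e : ι → ℕ)
    (hgen : ∀ (l : ℕ) [Fact l.Prime] [NeZero (l * L)] (hco : l.Coprime L), l ∉ S →
      ∃ i, T₀ i = BadRed.AtP.heckeNorm (inertiaField A) hco ∧ (p : ℤ) ∣ a l - e i) :
    MidInput (inertiaRing A) q (coord4 A hq2 h4) T₀ e p := by
  intro U hU r hr hO heig
  have hp : p.Prime := Fact.out
  have hax := maximalIdeal_inertiaRing hq.out hA
  have := isAlgClosed_residue_inertiaRing hq.out hA
  obtain rfl : U = baseVal L hA := isVertical_base_unique hax (chart4 hA hq2 hqL h4) hU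
    (isVertical_baseVal hA hq2 h4)
  have := Igusa.Down.isAlgClosed_residueField A
  have := Igusa.Down.isFunctionField1_fibre' L hq.out hqL hA
  set ψ := baseRed' L hA hqL
  set φ := ψ (res (baseVal L hA) r) with hφdef
  have hr0 : res (baseVal L hA) r ≠ 0 := hr.res_ne_zero
  have hφ : φ ≠ 0 := (map_ne_zero ψ).mpr hr0
  have hord : ∀ v : Place kA (modularFunctionFieldFullC kA L), (p : ℤ) ∣ v.ord φ := fun v => by
    obtain ⟨g, hg⟩ := hO (v.toValuationSubring.comap ψ) fun w => by
      rw [ValuationSubring.mem_comap]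
      have e1 : ψ (res (baseVal L hA) (algebraMap (inertiaRing A) _ w)) =
          algebraMap kA (modularFunctionFieldFullC kA L) (inertiaRes A w) :=
        Subtype.ext ((coe_baseRed' hA hqL _).trans (baseRed_const hA w))
      rw [e1]
      exact v.algebraMap_mem' _
    have h1 := BadRed.Carayol.map_valuation_eq ψ v.toValuationSubring hr0 hg
    have hv0 : v.toValuationSubring.valuation φ ≠ 0 := (_root_.map_ne_zero _).mpr hφ
    have hg0 : ψ g ≠ 0 := fun h0 => hv0 (by rw [hφdef, h1, h0, map_zero, zero_pow hp.ne_zero])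
    have hz : v.ord (φ / ψ g ^ p) = 0 := by
      have hz0 : φ / ψ g ^ p ≠ 0 := div_ne_zero hφ (pow_ne_zero _ hg0)
      have hval : v.toValuationSubring.valuation (φ / ψ g ^ p) = 1 := by
        rw [map_div₀, map_pow, hφdef, h1, div_self (fun h0 => hv0 (by rw [hφdef, h1, h0]))]
      have hm := ((Curve.mem_iff_ord_nonneg v).mp
        ((ValuationSubring.valuation_le_one_iff _ _).mp hval.le)).resolve_left hz0
      have hm' := ((Curve.mem_iff_ord_nonneg v).mp
        ((ValuationSubring.valuation_le_one_iff _ (φ / ψ g ^ p)⁻¹).mp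
          (by rw [map_inv₀, hval, inv_one]))).resolve_left (inv_ne_zero hz0)
      rw [v.ord_inv] at hm'
      omega
    rw [div_eq_mul_inv, v.ord_mul hφ (inv_ne_zero (pow_ne_zero _ hg0)), v.ord_inv,
      Curve.ord_pow'] at hz
    exact ⟨v.ord (ψ g), by linarith⟩
  choose i₀ hi₀ hi₀' using hgen
  classical
  let e' : ℕ → ℕ := fun l => if h : l.Prime ∧ l.Coprime L ∧ l ∉ S then
      haveI : Fact l.Prime := ⟨h.1⟩
      haveI : NeZero (l * L) := ⟨mul_ne_zero h.1.ne_zero (NeZero.ne L)⟩
      e (i₀ l h.2.1 h.2.2)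
    else 0
  obtain ⟨h, hh⟩ := MazurPrinciple.exists_pow_eq_of_absent_nat
    (Igusa.Down.isLaurent_datum L hq.out hqL hA) hLS hno hφ hord e'
    (fun l hl hlL hlS => by
      have h : l.Prime ∧ l.Coprime L ∧ l ∉ S := ⟨hl, hl.coprime_iff_not_dvd.mpr hlL, hlS⟩
      have : Fact l.Prime := ⟨hl⟩
      have : NeZero (l * L) := ⟨mul_ne_zero hl.ne_zero (NeZero.ne L)⟩
      simp only [e', dif_pos h]
      exact hi₀' l h.2.1 hlS)
    (fun l _ _ hco hlS => by
      have hl : l.Prime := Fact.out
      have : NeZero l := ⟨hl.ne_zero⟩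
      have hlq : ¬ q ∣ l := fun h => hlS
        ((Nat.prime_dvd_prime_iff_eq hq.out hl).mp h ▸ hqS)
      obtain ⟨g, hg⟩ := heig (i₀ l hco hlS)
      rw [hi₀ l hco hlS] at hg
      obtain ⟨ζ, hζ⟩ := exists_root_of_unity_inertiaField hq.out hA hlq
      refine ⟨toBar A L r, ψ g, redsTo_baseRed' hA hqL hr.mem, ?_⟩
      rw [← toBar_heckeNorm hco hζ]
      have h2 := redsTo_baseRed' hA hqL (isUnitAt_heckeNorm hA hco hlq hr).mem
      rw [hg, map_mul, map_pow, map_pow] at h2
      simp only [e', dif_pos (show l.Prime ∧ l.Coprime L ∧ l ∉ S from ⟨hl, hco, hlS⟩)]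
      exact h2)
  obtain ⟨g, hg⟩ := baseRed'_surjective hA hqL h
  exact ⟨g, ψ.injective (by rw [map_pow, hg, ← hh])⟩

end FermatAgent.RTLift.Sq
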