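import Fermat.Agent.RTLift.Sq.Balanced
import Fermat.Agent.RTLift.Sq.Character
import Fermat.Agent.BadRed.Carayol.Assembly.NormChange

/-!
# No eigen systems on the supersingular points

If every system of roots of unity is carried by a function from the middle level, an eigen system
which is not constant gives a character of the Hecke ring of that level.
-/

set_option autoImplicit false
set_option linter.unusedSectionVars false
set_option maxHeartbeats 800000

noncomputable section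

namespace FermatAgent.RTLift.Sq

open Polynomial IsLocalRing
open FermatAgent.BadRed.Carayol

variable {q : ℕ} [Fact q.Prime] {W K F F₁ F₂ : Type*}
  [CommRing W] [IsDomain W] [IsDiscreteValuationRing W] [IsAlgClosed (IsLocalRing.ResidueField W)]
  [Field K] [CharZero K] [Algebra W K] [IsFractionRing W K]
  [Field F] [Field F₁] [Field F₂] [Algebra K F] [Algebra K F₁] [Algebra K F₂]
  [Algebra W F] [Algebra W F₁] [Algebra W F₂]
  [IsScalarTower W K F] [IsScalarTower W K F₁] [IsScalarTower W K F₂]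
  {T : QTower q K F F₁ F₂} {u : F}

theorem divisibleOn_map {L L' : Type*} [Field L] [Field L'] [Algebra K L] [Algebra K L']
    (σ : L →ₐ[K] L') {g : L} (hg : g ≠ 0) {n : ℕ} (h : DivisibleOn K g n) :
    DivisibleOn K (σ g) n := fun V hV => by
  obtain ⟨w, hw⟩ := h (V.comap σ.toRingHom) fun c => by
    rw [ValuationSubring.mem_comap]
    show σ (algebraMap K L c) ∈ V
    rw [σ.commutes]; exact hV c
  exact ⟨σ w, map_valuation_eq σ.toRingHom V hg hw⟩

variable (hq : maximalIdeal W = Ideal.span {(q : W)}) (D : ChartData W T u)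
  {ι : Type*} {G G₁ G₂ : ι → Type*} [∀ i, Field (G i)] [∀ i, Field (G₁ i)] [∀ i, Field (G₂ i)]
  [∀ i, Algebra K (G i)] [∀ i, Algebra K (G₁ i)] [∀ i, Algebra K (G₂ i)]
  [∀ i, Algebra W (G i)] [∀ i, Algebra W (G₁ i)] [∀ i, Algebra W (G₂ i)]
  [∀ i, IsScalarTower W K (G i)] [∀ i, IsScalarTower W K (G₁ i)] [∀ i, IsScalarTower W K (G₂ i)]
  {T' : ∀ i, QTower q K (G i) (G₁ i) (G₂ i)} {u' : ∀ i, G i}
  (D' : ∀ i, ChartData W (T' i) (u' i))
  (C : Comps W T u) (C' : ∀ i, Comps W (T' i) (u' i))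
  (A B : ∀ i, TowerMap W T (T' i) u (u' i)) (e : ι → ℕ)

include hq D D' C' in
/-- **No eigen systems, from the toric input and the absence of a character.** -/
theorem noEigenSystem_of_carried {n : ℕ} [NeZero n] (hn : n.Prime) {Y R : Type*}
    [AddCommGroup Y] [CommRing R] (hY : ∀ y : Y, n • y = 0) (φ : R →+* AddMonoid.End Y)
    (gen : ι → R) (hgen : Subring.closure (Set.range gen) = ⊤)
    (hnochar : ∀ χ : R →+* ZMod n, ∃ i, χ (gen i) ≠ (e i : ZMod n))
    (Rep : Y → F₁ → Prop) (T₁ : ι → F₁ → F₁)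
    (hmul : ∀ y y' g g', Rep y g → Rep y' g' → Rep (y + y') (g * g'))
    (hne : ∀ y g, Rep y g → g ≠ 0 ∧ DivisibleOn K g n)
    (hex : ∀ g : F₁, g ≠ 0 → DivisibleOn K g n → ∃ y, Rep y g)
    (hzero : ∀ g, Rep 0 g → ∃ (k : K) (w : F₁), k ≠ 0 ∧ g = algebraMap K F₁ k * w ^ n)
    (hop : ∀ i y g, Rep y g → Rep (φ (gen i) y) (T₁ i g))
    (hcomm : ∀ i g, corrOp (A i) (B i) (T.α g) = T.α (T₁ i g))
    (htoric : ∀ c : SSPoint hq D → IsLocalRing.ResidueField W, (∀ x, c x ^ n = 1) →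
      ∃ g : F₁, g ≠ 0 ∧ DivisibleOn K g n ∧ HasRatios hq D C n (T.α g) c) :
    NoEigenSystem n hq D D' C' A B e C := by
  intro c hc heig
  by_contra hnc
  push Not at hnc
  obtain ⟨g₀, hg₀, hd₀, hR₀⟩ := htoric c hc
  obtain ⟨y₀, hy₀⟩ := hex g₀ hg₀ hd₀
  obtain ⟨χ, hχ⟩ := exists_character (hn := hn) hY φ gen hgen (fun i => (e i : ZMod n))
    (fun i c => corrSys (D' i) (A i) (B i) C (C' i) c) (fun i => (A i).deg)
    (fun i s d x => by simp only [corrSys, Finset.prod_mul_distrib, Finset.prod_const,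
      Finset.card_univ, Fintype.card_fin])
    (fun i d k x => by simp only [corrSys, Finset.prod_pow])
    (fun y d => ∃ g, Rep y g ∧ HasRatios hq D C n (T.α g) d)
    (fun y s d hs ⟨g, hg, h⟩ => ⟨g, hg, h.scale hs⟩)
    (fun y y' d d' ⟨g, hg, h⟩ ⟨g', hg', h'⟩ => ⟨g * g', hmul _ _ _ _ hg hg', by
      rw [map_mul]; exact h.mul h'⟩)
    (fun i y d ⟨g, hg, h⟩ => by
      have h1 := hop i y g hg
      obtain ⟨h2, h3⟩ := hne _ _ h1
      obtain ⟨R, -⟩ := h.2
      refine ⟨_, h1, ?_⟩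
      have hT0 : T.α (T₁ i g) ≠ 0 := (map_ne_zero_iff T.α T.α.toRingHom.injective).mpr h2
      refine HasRatios.corr (D' i) (A i) (B i) C (C' i) hn.pos h
        (divisibleOn_map T.α h2 h3) hT0 one_ne_zero one_ne_zero
        (by rw [map_one, one_mul, one_pow, mul_one, hcomm]) ?_
      exact ⟨_, hcomm i g ▸ isRootOn_corrOp hq D (D' i) (A i) (B i) C (C' i) (Or.inl rfl) R.rootI⟩)
    (fun d ⟨g, hg, h⟩ x x' => by
      obtain ⟨k, w, hk, rfl⟩ := hzero g hg
      have hw : T.α w ≠ 0 := (map_ne_zero_iff T.α T.α.toRingHom.injective).mpr fun h0 =>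
        (hne _ _ hg).1 (by rw [h0, zero_pow hn.pos.ne', mul_zero])
      rw [map_mul, AlgHom.commutes, map_pow] at h
      exact HasRatios.eq_const hn.pos hk hw h x x')
    hc (fun i => by
      obtain ⟨η, hη, h⟩ := heig i
      refine ⟨η, hη, fun x => (h x).trans ?_⟩
      congr 1
      exact pow_eq_pow_of_modEq ((ZMod.natCast_eq_natCast_iff _ _ _).mp
        (ZMod.natCast_zmod_val (e i : ZMod n)).symm) (hc x))
    ⟨y₀, 1, one_ne_zero, g₀, hy₀, by simpa using hR₀⟩ hnc
  obtain ⟨i, hi⟩ := hnochar χ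
  exact hi (hχ i)

end FermatAgent.RTLift.Sq
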