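import Fermat.Agent.RTLift.Sq.ClassFun
import Fermat.Agent.RTLift.Sq.Descend
import Fermat.Agent.RTLift.Sq.NoEigen
import Fermat.Agent.RTLift.Sq.Interface
import Fermat.Agent.RTLift.Sq.MidInstance
import Fermat.Agent.ModCurve.Torsion.Construction

/-!
# An eigenclass fixed by inertia and killed by both push forwards vanishes

The descent at `q ^ 2` for an eigen system absent at levels `L` and `Lq`.
-/

set_option autoImplicit false
set_option maxHeartbeats 1600000

noncomputable section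

namespace FermatAgent.RTLift.Sq

open ModularCurve AlgebraicCurve
open FermatAgent.BadRed.Carayol
open FermatAgent.BadRed.Carayol.Instance (LevelField inertiaRing maximalIdeal_inertiaRing
  isAlgClosed_residue_inertiaRing)
open FermatAgent.MazurPrinciple (inertiaField heckeAt HasCongruentForm eigenGroup sysRing
  exists_zero_killer mem_eigenGroup)
open FermatAgent.ModCurveTorsion (galN isFunctionField1_laurent coe_galN_smul)

local notation "ℚbar" => AlgebraicClosure ℚ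

section Operators

variable (M : ℕ) [NeZero M] {ι : Type*} (l : ι → ℕ)

/-- The ring generated by some Hecke operators. -/
def opRing : Subring (Module.End ℤ (JZero M)) :=
  Subring.closure (Set.range fun i => heckeAt M (l i))

theorem heckeAt_commute (a b : ℕ) : heckeAt M a * heckeAt M b = heckeAt M b * heckeAt M a := by
  unfold MazurPrinciple.heckeAt
  split_ifs with ha hb
  · exact ModCurveTorsion.heckeOperatorsCommuteBar_proof (N := M) ⟨a, ha⟩ ⟨b, hb⟩
  all_goals simp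

open scoped IsMulCommutative in
/-- The commutative ring structure on the ring of operators. -/
abbrev opRingCommRing : CommRing (opRing M l) :=
  have : IsMulCommutative (opRing M l) :=
    Subring.isMulCommutative_closure (by rintro _ ⟨i, rfl⟩ _ ⟨j, rfl⟩; exact heckeAt_commute M _ _)
  inferInstance

variable (p : ℕ)

/-- The operators on the `p`-torsion. -/
def opOnTorsion :
    opRing M l →+* AddMonoid.End (nsmulAddMonoidHom (α := JZero M) p).ker where
  toFun r :=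
    { toFun := fun y => ⟨(r : Module.End ℤ (JZero M)) (y : JZero M), by
        rw [AddMonoidHom.mem_ker, nsmulAddMonoidHom_apply, ← map_nsmul,
          ← nsmulAddMonoidHom_apply, y.2, map_zero]⟩
      map_zero' := Subtype.ext (map_zero _)
      map_add' := fun y z => Subtype.ext (map_add _ _ _) }
  map_one' := rfl
  map_zero' := rfl
  map_mul' _ _ := rfl
  map_add' _ _ := rfl

/-- The generators of the ring of operators. -/
def opGen (i : ι) : opRing M l := ⟨_, Subring.subset_closure ⟨i, rfl⟩⟩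

theorem closure_opGen : Subring.closure (Set.range (opGen M l)) = ⊤ := by
  refine eq_top_iff.mpr ?_
  rintro ⟨x, hx⟩ -
  induction hx using Subring.closure_induction with
  | mem y hy => obtain ⟨i, rfl⟩ := hy; exact Subring.subset_closure ⟨i, rfl⟩
  | zero => exact zero_mem _
  | one => exact one_mem _
  | add a b _ _ ha hb => exact add_mem ha hb
  | neg a _ ha => exact neg_mem ha
  | mul a b _ _ ha hb => exact mul_mem ha hb

/-- An absent system gives no character of the ring of operators. -/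
theorem not_forall_character [Fact p.Prime] {S : Set ℕ} {a : ℕ → ℤ}
    (hMS : ∀ r : ℕ, r.Prime → r ∣ M → r ∈ S) (hno : ¬ HasCongruentForm a p M S) (e : ι → ℕ)
    (hcov : ∀ r : ℕ, r.Prime → ¬ r ∣ M → r ∉ S → ∃ i, l i = r)
    (hcong : ∀ i, (p : ℤ) ∣ a (l i) - e i) (χ : opRing M l →+* ZMod p) :
    ∃ i, χ (opGen M l i) ≠ (e i : ZMod p) := by
  by_contra hall
  push Not at hall
  obtain ⟨c, hc, h⟩ := exists_zero_killer hMS p hno
  suffices H : ∀ z ∈ sysRing S a (heckeAt M),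
      ∃ hz : z.1 ∈ opRing M l, χ ⟨z.1, hz⟩ = (z.2.2 : ZMod p) by
    obtain ⟨hz, h0⟩ := H _ h
    rw [show (⟨_, hz⟩ : opRing M l) = 0 from rfl, map_zero] at h0
    exact hc ((ZMod.intCast_zmod_eq_zero_iff_dvd c p).mp h0.symm)
  intro z hz
  induction hz using Subring.closure_induction with
  | mem z hz =>
    obtain ⟨r, hr, hrM, hrS, rfl⟩ := hz
    obtain ⟨i, rfl⟩ := hcov r hr hrM hrS
    refine ⟨(opGen M l i).2, (hall i).trans ?_⟩
    simpa using (ZMod.intCast_eq_intCast_iff_dvd_sub (e i : ℤ) (a (l i)) p).mpr (hcong i)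
  | zero => exact ⟨zero_mem _, by simp [show (⟨0, zero_mem _⟩ : opRing M l) = 0 from rfl]⟩
  | one => exact ⟨one_mem _, by simp [show (⟨1, one_mem _⟩ : opRing M l) = 1 from rfl]⟩
  | add u v _ _ hu hv =>
    obtain ⟨hu, hu'⟩ := hu
    obtain ⟨hv, hv'⟩ := hv
    refine ⟨add_mem hu hv, ?_⟩
    show χ (⟨u.1, hu⟩ + ⟨v.1, hv⟩) = _
    rw [map_add, hu', hv']
    simp
  | neg u _ hu =>
    obtain ⟨hu, hu'⟩ := hu
    refine ⟨neg_mem hu, ?_⟩
    show χ (-⟨u.1, hu⟩) = _
    simp [hu']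
  | mul u v _ _ hu hv =>
    obtain ⟨hu, hu'⟩ := hu
    obtain ⟨hv, hv'⟩ := hv
    refine ⟨mul_mem hu hv, ?_⟩
    show χ (⟨u.1, hu⟩ * ⟨v.1, hv⟩) = _
    rw [map_mul, hu', hv']
    simp

end Operators

variable {A : ValuationSubring ℚbar} {q : ℕ} [hq : Fact q.Prime] [NeZero q]

local notation "K₀" => inertiaField A

/-- **The kill.** -/
theorem eq_zero_of_eigen_fixed [IsDiscreteValuationRing (inertiaRing A)] (hA : A.LiesOverPrime q)
    (hq2 : ¬ 2 ∣ q) {L : ℕ} [NeZero L] (hqL : ¬ q ∣ L) (h4 : 4 ∣ L)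
    (hT : ToricRootsInput q A hA) {p : ℕ} [Fact p.Prime] (hpq : p ≠ q) {S : Set ℕ} {a : ℕ → ℤ}
    (hLS : ∀ r : ℕ, r.Prime → r ∣ L → r ∈ S) (hqS : q ∈ S)
    (hno : ¬ HasCongruentForm a p L S) (hno₁ : ¬ HasCongruentForm a p (L * q) S)
    (hwit : ∃ l, l.Prime ∧ l ∉ S ∧ ¬ (p : ℤ) ∣ a l - (l + 1))
    {x : JZero (L * q * q)} (hx : x ∈ eigenGroup (L * q * q) S a p)
    (hfix : ∀ σ ∈ A.inertiaSubgroupIn ℚ, σ • x = x) (hα : pushAlpha (L * q) q x = 0)
    (hβ : pushBeta (L * q) q x = 0) : x = 0 := by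
  have hqp : q.Prime := hq.out
  have hp : p.Prime := Fact.out
  have hqn : ¬ q ∣ p := fun h => hpq ((Nat.prime_dvd_prime_iff_eq hqp hp).mp h).symm
  have := isAlgClosed_residue_inertiaRing hqp hA
  have hmax := maximalIdeal_inertiaRing hqp hA
  let ι := {r : ℕ // r.Prime ∧ r ∉ S}
  have hlL : ∀ i : ι, ¬ (i : ℕ) ∣ L := fun i h => i.2.2 (hLS _ i.2.1 h)
  have hlq : ∀ i : ι, (i : ℕ) ≠ q := fun i h => i.2.2 (h ▸ hqS)
  have hql : ∀ i : ι, ¬ q ∣ (i : ℕ) := fun i h =>
    hlq i ((Nat.prime_dvd_prime_iff_eq hqp i.2.1).mp h).symm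
  have hl2 : ∀ i : ι, ¬ 2 ∣ (i : ℕ) := fun i h => hlL i
    (((Nat.prime_dvd_prime_iff_eq Nat.prime_two i.2.1).mp h) ▸ (by norm_num : 2 ∣ 4).trans h4)
  have hqLl : ∀ i : ι, ¬ q ∣ L * (i : ℕ) := fun i h => (hqp.dvd_mul.mp h).elim hqL (hql i)
  have hco : ∀ i : ι, (i : ℕ).Coprime L := fun i => i.2.1.coprime_iff_not_dvd.mpr (hlL i)
  have hcoq : ∀ i : ι, (i : ℕ).Coprime q := fun i =>
    (Nat.coprime_primes i.2.1 hqp).mpr (hlq i)
  have hco₁ : ∀ i : ι, (i : ℕ).Coprime (L * q) := fun i => (hco i).mul_right (hcoq i)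
  have hco₂ : ∀ i : ι, (i : ℕ).Coprime (L * q * q) := fun i => (hco₁ i).mul_right (hcoq i)
  have : ∀ i : ι, NeZero (i : ℕ) := fun i => ⟨i.2.1.ne_zero⟩
  have : ∀ i : ι, Fact (i : ℕ).Prime := fun i => ⟨i.2.1⟩
  let e : ι → ℕ := fun i => (a i : ZMod p).val
  have hcong : ∀ i : ι, (p : ℤ) ∣ a i - e i := fun i =>
    (ZMod.intCast_eq_intCast_iff_dvd_sub _ _ p).mp (by simp [e])
  let D := chart4 hA hq2 hqL h4
  let D₁ := chart4Inv hA hq2 hqL h4
  let D' := fun i : ι => chart4 hA hq2 (hqLl i) (h4.mul_right (i : ℕ))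
  obtain ⟨C⟩ := exists_comps hmax D
  let C' := fun i : ι => Classical.choice (exists_comps hmax (D' i))
  let Aup := fun i : ι => towerA (A := A) (l := (i : ℕ)) hq2 h4 hqL (hqLl i) (hlL i)
  let Bup := fun i : ι => towerB (A := A) (l := (i : ℕ)) hq2 h4 (hl2 i) hqL (hqLl i) (hlL i)
  obtain ⟨l₀, hl₀, hl₀S, hl₀a⟩ := hwit
  have : Nonempty ι := ⟨⟨l₀, hl₀, hl₀S⟩⟩
  -- the function of the class and its norms
  obtain ⟨hpx, hxT⟩ := mem_eigenGroup.mp hx
  obtain ⟨Dx, f, hDx, hDfix, hf, hfD, hdiv⟩ :=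
    exists_function_of_fixed_torsion A (L * q * q) x hpx hfix
  have hF : ClassFun A (L * q * q) p x f := ⟨hf, Dx, hDx, hfD⟩
  rw [← hDx] at hα hβ
  obtain ⟨cα, gα, hgα⟩ := exists_norm_eq_const_mul_pow (A := A) hqp
    (heckeAlphaBar K₀ (L * q) q) (heckeAlphaBar ℚbar (L * q) q) (Instance.degreeAlong_α K₀ L)
    (Instance.degreeAlong_α ℚbar L) (fun y => baseChangeHom_alpha _ y) (fun σ y => Subtype.ext (by
      rw [coe_galN_smul, coe_heckeAlphaBar, coe_heckeAlphaBar, coe_galN_smul]))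
    hDfix hf hfD hα
  obtain ⟨cβ, gβ, hgβ⟩ := exists_norm_eq_const_mul_pow (A := A) hqp
    (heckeBetaBar K₀ (L * q) q) (heckeBetaBar ℚbar (L * q) q) (Instance.degreeAlong_β K₀ L hqL)
    (Instance.degreeAlong_β ℚbar L hqL) (fun y => baseChangeHom_beta _ y) (fun σ y => Subtype.ext (by
      rw [coe_galN_smul, coe_heckeBetaBar, coe_heckeBetaBar, coe_galN_smul,
        ModularCurve.coeffMap_qExpand]))
    hDfix hf hfD hβ
  have hrel : ∀ i, ∃ (k : K₀) (w : LevelField K₀ (L * q * q)), k ≠ 0 ∧ w ≠ 0 ∧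
      corrOp (Aup i) (Bup i) f = algebraMap K₀ _ k * f ^ e i * w ^ p := fun i => by
    have hiM : ¬ (i : ℕ) ∣ L * q * q := fun h =>
      (i.2.1.coprime_iff_not_dvd.mp (hco₂ i)) h
    have h1 := hF.hecke hqp hA (hql i) (hco₂ i)
    rw [hxT _ i.2.1 hiM i.2.2] at h1
    have h2 : a (i : ℕ) • x = e i • x := by
      obtain ⟨m, hm⟩ := hcong i
      rw [show a (i : ℕ) = (e i : ℤ) + m * p by linarith, add_zsmul, mul_zsmul, natCast_zsmul,
        natCast_zsmul, hpx, zsmul_zero, add_zero]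
    rw [h2] at h1
    rw [corrOp_towers hq2 h4 (hl2 i) hqL (hqLl i) (hlL i) (hco₂ i) f]
    exact h1.unique hp.pos (hF.pow (e i))
  have hdeg : ∃ i, IsCoprime (p : ℤ) (((Aup i).deg : ℤ) - e i) := by
    refine ⟨⟨l₀, hl₀, hl₀S⟩, (Nat.prime_iff_prime_int.mp hp).coprime_iff_not_dvd.mpr fun h => ?_⟩
    rw [deg_towerA hq2 h4 hqL _ _ (hlq _)] at h
    push_cast at h
    refine hl₀a ?_
    have h' := dvd_sub (hcong ⟨l₀, hl₀, hl₀S⟩) h
    simpa using h'
  -- no eigen systems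
  let gen := opGen (L * q) (fun i : ι => (i : ℕ))
  let := opRingCommRing (L * q) (fun i : ι => (i : ℕ))
  have hnoeig : NoEigenSystem p hmax D D' C' Aup Bup e C := by
    refine noEigenSystem_of_carried hmax D D' C C' Aup Bup e hp
      (Y := (nsmulAddMonoidHom (α := JZero (L * q)) p).ker) (fun y => Subtype.ext y.2)
      (opOnTorsion (L * q) (fun i : ι => (i : ℕ)) p) gen (closure_opGen _ _)
      (not_forall_character (L * q) _ p (fun r hr h => ?_) hno₁ e (fun r hr _ hrS =>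
        ⟨⟨r, hr, hrS⟩, rfl⟩) hcong)
      (fun y g => ClassFun A (L * q) p (y : JZero (L * q)) g)
      (fun i => BadRed.AtP.heckeNorm K₀ (hco₁ i)) ?_ ?_ ?_ ?_ ?_ ?_ ?_
    · rcases hr.dvd_mul.mp h with h | h
      · exact hLS r hr h
      · exact (Nat.prime_dvd_prime_iff_eq hr hqp).mp h ▸ hqS
    · exact fun y y' g g' h h' => h.mul h'
    · exact fun y g h => ⟨h.1, h.divisible hp.pos⟩
    · intro g hg hd
      obtain ⟨y, hy⟩ := exists_classFun hp.pos hg hd
      exact ⟨⟨y, hy.nsmul_eq_zero⟩, hy⟩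
    · exact fun g h => h.of_zero hp.pos
    · exact fun i y g h => h.hecke hqp hA (hql i) (hco₁ i)
    · exact fun i g => corrOp_towers_α hq2 h4 (hl2 i) hqL (hqLl i) (hlL i) hA (hlq i) (hco₁ i)
        (hco₂ i) g
    · intro c hc
      have hcl : coordLevel q ∣ L := by
        rwa [coordLevel, if_neg fun h : q = 2 => hq2 (h ▸ dvd_rfl)]
      obtain ⟨g, hg, hgd, R, r, hr, hR⟩ := hT L hqL hcl (coord4 A hq2 h4) D C p hp hpq
        (coord4_mem_chartRing_jBar hq2 h4) (coord4_inv_mem_chartRing_jBar hq2 h4 hA)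
        (exists_pow_mul_jBar_mem_chartRing hA hq2 hqL h4) (zero_mem_chart4_cusps hA hq2 hqL h4)
        ⟨Instance.uSeries (Instance.hauptmodul4 q hq2), Instance.poleLE_uSeries _,
          Instance.coeff_uSeries_top _, coe_coord4 hq2 h4⟩ c hc
      exact ⟨g, hg, hgd, divisibleOn_map _ hg hgd, R, r, hr, hR⟩
  -- the descent
  obtain ⟨k, w, hk, hfw⟩ := exists_eq_const_mul_pow_of_no_eigen hmax D D₁ D' C C' Aup Bup e
    (fun z hz => mem_range_algebraMap_of_isAlgebraic z hz) (zero_mem_chart4Inv_cusps hA hq2 hqL h4)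
    hp.pos hqn hf hdiv ⟨cα, gα, hgα⟩ ⟨cβ, gβ, hgβ⟩ hrel hdeg hnoeig
    (Or.inr ⟨fun i => BadRed.AtP.heckeNorm K₀ (hco i),
      midInput_of_absent hA hq2 hqL h4 hLS hqS hno _ e (fun r _ _ hrco hrS =>
        ⟨⟨r, Fact.out, hrS⟩, rfl, hcong (⟨r, Fact.out, hrS⟩ : ι)⟩),
      fun i g => corrOp_towers_αs hq2 h4 (hl2 i) hqL (hqLl i) (hlL i) hA (hlq i) (hco i)
        (hco₂ i) g⟩)
  exact hF.eq_zero hp.pos hfw

end FermatAgent.RTLift.Sq
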