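import Fermat.Agent.RTLift.Finish.Interface
import Fermat.Agent.MazurPrinciple.PlaneRep
import Fermat.Agent.BadRed.Carayol.Assembly.Push
import Fermat.Agent.Local.Multiplicative

/-!
# The starting class at `L q²`

A residual system at level `L q²` that does not occur at level `L q` has an eigen class in
`J₀(L q²)[p]` fixed by inertia at `q`, with both pushes to `J₀(L q)` zero.
-/

set_option autoImplicit false
set_option maxHeartbeats 800000

noncomputable section

namespace FermatAgent.RTLift.Sq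

open CongruenceSubgroup ModularFormClass Polynomial
open scoped WeierstrassCurve.Affine
open FermatAgent.MazurPrinciple (HasCongruentForm eigenGroup eigenGroup_eq_bot
  exists_mem_eigenGroup_ne_zero map_mem_eigenGroup galOn galOn_quad coe_galOn pow_eq_of_sq_sub_one)
open FermatAgent.BadRed.Carayol (pushAlpha pushBeta galois_smul_pushAlpha galois_smul_pushBeta)
open FermatAgent.Ihara (torMat)
open ModularCurve (JZero)

local notation "Qb" => AlgebraicClosure ℚ
local notation "GQ" => AlgebraicClosure ℚ ≃ₐ[ℚ] AlgebraicClosure ℚ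

section LevelSet

/-- The primes dividing the level, `p` or the discriminant. -/
def levelSet (W : WeierstrassCurve ℤ) (p N : ℕ) : Set ℕ := {r | r ∣ N * p * W.Δ.natAbs}

variable {W : WeierstrassCurve ℤ} {p N : ℕ}

theorem levelSet_finite (hN : N ≠ 0) (hp : p ≠ 0) (hΔ : W.Δ ≠ 0) : (levelSet W p N).Finite :=
  (Nat.divisors (N * p * W.Δ.natAbs)).finite_toSet.subset fun r hr =>
    Finset.mem_coe.mpr (Nat.mem_divisors.mpr ⟨hr, by simp [hN, hp, hΔ]⟩)

theorem mem_levelSet_of_dvd {r : ℕ} (h : r ∣ N) : r ∈ levelSet W p N :=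
  (h.mul_right p).mul_right W.Δ.natAbs

theorem self_mem_levelSet : p ∈ levelSet W p N :=
  (dvd_mul_left p N).mul_right W.Δ.natAbs

theorem isGoodPrimeFor_of_not_mem {r : ℕ} (h : r ∉ levelSet W p N) : W.IsGoodPrimeFor r :=
  fun hd => h (dvd_mul_of_dvd_right (Int.natCast_dvd.mp hd) (N * p))

theorem not_mem_levelSet {r : ℕ} (hr : r.Prime) (hrN : ¬ r ∣ N) (hrp : r ≠ p) (hp : p.Prime)
    (hg : W.IsGoodPrimeFor r) : r ∉ levelSet W p N := fun h => by
  rcases hr.dvd_mul.mp h with h | h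
  · rcases hr.dvd_mul.mp h with h | h
    · exact hrN h
    · exact hrp ((Nat.prime_dvd_prime_iff_eq hr hp).mp h)
  · exact hg (Int.natCast_dvd.mpr h)

/-- Primes of a level with the same support lie in the set. -/
theorem mem_levelSet_of_support {M : ℕ} (hsupp : ∀ r : ℕ, r.Prime → (r ∣ M ↔ r ∣ N)) :
    ∀ r : ℕ, r.Prime → r ∣ M → r ∈ levelSet W p N :=
  fun r hr hrM => mem_levelSet_of_dvd ((hsupp r hr).mp hrM)

theorem prime_dvd_mul_self_iff {L q r : ℕ} (hr : r.Prime) : r ∣ L * q * q ↔ r ∣ L * q := by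
  refine ⟨fun h => ?_, fun h => h.mul_right q⟩
  rcases hr.dvd_mul.mp h with h | h
  · exact h
  · exact h.mul_left L

/-- Residual modularity at `M` as a congruent form away from the set of a level with the same
support. -/
theorem isResiduallyModularOfLevel_iff (hp : p.Prime) {M : ℕ}
    (hsupp : ∀ r : ℕ, r.Prime → (r ∣ M ↔ r ∣ N)) :
    W.IsResiduallyModularOfLevel p M ↔ HasCongruentForm W.apOfModel p M (levelSet W p N) := by
  constructor
  · rintro ⟨f, 𝔪, hf, h𝔪, hpm, hc⟩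
    exact ⟨f, 𝔪, hf, h𝔪, hpm, fun l hl hlM hlS =>
      hc l hl (isGoodPrimeFor_of_not_mem hlS) hlM fun e => hlS (e ▸ self_mem_levelSet)⟩
  · rintro ⟨f, 𝔪, hf, h𝔪, hpm, hc⟩
    exact ⟨f, 𝔪, hf, h𝔪, hpm, fun l hl hg hlM hlp =>
      hc l hl hlM (not_mem_levelSet hl (fun h => hlM ((hsupp l hl).mpr h)) hlp hp hg)⟩

end LevelSet

section Monotone

open FermatAgent.DSLift

variable {M M' : ℕ} [NeZero M] [NeZero M']

/-- A cusp form of a level as a form of a multiple of the level. -/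
def oldForm (h : M ∣ M') (f : CuspForm (Gamma0 M) 2) : CuspForm (Gamma0 M') 2 where
  toFun := f
  slash_action_eq' γ hγ :=
    SlashInvariantFormClass.slash_action_eq f γ
      (Subgroup.map_mono (ModFun.Gamma0_le_of_dvd h) hγ)
  holo' := CuspFormClass.holo f
  zero_at_cusps' hc := CuspFormClass.zero_at_cusps f
    (hc.mono (Subgroup.map_mono (ModFun.Gamma0_le_of_dvd h)))

omit [NeZero M] [NeZero M'] in
theorem coe_oldForm (h : M ∣ M') (f : CuspForm (Gamma0 M) 2) : ⇑(oldForm h f) = ⇑f := rfl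

omit [NeZero M] [NeZero M'] in
theorem heckeTLin_oldForm (h : M ∣ M') {l : ℕ} (hl : l.Prime) (hlM' : ¬ l ∣ M')
    (f : CuspForm (Gamma0 M) 2) :
    CuspForm.heckeTLin 2 hl hlM' (oldForm h f) =
      oldForm h (CuspForm.heckeTLin 2 hl (fun d => hlM' (d.trans h)) f) :=
  DFunLike.coe_injective (by
    rw [CuspForm.coe_heckeTLin_apply, coe_oldForm, coe_oldForm, CuspForm.coe_heckeTLin_apply])

/-- An eigensystem of level `M` occurs at every multiple of `M`, away from it. -/
theorem exists_eigenform_of_dvd (h : M ∣ M') {f : CuspForm (Gamma0 M) 2}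
    (hf : f.IsNormalizedEigenform) :
    ∃ g : CuspForm (Gamma0 M') 2, g.IsNormalizedEigenform ∧
      ∀ l : ℕ, l.Prime → ¬ l ∣ M' → qCoeff g l = qCoeff f l := by
  set S : Set ℕ := {r | r ∣ M'}
  set F := oldForm h f with hF
  have hF0 : F ≠ 0 := fun e => hf.ne_zero (DFunLike.coe_injective (by
    rw [← coe_oldForm h f, ← hF, e]; rfl))
  have hgen : ∀ {l : ℕ} (hl : l.Prime) (hlM' : ¬ l ∣ M'),
      CuspForm.heckeTLin 2 hl hlM' F = qCoeff f l • F := fun {l} hl hlM' => by
    rw [hF, heckeTLin_oldForm, (isPrimeEigen_of_isNormalizedEigenform hf).1 l hl]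
    exact DFunLike.coe_injective rfl
  have hex : ∀ t : CuspForm.heckeAlgebra M' 2 S, ∃ c : ℂ, t.1 F = c • F := by
    rintro ⟨t, ht⟩
    induction ht using Algebra.adjoin_induction with
    | mem x hx =>
      rcases hx with ⟨l, hl, hlM', -, rfl⟩ | ⟨q, hqM', -, hqS, -⟩
      · exact ⟨_, hgen hl hlM'⟩
      · exact absurd hqM' hqS
    | algebraMap r =>
      refine ⟨r, ?_⟩
      show (algebraMap ℤ (Module.End ℂ (CuspForm (Gamma0 M') 2)) r) F = _
      rw [eq_intCast, Module.End.intCast_apply, Int.cast_smul_eq_zsmul]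
    | add x y _ _ hx hy =>
      obtain ⟨a, ha⟩ := hx
      obtain ⟨b, hb⟩ := hy
      exact ⟨a + b, by
        show (x + y) F = _
        rw [LinearMap.add_apply, ha, hb, add_smul]⟩
    | mul x y _ _ hx hy =>
      obtain ⟨a, ha⟩ := hx
      obtain ⟨b, hb⟩ := hy
      exact ⟨a * b, by
        show (x * y) F = _
        rw [Module.End.mul_apply, hb, map_smul, ha, smul_smul, mul_comm]⟩
  choose c hc using hex
  have huniq : ∀ {t : CuspForm.heckeAlgebra M' 2 S} {a : ℂ}, t.1 F = a • F → c t = a :=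
    fun e => smul_left_injective ℂ hF0 ((hc _).symm.trans e)
  let χ : CuspForm.heckeAlgebra M' 2 S →+* ℂ :=
    { toFun := c
      map_one' := huniq (by rw [OneMemClass.coe_one, Module.End.one_apply, one_smul])
      map_zero' := huniq (by rw [ZeroMemClass.coe_zero, LinearMap.zero_apply, zero_smul])
      map_add' := fun x y => huniq (by
        rw [AddMemClass.coe_add, LinearMap.add_apply, hc x, hc y, add_smul])
      map_mul' := fun x y => huniq (by
        rw [MulMemClass.coe_mul, Module.End.mul_apply, hc y, map_smul, hc x, smul_smul,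
          mul_comm]) }
  obtain ⟨g, hg, hgT⟩ := BadRed.Carayol.exists_eigenform_of_character χ
  refine ⟨g, hg, fun l hl hlM' => (hgT l hl hlM' hlM').trans ?_⟩
  exact huniq (hgen hl hlM')

theorem hasCongruentForm_of_dvd (h : M ∣ M') {a : ℕ → ℤ} {p : ℕ} {S : Set ℕ}
    (hm : HasCongruentForm a p M S) : HasCongruentForm a p M' S := by
  obtain ⟨f, 𝔪, hf, h𝔪, hpm, hc⟩ := hm
  obtain ⟨g, hg, hgf⟩ := exists_eigenform_of_dvd h hf
  refine ⟨g, 𝔪, hg, h𝔪, hpm, fun l hl hlM' hlS => ?_⟩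
  obtain ⟨b, hb, hb'⟩ := hc l hl (fun d => hlM' (d.trans h)) hlS
  exact ⟨b, hb.trans (hgf l hl hlM').symm, hb'⟩

theorem isResiduallyModularOfLevel_of_dvd (h : M ∣ M') {W : WeierstrassCurve ℤ} {p : ℕ}
    (hm : W.IsResiduallyModularOfLevel p M) : W.IsResiduallyModularOfLevel p M' := by
  obtain ⟨f, 𝔪, hf, h𝔪, hpm, hc⟩ := hm
  obtain ⟨g, hg, hgf⟩ := exists_eigenform_of_dvd h hf
  refine ⟨g, 𝔪, hg, h𝔪, hpm, fun l hl hgood hlM' hlp => ?_⟩
  obtain ⟨b, hb, hb'⟩ := hc l hl hgood (fun d => hlM' (d.trans h)) hlp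
  exact ⟨b, hb.trans (hgf l hl hlM').symm, hb'⟩

end Monotone

section Fixed

/-- A group of unipotent automorphisms of a nonzero finite space fixes a nonzero vector. -/
theorem exists_fixed_of_unipotent {p : ℕ} [Fact p.Prime] {G V : Type*} [Group G] [AddCommGroup V]
    [Module (ZMod p) V] [Finite V] (ρ : G →* Module.End (ZMod p) V) (I : Subgroup G)
    (hu : ∀ σ ∈ I, (ρ σ - 1) * (ρ σ - 1) = 0) {x₀ : V} (hx₀ : x₀ ≠ 0) :
    ∃ x : V, x ≠ 0 ∧ ∀ σ ∈ I, ρ σ x = x := by
  let f : G →* Equiv.Perm V :=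
    MonoidHom.mk' (fun σ => (⟨ρ σ, ρ σ⁻¹, fun x => by
      rw [← Module.End.mul_apply, ← map_mul, inv_mul_cancel, map_one]; rfl, fun x => by
      rw [← Module.End.mul_apply, ← map_mul, mul_inv_cancel, map_one]; rfl⟩ : Equiv.Perm V))
      fun σ τ => Equiv.ext fun x => by
        show ρ (σ * τ) x = ρ σ (ρ τ x)
        rw [map_mul]; rfl
  have hV : ∀ x : V, p • x = 0 := fun x => by
    rw [← Nat.cast_smul_eq_nsmul (ZMod p), ZMod.natCast_self, zero_smul]
  have hH : IsPGroup p (I.map f) := fun g => ⟨1, by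
    obtain ⟨σ, hσ, hg⟩ := g.2
    refine Subtype.ext ?_
    rw [SubmonoidClass.coe_pow, pow_one, ← hg, ← map_pow]
    refine Equiv.ext fun x => ?_
    show ρ (σ ^ p) x = x
    rw [map_pow, pow_eq_of_sq_sub_one (hu σ hσ), LinearMap.add_apply, Module.End.one_apply,
      LinearMap.smul_apply, hV, add_zero]⟩
  have hpG : p ∣ Nat.card V :=
    (addOrderOf_eq_prime (hV x₀) hx₀) ▸ addOrderOf_dvd_natCard x₀
  have hfix0 : (0 : V) ∈ MulAction.fixedPoints (I.map f) V := fun g => by
    obtain ⟨σ, -, hg⟩ := g.2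
    show (g : Equiv.Perm V) 0 = 0
    rw [← hg]
    exact map_zero (ρ σ)
  obtain ⟨x, hx, hx0⟩ := hH.exists_fixed_point_of_prime_dvd_card_of_fixed_point V hpG hfix0
  exact ⟨x, fun e => hx0 e.symm, fun σ hσ => hx ⟨f σ, σ, hσ, rfl⟩⟩

end Fixed

section Curve

variable {W : WeierstrassCurve ℤ} {p : ℕ} [hp : Fact p.Prime]

theorem disc_map_ne_zero (hΔ : W.Δ ≠ 0) : (W.map (Int.castRingHom ℚ)).Δ ≠ 0 := by
  rw [WeierstrassCurve.map_Δ]
  simpa using hΔ

omit hp in
theorem setting_ne_two (hW : Finish.Setting W p) : p ≠ 2 := by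
  rcases hW.prime_three_five with h | h <;> omega

/-- Inertia at `q ≠ p` is unipotent on `E[p]`. -/
theorem torMat_inertia (hΔ : (W.map (Int.castRingHom ℚ)).Δ ≠ 0) (hss : W.IsSemistableModel)
    {q : ℕ} (hq : q.Prime) (hqp : q ≠ p) {A : ValuationSubring Qb} (hA : A.LiesOverPrime q)
    {σ : GQ} (hσ : σ ∈ A.inertiaSubgroupIn ℚ) :
    (torMat W (p := p) hΔ σ).trace = 2 ∧ (torMat W (p := p) hΔ σ).det = 1 := by
  have hu : ((GalRep.Tate.tateRep p hΔ).ρ σ).charpoly = (X - 1) ^ 2 :=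
    GalRep.Tate.charpoly_eq_of_unipotent hΔ σ fun n P hP =>
      Local.galois_sub_sub_of_semistable W hq (GalRep.Tate.intΔ_ne_zero W hΔ) (hss q hq)
        (fun h => hqp ((Nat.prime_dvd_prime_iff_eq hq hp.out).1 (hq.dvd_of_dvd_pow h))) hA hσ hP
  rw [GalRep.Tate.charpoly_tateRep] at hu
  have hc : (torMat W (p := p) hΔ σ).charpoly = (X - 1) ^ 2 := by
    rw [torMat, GalRep.matrixHom_apply]
    show (LinearMap.toMatrix _ _ _).charpoly = _
    rw [LinearMap.charpoly_toMatrix, Conductor.charpoly_torsionRep, hu, Polynomial.map_pow,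
      Polynomial.map_sub, Polynomial.map_X, Polynomial.map_one]
  have h2 : ((X - 1) ^ 2 : (ZMod p)[X]) = X ^ 2 - C 2 * X + C 1 := by
    rw [map_one, map_ofNat]; ring
  constructor
  · rw [Matrix.trace_eq_neg_charpoly_coeff, hc, h2]
    simp [coeff_X_pow, coeff_one]
  · rw [Matrix.det_eq_sign_charpoly_coeff, hc, h2]
    simp [coeff_X_pow, coeff_one]

variable {M : ℕ} [NeZero M] {S : Set ℕ}

/-- A nonzero eigen part has a nonzero vector fixed by inertia at `q ≠ p`. -/
theorem exists_inertia_fixed (hW : Finish.Setting W p) (hS : S.Finite)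
    (hgood : ∀ l, l.Prime → l ∉ S → W.IsGoodPrimeFor l) {q : ℕ} (hq : q.Prime) (hqp : q ≠ p)
    {A : ValuationSubring Qb} (hA : A.LiesOverPrime q)
    {x₀ : eigenGroup M S W.apOfModel p} (hx₀ : x₀ ≠ 0) :
    ∃ x : eigenGroup M S W.apOfModel p, x ≠ 0 ∧
      ∀ σ ∈ A.inertiaSubgroupIn ℚ, σ • (x : JZero M) = x := by
  have hΔ := disc_map_ne_zero (W := W) hW.disc_ne_zero
  obtain ⟨x, hx, hfix⟩ := exists_fixed_of_unipotent
    (galOn (M := M) (S := S) (a := W.apOfModel) (p := p)) (A.inertiaSubgroupIn ℚ) (fun σ hσ => by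
      have hquad := galOn_quad (M := M) (p := p) W hΔ hW.irreducible hS hgood σ
      obtain ⟨htr, hdet⟩ := torMat_inertia (p := p) hΔ hW.semistable hq hqp hA hσ
      rw [htr, hdet] at hquad
      simp only [two_smul, one_smul] at hquad
      rw [← hquad]
      noncomm_ring) hx₀
  refine ⟨x, hx, fun σ hσ => ?_⟩
  rw [← coe_galOn σ x, hfix σ hσ]

/-- **The starting class.** -/
theorem exists_start (hW : Finish.Setting W p) {q L : ℕ} [NeZero q] [NeZero L] (hq : q.Prime)
    (hqp : q ≠ p) (hres : W.IsResiduallyModularOfLevel p (L * q * q))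
    (hno : ¬ W.IsResiduallyModularOfLevel p (L * q))
    {A : ValuationSubring Qb} (hA : A.LiesOverPrime q) :
    ∃ x : JZero (L * q * q), x ≠ 0 ∧
      x ∈ eigenGroup (L * q * q) (levelSet W p (L * q)) W.apOfModel p ∧
      (∀ σ ∈ A.inertiaSubgroupIn ℚ, σ • x = x) ∧
      pushAlpha (L * q) q x = 0 ∧ pushBeta (L * q) q x = 0 := by
  set S := levelSet W p (L * q)
  have hsupp : ∀ r : ℕ, r.Prime → (r ∣ L * q * q ↔ r ∣ L * q) := fun r => prime_dvd_mul_self_iff
  have hMS : ∀ r : ℕ, r.Prime → r ∣ L * q * q → r ∈ S := mem_levelSet_of_support hsupp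
  have hform : HasCongruentForm W.apOfModel p (L * q * q) S :=
    (isResiduallyModularOfLevel_iff hp.out hsupp).mp hres
  have hno' : ¬ HasCongruentForm W.apOfModel p (L * q) S := fun h =>
    hno ((isResiduallyModularOfLevel_iff hp.out fun r _ => Iff.rfl).mpr h)
  have hfin : S.Finite := levelSet_finite (NeZero.ne (L * q)) hp.out.ne_zero hW.disc_ne_zero
  obtain ⟨x₀, hx₀m, hx₀⟩ := exists_mem_eigenGroup_ne_zero hMS hform
  obtain ⟨x, hx, hfix⟩ := exists_inertia_fixed hW hfin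
    (fun l _ hl => isGoodPrimeFor_of_not_mem hl) hq hqp hA
    (x₀ := ⟨x₀, hx₀m⟩) fun e => hx₀ (congrArg Subtype.val e)
  have hMS' : ∀ r : ℕ, r.Prime → r ∣ L * q → r ∈ S := fun r _ h => mem_levelSet_of_dvd h
  refine ⟨x, fun e => hx (Subtype.ext e), x.2, hfix, ?_, ?_⟩
  · exact eigenGroup_eq_bot hMS' hno' (map_mem_eigenGroup (pushAlpha (L * q) q)
      (galois_smul_pushAlpha (L * q) q) hMS self_mem_levelSet x.2)
  · exact eigenGroup_eq_bot hMS' hno' (map_mem_eigenGroup (pushBeta (L * q) q)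
      (galois_smul_pushBeta (L * q) q) hMS self_mem_levelSet x.2)

omit [NeZero M] in
/-- A good prime outside the set at which the system is not Eisenstein. -/
theorem exists_witness (hW : Finish.Setting W p) {N : ℕ} (hN : N ≠ 0) :
    ∃ l : ℕ, l.Prime ∧ l ∉ levelSet W p N ∧ ¬ (p : ℤ) ∣ W.apOfModel l - (l + 1) := by
  obtain ⟨l, hl, hlS, -, -, -, hne⟩ := Ihara.exists_ne_succ W (disc_map_ne_zero hW.disc_ne_zero)
    (setting_ne_two hW) hW.irreducible (levelSet_finite hN hp.out.ne_zero hW.disc_ne_zero)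
    (M := 1) one_pos
  refine ⟨l, hl, hlS, fun h => hne ?_⟩
  rw [← ZMod.intCast_zmod_eq_zero_iff_dvd, Int.cast_sub, sub_eq_zero] at h
  rw [h]
  push_cast
  rfl

end Curve

end FermatAgent.RTLift.Sq

end
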