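import Fermat.Agent.BadRed.Carayol.Assembly.Kill
import Fermat.Agent.BadRed.Carayol.Instance.Final
import Fermat.Agent.ModCurve.Fun.Psi

/-!
# The kill at `q = 2` for `p ≥ 5`

The bounded kernel with its bound made explicit: at `q = 2` it is `9` times an index prime to `p`.
-/

set_option autoImplicit false
set_option maxHeartbeats 1600000

noncomputable section

namespace FermatAgent.RTLift.Sq

open FermatAgent.BadRed.Carayol

open AlgebraicCurve ModularCurve IntermediateField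
open FermatAgent.Curve (divisorOf IsFunctionField1)
open FermatAgent.ModCurveTorsion
open FermatAgent.MazurPrinciple (inertiaField)
open FermatAgent.BadRed.Carayol.Instance (LevelField degreeAlong inertiaRing maximalIdeal_inertiaRing
  isAlgClosed_residue_inertiaRing)

local notation "ℚbar" => AlgebraicClosure ℚ
local notation "GQ" => AlgebraicClosure ℚ ≃ₐ[ℚ] AlgebraicClosure ℚ
local notation "𝐅" N:max => laurentBaseChange ℚbar (modularFunctionFieldFull N)

attribute [local instance] isFunctionField1_laurent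

variable {A : ValuationSubring ℚbar}

section Core

open Polynomial IsLocalRing

/-- With the exponent made explicit: if `f` on the level `q²N` field has divisor divisible by `n` and both norms to level `qN`
are constants times `n`-th powers, then a bounded power of `f` is a constant times an `n`-th
power. -/
theorem pow_eq_const_mul_pow_explicit {q : ℕ} [Fact q.Prime] {W K F F₁ F₂ : Type*}
    [CommRing W] [IsDomain W] [IsDiscreteValuationRing W] [IsAlgClosed (IsLocalRing.ResidueField W)]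
    [Field K] [CharZero K] [Algebra W K] [IsFractionRing W K]
    [Field F] [Field F₁] [Field F₂] [Algebra K F] [Algebra K F₁] [Algebra K F₂]
    [Algebra W F] [Algebra W F₁] [Algebra W F₂]
    [IsScalarTower W K F] [IsScalarTower W K F₁] [IsScalarTower W K F₂]
    (hq : IsLocalRing.maximalIdeal W = Ideal.span {(q : W)})
    (hconst : ∀ x : F₂, IsAlgebraic K x → x ∈ Set.range (algebraMap K F₂))
    (T : QTower q K F F₁ F₂) {u : F} (h₀ : ChartData W T u) (h₁ : ChartData W T u⁻¹) :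
    ∀ n : ℕ, 0 < n → ¬ q ∣ n → ∀ f : F₂, f ≠ 0 → DivisibleOn K f n →
      (∃ (c : K) (g : F₁), T.normα f = algebraMap K F₁ c * g ^ n) →
      (∃ (c : K) (g : F₁), T.normβ f = algebraMap K F₁ c * g ^ n) →
      ∃ (c : K) (y : F₂), c ≠ 0 ∧ 
        y ^ n = algebraMap K F₂ c * f ^ ((q - 1) * (q * q - 1) * (q - 1) * (q * q - 1)) := by
  intro n hn hqn f hf hdiv hα hβ
  have hnu : IsUnit (n : W) := by
    have := charP_residue hq h₀
    by_contra h
    have h1 : residue W (n : W) = 0 := (residue_eq_zero_iff _).mpr h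
    rw [map_natCast, CharP.cast_eq_zero_iff _ q] at h1
    exact hqn h1
  obtain ⟨C⟩ := exists_comps hq h₀
  obtain ⟨c₀, hc₀, ⟨N⟩⟩ := exists_normal hq h₀ C hn hf hdiv hα hβ
  obtain ⟨N₁, ⟨R⟩⟩ := exists_roots hq h₀ hn hqn N
  obtain ⟨N₂, R', hbal, hbal'⟩ := exists_balanced hq h₀ h₁ C hn R
  obtain ⟨y₀, hy₀, hy₀'⟩ := exists_section hq h₀ hn hnu R' hbal
  obtain ⟨y₁, hy₁, hy₁'⟩ := exists_section hq h₁ hn hnu (R'.inv hq h₀) hbal'
  have hy₁s : y₁ ∈ (R'.frame hq h₀ hn hnu).sections {(T.α (T.t u))⁻¹} := by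
    rw [show (T.α (T.t u))⁻¹ = T.α (T.t u⁻¹) by rw [map_inv₀, map_inv₀]]
    exact hy₁
  obtain ⟨c, y, hc, hy⟩ := (R'.frame hq h₀ hn hnu).exists_global_root hq hconst
    ⟨y₀, hy₀, hy₀'⟩ ⟨y₁, hy₁s, hy₁'⟩
  refine ⟨c * c₀ ^ ((q - 1) * (q * q - 1)), y, mul_ne_zero hc (pow_ne_zero _ hc₀), ?_⟩
  rw [hy, map_mul, map_pow]
  ring

end Core

variable {q : ℕ} [hq : Fact q.Prime] [NeZero q]

/-- The bounded kernel with the bound made explicit. -/
theorem smul_eq_zero_explicit (N : ℕ) [NeZero N] (hqN : ¬ q ∣ N) [NeZero (N * coordLevel q)]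
    [IsDiscreteValuationRing (inertiaRing A)] (hA : A.LiesOverPrime q) (hchart : ChartInput q A)
    (h2 : N * q * q ∣ N * coordLevel q * q * q) {n : ℕ} (hn : 0 < n) (hqn : ¬ q ∣ n)
    {x : JZero (N * q * q)} (hnx : n • x = 0) (hfix : ∀ σ ∈ A.inertiaSubgroupIn ℚ, σ • x = x)
    (hα : pushAlpha (N * q) q x = 0) (hβ : pushBeta (N * q) q x = 0) :
    ((q - 1) * (q * q - 1) * (q - 1) * (q * q - 1) * degreeAlong (levelIncl ℚbar h2)) • x = 0 := by
  classical
  set K₀ := inertiaField A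
  set L := N * coordLevel q with hLdef
  have hNL : N ∣ L := dvd_mul_right _ _
  have hqL : ¬ q ∣ L := fun h => (hq.out.dvd_mul.mp h).elim hqN not_dvd_coordLevel
  obtain ⟨u, ⟨h₀⟩, ⟨h₁⟩⟩ := hchart L hqL (dvd_mul_left _ _)
  have : IsAlgClosed (IsLocalRing.ResidueField (inertiaRing A)) :=
    isAlgClosed_residue_inertiaRing hq.out hA
  set E := (q - 1) * (q * q - 1) * (q - 1) * (q * q - 1)
  have hkey := pow_eq_const_mul_pow_explicit
    (maximalIdeal_inertiaRing hq.out hA) (fun x hx => mem_range_algebraMap_of_isAlgebraic x hx)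
    (Instance.tower K₀ L hqL) h₀ h₁
  have h1 : N * q ∣ L * q := Nat.mul_dvd_mul_right hNL q
  set ψ := levelIncl ℚbar h2
  set d := degreeAlong ψ
  obtain ⟨D, f, hDx, hDfix, hf, hfD, hdiv⟩ := exists_function_of_fixed_torsion A (N * q * q) x hnx hfix
  rw [← hDx] at hα hβ
  obtain ⟨cα, gα, hgα⟩ := exists_norm_eq_const_mul_pow (A := A) hq.out
    (heckeAlphaBar K₀ (N * q) q) (heckeAlphaBar ℚbar (N * q) q) (Instance.degreeAlong_α K₀ N)
    (Instance.degreeAlong_α ℚbar N) (fun y => baseChangeHom_alpha _ y) (fun σ y => Subtype.ext (by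
      rw [coe_galN_smul, coe_heckeAlphaBar, coe_heckeAlphaBar, coe_galN_smul]))
    hDfix hf hfD hα
  obtain ⟨cβ, gβ, hgβ⟩ := exists_norm_eq_const_mul_pow (A := A) hq.out
    (heckeBetaBar K₀ (N * q) q) (heckeBetaBar ℚbar (N * q) q) (Instance.degreeAlong_β K₀ N hqN)
    (Instance.degreeAlong_β ℚbar N hqN) (fun y => baseChangeHom_beta _ y) (fun σ y => Subtype.ext (by
      rw [coe_galN_smul, coe_heckeBetaBar, coe_heckeBetaBar, coe_galN_smul,
        ModularCurve.coeffMap_qExpand]))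
    hDfix hf hfD hβ
  set F := levelIncl K₀ h2 f with hFdef
  have hF : F ≠ 0 := (map_ne_zero _).mpr hf
  have hFdiv : DivisibleOn K₀ F n := fun V hV => by
    obtain ⟨g, hg⟩ := hdiv (V.comap (levelIncl K₀ h2).toRingHom) fun c => by
      rw [ValuationSubring.mem_comap]
      exact (levelIncl K₀ h2).commutes c ▸ hV c
    exact ⟨levelIncl K₀ h2 g, map_valuation_eq _ V hf hg⟩
  have hNα : (Instance.tower K₀ L hqL).normα F = algebraMap K₀ _ cα * levelIncl K₀ h1 gα ^ n := by
    have hwit : levelIncl K₀ h2 (jdElt K₀ (q * q) (L := N * q * q) (by rw [mul_assoc]; exact dvd_mul_left _ _))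
        ∉ Set.range (heckeAlphaBar K₀ (L * q) q) := by
      have heq : levelIncl K₀ h2 (jdElt K₀ (q * q) (L := N * q * q) (by rw [mul_assoc]; exact dvd_mul_left _ _)) =
          jdElt K₀ (q * q) (L := L * q * q) (by rw [mul_assoc]; exact dvd_mul_left _ _) :=
        Subtype.ext (coe_levelIncl _ h2 _)
      rw [heq]
      exact jdElt_notMem_range_alpha K₀ _ fun hd' =>
        hqL (Nat.dvd_of_mul_dvd_mul_right hq.out.pos hd')
    have h := map_normAlongRing (φ := (heckeAlphaBar K₀ (N * q) q).toRingHom)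
      (φ' := (heckeAlphaBar K₀ (L * q) q).toRingHom) (f₁ := (levelIncl K₀ h1).toRingHom)
      (f₂ := (levelIncl K₀ h2).toRingHom) (fun a => levelIncl_alpha K₀ h1 a) hq.out
      (Instance.degreeAlong_α K₀ N) (Instance.degreeAlong_α K₀ L) hwit f
    refine h.symm.trans ?_
    rw [hgα]
    show levelIncl K₀ h1 _ = _
    rw [map_mul, map_pow, AlgHom.commutes]
  have hNβ : (Instance.tower K₀ L hqL).normβ F = algebraMap K₀ _ cβ * levelIncl K₀ h1 gβ ^ n := by
    have hwit : levelIncl K₀ h2 (FermatAgent.ModFun.jBar K₀ (N * q * q))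
        ∉ Set.range (heckeBetaBar K₀ (L * q) q) := by
      have heq : levelIncl K₀ h2 (FermatAgent.ModFun.jBar K₀ (N * q * q)) =
          FermatAgent.ModFun.jBar K₀ (L * q * q) := Subtype.ext (by simp [coe_levelIncl])
      rw [heq]
      exact jBar_notMem_range_beta K₀ hq.out.one_lt
    have h := map_normAlongRing (φ := (heckeBetaBar K₀ (N * q) q).toRingHom)
      (φ' := (heckeBetaBar K₀ (L * q) q).toRingHom) (f₁ := (levelIncl K₀ h1).toRingHom)
      (f₂ := (levelIncl K₀ h2).toRingHom) (fun a => levelIncl_beta K₀ h1 a) hq.out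
      (Instance.degreeAlong_β K₀ N hqN) (Instance.degreeAlong_β K₀ L hqL) hwit f
    refine h.symm.trans ?_
    rw [hgβ]
    show levelIncl K₀ h1 _ = _
    rw [map_mul, map_pow, AlgHom.commutes]
  obtain ⟨c, y, hc, hy⟩ := hkey n hn hqn F hF hFdiv ⟨cα, _, hNα⟩ ⟨cβ, _, hNβ⟩
  -- go to `ℚbar` and take the norm down
  set Y := fromInertia A (L * q * q) y
  set fb := fromInertia A (N * q * q) f
  have hfb : fb ≠ 0 := fun e => hf (fromInertia_injective A _ (e.trans (map_zero _).symm))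
  have hY : Y ^ n = algebraMap ℚbar (𝐅 (L * q * q)) (c : ℚbar) * ψ fb ^ E := by
    rw [← map_pow, hy, map_mul, map_pow, fromInertia_algebraMap]
    rw [show fromInertia A (L * q * q) F = ψ fb from baseChangeHom_levelIncl _ h2 f]
  have hY0 : Y ≠ 0 := fun e => by
    rw [e, zero_pow hn.ne'] at hY
    exact mul_ne_zero ((map_ne_zero _).mpr fun e' => hc (Subtype.ext e'))
      (pow_ne_zero E ((map_ne_zero ψ).mpr hfb)) hY.symm
  set Z := normAlongHom ψ Y
  have hZ0 : Z ≠ 0 := normAlongHom_ne_zero ψ hY0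
  have hZ : Z ^ n = algebraMap ℚbar (𝐅 (N * q * q)) ((c : ℚbar) ^ d) * fb ^ (d * E) := by
    let := algebraAlong ψ
    have := isScalarTower_along ψ
    rw [← map_pow, hY, map_mul, map_pow]
    congr 1
    · show Algebra.norm _ (algebraMap ℚbar (𝐅 (L * q * q)) (c : ℚbar)) = _
      rw [IsScalarTower.algebraMap_apply ℚbar (𝐅 (N * q * q)) (𝐅 (L * q * q)),
        Algebra.norm_algebraMap, map_pow]
      rfl
    · show (Algebra.norm _ (algebraMap (𝐅 (N * q * q)) (𝐅 (L * q * q)) fb)) ^ E = _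
      rw [Algebra.norm_algebraMap, ← pow_mul]
      rfl
  have hdivZ : ∀ v : Place ℚbar (𝐅 (N * q * q)),
      ((E * d : ℕ) • (D : Divisor ℚbar (𝐅 (N * q * q)))) v = v.ord Z := fun v => by
    have h := congrArg v.ord hZ
    have hc' : (c : ℚbar) ^ d ≠ 0 := pow_ne_zero _ fun e' => hc (Subtype.ext e')
    rw [← zpow_natCast, v.ord_zpow, v.ord_mul ((map_ne_zero _).mpr hc') (pow_ne_zero _ hfb),
      FermatAgent.Curve.RR.ord_algebraMap v hc', zero_add, ← zpow_natCast, v.ord_zpow,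
      ← FermatAgent.Curve.divisorOf_apply fb v, ← hfD, Finsupp.smul_apply, nsmul_eq_mul] at h
    rw [Finsupp.smul_apply, nsmul_eq_mul]
    refine mul_left_cancel₀ (Int.natCast_ne_zero.mpr hn.ne') ?_
    rw [h]
    push_cast
    ring
  rw [← hDx, show (E * d) • Pic0.mk D = Pic0.mk ((E * d) • D) from
    (map_nsmul (QuotientAddGroup.mk' _) (E * d) D).symm]
  refine (QuotientAddGroup.eq_zero_iff _).mpr ?_
  exact AddSubgroup.mem_addSubgroupOf.mpr ⟨Z, hZ0, hdivZ⟩


/-- The index of a level change. -/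
theorem degreeAlong_levelIncl_mul {M M' : ℕ} [NeZero M] [NeZero M'] (h : M ∣ M') :
    degreeAlong (levelIncl ℚbar h) * dedekindPsi M = dedekindPsi M' := by
  set φ := levelIncl ℚbar h
  have hj : φ (FermatAgent.ModFun.jBar ℚbar M) = FermatAgent.ModFun.jBar ℚbar M' :=
    Subtype.ext (coe_levelIncl _ h _)
  have hmap : (ℚbar⟮FermatAgent.ModFun.jBar ℚbar M⟯).map φ = ℚbar⟮FermatAgent.ModFun.jBar ℚbar M'⟯ := by
    rw [adjoin_map, Set.image_singleton, hj]
  have hle : ℚbar⟮FermatAgent.ModFun.jBar ℚbar M'⟯ ≤ φ.fieldRange := by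
    rw [← hmap]; exact fun x hx => by
      obtain ⟨y, -, rfl⟩ := IntermediateField.mem_map _ |>.mp hx
      exact ⟨y, rfl⟩
  have hrel : relfinrank ℚbar⟮FermatAgent.ModFun.jBar ℚbar M'⟯ φ.fieldRange = dedekindPsi M := by
    rw [← hmap, φ.fieldRange_eq_map, relfinrank_map_map, relfinrank_top_right,
      FermatAgent.ModFun.finrank_adjoin_jBar_eq_dedekindPsi]
  rw [Instance.degreeAlong_eq_fieldRange, ← hrel, mul_comm, relfinrank_mul_finrank_top hle,
    FermatAgent.ModFun.finrank_adjoin_jBar_eq_dedekindPsi]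

omit hq [NeZero q] in
/-- The index of `Γ₀(9M)` in `Γ₀(M)` is `9` or `12`. -/
theorem degreeAlong_levelIncl_nine {M M' : ℕ} [NeZero M] [NeZero M'] (h : M ∣ M')
    (hM : M' = M * 3 * 3) :
    degreeAlong (levelIncl ℚbar h) = 9 ∨ degreeAlong (levelIncl ℚbar h) = 12 := by
  subst hM
  have h3 : Nat.Prime 3 := by norm_num
  have e := degreeAlong_levelIncl_mul h
  rw [Instance.dedekindPsi_mul_dvd h3 (NeZero.ne _) (dvd_mul_left 3 M)] at e
  have hpos := Instance.dedekindPsi_pos M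
  by_cases hd : 3 ∣ M
  · rw [Instance.dedekindPsi_mul_dvd h3 (NeZero.ne M) hd] at e
    exact Or.inl (Nat.eq_of_mul_eq_mul_right hpos (by linarith))
  · rw [Instance.dedekindPsi_mul_prime h3 (NeZero.ne M) hd] at e
    exact Or.inr (Nat.eq_of_mul_eq_mul_right hpos (by linarith))

/-- **The kill at `q = 2`.** -/
theorem eq_zero_at_two (N : ℕ) [NeZero N] (hN : ¬ 2 ∣ N) {A : ValuationSubring ℚbar}
    (hA : A.LiesOverPrime 2) {n : ℕ} (hn : n.Prime) (h5 : 5 ≤ n) {x : JZero (N * 2 * 2)}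
    (hnx : n • x = 0) (hfix : ∀ σ ∈ A.inertiaSubgroupIn ℚ, σ • x = x)
    (hα : pushAlpha (N * 2) 2 x = 0) (hβ : pushBeta (N * 2) 2 x = 0) : x = 0 := by
  have : Fact (Nat.Prime 2) := ⟨Nat.prime_two⟩
  have := Instance.isDiscreteValuationRing_inertiaRing Nat.prime_two hA
  have hc : coordLevel 2 = 9 := rfl
  have : NeZero (N * coordLevel 2) := ⟨mul_ne_zero (NeZero.ne N) (by rw [hc]; norm_num)⟩
  have h2 : N * 2 * 2 ∣ N * coordLevel 2 * 2 * 2 := ⟨9, by rw [hc]; ring⟩
  have hn2 : ¬ 2 ∣ n := fun h => by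
    have := (Nat.prime_dvd_prime_iff_eq Nat.prime_two hn).mp h
    omega
  have hsm := smul_eq_zero_explicit N hN hA (Instance.chartInput hA) h2 hn.pos hn2 hnx hfix hα hβ
  have hco : Nat.Coprime n
      ((2 - 1) * (2 * 2 - 1) * (2 - 1) * (2 * 2 - 1) * degreeAlong (levelIncl ℚbar h2)) := by
    refine (hn.coprime_iff_not_dvd).mpr fun hd => ?_
    rcases degreeAlong_levelIncl_nine h2 (by rw [hc]; ring) with e | e <;> rw [e] at hd
    · have h9 : n ∣ 3 ^ 4 := by simpa using hd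
      have := (Nat.prime_dvd_prime_iff_eq hn (by norm_num)).mp (hn.dvd_of_dvd_pow h9)
      omega
    · have h12 : n ∣ 2 ^ 2 * 3 ^ 3 := by simpa using hd
      rcases hn.dvd_mul.mp h12 with h | h <;>
        have := (Nat.prime_dvd_prime_iff_eq hn (by norm_num)).mp (hn.dvd_of_dvd_pow h) <;> omega
  exact (AddMonoid.addOrderOf_eq_one_iff).mp (Nat.eq_one_of_dvd_coprimes hco
    (addOrderOf_dvd_iff_nsmul_eq_zero.mpr hnx) (addOrderOf_dvd_iff_nsmul_eq_zero.mpr hsm))

end FermatAgent.RTLift.Sq
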