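import Fermat.Agent.RTLift.Sq.Kill
import Fermat.Agent.RTLift.Sq.TwoFive
import Fermat.Agent.RTLift.Sq.Start
import Fermat.Agent.RTLift.Sq.Iterate
import Fermat.Agent.BadRed.Semistable.PadicPlace

/-!
# Lowering the level to a squarefree one, from two inputs

The inputs are the ratios of functions from the middle level at odd primes, and the step at `2`
for `p = 3`.
-/

set_option autoImplicit false
set_option maxHeartbeats 800000

noncomputable section

namespace FermatAgent.RTLift.Sq

open FermatAgent.BadRed.Carayol.Instance (inertiaRing isDiscreteValuationRing_inertiaRing)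
open FermatAgent.MazurPrinciple (HasCongruentForm)
open FermatAgent.BadRed.Semistable (place₀ liesOverPrime_place₀)
open ModularCurve (JZero)

local notation "ℚbar" => AlgebraicClosure ℚ

variable {W : WeierstrassCurve ℤ} {p : ℕ}

/-- One square of an odd prime. -/
theorem residuallyModular_step_odd [Fact p.Prime] (hW : Finish.Setting W p)
    (hT : ∀ (q : ℕ) [Fact q.Prime] [NeZero q] [IsDiscreteValuationRing (inertiaRing (place₀ q))],
      ¬ 2 ∣ q → ToricRootsInput q (place₀ q) (liesOverPrime_place₀ q))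
    {L q : ℕ} (hL : L ≠ 0) (hq : q.Prime) (hqp : q ≠ p) (hq2 : ¬ 2 ∣ q) (hqL : ¬ q ∣ L)
    (h4 : 4 ∣ L) (hres : W.IsResiduallyModularOfLevel p (L * q * q)) :
    W.IsResiduallyModularOfLevel p (L * q) := by
  by_contra hno
  have : Fact q.Prime := ⟨hq⟩
  have : NeZero q := ⟨hq.ne_zero⟩
  have : NeZero L := ⟨hL⟩
  have hA := liesOverPrime_place₀ q
  have := isDiscreteValuationRing_inertiaRing hq hA
  set S := levelSet W p (L * q)
  obtain ⟨x, hx0, hx, hfix, hα, hβ⟩ := exists_start hW hq hqp hres hno hA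
  have hno₁ : ¬ HasCongruentForm W.apOfModel p (L * q) S := fun h =>
    hno ((isResiduallyModularOfLevel_iff Fact.out fun r _ => Iff.rfl).mpr h)
  exact hx0 (eq_zero_of_eigen_fixed hA hq2 hqL h4 (hT q hq2) hqp.symm
    (fun r _ h => mem_levelSet_of_dvd (h.mul_right q)) (mem_levelSet_of_dvd (dvd_mul_left q L))
    (fun h => hno₁ (hasCongruentForm_of_dvd (dvd_mul_right L q) h)) hno₁
    (exists_witness hW (mul_ne_zero hL hq.ne_zero)) hx hfix hα hβ)

/-- The square of `2`, for `p = 5`. -/
theorem residuallyModular_step_two_five [Fact p.Prime] (hW : Finish.Setting W p) (h5 : 5 ≤ p)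
    {N : ℕ} (hN : N ≠ 0) (hN2 : ¬ 2 ∣ N) (hres : W.IsResiduallyModularOfLevel p (N * 2 * 2)) :
    W.IsResiduallyModularOfLevel p (N * 2) := by
  by_contra hno
  have : Fact (Nat.Prime 2) := ⟨Nat.prime_two⟩
  have : NeZero N := ⟨hN⟩
  obtain ⟨A, hA⟩ := RT.exists_liesOverPrime Nat.prime_two
  obtain ⟨x, hx0, hx, hfix, hα, hβ⟩ := exists_start hW Nat.prime_two (by omega) hres hno hA
  exact hx0 (eq_zero_at_two N hN2 hA Fact.out h5 (MazurPrinciple.mem_eigenGroup.mp hx).1 hfix hα hβ)

/-- **Lowering the level to a squarefree one, from the two inputs.** -/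
theorem sqLoweringStep_of
    (hT : ∀ (q : ℕ) [Fact q.Prime] [NeZero q] [IsDiscreteValuationRing (inertiaRing (place₀ q))],
      ¬ 2 ∣ q → ToricRootsInput q (place₀ q) (liesOverPrime_place₀ q))
    (htwo : ∀ W : WeierstrassCurve ℤ, Finish.Setting W 3 → ∀ N : ℕ, N ≠ 0 → ¬ 2 ∣ N →
      W.IsResiduallyModularOfLevel 3 (N * 2 * 2) → W.IsResiduallyModularOfLevel 3 (N * 2)) :
    Finish.SqLoweringStep := by
  intro W p hW M₀ _ hres hpp hcube
  have hp2 : p ≠ 2 := setting_ne_two hW
  have : Fact p.Prime := ⟨by rcases hW.prime_three_five with rfl | rfl <;> norm_num⟩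
  refine exists_squarefree_of_steps W hp2 (fun M M' hM hM' h hm => ?_)
    (fun L q hL hq hqp hq2 hqL h4 h => residuallyModular_step_odd hW hT hL hq hqp hq2 hqL h4 h)
    (fun N hN hN2 h => ?_) (NeZero.ne M₀) hres hpp hcube
  · have : NeZero M := ⟨hM⟩
    have : NeZero M' := ⟨hM'⟩
    exact isResiduallyModularOfLevel_of_dvd h hm
  · rcases hW.prime_three_five with rfl | rfl
    · exact htwo W hW N hN hN2 h
    · exact residuallyModular_step_two_five hW le_rfl hN hN2 h

end FermatAgent.RTLift.Sq
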