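import Fermat.Agent.MazurPrinciple.Away.Moving
import Fermat.Agent.RTLift.Sq.BranchLift

/-!
# The exponent of a function at a node

At a node the branches are smooth: `X` is a uniformiser of the first one at its point. If `f` has
orders divisible by `n` off the special fibre, is a unit on the first component and reduces there
to an `n`-th power, then near the node it is a unit times an `n`-th power.
-/

set_option autoImplicit false
set_option linter.unusedSectionVars false

noncomputable section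

namespace FermatAgent.RTLift.Sq

open Polynomial IsLocalRing AlgebraicCurve
open FermatAgent.Curve FermatAgent.Curve.RR FermatAgent.BadRed.Semistable
open FermatAgent.BadRed.Carayol FermatAgent.MazurPrinciple

variable {q : ℕ} [Fact q.Prime] {W K F F₁ F₂ : Type*}
  [CommRing W] [IsDomain W] [IsDiscreteValuationRing W] [IsAlgClosed (IsLocalRing.ResidueField W)]
  [Field K] [CharZero K] [Algebra W K] [IsFractionRing W K]
  [Field F] [Field F₁] [Field F₂] [Algebra K F] [Algebra K F₁] [Algebra K F₂]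
  [Algebra W F] [Algebra W F₁] [Algebra W F₂]
  [IsScalarTower W K F] [IsScalarTower W K F₁] [IsScalarTower W K F₂]
  {T : QTower q K F F₁ F₂} {u : F}
variable {L : Type*} [Field L] [IsAlgClosed L] {A : ValuationSubring L} {k : Type*} [Field k]
  [IsAlgClosed k] {π : A →+* k} {E G₁ G₂ : Type*} [Field E] [Field G₁] [Field G₂]
  [Algebra L E] [Algebra k G₁] [Algebra k G₂] [IsFunctionField1 L E] [IsFunctionField1 k G₁]
  [IsFunctionField1 k G₂] [RRSetting L E] [RRSetting k G₁] [RRSetting k G₂] [Infinite k]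
variable {d : NodalDatum A π E G₁ G₂}

section Branch

variable {G : Type*} [Field G] [Algebra k G] [IsFunctionField1 k G] (C : ChartLink W T u d)
  (g : GaussRed A π E G) {P : Ideal (chartRing W (T.t u))} [P.IsMaximal]
  (hint : ∀ r : locRing P, C.hom (r : F₁) ∈ g.integers)

/-- The reduction of the local ring on a component. -/
def locRed : locRing P →+* G :=
  g.red.comp ((C.hom.comp (locRing P).subtype).codRestrict g.integers hint)

theorem locRed_apply (r : locRing P) : locRed C g hint r = g.red ⟨C.hom (r : F₁), hint r⟩ := rfl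

/-- A component is smooth at a node. -/
theorem locRed_branch (v : Place k G) {X Y : locRing P}
    (hmax : maximalIdeal (locRing P) = Ideal.span {X, Y})
    (hker : ∀ r : locRing P, ∃ h : C.hom (r : F₁) ∈ g.integers,
      (g.red ⟨C.hom r, h⟩ = 0 ↔ Y ∣ r))
    (hnd : ¬ Y ∣ X)
    (hfrac : ∀ f : F₁, C.hom f ∈ g.integers → ∃ a b : locRing P, ¬ Y ∣ b ∧ f * b = a)
    (hvalue : ∀ (r : locRing P) (c : W), r - locConst P c ∈ maximalIdeal (locRing P) →
      ∀ h : C.hom (r : F₁) ∈ g.integers, v.adicValuation (g.red ⟨C.hom r, h⟩) ≤ 1 ∧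
        valueAt v (g.red ⟨C.hom r, h⟩) = π (C.κ c))
    (hres : ∀ r : locRing P, ∃ c : W, r - locConst P c ∈ maximalIdeal (locRing P))
    (hsurj : ∀ z : G, ∃ (f : F₁) (h : C.hom f ∈ g.integers), g.red ⟨C.hom f, h⟩ = z) :
    v.ord (locRed C g hint X) = 1 ∧
      ∀ z : G, z ≠ 0 → v.ord z = 0 → ∃ e : (locRing P)ˣ, locRed C g hint e = z := by
  have hiff : ∀ r : locRing P, locRed C g hint r = 0 ↔ Y ∣ r := fun r => (hker r).choose_spec
  refine branch_structure (locRed C g hint) v hmax ((hiff Y).mpr dvd_rfl) (fun r => ?_)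
    (fun r hr => ?_) (fun h => hnd ((hiff X).mp h)) fun z => ?_
  · obtain ⟨c, hc⟩ := hres r
    exact (hvalue r c hc _).1
  · rw [locRed_apply, (hvalue r 0 (by rwa [map_zero, sub_zero]) _).2, map_zero, map_zero]
  · obtain ⟨f, hf, rfl⟩ := hsurj z
    obtain ⟨a, b, hb, hab⟩ := hfrac f hf
    refine ⟨a, b, fun h => hb ((hiff b).mp h), ?_⟩
    rw [locRed_apply, locRed_apply, ← map_mul]
    exact congrArg g.red (Subtype.ext (by
      show C.hom f * C.hom (b : F₁) = C.hom (a : F₁)
      rw [← map_mul, hab]))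

end Branch

variable (C : ChartLink W T u d) (hq : maximalIdeal W = Ideal.span {(q : W)})
  (D : ChartData W T u)
include hq D

/-- The point of a node chart is the point under the node. -/
theorem nodeChart_P {i : d.C.ι} (NC : NodeChart C i D.cusps) : NC.P = C.point hq i := by
  have := NC.isMax
  have := C.point_isMaximal hq i
  refine NC.isMax.eq_of_le (Ideal.IsPrime.ne_top inferInstance) fun z hz => ?_
  have hm : (⟨(z : F₁), NC.mem_of_chart _ z.2⟩ : locRing NC.P) ∈ maximalIdeal (locRing NC.P) :=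
    (inMax_iff _).mp (inMax_of_mem hz)
  have h := (NC.value₁ _ 0 (by rwa [map_zero, sub_zero]) (C.mem_int hq z.2).1).2
  rw [map_zero, map_zero] at h
  exact h

/-- Near a node, a unit on the first component reducing to an `n`-th power and with orders
divisible by `n` off the special fibre is a unit times an `n`-th power. -/
theorem exists_decomp_of_red_pow {i : d.C.ι} (NC : NodeChart C i D.cusps)
    (hsurj : ∀ z : G₁, ∃ (f : F₁) (h : C.hom f ∈ d.g₁.integers), d.g₁.red ⟨C.hom f, h⟩ = z)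
    {f : F₁} {n : ℕ} (hn : 0 < n) (hdiv : DivisibleOn K f n)
    (hu : FermatAgent.MazurPrinciple.IsUnitAt d.g₁ (C.hom f)) {φ : G₁}
    (hφ : d.g₁.red ⟨C.hom f, hu.1⟩ = φ ^ n) :
    ∃ ε g : F₁, ε ≠ 0 ∧ g ≠ 0 ∧ Loc (T.t u) NC.P ε ∧ Loc (T.t u) NC.P ε⁻¹ ∧ f = ε * g ^ n := by
  have := NC.isMax
  have := NC.isMax.isPrime
  have := NC.ufd
  have := NC.noeth
  have := D.finite_over₁
  have hf : f ≠ 0 := fun e => hu.ne_zero (by rw [e, map_zero])
  let R := locRing NC.P
  -- `f = C₀ / B ^ n`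
  obtain ⟨a₀, B, hB, hfrac⟩ := exists_mul_eq_locRing NC.P hq D.transcendental_t f
  have ha₀ : (a₀ : F₁) ≠ 0 := hfrac ▸ mul_ne_zero hf hB
  set C₀ : R := a₀ * B ^ (n - 1) with hC₀
  have hB0 : B ≠ 0 := fun h => hB (congrArg (fun x : R => (x : F₁)) h :)
  have hC : C₀ ≠ 0 := mul_ne_zero (fun h => ha₀ (congrArg (fun x : R => (x : F₁)) h :))
    (pow_ne_zero _ hB0)
  have hCf : (C₀ : F₁) = f * (B : F₁) ^ n := by
    rw [hC₀]
    push_cast
    rw [← hfrac, mul_assoc, ← pow_succ', Nat.sub_add_cancel hn]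
  obtain ⟨C₁, hC₁, hXC₁⟩ :=
    (FiniteMultiplicity.of_not_isUnit NC.prime_X.not_isUnit hC).exists_eq_pow_mul_and_not_dvd
  set a := multiplicity NC.X C₀
  have hC₁0 : C₁ ≠ 0 := fun h => hC (by rw [hC₁, h, mul_zero])
  obtain ⟨C₂, hC₂, hYC₂⟩ :=
    (FiniteMultiplicity.of_not_isUnit NC.prime_Y.not_isUnit hC₁0).exists_eq_pow_mul_and_not_dvd
  set b := multiplicity NC.Y C₁
  have hC₂0 : C₂ ≠ 0 := fun h => hC₁0 (by rw [hC₂, h, mul_zero])
  have hXC₂ : ¬ NC.X ∣ C₂ := fun h => hXC₁ (by rw [hC₂]; exact h.mul_left _)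
  -- the factors off the special fibre
  have hmult : ∀ ϖ : R, Prime ϖ → n ∣ multiplicity ϖ C₂ := fun ϖ hϖ => by
    by_cases hϖC : ϖ ∣ C₂
    swap
    · rw [multiplicity_eq_zero.mpr hϖC]; exact dvd_zero _
    have hnX : ¬ ϖ ∣ NC.X := fun h => hXC₂ ((hϖ.associated_of_dvd NC.prime_X h).dvd'.trans hϖC)
    have hnY : ¬ ϖ ∣ NC.Y := fun h => hYC₂ ((hϖ.associated_of_dvd NC.prime_Y h).dvd'.trans hϖC)
    have hnq : ¬ ϖ ∣ (q : R) := fun h => by
      rw [← NC.mul_eq] at h
      exact (hϖ.dvd_or_dvd h).elim hnX hnY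
    have hI : (Ideal.span {ϖ} : Ideal R).IsPrime := (Ideal.span_singleton_prime hϖ.ne_zero).mpr hϖ
    obtain ⟨V, hVle, hVimg⟩ := Ideal.image_subset_nonunits_valuationSubring
      (A := (LocalSubring.ofPrime (locRing NC.P) (Ideal.span {ϖ})).toSubring)
      (maximalIdeal _) (maximalIdeal.isMaximal _).ne_top
    let S := (LocalSubring.ofPrime (locRing NC.P) (Ideal.span {ϖ})).toSubring
    have hin : ∀ y : R, (y : F₁) ∈ S := fun y => LocalSubring.le_ofPrime _ _ y.2
    have hunit : ∀ y : R, ¬ ϖ ∣ y → V.valuation (y : F₁) = 1 := fun y hy => by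
      have hu' : IsUnit (algebraMap R S y) :=
        IsLocalization.map_units (M := (Ideal.span {ϖ} : Ideal R).primeCompl) S
          ⟨y, fun h => hy (Ideal.mem_span_singleton.mp h)⟩
      exact (V.valuation_eq_one_iff (⟨(y : F₁), hVle (hin y)⟩ : V)).mp
        (hu'.map (Subring.inclusion hVle))
    have hπ1 : V.valuation (ϖ : F₁) < 1 :=
      hVimg ⟨algebraMap R S ϖ, (IsLocalization.AtPrime.to_map_mem_maximal_iff S _ ϖ).mpr
        (Ideal.mem_span_singleton.mpr dvd_rfl), rfl⟩
    have hπ0 : V.valuation (ϖ : F₁) ≠ 0 :=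
      (Valuation.ne_zero_iff _).mpr fun h => hϖ.ne_zero (Subtype.ext h)
    have hqV : V.valuation (q : F₁) = 1 := by simpa using hunit _ hnq
    obtain ⟨g, hg⟩ := hdiv V fun c => by
      obtain ⟨m, w, hw⟩ := exists_pow_mul_eq_algebraMap hq c
      have hwV : algebraMap W F₁ w ∈ V := hVle (hin (locConst NC.P w))
      have : algebraMap K F₁ c = ((q : F₁) ^ m)⁻¹ * algebraMap W F₁ w := by
        rw [IsScalarTower.algebraMap_apply W K F₁, ← hw, map_mul, map_pow, map_natCast,
          inv_mul_cancel_left₀ (pow_ne_zero m (fun h => by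
            rw [h, map_zero] at hqV; exact zero_ne_one hqV))]
      rw [this]
      refine mul_mem ?_ hwV
      exact (V.valuation_le_one_iff _).mp (by rw [map_inv₀, map_pow, hqV, one_pow, inv_one])
    have hg0 : g ≠ 0 := fun h => by
      rw [h, map_zero, zero_pow hn.ne'] at hg
      exact hf ((Valuation.zero_iff _).mp hg)
    obtain ⟨c, e, he, hge⟩ := exists_mul_eq_locRing NC.P hq D.transcendental_t g
    have hc0 : (c : F₁) ≠ 0 := hge ▸ mul_ne_zero hg0 he
    have hval : ∀ y : R, y ≠ 0 →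
        V.valuation (y : F₁) = V.valuation (ϖ : F₁) ^ multiplicity ϖ y := fun y hy => by
      obtain ⟨z, hyz, hz⟩ :=
        (FiniteMultiplicity.of_not_isUnit hϖ.not_isUnit hy).exists_eq_pow_mul_and_not_dvd
      conv_lhs => rw [hyz]
      rw [Subring.coe_mul, SubmonoidClass.coe_pow, map_mul, map_pow, hunit z hz, mul_one]
    have hC₂v : V.valuation (C₂ : F₁) = V.valuation g ^ n * V.valuation (B : F₁) ^ n := by
      rw [← hg, ← map_pow, ← map_mul, ← hCf, hC₁, hC₂]
      simp only [Subring.coe_mul, SubmonoidClass.coe_pow, map_mul, map_pow, hunit _ hnX,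
        hunit _ hnY, one_pow, one_mul]
    have heq : V.valuation (ϖ : F₁) ^ (multiplicity ϖ C₂ + n * multiplicity ϖ e) =
        V.valuation (ϖ : F₁) ^ (n * multiplicity ϖ c + n * multiplicity ϖ B) := by
      rw [pow_add, pow_add, ← hval C₂ hC₂0, pow_mul', pow_mul', pow_mul',
        ← hval e (fun h => he (congrArg (fun x : R => (x : F₁)) h :)),
        ← hval c (fun h => hc0 (congrArg (fun x : R => (x : F₁)) h :)),
        ← hval B hB0, hC₂v, ← hge, map_mul, mul_pow]
      exact mul_right_comm _ _ _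
    have := ((pow_right_strictAnti₀ (zero_lt_iff.mpr hπ0) hπ1).injective heq)
    have h2 : n ∣ multiplicity ϖ C₂ + n * multiplicity ϖ e := by
      rw [this]; exact dvd_add (dvd_mul_right _ _) (dvd_mul_right _ _)
    exact (Nat.dvd_add_left (dvd_mul_right _ _)).mp h2
  obtain ⟨ε, G, hG⟩ := exists_unit_mul_pow_of_forall_multiplicity hC₂0 n hmult
  obtain ⟨B', hB', hYB'⟩ :=
    (FiniteMultiplicity.of_not_isUnit NC.prime_Y.not_isUnit hB0).exists_eq_pow_mul_and_not_dvd
  set β := multiplicity NC.Y B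
  have key : f * ((B' : F₁) ^ n * (NC.Y : F₁) ^ (n * β)) =
      (NC.X : F₁) ^ a * (NC.Y : F₁) ^ b * ((ε : R) : F₁) * (G : F₁) ^ n := by
    have h := hCf
    rw [hC₁, hC₂, hG, hB'] at h
    simp only [Subring.coe_mul, SubmonoidClass.coe_pow, mul_pow, ← pow_mul, mul_comm β n] at h
    linear_combination -h
  -- reductions on the first component
  have hint : ∀ r : R, C.hom (r : F₁) ∈ d.g₁.integers := fun r => (NC.ker₁ r).choose
  have hiff : ∀ r : R, locRed C d.g₁ hint r = 0 ↔ NC.Y ∣ r := fun r => (NC.ker₁ r).choose_spec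
  obtain ⟨hord, -⟩ := locRed_branch C d.g₁ hint (d.C.x i) NC.max_eq NC.ker₁ NC.not_dvd_Y
    NC.frac₁ NC.value₁ NC.res_surj hsurj
  set ρ := locRed C d.g₁ hint
  have hY0 : ρ NC.Y = 0 := (hiff _).mpr dvd_rfl
  have hG' : ρ G ≠ 0 := fun h => hYC₂ (by
    rw [hG]; exact (dvd_pow ((hiff G).mp h) hn.ne').mul_left _)
  obtain ⟨hε0, hεo⟩ := ord_branch_unit ρ (d.C.x i) (fun r => by
    obtain ⟨c, hc⟩ := NC.res_surj r
    exact (NC.value₁ r c hc _).1) ε
  have hB'0 : ρ B' ≠ 0 := fun h => hYB' ((hiff _).mp h)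
  have hX0 : ρ NC.X ≠ 0 := fun h => NC.not_dvd_Y ((hiff _).mp h)
  have hφ0 : φ ≠ 0 := fun e => hu.2 (by rw [hφ, e, zero_pow hn.ne'])
  have hred : ∀ y z : R, f * (y : F₁) = (z : F₁) → φ ^ n * ρ y = ρ z := fun y z h => by
    rw [← hφ, locRed_apply, locRed_apply, ← map_mul]
    exact congrArg d.g₁.red (Subtype.ext (by
      show C.hom f * C.hom (y : F₁) = C.hom (z : F₁)
      rw [← map_mul, h]))
  have hYne : (NC.Y : F₁) ≠ 0 := fun h => NC.prime_Y.ne_zero (Subtype.ext h)
  have hb : b = n * β := by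
    rcases lt_trichotomy b (n * β) with h | h | h
    · exfalso
      obtain ⟨j, hj⟩ := Nat.exists_eq_add_of_lt h
      have := hred (B' ^ n * NC.Y ^ (j + 1)) (NC.X ^ a * ε * G ^ n) (by
        push_cast
        refine mul_right_cancel₀ (pow_ne_zero b hYne) ?_
        rw [hj] at key
        linear_combination key)
      rw [map_mul, map_pow ρ NC.Y, hY0, zero_pow (Nat.succ_ne_zero j), mul_zero, mul_zero] at this
      exact mul_ne_zero (mul_ne_zero (map_pow ρ NC.X a ▸ pow_ne_zero _ hX0) hε0)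
        (map_pow ρ G n ▸ pow_ne_zero _ hG') (by rw [← map_mul, ← map_mul]; exact this.symm)
    · exact h
    · exfalso
      obtain ⟨j, hj⟩ := Nat.exists_eq_add_of_lt h
      have := hred (B' ^ n) (NC.X ^ a * NC.Y ^ (j + 1) * ε * G ^ n) (by
        push_cast
        refine mul_right_cancel₀ (pow_ne_zero (n * β) hYne) ?_
        rw [hj] at key
        linear_combination key)
      simp only [map_mul, map_pow, hY0, zero_pow (Nat.succ_ne_zero j), mul_zero, zero_mul] at this
      exact mul_ne_zero (pow_ne_zero n hφ0) (pow_ne_zero n hB'0) this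
  have key' : f * (B' : F₁) ^ n = (NC.X : F₁) ^ a * ((ε : R) : F₁) * (G : F₁) ^ n := by
    refine mul_right_cancel₀ (pow_ne_zero b hYne) ?_
    rw [← hb] at key
    linear_combination key
  obtain ⟨α, hα⟩ : n ∣ a := by
    have h := hred (B' ^ n) (NC.X ^ a * ε * G ^ n) (by push_cast; exact key')
    simp only [map_mul, map_pow] at h
    have := congrArg (d.C.x i).ord h
    rw [(d.C.x i).ord_mul (pow_ne_zero _ hφ0) (pow_ne_zero _ hB'0),
      (d.C.x i).ord_mul (mul_ne_zero (pow_ne_zero _ hX0) hε0) (pow_ne_zero _ hG'),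
      (d.C.x i).ord_mul (pow_ne_zero _ hX0) hε0, hεo, Curve.ord_pow', Curve.ord_pow',
      Curve.ord_pow', Curve.ord_pow', hord, mul_one, add_zero] at this
    refine Int.natCast_dvd_natCast.mp ⟨(d.C.x i).ord φ + (d.C.x i).ord (ρ B') -
      (d.C.x i).ord (ρ G), ?_⟩
    linear_combination -this
  have hε : ((ε : R) : F₁) * (((ε⁻¹ : Rˣ) : R) : F₁) = 1 := by
    rw [← Subring.coe_mul, Units.mul_inv]; rfl
  have hB'F : (B' : F₁) ≠ 0 := fun h => hB'0 (by rw [show B' = 0 from Subtype.ext h, map_zero])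
  refine ⟨(ε : R), (NC.X : F₁) ^ α * (G : F₁) / B', left_ne_zero_of_mul_eq_one hε,
    div_ne_zero (mul_ne_zero (pow_ne_zero _ fun h => NC.prime_X.ne_zero (Subtype.ext h))
      fun h => hG' (by rw [show G = 0 from Subtype.ext h, map_zero])) hB'F, (ε : R).2, ?_, ?_⟩
  · rw [← eq_inv_of_mul_eq_one_right hε]
    exact ((ε⁻¹ : Rˣ) : R).2
  · rw [div_pow, mul_pow, ← pow_mul, mul_comm α n, ← hα, ← mul_div_assoc,
      eq_div_iff (pow_ne_zero n hB'F)]
    linear_combination key'

end FermatAgent.RTLift.Sq
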