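import Fermat.Agent.RTLift.Sq.RatioAt
import Fermat.Agent.BadRed.Carayol.Twist

/-!
# Residual roots and their ratios at the supersingular points

`IsRootOn V n f h` says that `f / h ^ n` reduces to `1` on `V`.  A function with divisor divisible
by `n` and residual roots on the three components has a ratio at every supersingular point, an
`n`-th root of unity.
-/

set_option autoImplicit false

noncomputable section

namespace FermatAgent.RTLift.Sq

open Polynomial IsLocalRing
open FermatAgent.BadRed.Carayol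

section Root

variable {L : Type*} [Field L] {V : ValuationSubring L} {n : ℕ} {f f' h h' : L}

variable (V n f h) in
/-- `h` is a residual `n`-th root of `f` on `V`. -/
def IsRootOn : Prop :=
  res V (f / h ^ n) = 1

theorem IsRootOn.mem (H : IsRootOn V n f h) : f / h ^ n ∈ V := by
  by_contra hn
  rw [IsRootOn, res, dif_neg hn] at H
  exact zero_ne_one H

theorem IsRootOn.isUnitAt (H : IsRootOn V n f h) : IsUnitAt V (f / h ^ n) :=
  (isUnitAt_iff H.mem).mpr (by rw [H]; exact one_ne_zero)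

theorem IsRootOn.val_eq (H : IsRootOn V n f h) : V.valuation f = V.valuation h ^ n := by
  have h1 : V.valuation (f / h ^ n) = 1 := H.isUnitAt
  rw [map_div₀, map_pow] at h1
  exact eq_of_div_eq_one h1

theorem IsRootOn.mul (H : IsRootOn V n f h) (H' : IsRootOn V n f' h') :
    IsRootOn V n (f * f') (h * h') := by
  rw [IsRootOn, mul_pow, ← div_mul_div_comm, res_mul H.mem H'.mem, H, H', one_mul]

theorem isRootOn_one : IsRootOn V n (1 : L) 1 := by
  rw [IsRootOn, one_pow, div_one, res_one]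

theorem IsRootOn.pow (H : IsRootOn V n f h) (k : ℕ) : IsRootOn V n (f ^ k) (h ^ k) := by
  induction k with
  | zero => simpa using isRootOn_one
  | succ k ih => rw [pow_succ, pow_succ]; exact ih.mul H

theorem IsRootOn.inv (H : IsRootOn V n f h) : IsRootOn V n f⁻¹ h⁻¹ := by
  rw [IsRootOn, inv_pow, ← inv_div_inv, inv_inv, inv_inv]
  rw [show h ^ n / f = (f / h ^ n)⁻¹ from (inv_div f (h ^ n)).symm, res_inv H.isUnitAt, H, inv_one]

/-- Residual roots along a map of fields. -/
theorem isRootOn_comap_iff {L' : Type*} [Field L'] {σ : L →+* L'} {U : ValuationSubring L'} :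
    IsRootOn (U.comap σ) n f h ↔ IsRootOn U n (σ f) (σ h) := by
  have hmem : ∀ y : L, y ∈ U.comap σ ↔ σ y ∈ U := fun y => Iff.rfl
  constructor
  · intro H
    have := (res_eq_iff_map σ U ((hmem _).mp H.mem) (by rw [map_one]; exact one_mem U)).mp
      (H.trans res_one.symm)
    rw [IsRootOn, ← map_pow, ← map_div₀, this, map_one, res_one]
  · intro H
    have h1 : σ (f / h ^ n) ∈ U := by rw [map_div₀, map_pow]; exact H.mem
    refine Eq.trans ((res_eq_iff_map σ U h1 (by rw [map_one]; exact one_mem U)).mpr ?_) res_one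
    rw [map_div₀, map_pow, H, map_one, res_one]

end Root

variable {q : ℕ} [Fact q.Prime] {W K F F₁ F₂ : Type*}
  [CommRing W] [IsDomain W] [IsDiscreteValuationRing W] [IsAlgClosed (IsLocalRing.ResidueField W)]
  [Field K] [CharZero K] [Algebra W K] [IsFractionRing W K]
  [Field F] [Field F₁] [Field F₂] [Algebra K F] [Algebra K F₁] [Algebra K F₂]
  [Algebra W F] [Algebra W F₁] [Algebra W F₂]
  [IsScalarTower W K F] [IsScalarTower W K F₁] [IsScalarTower W K F₂]
  {T : QTower q K F F₁ F₂} {u : F}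

/-- A supersingular point of the chart. -/
structure SSPoint (hq : maximalIdeal W = Ideal.span {(q : W)}) (D : ChartData W T u) where
  P : Ideal (chartRing W (T.α (T.t u)))
  isMaximal : P.IsMaximal
  mem : (q : chartRing W (T.α (T.t u))) ∈ P
  ss : letI := isMaximal; IsSSPt hq D mem

variable {hq : maximalIdeal W = Ideal.span {(q : W)}} {D : ChartData W T u}

instance (x : SSPoint hq D) : x.P.IsMaximal := x.isMaximal

/-- The ratio of `h` on `V` and `h'` on `V'` at a supersingular point. -/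
def SSPoint.Ratio (x : SSPoint hq D) (V V' : ValuationSubring F₂) (n : ℕ) (f h h' : F₂)
    (r : IsLocalRing.ResidueField W) : Prop :=
  RatioAt hq x.P x.mem V V' n f h h' r

/-- Residual roots on the three components. -/
structure Roots (C : Comps W T u) (n : ℕ) (f : F₂) where
  hI : F₂
  h₀ : F₂
  hm : F₂
  rootI : IsRootOn C.VI n f hI
  root₀ : IsRootOn C.V0 n f h₀
  rootm : IsRootOn C.Vm n f hm

/-- Products of roots. -/
def Roots.mul {C : Comps W T u} {n : ℕ} {f f' : F₂} (R : Roots C n f) (R' : Roots C n f') :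
    Roots C n (f * f') where
  hI := R.hI * R'.hI
  h₀ := R.h₀ * R'.h₀
  hm := R.hm * R'.hm
  rootI := R.rootI.mul R'.rootI
  root₀ := R.root₀.mul R'.root₀
  rootm := R.rootm.mul R'.rootm

theorem Roots.val_eq {C : Comps W T u} {n : ℕ} {f : F₂} (R : Roots C n f) {U : ValuationSubring F₂}
    (hU : IsVertical W q (T.α (T.t u)) U) (hq : maximalIdeal W = Ideal.span {(q : W)})
    (D : ChartData W T u) : ∃ g : F₂, U.valuation f = U.valuation g ^ n := by
  rcases C.cases hq D hU with rfl | rfl | rfl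
  exacts [⟨_, R.rootI.val_eq⟩, ⟨_, R.root₀.val_eq⟩, ⟨_, R.rootm.val_eq⟩]

/-- Near every point `f` is a unit times an `n`-th power. -/
theorem exists_decomp_of_roots (hq : maximalIdeal W = Ideal.span {(q : W)}) (D : ChartData W T u)
    {P : Ideal (chartRing W (T.α (T.t u)))} [P.IsMaximal]
    (hqP : (q : chartRing W (T.α (T.t u))) ∈ P) (hss : IsSSPt hq D hqP) {C : Comps W T u} {n : ℕ}
    (hn : 0 < n) {f : F₂} (hf : f ≠ 0) (hdiv : DivisibleOn K f n) (R : Roots C n f) :
    ∃ ε γ : F₂, ε ≠ 0 ∧ γ ≠ 0 ∧ Loc (T.α (T.t u)) P ε ∧ Loc (T.α (T.t u)) P ε⁻¹ ∧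
      f = ε * γ ^ n := by
  have := D.finite_over₂
  obtain ⟨V, hV, hT⟩ := exists_through (K := K) hq D.transcendental_middle (finite_vertical₂ hq D)
    (fun U hU => rankOne₂ hq D hU) hqP
  obtain ⟨β₁, h1, h2, h3, -⟩ := ss_structure hq D hqP hss
  obtain ⟨β, hβ⟩ := residue_surjective (pval hq hqP (T.α (T.t u)))
  refine exists_unit_mul_pow (K := K) P hq D.transcendental_middle (finite_vertical₂ hq D)
    (fun U hU => rankOne₂ hq D hU) h1 h2 h3
    ⟨V, hV, hT, T.α (T.t u) - algebraMap W F₂ β,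
      (pval_eq_iff hq hqP loc_self (loc_const _)).mp (by rw [pval_const, hβ]), ?_⟩
    hn hf hdiv fun U hU => R.val_eq hU hq D
  have := hV.isUnitAt (X - Polynomial.C β) (by
    rw [Polynomial.map_sub, map_X, map_C]; exact X_sub_C_ne_zero _)
  simpa using this

/-- A lift to the local ring of a residual root, divided by the local root. -/
theorem exists_root_lift (hq : maximalIdeal W = Ideal.span {(q : W)}) (D : ChartData W T u)
    {P : Ideal (chartRing W (T.α (T.t u)))} [P.IsMaximal]
    (hqP : (q : chartRing W (T.α (T.t u))) ∈ P) {V : ValuationSubring F₂}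
    (hV : IsVertical W q (T.α (T.t u)) V) (hT : Through P V) {n : ℕ} (hn : 0 < n) {f h ε γ : F₂}
    (H : IsRootOn V n f h) (hε : Loc (T.α (T.t u)) P ε) (hε' : Loc (T.α (T.t u)) P ε⁻¹)
    (hε0 : ε ≠ 0) (hγ : γ ≠ 0) (hf : f = ε * γ ^ n) :
    h / γ ∈ V ∧ ∃ y : F₂, Loc (T.α (T.t u)) P y ∧ res V y = res V (h / γ) ∧
      pval hq hqP y ≠ 0 ∧ pval hq hqP y ^ n = pval hq hqP ε := by
  have hA : ∀ z : chartRing W (T.α (T.t u)), (z : F₂) ∈ V := fun z => hV.chartRing_le z.2
  have hεV := hT.mem hA hε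
  have hh : h ≠ 0 := fun e => by
    have := H.isUnitAt.ne_zero
    rw [e, zero_pow hn.ne', div_zero] at this
    exact this rfl
  have e : (h / γ) ^ n = ε / (f / h ^ n) := by
    rw [hf, div_pow]; field_simp
  have hmem : h / γ ∈ V := by
    rw [← V.valuation_le_one_iff, ← pow_le_one_iff_of_nonneg zero_le hn.ne', ← map_pow, e,
      map_div₀, show V.valuation (f / h ^ n) = 1 from H.isUnitAt, div_one, V.valuation_le_one_iff]
    exact hεV
  have hpow : res V (h / γ) ^ n = res V ε := by
    rw [← res_pow hmem, e, res_div hεV H.isUnitAt, H, div_one]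
  obtain ⟨φ, hφv, hrat, hφu, heq⟩ := exists_rational hq D hqP hV
  obtain ⟨y, hy, hy'⟩ :=
    exists_loc_res_eq_of_pow_eq hq D hqP φ hφv hrat hφu hV hT heq hn hmem hε hpow
  refine ⟨hmem, y, hy, hy', pval_root_ne_zero hq D hqP hV hT hn hy hε hε' hε0 hpow hy', ?_⟩
  rw [← pval_pow hq hqP hy]
  exact pval_eq_of_res_eq hq hqP hV hT (hy.pow n) hε
    (by rw [res_pow (hT.mem hA hy), hy', hpow])

/-- The ratio exists and is an `n`-th root of unity. -/
theorem SSPoint.exists_ratio (x : SSPoint hq D) {C : Comps W T u} {n : ℕ} (hn : 0 < n) {f : F₂}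
    (hf : f ≠ 0) (hdiv : DivisibleOn K f n) (R : Roots C n f) {V V' : ValuationSubring F₂}
    (hV : IsVertical W q (T.α (T.t u)) V) (hT : Through x.P V)
    (hV' : IsVertical W q (T.α (T.t u)) V') (hT' : Through x.P V') {h h' : F₂}
    (H : IsRootOn V n f h) (H' : IsRootOn V' n f h') :
    ∃ r : IsLocalRing.ResidueField W, r ^ n = 1 ∧ x.Ratio V V' n f h h' r := by
  obtain ⟨ε, γ, hε0, hγ, hε, hεi, e⟩ := exists_decomp_of_roots hq D x.mem x.ss hn hf hdiv R
  obtain ⟨hm, y, hy, hy1, hy0, hyn⟩ := exists_root_lift hq D x.mem hV hT hn H hε hεi hε0 hγ e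
  obtain ⟨hm', y', hy', hy1', -, hyn'⟩ := exists_root_lift hq D x.mem hV' hT' hn H' hε hεi hε0 hγ e
  refine ⟨pval hq x.mem y' / pval hq x.mem y, ?_, ⟨ε, γ, y, y', hε0, hγ, hε, hεi, e, hy, hy', hm,
    hm', hy1, hy1', hy0, (div_mul_cancel₀ _ hy0).symm⟩⟩
  rw [div_pow, hyn, hyn', div_self]
  exact pval_ne_zero_of_loc_inv hq x.mem hε hεi hε0

theorem SSPoint.through (x : SSPoint hq D) (C : Comps W T u) :
    Through x.P C.VI ∧ Through x.P C.V0 ∧ Through x.P C.Vm :=
  ss_through hq D x.mem x.ss C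

end FermatAgent.RTLift.Sq
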