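import Fermat.Agent.RTLift.Sq.NodeExponent
import Fermat.Agent.RTLift.Sq.SS

/-!
# Ratios at the nodes of the roots of a torsion function

If `n D' = div f` and the reductions of `f` on both components are `n`-th powers, then after
removing an `n`-th power the divisor is toric, and the residual roots of `f` on the components
have ratios at the nodes given by its invariant.
-/

set_option autoImplicit false
set_option linter.unusedSectionVars false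

noncomputable section

namespace FermatAgent.RTLift.Sq

open Polynomial IsLocalRing AlgebraicCurve
open FermatAgent.Curve FermatAgent.Curve.RR FermatAgent.BadRed.Semistable
open FermatAgent.BadRed.Carayol FermatAgent.MazurPrinciple

variable {q : ℕ} [Fact q.Prime] {W K F F₁ F₂ : Type*}
  [CommRing W] [IsDomain W] [IsDiscreteValuationRing W] [IsAlgClosed (IsLocalRing.ResidueField W)]
  [Field K] [CharZero K] [Algebra W K] [IsFractionRing W K]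
  [Field F] [Field F₁] [Field F₂] [Algebra K F] [Algebra K F₁] [Algebra K F₂]
  [Algebra W F] [Algebra W F₁] [Algebra W F₂]
  [IsScalarTower W K F] [IsScalarTower W K F₁] [IsScalarTower W K F₂]
  {T : QTower q K F F₁ F₂} {u : F}
variable {L : Type*} [Field L] [IsAlgClosed L] {A : ValuationSubring L} {k : Type*} [Field k]
  [IsAlgClosed k] {π : A →+* k} {E G₁ G₂ : Type*} [Field E] [Field G₁] [Field G₂]
  [Algebra L E] [Algebra k G₁] [Algebra k G₂] [IsFunctionField1 L E] [IsFunctionField1 k G₁]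
  [IsFunctionField1 k G₂] [RRSetting L E] [RRSetting k G₁] [RRSetting k G₂] [Infinite k]
variable {d : NodalDatum A π E G₁ G₂}

section Res

variable {G : Type*} [Field G] [Algebra k G] (g : GaussRed A π E G) (hπ : Function.Surjective π)
  (φ : F₁ →+* E) {x y : F₁}

/-- Equal reductions give equal residues. -/
theorem res_pullRing_eq (hx : φ x ∈ g.integers) (hy : φ y ∈ g.integers)
    (e : g.red ⟨φ x, hx⟩ = g.red ⟨φ y, hy⟩) :
    res (pullRing g hπ φ) x = res (pullRing g hπ φ) y := by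
  have hm : φ (x - y) ∈ g.integers := by rw [map_sub]; exact sub_mem hx hy
  refine (res_eq_iff (mem_pullRing.mpr hx) (mem_pullRing.mpr hy)).mpr
    (mem_nonunits_pullRing.mpr ⟨hm, ?_⟩)
  rw [show (⟨φ (x - y), hm⟩ : g.integers) = ⟨φ x, hx⟩ - ⟨φ y, hy⟩ from
    Subtype.ext (map_sub φ x y), map_sub, e, sub_self]

variable [IsFunctionField1 k G]

theorem red_pow_eq {n : ℕ} (hy : φ y ∈ g.integers) (h : φ (y ^ n) ∈ g.integers) :
    g.red ⟨φ (y ^ n), h⟩ = g.red ⟨φ y, hy⟩ ^ n := by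
  rw [← map_pow]
  exact congrArg g.red (Subtype.ext (map_pow φ y n))

/-- A residual root from a function with the same power reduction. -/
theorem isRootOn_of_red {n : ℕ} {f h : F₁} (hx : φ (f / h ^ n) ∈ g.integers)
    (hy : φ y ∈ g.integers) (e : g.red ⟨_, hx⟩ = g.red ⟨φ y, hy⟩ ^ n)
    (hy0 : g.red ⟨φ y, hy⟩ ≠ 0) : IsRootOn (pullRing g hπ φ) n f (h * y) := by
  have hu : FermatAgent.BadRed.Carayol.IsUnitAt (pullRing g hπ φ) y :=
    Away.isUnitAt_pullRing ⟨hy, hy0⟩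
  have hyn : φ (y ^ n) ∈ g.integers := by rw [map_pow]; exact pow_mem hy n
  have h1 := res_pullRing_eq g hπ φ hx hyn (e.trans (red_pow_eq g φ hy hyn).symm)
  rw [IsRootOn, mul_pow, ← div_div, res_div (mem_pullRing.mpr hx) (hu.pow n), h1,
    div_self (hu.pow n).res_ne_zero]

end Res

variable (C : ChartLink W T u d) (hq : maximalIdeal W = Ideal.span {(q : W)})
  (D : ChartData W T u)
include hq D

/-- Units at a branch of a node lift to units of the node. -/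
theorem exists_lift_at_node (i : d.C.ι)
    (hs₁ : ∀ z : G₁, ∃ (f : F₁) (h : C.hom f ∈ d.g₁.integers), d.g₁.red ⟨C.hom f, h⟩ = z)
    (hs₂ : ∀ z : G₂, ∃ (f : F₁) (h : C.hom f ∈ d.g₂.integers), d.g₂.red ⟨C.hom f, h⟩ = z)
    {z₁ : G₁} (h₁ : z₁ ≠ 0) (o₁ : (d.C.x i).ord z₁ = 0) {z₂ : G₂} (h₂ : z₂ ≠ 0)
    (o₂ : (d.C.y i).ord z₂ = 0) :
    haveI := C.point_isMaximal hq i
    (∃ (y : F₁) (c : W), y ≠ 0 ∧ Loc (T.t u) (C.point hq i) y ∧ Loc (T.t u) (C.point hq i) y⁻¹ ∧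
      InMax (C.point hq i) (y - algebraMap W F₁ c) ∧
      π (C.κ c) = valueAt (d.C.x i) z₁ ∧
      ∃ h : C.hom y ∈ d.g₁.integers, d.g₁.red ⟨C.hom y, h⟩ = z₁) ∧
    (∃ (y : F₁) (c : W), y ≠ 0 ∧ Loc (T.t u) (C.point hq i) y ∧ Loc (T.t u) (C.point hq i) y⁻¹ ∧
      InMax (C.point hq i) (y - algebraMap W F₁ c) ∧
      π (C.κ c) = valueAt (d.C.y i) z₂ ∧
      ∃ h : C.hom y ∈ d.g₂.integers, d.g₂.red ⟨C.hom y, h⟩ = z₂) := by
  obtain ⟨NC⟩ := exists_nodeChart C hq D i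
  have hP := nodeChart_P C hq D NC
  have := C.point_isMaximal hq i
  have := NC.isMax
  have := NC.isMax.isPrime
  have key : ∀ (e : (locRing NC.P)ˣ), ((e : locRing NC.P) : F₁) ≠ 0 ∧
      Loc (T.t u) (C.point hq i) ((e : locRing NC.P) : F₁) ∧
      Loc (T.t u) (C.point hq i) ((e : locRing NC.P) : F₁)⁻¹ ∧
      ∀ c : W, (e : locRing NC.P) - locConst NC.P c ∈ maximalIdeal (locRing NC.P) →
        InMax (C.point hq i) (((e : locRing NC.P) : F₁) - algebraMap W F₁ c) := by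
    intro e
    have he : ((e : locRing NC.P) : F₁) * (((e⁻¹ : (locRing NC.P)ˣ) : locRing NC.P) : F₁) = 1 := by
      rw [← Subring.coe_mul, Units.mul_inv]; rfl
    simp only [← hP]
    refine ⟨left_ne_zero_of_mul_eq_one he, (e : locRing NC.P).2, ?_, fun c hc => ?_⟩
    · rw [← eq_inv_of_mul_eq_one_right he]
      exact ((e⁻¹ : (locRing NC.P)ˣ) : locRing NC.P).2
    · exact (inMax_iff ((e : locRing NC.P) - locConst NC.P c).2).mpr hc
  obtain ⟨-, l₁⟩ := locRed_branch C d.g₁ (fun r => (NC.ker₁ r).choose) (d.C.x i) NC.max_eq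
    NC.ker₁ NC.not_dvd_Y NC.frac₁ NC.value₁ NC.res_surj hs₁
  obtain ⟨-, l₂⟩ := locRed_branch C d.g₂ (fun r => (NC.ker₂ r).choose) (d.C.y i)
    (NC.max_eq.trans (congrArg Ideal.span (Set.pair_comm _ _))) NC.ker₂ NC.not_dvd_X NC.frac₂
    NC.value₂ NC.res_surj hs₂
  constructor
  · obtain ⟨e, he⟩ := l₁ z₁ h₁ o₁
    obtain ⟨k1, k2, k3, k4⟩ := key e
    obtain ⟨c, hc⟩ := NC.res_surj (e : locRing NC.P)
    obtain ⟨h, -⟩ := NC.ker₁ (e : locRing NC.P)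
    exact ⟨_, c, k1, k2, k3, k4 c hc, by rw [← he]; exact ((NC.value₁ _ c hc h).2).symm, h, he⟩
  · obtain ⟨e, he⟩ := l₂ z₂ h₂ o₂
    obtain ⟨k1, k2, k3, k4⟩ := key e
    obtain ⟨c, hc⟩ := NC.res_surj (e : locRing NC.P)
    obtain ⟨h, -⟩ := NC.ker₂ (e : locRing NC.P)
    exact ⟨_, c, k1, k2, k3, k4 c hc, by rw [← he]; exact ((NC.value₂ _ c hc h).2).symm, h, he⟩

/-- **Ratios at the nodes.** -/
theorem exists_node_ratios
    (hs₁ : ∀ z : G₁, ∃ (f : F₁) (h : C.hom f ∈ d.g₁.integers), d.g₁.red ⟨C.hom f, h⟩ = z)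
    (hs₂ : ∀ z : G₂, ∃ (f : F₁) (h : C.hom f ∈ d.g₂.integers), d.g₂.red ⟨C.hom f, h⟩ = z)
    {f : F₁} {n : ℕ} (hn : 0 < n) (hdiv : DivisibleOn K f n)
    (hu : FermatAgent.MazurPrinciple.IsUnitAt d.g₁ (C.hom f))
    (hpow₁ : ∀ (g : F₁) (h : FermatAgent.MazurPrinciple.IsUnitAt d.g₁ (C.hom (f / g ^ n))),
      ∃ φ, d.g₁.red ⟨C.hom (f / g ^ n), h.1⟩ = φ ^ n)
    (hpow₂ : ∀ (g : F₁) (h : FermatAgent.MazurPrinciple.IsUnitAt d.g₂ (C.hom (f / g ^ n))),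
      ∃ φ, d.g₂.red ⟨C.hom (f / g ^ n), h.1⟩ = φ ^ n)
    {D' : Divisor L E} (hD' : n • D' = divisorOf (C.hom f)) :
    ∃ h : F₁, h ≠ 0 ∧ ∃ c : d.C.ι → k, (∀ i, c i ^ n = 1) ∧
      d.IsToricRep (D' - divisorOf (C.hom h)) c ∧
      ∃ h₁ h₂ : F₁, IsRootOn C.V₁ n f h₁ ∧ IsRootOn C.V₂ n f h₂ ∧
        ∀ (i : d.C.ι) (r : W), π (C.κ r) = c i →
          haveI := C.point_isMaximal hq i
          RatioAt hq (C.point hq i) (C.q_mem_point hq i) C.V₂ C.V₁ n f h₂ h₁ (residue W r) := by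
  classical
  have hf : f ≠ 0 := fun e => hu.ne_zero (by rw [e, map_zero])
  obtain ⟨i₀⟩ := d.C.nonempty
  obtain ⟨φ, hφ⟩ := hpow₁ 1 (by rwa [one_pow, div_one])
  rw [d.g₁.red_congr (show C.hom (f / 1 ^ n) = C.hom f by rw [one_pow, div_one])] at hφ
  obtain ⟨NC₀⟩ := exists_nodeChart C hq D i₀
  have := NC₀.isMax
  obtain ⟨ε₀, g₀, hε₀, hg₀, hεl, hεi, hfg⟩ :=
    exists_decomp_of_red_pow C hq D NC₀ hs₁ hn hdiv hu hφ
  have h₂u : ∃ g : F₁, FermatAgent.MazurPrinciple.IsUnitAt d.g₂ (C.hom (f / g ^ n)) := by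
    refine ⟨g₀, ?_⟩
    rw [hfg, mul_div_assoc, div_self (pow_ne_zero n hg₀), mul_one]
    obtain ⟨hi, -, n2, -⟩ := Away.red_node C hq D NC₀ hεl hεi hε₀
    exact ⟨hi.2, n2⟩
  obtain ⟨h, h0, hh⟩ := Away.exists_root_at_nodes C hq D
    (fun i => (exists_nodeChart C hq D i).some) hf hn hdiv
    (Away.exists_valuation_eq_pow C hq D hn ⟨1, by rwa [one_pow, div_one]⟩ h₂u)
  have hx : f / h ^ n ≠ 0 := div_ne_zero hf (pow_ne_zero n h0)
  have hnode := fun i => Away.red_node C hq D _ (hh i).1 (hh i).2 hx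
  have hi : C.hom (f / h ^ n) ∈ d.int := (hnode i₀).choose
  set p := d.red ⟨_, hi⟩ with hp
  have hun : d.C.UnitNodes p := ⟨(hnode i₀).choose_spec.1, (hnode i₀).choose_spec.2.1, fun i =>
    ⟨(hnode i).choose_spec.2.2.1, (hnode i).choose_spec.2.2.2.1⟩⟩
  have hval : ∀ i, valueAt (d.C.x i) p.1 = valueAt (d.C.y i) p.2 := fun i =>
    (hnode i).choose_spec.2.2.2.2
  have hgood : d.IsGood (divisorOf (K := L) (C.hom (f / h ^ n))) := fun P hP i e => hP (by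
    rw [divisorOf_apply, Away.ord_eq_zero_over_node C hq D _ (hh i).1 (hh i).2 hx e])
  have hDe : n • (D' - divisorOf (C.hom h)) = divisorOf (K := L) (C.hom (f / h ^ n)) := by
    rw [smul_sub, hD']
    ext P
    simp only [Finsupp.sub_apply, Finsupp.smul_apply, nsmul_eq_mul, divisorOf_apply]
    rw [map_div₀, map_pow, ord_div P ((_root_.map_ne_zero _).mpr hf)
      (pow_ne_zero n ((_root_.map_ne_zero _).mpr h0)), ord_pow']
  obtain ⟨hbal, e₁, e₂⟩ := Away.isBal_of_nsmul_eq d hi hun hgood hn hDe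
  obtain ⟨ψ₁, r₁⟩ := hpow₁ h ⟨hi.1, hun.1⟩
  obtain ⟨ψ₂, r₂⟩ := hpow₂ h ⟨hi.2, hun.2.1⟩
  change p.1 = ψ₁ ^ n at r₁
  change p.2 = ψ₂ ^ n at r₂
  have hn' : (n : ℤ) ≠ 0 := by exact_mod_cast hn.ne'
  have hψ₁ : ψ₁ ≠ 0 := fun e => hun.1 (by rw [r₁, e, zero_pow hn.ne'])
  have hψ₂ : ψ₂ ≠ 0 := fun e => hun.2.1 (by rw [r₂, e, zero_pow hn.ne'])
  have ho : ∀ i, (d.C.x i).ord ψ₁ = 0 ∧ (d.C.y i).ord ψ₂ = 0 := fun i => by
    obtain ⟨a, b⟩ := hun.2.2 i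
    rw [r₁, Curve.ord_pow', mul_eq_zero] at a
    rw [r₂, Curve.ord_pow', mul_eq_zero] at b
    exact ⟨a.resolve_left hn', b.resolve_left hn'⟩
  set c : d.C.ι → k := fun i => valueAt (d.C.x i) ψ₁ / valueAt (d.C.y i) ψ₂ with hc
  have hcn : ∀ i, c i ^ n = 1 := fun i => by
    rw [hc, div_pow, ← valueAt_pow _ ((mem_iff_ord_nonneg' _).mpr (ho i).1.ge),
      ← valueAt_pow _ ((mem_iff_ord_nonneg' _).mpr (ho i).2.ge), ← r₁, ← r₂, hval i,
      div_self (Glued.ne_zero_value hun.2.1 (hun.2.2 i).2)]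
  have hd₁ : d.C.part₁ (d.redDiv (D' - divisorOf (C.hom h))) = divisorOf ψ₁ :=
    Finsupp.ext fun Q => by
      have := congrArg (fun E => E Q) e₁
      simp only [← hp, Finsupp.smul_apply, nsmul_eq_mul, divisorOf_apply, r₁,
        Curve.ord_pow'] at this ⊢
      exact mul_left_cancel₀ hn' this
  have hd₂ : d.C.part₂ (d.redDiv (D' - divisorOf (C.hom h))) = divisorOf ψ₂ :=
    Finsupp.ext fun Q => by
      have := congrArg (fun E => E Q) e₂
      simp only [← hp, Finsupp.smul_apply, nsmul_eq_mul, divisorOf_apply, r₂,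
        Curve.ord_pow'] at this ⊢
      exact mul_left_cancel₀ hn' this
  obtain ⟨⟨y₁, -, -, -, -, -, -, hy₁, ey₁⟩, ⟨y₂, -, -, -, -, -, -, hy₂, ey₂⟩⟩ :=
    exists_lift_at_node C hq D i₀ hs₁ hs₂ hψ₁ (ho i₀).1 hψ₂ (ho i₀).2
  refine ⟨h, h0, c, hcn, ⟨hbal, (ψ₁, ψ₂), ⟨hψ₁, hψ₂, ho⟩, hd₁, hd₂, fun i => ?_⟩, h * y₁, h * y₂,
    isRootOn_of_red d.g₁ d.residue_surjective C.hom hi.1 hy₁ (by rw [ey₁]; exact r₁)
      (ey₁ ▸ hψ₁),
    isRootOn_of_red d.g₂ d.residue_surjective C.hom hi.2 hy₂ (by rw [ey₂]; exact r₂)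
      (ey₂ ▸ hψ₂), fun i r hr => ?_⟩
  · exact (div_mul_cancel₀ _ (Glued.ne_zero_value hψ₂ (ho i).2)).symm
  have := C.point_isMaximal hq i
  obtain ⟨⟨z₁, a₁, z₁0, z₁l, -, z₁m, z₁v, hz₁, ez₁⟩, ⟨z₂, a₂, z₂0, z₂l, z₂i, z₂m, z₂v, hz₂, ez₂⟩⟩ :=
    exists_lift_at_node C hq D i hs₁ hs₂ hψ₁ (ho i).1 hψ₂ (ho i).2
  have hqP := C.q_mem_point hq i
  have p₁ : pval hq hqP z₁ = residue W a₁ :=
    ((pval_eq_iff hq hqP z₁l (loc_const a₁)).mpr z₁m).trans (pval_const hq hqP a₁)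
  have p₂ : pval hq hqP z₂ = residue W a₂ :=
    ((pval_eq_iff hq hqP z₂l (loc_const a₂)).mpr z₂m).trans (pval_const hq hqP a₂)
  obtain ⟨NC⟩ := exists_nodeChart C hq D i
  have hP := nodeChart_P C hq D (exists_nodeChart C hq D i).some
  have hl := hh i
  simp only [hP] at hl
  refine ⟨⟨f / h ^ n, h, z₂, z₁, hx, h0, hl.1, hl.2,
    (div_mul_cancel₀ f (pow_ne_zero n h0)).symm, z₂l, z₁l, ?_, ?_, ?_, ?_, ?_, ?_⟩⟩
  · rw [mul_div_cancel_left₀ _ h0]; exact mem_pullRing.mpr hy₂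
  · rw [mul_div_cancel_left₀ _ h0]; exact mem_pullRing.mpr hy₁
  · rw [mul_div_cancel_left₀ _ h0]
    exact res_pullRing_eq d.g₂ d.residue_surjective C.hom hz₂ hy₂ (ez₂.trans ey₂.symm)
  · rw [mul_div_cancel_left₀ _ h0]
    exact res_pullRing_eq d.g₁ d.residue_surjective C.hom hz₁ hy₁ (ez₁.trans ey₁.symm)
  · exact pval_ne_zero_of_loc_inv hq hqP z₂l z₂i z₂0
  · rw [p₁, p₂, ← map_mul, ← sub_eq_zero, ← map_sub, ← C.pi_κ_eq_zero_iff hq, map_sub, map_sub,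
      map_mul, map_mul, hr, z₁v, z₂v, sub_eq_zero]
    exact (div_mul_cancel₀ _ (Glued.ne_zero_value hψ₂ (ho i).2)).symm

end FermatAgent.RTLift.Sq
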