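import Fermat.Agent.RTLift.Sq.Transport

/-!
# Normalising an eigen function

An eigen relation for the correspondence with `deg - e` prime to `n` makes the exponents on the
three components congruent, so a constant and an `n`-th power normalise the function.
-/

set_option autoImplicit false
set_option linter.unusedSectionVars false
set_option maxHeartbeats 800000

noncomputable section

namespace FermatAgent.RTLift.Sq

open Polynomial IsLocalRing
open FermatAgent.BadRed.Carayol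

variable {q : ℕ} [Fact q.Prime] {W K F F₁ F₂ G G₁ G₂ : Type*}
  [CommRing W] [IsDomain W] [IsDiscreteValuationRing W] [IsAlgClosed (IsLocalRing.ResidueField W)]
  [Field K] [CharZero K] [Algebra W K] [IsFractionRing W K]
  [Field F] [Field F₁] [Field F₂] [Algebra K F] [Algebra K F₁] [Algebra K F₂]
  [Algebra W F] [Algebra W F₁] [Algebra W F₂]
  [IsScalarTower W K F] [IsScalarTower W K F₁] [IsScalarTower W K F₂]
  [Field G] [Field G₁] [Field G₂] [Algebra K G] [Algebra K G₁] [Algebra K G₂]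
  [Algebra W G] [Algebra W G₁] [Algebra W G₂]
  [IsScalarTower W K G] [IsScalarTower W K G₁] [IsScalarTower W K G₂]
  {T : QTower q K F F₁ F₂} {T' : QTower q K G G₁ G₂} {u : F} {u' : G}
  (hq : maximalIdeal W = Ideal.span {(q : W)}) (D : ChartData W T u) (D' : ChartData W T' u')
  (a b : TowerMap W T T' u u') (C : Comps W T u) (C' : Comps W T' u')
include hq D

/-- The difference of the two ends is a unit at infinity. -/
theorem isUnitAt_mid_param {V : ValuationSubring F₂} (hV : IsVertical W q (T.α (T.t u)) V)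
    (h : IsInf T u V) : IsUnitAt V (T.β (T.t u) - T.α (T.s u)) := by
  have h₁ := (isVertical_x₁ hq D hV).u_mem.mem
  have h₂ := (isVertical_x₂ hq D hV).u_mem.mem
  refine (isUnitAt_iff (sub_mem h₂ h₁)).mpr fun h0 => ?_
  rw [res_sub h₂ h₁, sub_eq_zero] at h0
  have hz : res V (T.α (T.t u)) ^ (q * q) = res V (T.α (T.t u)) := by
    have e := inf_other hq D hV h
    rw [h0, h, ← pow_mul] at e
    exact e.symm
  have hP : (X ^ (q * q) - X : Polynomial W).map (residue W) ≠ 0 := by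
    refine ((monic_X_pow_sub ?_).map (residue W)).ne_zero
    rw [degree_X]
    exact_mod_cast (Nat.one_lt_mul_iff.mpr ⟨(Fact.out : q.Prime).pos, (Fact.out : q.Prime).pos,
      Or.inl (Fact.out : q.Prime).one_lt⟩)
  have hu := hV.isUnitAt _ hP
  rw [map_sub, map_pow, aeval_X] at hu
  refine hu.res_ne_zero ?_
  rw [res_sub (pow_mem hV.u_mem.mem _) hV.u_mem.mem, res_pow hV.u_mem.mem, hz, sub_self]

/-- The same at zero. -/
theorem isUnitAt_mid_param' {V : ValuationSubring F₂} (hV : IsVertical W q (T.α (T.t u)) V)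
    (h : IsZero' T u V) : IsUnitAt V (T.β (T.t u) - T.α (T.s u)) := by
  have := isUnitAt_mid_param hq D.swap (isVertical_swap_iff.mpr hV) (isInf_swap_iff.mpr h)
  rw [← neg_sub]
  exact this.neg

theorem exists_hasExp_mid {f : F₂} (hf : f ≠ 0) : ∃ k, HasExp q C.Vm (f ^ (q - 1)) k := by
  have hπ0 : T.β (T.t u) - T.α (T.s u) ≠ 0 := sub_ne_zero.mpr (x₁_ne_x₂ hq D).symm
  obtain ⟨k, hk⟩ := disc_mid hq D C.vm C.mid f hf
  refine ⟨k, ?_⟩
  rw [IsUnitAt, map_div₀, map_zpow₀,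
    div_eq_one_iff_eq (zpow_ne_zero k ((Valuation.ne_zero_iff _).mpr hπ0))] at hk
  rw [HasExp, map_pow, hk, mid_val hq D C.vm C.mid, ← zpow_natCast, ← zpow_natCast, ← zpow_mul,
    ← zpow_mul, mul_comm]

omit D in
theorem hasExp_const {L : Type*} [Field L] [Algebra K L] [Algebra W L] [IsScalarTower W K L]
    {v : L} {V : ValuationSubring L} (hV : IsVertical W q v V) (j : ℤ) (w : Wˣ) :
    HasExp q V (algebraMap K L ((q : K) ^ j * algebraMap W K (w : W))) j := by
  have hq0 : (q : L) ≠ 0 := by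
    rw [← map_natCast (algebraMap K L)]
    exact (map_ne_zero_iff _ (algebraMap K L).injective).mpr (natCast_ne_zero_frac hq)
  rw [map_mul, map_zpow₀, map_natCast, ← IsScalarTower.algebraMap_apply]
  simpa using (hasExp_zpow (V := V) j).mul
    (hasExp_zero_iff.mpr (isUnitAt_const hq hV (w.isUnit.map (residue W)).ne_zero)) hq0

include D' C' in
/-- **The exponents of an eigen function are congruent.** -/
theorem exps_congr {n : ℕ} {f w : F₂} {k : K} {e : ℕ} (hk : k ≠ 0) (hw : w ≠ 0)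
    (hrel : corrOp a b f = algebraMap K F₂ k * f ^ e * w ^ n)
    (hdeg : IsCoprime (n : ℤ) ((a.deg : ℤ) - e)) {kI k₀ km : ℤ} (hI : HasExp q C.VI f kI)
    (h0 : HasExp q C.V0 f k₀) (hm : HasExp q C.Vm (f ^ (q - 1)) km) :
    (n : ℤ) ∣ k₀ - kI ∧ (n : ℤ) ∣ km - ((q - 1 : ℕ) : ℤ) * kI := by
  have hq0 := natCast_ne_zero₂ hq D
  obtain ⟨j, v, rfl⟩ := exists_zpow_mul_unit hq hk
  have key : ∀ {V : ValuationSubring F₂}, IsComp C V → ∀ (m : ℕ) {x y : ℤ},
      HasExp q V (f ^ m) x → HasExp q V (w ^ m) y →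
      ((a.deg : ℤ) - e) * x = (m : ℤ) * j + (n : ℤ) * y := by
    intro V hV m x y hx hy
    have h1 := hasExp_corrOp hq D D' a b C C' hV hx
    rw [map_pow, hrel] at h1
    have h2 : HasExp q V ((algebraMap K F₂ ((q : K) ^ j * algebraMap W K (v : W)) * f ^ e * w ^ n) ^ m)
        ((m : ℤ) * j + (e : ℤ) * x + (n : ℤ) * y) := by
      rw [mul_pow, mul_pow, pow_right_comm f, pow_right_comm w]
      exact (((hasExp_const hq hV.isVertical j v).pow m).mul (hx.pow e) hq0).mul (hy.pow n) hq0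
    have := h1.unique h2 hq0 hV.isVertical.q_mem
    linear_combination this
  obtain ⟨yI, hyI⟩ := exists_hasExp_of_disc (disc_inf hq D C.vI C.inf) hq0 hw
  obtain ⟨y₀, hy₀⟩ := exists_hasExp_of_disc (disc_zero hq D C.v0 C.zero) hq0 hw
  obtain ⟨ym, hym⟩ := exists_hasExp_mid hq D C hw
  have eI := key (Or.inl rfl) 1 (by simpa using hI) (by simpa using hyI)
  have e0 := key (Or.inr (Or.inl rfl)) 1 (by simpa using h0) (by simpa using hy₀)
  have em := key (Or.inr (Or.inr rfl)) (q - 1) hm hym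
  refine ⟨hdeg.dvd_of_dvd_mul_left ⟨y₀ - yI, ?_⟩,
    hdeg.dvd_of_dvd_mul_left ⟨ym - ((q - 1 : ℕ) : ℤ) * yI, ?_⟩⟩
  · linear_combination e0 - eI
  · linear_combination em - ((q - 1 : ℕ) : ℤ) * eI

omit D in
theorem norm_const (S : QTower q K F F₁ F₂) (c : K) :
    S.normα (algebraMap K F₂ c) = algebraMap K F₁ (c ^ q) := by
  let _ : Algebra F₁ F₂ := S.α.toRingHom.toAlgebra
  rw [show algebraMap K F₂ c = algebraMap F₁ F₂ (algebraMap K F₁ c) from (S.α.commutes c).symm,
    show S.normα (algebraMap F₁ F₂ (algebraMap K F₁ c)) =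
      Algebra.norm F₁ (algebraMap F₁ F₂ (algebraMap K F₁ c)) from rfl,
    Algebra.norm_algebraMap, S.degree_α, map_pow]

include D' C' in
/-- **A normalised representative.** -/
theorem exists_normal_of_eigen {n : ℕ} (hn : 0 < n) {f w : F₂} {k : K} {e : ℕ} (hf : f ≠ 0)
    (hk : k ≠ 0) (hw : w ≠ 0) (hrel : corrOp a b f = algebraMap K F₂ k * f ^ e * w ^ n)
    (hdeg : IsCoprime (n : ℤ) ((a.deg : ℤ) - e)) (hdiv : DivisibleOn K f n)
    (hα : ∃ (c : K) (g : F₁), T.normα f = algebraMap K F₁ c * g ^ n)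
    (hβ : ∃ (c : K) (g : F₁), T.normβ f = algebraMap K F₁ c * g ^ n) :
    ∃ (c : K) (π : F₂), c ≠ 0 ∧ π ≠ 0 ∧
      Nonempty (Normal C n (f * algebraMap K F₂ c * π ^ n)) := by
  have hq0 := natCast_ne_zero₂ hq D
  have hqK : (q : K) ≠ 0 := natCast_ne_zero_frac hq
  obtain ⟨kI, hI⟩ := exists_hasExp_of_disc (disc_inf hq D C.vI C.inf) hq0 hf
  obtain ⟨k₀, h0⟩ := exists_hasExp_of_disc (disc_zero hq D C.v0 C.zero) hq0 hf
  obtain ⟨km, hm⟩ := exists_hasExp_mid hq D C hf
  obtain ⟨⟨δ, hδ⟩, ⟨t, ht⟩⟩ := exps_congr hq D D' a b C C' hk hw hrel hdeg hI h0 hm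
  set ρ := T.β (T.t u) - T.α (T.s u) with hρdef
  have hρ0 : ρ ≠ 0 := sub_ne_zero.mpr (x₁_ne_x₂ hq D).symm
  have hρI : HasExp q C.VI (ρ ^ (-t)) 0 := hasExp_zero_iff.mpr (by
    rw [IsUnitAt, map_zpow₀, isUnitAt_mid_param hq D C.vI C.inf, one_zpow])
  have hρ₀ : HasExp q C.V0 (ρ ^ (-t)) 0 := hasExp_zero_iff.mpr (by
    rw [IsUnitAt, map_zpow₀, isUnitAt_mid_param' hq D C.v0 C.zero, one_zpow])
  set c : K := (q : K) ^ (-kI)
  have hc0 : c ≠ 0 := zpow_ne_zero _ hqK
  have hc : algebraMap K F₂ c = (q : F₂) ^ (-kI) := by rw [map_zpow₀, map_natCast]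
  set f' := f * algebraMap K F₂ c * (ρ ^ (-t)) ^ n
  have hI' : HasExp q C.VI f' ((n : ℤ) * 0) := by
    have := ((hI.mul (hasExp_zpow (-kI)) hq0).mul (hρI.pow n) hq0)
    rw [mul_zero] at this ⊢
    simpa [f', hc] using this
  have h0' : HasExp q C.V0 f' ((n : ℤ) * δ) := by
    have := ((h0.mul (hasExp_zpow (-kI)) hq0).mul (hρ₀.pow n) hq0)
    rw [mul_zero, add_zero, ← sub_eq_add_neg, hδ] at this
    simpa [f', hc] using this
  have hm' : HasExp q C.Vm f' ((n : ℤ) * 0) := by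
    have hpos : 0 < C.Vm.valuation ρ := zero_lt_iff.mpr ((Valuation.ne_zero_iff _).mpr hρ0)
    rw [mul_zero]
    refine hasExp_zero_iff.mpr ((pow_eq_one_iff (n := q - 1)).mp ?_ |>.resolve_right
      (by have := (Fact.out : q.Prime).two_le; omega))
    rw [← map_pow, mul_pow, mul_pow, map_mul, map_mul, hm, hc, map_pow, map_zpow₀, map_pow,
      map_pow, map_zpow₀, mid_val hq D C.vm C.mid, ← hρdef]
    simp only [← zpow_natCast, ← zpow_mul, ← zpow_add₀ hpos.ne']
    convert zpow_zero _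
    linear_combination ((q - 1 : ℕ) : ℤ) * ht
  have hdiv' : DivisibleOn K f' n := fun V hV => by
    obtain ⟨g, hg⟩ := hdiv.mul_const 1 hc0 V hV
    refine ⟨g * ρ ^ (-t), ?_⟩
    simp only [pow_one] at hg
    rw [map_mul, hg, map_mul, map_pow, mul_pow]
  have hN : ∀ (S : QTower q K F F₁ F₂), (∃ (c : K) (g : F₁), S.normα f = algebraMap K F₁ c * g ^ n) →
      ∃ (c : K) (g : F₁), S.normα f' = algebraMap K F₁ c * g ^ n := by
    rintro S ⟨d, g, hd⟩
    refine ⟨d * c ^ q, g * S.normα (ρ ^ (-t)), ?_⟩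
    rw [map_mul, map_mul, hd, norm_const hq S, map_pow S.normα, map_mul, mul_pow]
    ring
  exact ⟨c, ρ ^ (-t), hc0, zpow_ne_zero _ hρ0, ⟨{
    ne_zero := mul_ne_zero (mul_ne_zero hf ((_root_.map_ne_zero _).mpr hc0))
      (pow_ne_zero _ (zpow_ne_zero _ hρ0))
    div := hdiv'
    dI := 0
    d₀ := δ
    dm := 0
    expI := hI'
    exp₀ := h0'
    expm := hm'
    normα := exists_norm_unit hq D C hn hI' (hN T hα)
    normβ := exists_norm_unit hq D.swap C.swap hn h0' (hN T.swap hβ) }⟩⟩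

end FermatAgent.RTLift.Sq
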