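import Fermat.Agent.BadRed.Carayol.PointVal

/-!
# The ratio of two residual `n`-th roots at a point

If the components `V`, `V'` pass through the point `P` and `h`, `h'` are residual `n`-th roots of
`f` on them, then `h / γ` and `h' / γ`, with `f = ε γ ^ n` near `P`, have values at `P` whose
ratio does not depend on `γ`.  The ratio is multiplicative and moves along field maps.
-/

set_option autoImplicit false
set_option linter.unusedSectionVars false

noncomputable section

namespace FermatAgent.RTLift.Sq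

open Polynomial IsLocalRing
open FermatAgent.BadRed.Carayol

variable {W K L : Type*} [CommRing W] [IsDomain W] [IsDiscreteValuationRing W]
  [IsAlgClosed (IsLocalRing.ResidueField W)]
  [Field K] [Algebra W K] [Field L] [Algebra K L] [Algebra W L] [IsScalarTower W K L]
  {q : ℕ} {z : L}
  (hq : maximalIdeal W = Ideal.span {(q : W)})

/-- Data computing the ratio at `P` of roots `h` on `V` and `h'` on `V'`. -/
structure RatioAt (P : Ideal (chartRing W z)) [P.IsMaximal] (hqP : (q : chartRing W z) ∈ P)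
    (V V' : ValuationSubring L) (n : ℕ) (f h h' : L) (r : IsLocalRing.ResidueField W) : Prop where
  exists_lifts : ∃ ε γ y y' : L, ε ≠ 0 ∧ γ ≠ 0 ∧ Loc z P ε ∧ Loc z P ε⁻¹ ∧ f = ε * γ ^ n ∧
    Loc z P y ∧ Loc z P y' ∧ h / γ ∈ V ∧ h' / γ ∈ V' ∧ res V y = res V (h / γ) ∧
    res V' y' = res V' (h' / γ) ∧ pval hq hqP y ≠ 0 ∧
    pval hq hqP y' = r * pval hq hqP y

variable {P : Ideal (chartRing W z)} [P.IsMaximal] {hqP : (q : chartRing W z) ∈ P}
  {V V' : ValuationSubring L}

/-- Two units with the same `n`-th power up to units of the local ring differ by one. -/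
theorem loc_div_of_eq {n : ℕ} (hn : 0 < n) {f ε γ ε₁ γ₁ : L} (hε1 : Loc z P ε)
    (hε2 : Loc z P ε₁⁻¹) (h0 : ε₁ ≠ 0) (_hγ₁ : γ₁ ≠ 0) (e : f = ε * γ ^ n)
    (e₁ : f = ε₁ * γ₁ ^ n) : Loc z P (γ₁ / γ) := by
  refine loc_of_pow hn ?_
  rcases eq_or_ne γ 0 with rfl | hγ
  · rw [div_zero, zero_pow hn.ne']
    exact (chartRing_le_locRing P (zero_mem _))
  have : (γ₁ / γ) ^ n = ε * ε₁⁻¹ := by
    rw [div_pow, div_eq_iff (pow_ne_zero n hγ), mul_right_comm, ← e, e₁, mul_right_comm,
      mul_inv_cancel₀ h0, one_mul]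
  rw [this]
  exact hε1.mul hε2

/-- The ratio is unique. -/
theorem RatioAt.unique (hV : IsVertical W q z V) (hT : Through P V) (hV' : IsVertical W q z V')
    (hT' : Through P V') {n : ℕ} (hn : 0 < n) {f h h' : L} {r r₁ : IsLocalRing.ResidueField W}
    (H : RatioAt hq P hqP V V' n f h h' r) (H₁ : RatioAt hq P hqP V V' n f h h' r₁) : r = r₁ := by
  obtain ⟨ε, γ, y, y', hε0, hγ0, hε, hεi, hf, hy, hy', hm, hm', e, e', hne, hr⟩ := H.exists_lifts
  obtain ⟨ε₁, γ₁, y₁, y₁', hε₁0, hγ₁0, hε₁, hε₁i, hf₁, hy₁, hy₁', hm₁, hm₁', e₁, e₁', hne₁, hr₁⟩ :=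
    H₁.exists_lifts
  have hδ : Loc z P (γ₁ / γ) := loc_div_of_eq hn hε hε₁i hε₁0 hγ₁0 hf hf₁
  have key : ∀ {U : ValuationSubring L}, IsVertical W q z U → Through P U →
      ∀ {a b b₁ : L}, Loc z P b → Loc z P b₁ → a / γ₁ ∈ U → res U b = res U (a / γ) →
        res U b₁ = res U (a / γ₁) → pval hq hqP b = pval hq hqP b₁ * pval hq hqP (γ₁ / γ) := by
    intro U hU hTU a b b₁ hb hb₁ hm hb' hb₁'
    have hA : ∀ w : chartRing W z, (w : L) ∈ U := fun w => hU.chartRing_le w.2
    rw [← pval_mul hq hqP hb₁ hδ]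
    refine pval_eq_of_res_eq hq hqP hU hTU hb (hb₁.mul hδ) ?_
    rw [hb', res_mul (hTU.mem hA hb₁) (hTU.mem hA hδ), hb₁',
      ← res_mul hm (hTU.mem hA hδ), div_mul_div_comm, mul_div_mul_comm, mul_comm (a / γ₁)]
    congr 1
    field_simp
  have k1 := key hV hT hy hy₁ hm₁ e e₁
  have k2 := key hV' hT' hy' hy₁' hm₁' e' e₁'
  rw [k1, k2, hr₁] at hr
  have hδ0 : pval hq hqP (γ₁ / γ) ≠ 0 := fun h0 => hne (by rw [k1, h0, mul_zero])
  refine (mul_right_cancel₀ hne₁ (mul_right_cancel₀ hδ0 ?_)).symm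
  linear_combination hr

/-- The ratio is multiplicative. -/
theorem RatioAt.mul (hV : IsVertical W q z V) (hT : Through P V) (hV' : IsVertical W q z V')
    (hT' : Through P V') {n : ℕ} {f h h' f₁ h₁ h₁' : L} {r r₁ : IsLocalRing.ResidueField W}
    (H : RatioAt hq P hqP V V' n f h h' r) (H₁ : RatioAt hq P hqP V V' n f₁ h₁ h₁' r₁) :
    RatioAt hq P hqP V V' n (f * f₁) (h * h₁) (h' * h₁') (r * r₁) := by
  obtain ⟨ε, γ, y, y', hε0, hγ0, hε, hεi, hf, hy, hy', hm, hm', e, e', hne, hr⟩ := H.exists_lifts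
  obtain ⟨ε₁, γ₁, y₁, y₁', hε₁0, hγ₁0, hε₁, hε₁i, hf₁, hy₁, hy₁', hm₁, hm₁', e₁, e₁', hne₁, hr₁⟩ :=
    H₁.exists_lifts
  have hA : ∀ w : chartRing W z, (w : L) ∈ V := fun w => hV.chartRing_le w.2
  have hA' : ∀ w : chartRing W z, (w : L) ∈ V' := fun w => hV'.chartRing_le w.2
  refine ⟨⟨ε * ε₁, γ * γ₁, y * y₁, y' * y₁', mul_ne_zero hε0 hε₁0, mul_ne_zero hγ0 hγ₁0,
    hε.mul hε₁, by rw [mul_inv]; exact hεi.mul hε₁i, by rw [hf, hf₁, mul_pow]; ring,
    hy.mul hy₁, hy'.mul hy₁', ?_, ?_, ?_, ?_, ?_, ?_⟩⟩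
  · rw [← div_mul_div_comm]; exact mul_mem hm hm₁
  · rw [← div_mul_div_comm]; exact mul_mem hm' hm₁'
  · rw [← div_mul_div_comm, res_mul hm hm₁, res_mul (hT.mem hA hy) (hT.mem hA hy₁), e, e₁]
  · rw [← div_mul_div_comm, res_mul hm' hm₁', res_mul (hT'.mem hA' hy') (hT'.mem hA' hy₁'), e', e₁']
  · rw [pval_mul hq hqP hy hy₁]; exact mul_ne_zero hne hne₁
  · rw [pval_mul hq hqP hy hy₁, pval_mul hq hqP hy' hy₁', hr, hr₁]; ring

/-- Constants rescale the ratio. -/
theorem ratioAt_const (hV : IsVertical W q z V) (hV' : IsVertical W q z V') {n : ℕ} {a b : W}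
    (ha : residue W a ≠ 0) :
    RatioAt hq P hqP V V' n (1 : L) (algebraMap W L a) (algebraMap W L b)
      (residue W b / residue W a) := by
  have h1 : Loc z P (1 : L) := chartRing_le_locRing P (one_mem _)
  refine ⟨⟨1, 1, algebraMap W L a, algebraMap W L b, one_ne_zero, one_ne_zero, h1, by simpa using h1,
    by simp, loc_const a, loc_const b, by simpa using hV.const_mem a,
    by simpa using hV'.const_mem b, by simp, by simp, ?_, ?_⟩⟩
  · rw [pval_const]; exact ha
  · rw [pval_const, pval_const, div_mul_cancel₀ _ ha]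

/-- The empty product. -/
theorem ratioAt_one (hV : IsVertical W q z V) (hV' : IsVertical W q z V') {n : ℕ} :
    RatioAt hq P hqP V V' n (1 : L) 1 1 1 := by
  simpa using ratioAt_const (P := P) (hqP := hqP) hq hV hV' (n := n) (a := 1) (b := 1)
    (by rw [map_one]; exact one_ne_zero)

theorem RatioAt.prod (hV : IsVertical W q z V) (hT : Through P V) (hV' : IsVertical W q z V')
    (hT' : Through P V') {n : ℕ} {ι : Type*} (s : Finset ι) {f h h' : ι → L}
    {r : ι → IsLocalRing.ResidueField W}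
    (H : ∀ i ∈ s, RatioAt hq P hqP V V' n (f i) (h i) (h' i) (r i)) :
    RatioAt hq P hqP V V' n (∏ i ∈ s, f i) (∏ i ∈ s, h i) (∏ i ∈ s, h' i) (∏ i ∈ s, r i) := by
  classical
  induction s using Finset.induction_on with
  | empty => simpa using ratioAt_one hq hV hV'
  | insert a s has ih =>
    simp only [Finset.prod_insert has]
    exact (H a (Finset.mem_insert_self a s)).mul hq hV hT hV' hT'
      (ih fun i hi => H i (Finset.mem_insert_of_mem hi))

section Map

variable {L' : Type*} [Field L'] [Algebra K L'] [Algebra W L'] [IsScalarTower W K L'] {z' : L'}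
  (σ : L →ₐ[K] L') {P' : Ideal (chartRing W z')} [P'.IsMaximal]
  {hqP' : (q : chartRing W z') ∈ P'}
  (hloc : ∀ x : chartRing W z, Loc z' P' (σ x))
  (hPP : ∀ x : chartRing W z, x ∈ P → InMax P' (σ x))
include hloc hPP

theorem inMax_map_iff (x : chartRing W z) : InMax P' (σ x) ↔ x ∈ P := by
  refine ⟨fun h => ?_, hPP x⟩
  by_contra hx
  obtain ⟨s, p, hp, hsp⟩ := Ideal.IsMaximal.exists_inv ‹P.IsMaximal› hx
  refine not_inMax_one (P := P') ?_
  have e : (1 : L') = σ (s : L) * σ (x : L) + σ (p : L) := by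
    have := congrArg (fun w : chartRing W z => σ (w : L)) hsp
    push_cast at this
    rw [map_add, map_mul, map_one] at this
    exact this.symm
  rw [e]
  exact (h.mul_left (hloc s)).add (hPP p hp)

theorem loc_map {y : L} (hy : Loc z P y) : Loc z' P' (σ y) := by
  obtain ⟨r, a, hr, ha⟩ := hy
  have hr' : ¬ InMax P' (σ (r : L)) := fun h => hr ((inMax_map_iff σ hloc hPP r).mp h)
  obtain ⟨hr0, hri⟩ := (inMax_or_loc_inv (hloc r)).resolve_left hr'
  have : σ y = (σ (r : L))⁻¹ * σ (a : L) := by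
    rw [← ha, map_mul, inv_mul_cancel_left₀ hr0]
  rw [this]
  exact hri.mul (hloc a)

theorem inMax_map {y : L} (hy : InMax P y) : InMax P' (σ y) := by
  obtain ⟨r, a, hr, haP, ha⟩ := hy
  have hr' : ¬ InMax P' (σ (r : L)) := fun h => hr ((inMax_map_iff σ hloc hPP r).mp h)
  obtain ⟨hr0, hri⟩ := (inMax_or_loc_inv (hloc r)).resolve_left hr'
  have : σ y = (σ (r : L))⁻¹ * σ (a : L) := by
    rw [← ha, map_mul, inv_mul_cancel_left₀ hr0]
  rw [this]
  exact (hPP a haP).mul_left hri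

theorem pval_map {y : L} (hy : Loc z P y) :
    pval hq hqP' (σ y) = pval hq hqP y := by
  obtain ⟨w, hw⟩ := residue_surjective (pval hq hqP y)
  have hm : InMax P (y - algebraMap W L w) :=
    (pval_eq_iff hq hqP hy (loc_const w)).mp (by rw [pval_const, hw])
  have hm' : InMax P' (σ y - algebraMap W L' w) := by
    have := inMax_map σ hloc hPP hm
    rwa [map_sub, IsScalarTower.algebraMap_apply W K L, σ.commutes,
      ← IsScalarTower.algebraMap_apply] at this
  rw [(pval_eq_iff hq hqP' (loc_map σ hloc hPP hy) (loc_const w)).mpr hm', pval_const, hw]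

theorem through_comap {U : ValuationSubring L'} (hA : ∀ w : chartRing W z', (w : L') ∈ U)
    (hT : Through P' U) : Through P (U.comap σ.toRingHom) := fun x hx =>
  (inMax_map_iff σ hloc hPP x).mp (hT.inMax hA (hloc x) ((mem_nonunits_comap _ _).mp hx))

/-- The ratio moves along a map of fields. -/
theorem RatioAt.map {U U' : ValuationSubring L'} (hA : ∀ w : chartRing W z', (w : L') ∈ U)
    (hA' : ∀ w : chartRing W z', (w : L') ∈ U') (hT : Through P' U) (hT' : Through P' U')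
    {n : ℕ} {f h h' : L} {r : IsLocalRing.ResidueField W}
    (H : RatioAt hq P hqP (U.comap σ.toRingHom) (U'.comap σ.toRingHom) n f h h' r) :
    RatioAt hq P' hqP' U U' n (σ f) (σ h) (σ h') r := by
  obtain ⟨ε, γ, y, y', hε0, hγ0, hε, hεi, hf, hy, hy', hm, hm', e, e', hne, hr⟩ := H.exists_lifts
  have hly := loc_map σ hloc hPP hy
  have hly' := loc_map σ hloc hPP hy'
  refine ⟨⟨σ ε, σ γ, σ y, σ y', by simpa using hε0, by simpa using hγ0, loc_map σ hloc hPP hε,
    by rw [← map_inv₀]; exact loc_map σ hloc hPP hεi, by rw [hf, map_mul, map_pow], hly, hly',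
    by rw [← map_div₀]; exact hm, by rw [← map_div₀]; exact hm', ?_, ?_, ?_, ?_⟩⟩
  · rw [← map_div₀]
    exact (res_eq_iff_map σ.toRingHom U (hT.mem hA hly) hm).mp e
  · rw [← map_div₀]
    exact (res_eq_iff_map σ.toRingHom U' (hT'.mem hA' hly') hm').mp e'
  · rw [pval_map (hqP := hqP) hq σ hloc hPP hy]; exact hne
  · rw [pval_map (hqP := hqP) hq σ hloc hPP hy, pval_map (hqP := hqP) hq σ hloc hPP hy', hr]

end Map

end FermatAgent.RTLift.Sq
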