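import Fermat.Agent.RTLift.Sq.SS
import Mathlib.RingTheory.IntegralClosure.GoingDown

/-!
# Points above a point and the components through them

For a map of fields `ι : L → L'` a point of the chart of `z` lies under a point of the chart of
`ι z` through which every component through the lower point lifts.
-/

set_option autoImplicit false
set_option linter.unusedSectionVars false

noncomputable section

namespace FermatAgent.RTLift.Sq

open Polynomial IsLocalRing
open FermatAgent.BadRed.Carayol

variable {W K L L' : Type*} [CommRing W] [IsDomain W] [IsDiscreteValuationRing W]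
  [Field K] [Algebra W K] [Field L] [Field L'] [Algebra K L] [Algebra K L']
  [Algebra W L] [Algebra W L'] [IsScalarTower W K L] [IsScalarTower W K L']
  {q : ℕ} {z : L} (ι : L →ₐ[K] L')

/-- The chart ring of `z` in the chart ring of `ι z`. -/
def chartMap : chartRing W z →+* chartRing W (ι z) where
  toFun x := ⟨ι x, map_mem_chartRing ι x.2⟩
  map_one' := Subtype.ext (map_one ι)
  map_mul' x y := Subtype.ext (map_mul ι (x : L) (y : L))
  map_zero' := Subtype.ext (map_zero ι)
  map_add' x y := Subtype.ext (map_add ι (x : L) (y : L))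

theorem chartMap_injective : Function.Injective (chartMap (W := W) (z := z) ι) := fun _ _ h =>
  Subtype.ext (ι.toRingHom.injective (congrArg Subtype.val h))

theorem chartMap_isIntegral : (chartMap (W := W) (z := z) ι).IsIntegral := by
  intro y
  obtain ⟨p, hp, hpy⟩ := mem_chartRing_iff.mp y.2
  have hmem : ∀ b : Algebra.adjoin W {ι z},
      ∃ c : chartRing W z, chartMap ι c = ⟨(b : L'), by
        obtain ⟨P, hP⟩ := Algebra.adjoin_mem_exists_aeval _ _ b.2
        rw [← hP]; exact aeval_mem_chartRing P⟩ := fun b => by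
    obtain ⟨P, hP⟩ := Algebra.adjoin_mem_exists_aeval _ _ b.2
    exact ⟨⟨aeval z P, aeval_mem_chartRing P⟩,
      Subtype.ext ((map_aeval_const ι P z).trans hP)⟩
  choose c hc using hmem
  let p' : Polynomial (chartRing W z) :=
    X ^ p.natDegree + ∑ i ∈ Finset.range p.natDegree, C (c (p.coeff i)) * X ^ i
  have hdeg : (∑ i ∈ Finset.range p.natDegree, C (c (p.coeff i)) * X ^ i :
      Polynomial (chartRing W z)).degree < p.natDegree := by
    refine (degree_sum_le _ _).trans_lt ((Finset.sup_lt_iff (WithBot.bot_lt_coe _)).mpr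
      fun i hi => (degree_C_mul_X_pow_le _ _).trans_lt ?_)
    exact_mod_cast Finset.mem_range.mp hi
  refine ⟨p', monic_X_pow_add hdeg, Subtype.ext ?_⟩
  rw [eval₂_eq_sum_range, Finset.sum_range_succ, hp.coeff_natDegree, map_one, one_mul, add_comm]
    at hpy
  refine Eq.trans ?_ hpy
  simp only [p', eval₂_add, eval₂_X_pow, eval₂_finsetSum, eval₂_mul, eval₂_C, hc]
  push_cast
  rfl

variable (hz : Transcendental K z)

omit [IsDiscreteValuationRing W] in
theorem chartRing_isIntegrallyClosed : IsIntegrallyClosed (chartRing W z) := by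
  have : IsIntegrallyClosedIn (chartRing W z) L := by
    refine isIntegrallyClosedIn_iff.mpr ⟨Subtype.val_injective, fun {x} hx => ?_⟩
    refine ⟨⟨x, ?_⟩, rfl⟩
    obtain ⟨p, hp, hpx⟩ := hx
    have hint : IsIntegral ((integralClosure (Algebra.adjoin W {z}) L)) x := ⟨p, hp, hpx⟩
    exact isIntegral_trans (R := Algebra.adjoin W {z}) _ hint
  exact IsIntegrallyClosed.of_isIntegrallyClosedIn (chartRing W z) L

variable [IsAlgClosed (IsLocalRing.ResidueField W)]
  (hq : maximalIdeal W = Ideal.span {(q : W)})

include hq in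
/-- A point above a point, with lifts of all components through it. -/
theorem exists_point_over (P : Ideal (chartRing W z)) [P.IsMaximal]
    (hqP : (q : chartRing W z) ∈ P) :
    ∃ (P' : Ideal (chartRing W (ι z))) (_ : P'.IsMaximal) (_ : (q : chartRing W (ι z)) ∈ P'),
      (∀ x : chartRing W z, x ∈ P → chartMap ι x ∈ P') ∧
      ∀ V : ValuationSubring L, IsVertical W q z V → Through P V →
        ∃ U : ValuationSubring L', IsVertical W q (ι z) U ∧ Through P' U ∧
          ∀ x : chartRing W z, (x : L) ∈ (U.comap ι.toRingHom).nonunits ↔ (x : L) ∈ V.nonunits := by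
  let _ : Algebra (chartRing W z) (chartRing W (ι z)) := (chartMap ι).toAlgebra
  have : Algebra.IsIntegral (chartRing W z) (chartRing W (ι z)) :=
    Algebra.isIntegral_def.mpr (chartMap_isIntegral ι)
  have : FaithfulSMul (chartRing W z) (chartRing W (ι z)) :=
    (faithfulSMul_iff_algebraMap_injective _ _).mpr (chartMap_injective ι)
  have := chartRing_isIntegrallyClosed (W := W) (z := z)
  have hker : RingHom.ker (algebraMap (chartRing W z) (chartRing W (ι z))) ≤ P := fun x hx => by
    rw [RingHom.mem_ker] at hx
    rw [chartMap_injective ι (show chartMap ι x = chartMap ι 0 from hx.trans (map_zero _).symm)]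
    exact zero_mem P
  obtain ⟨P', hP', hcomap⟩ := Ideal.exists_ideal_over_maximal_of_isIntegral
    (S := chartRing W (ι z)) P hker
  have hmap : ∀ x : chartRing W z, x ∈ P ↔ chartMap ι x ∈ P' := fun x => by
    rw [← hcomap]; rfl
  refine ⟨P', hP', by simpa using (hmap _).mp hqP, fun x => (hmap x).mp, fun V hV hT => ?_⟩
  -- the centre of `V`
  let hA : chartRing W z →+* V :=
    ((chartRing W z).val.toRingHom).codRestrict V.toSubring fun x => hV.chartRing_le x.2
  let Q₀ : Ideal (chartRing W z) := (maximalIdeal V).comap hA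
  have hQ₀ : ∀ x, x ∈ Q₀ ↔ (x : L) ∈ V.nonunits := fun x => by
    rw [Ideal.mem_comap]
    exact ValuationSubring.coe_mem_nonunits_iff (a := hA x) |>.symm
  have : Q₀.IsPrime := inferInstanceAs (Ideal.comap hA _).IsPrime
  have : P'.LiesOver P := ⟨hcomap.symm⟩
  obtain ⟨Q, hQP, hQp, hQover⟩ := Ideal.exists_ideal_le_liesOver_of_le (q := P) P'
    (p := Q₀) (fun x hx => hT x ((hQ₀ x).mp hx))
  obtain ⟨U, hU⟩ := (LocalSubring.ofPrime (chartRing W (ι z)).toSubring Q).exists_le_valuationSubring
  have hle : ∀ y : chartRing W (ι z), (y : L') ∈ U :=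
    fun y => hU.1 (LocalSubring.le_ofPrime (chartRing W (ι z)).toSubring Q y.2)
  have hcentre : ∀ y : chartRing W (ι z), (y : L') ∈ U.nonunits ↔ y ∈ Q := fun y => by
    rw [show (y : L') = ((⟨(y : L'), hle y⟩ : U) : L') from rfl,
      ValuationSubring.coe_mem_nonunits_iff]
    let S : Subring L' := (chartRing W (ι z)).toSubring
    let Q' : Ideal S := Q
    have hQ'p : Q'.IsPrime := hQp
    let R₀ := LocalSubring.ofPrime S Q'
    let y' : S := y
    have hloc : IsLocalHom (Subring.inclusion hU.1) := hU.2
    constructor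
    · intro h
      by_contra hy
      have hu : IsUnit (algebraMap S R₀.toSubring y') :=
        IsLocalization.map_units (M := Q'.primeCompl) R₀.toSubring ⟨y', hy⟩
      exact (IsLocalRing.mem_maximalIdeal _).mp h (hu.map (Subring.inclusion hU.1))
    · intro hy
      refine (IsLocalRing.mem_maximalIdeal _).mpr fun h => ?_
      have hu : IsUnit (algebraMap S R₀.toSubring y') := hloc.map_nonunit _ h
      exact ((IsLocalization.AtPrime.isUnit_to_map_iff R₀.toSubring Q' y').mp hu) hy
  have hQ : ∀ x : chartRing W z, (ι (x : L)) ∈ U.nonunits ↔ (x : L) ∈ V.nonunits := fun x => by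
    rw [show ι (x : L) = ((chartMap ι x : chartRing W (ι z)) : L') from rfl, hcentre, ← hQ₀,
      hQover.over]
    rfl
  refine ⟨U, ⟨fun w => by
      simpa using hle (algebraMap W (chartRing W (ι z)) w), ?_, fun R hR => ?_⟩,
    fun y hy => hQP ((hcentre y).mp hy), fun x => by rw [mem_nonunits_comap]; exact hQ x⟩
  · have h1 := (hQ (q : chartRing W z)).mpr (by simpa using hV.q_mem)
    simpa using h1
  · refine le_antisymm ((U.valuation_le_one_iff _).mpr (hle ⟨_, aeval_mem_chartRing R⟩))
      (not_lt.mp fun h => ?_)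
    have h1 : ι (aeval z R) ∈ U.nonunits := by rw [map_aeval_const]; exact h
    exact (ne_of_lt ((hQ ⟨_, aeval_mem_chartRing R⟩).mp h1)) (hV.isUnitAt R hR)

end FermatAgent.RTLift.Sq
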