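import Fermat.Agent.RTLift.Sq.ToricNodes

/-!
# Functions regular at the supersingular points

A function integral over `K[j]`, integral on both branches, is in the local ring at every
supersingular point when `j` times a power of the product over the cusps is in the chart.
-/

set_option autoImplicit false
set_option linter.unusedSectionVars false

noncomputable section

namespace FermatAgent.RTLift.Sq

open Polynomial IsLocalRing AlgebraicCurve
open FermatAgent.Curve FermatAgent.Curve.RR FermatAgent.BadRed.Semistable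
open FermatAgent.BadRed.Carayol FermatAgent.MazurPrinciple

section Field

variable {K L : Type*} [Field K] [Field L] [Algebra K L]

/-- Integrality over `K[j]` becomes integrality over a ring containing `r j`, after multiplying by a
power of `r`. -/
theorem exists_pow_mul_mem (B : Subalgebra K L) {j r x : L} (hr : r ∈ B) (hj : r * j ∈ B)
    (hB : ∀ y : L, IsIntegral B y → y ∈ B) (hx : IsIntegral (Algebra.adjoin K {j}) x) :
    ∃ M : ℕ, r ^ M * x ∈ B := by
  classical
  have hcoef : ∀ c : Algebra.adjoin K {j}, ∃ e : ℕ, ∀ e', e ≤ e' → r ^ e' * (c : L) ∈ B := by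
    rintro ⟨c, hc⟩
    refine Algebra.adjoin_induction
      (p := fun y _ => ∃ e : ℕ, ∀ e', e ≤ e' → r ^ e' * y ∈ B) ?_ ?_ ?_ ?_ hc
    · intro y hy
      obtain rfl := Set.mem_singleton_iff.mp hy
      refine ⟨1, fun e' he => ?_⟩
      obtain ⟨e, rfl⟩ := Nat.exists_eq_add_of_le he
      rw [pow_add, pow_one, mul_assoc, mul_left_comm]
      exact B.mul_mem (pow_mem hr e) hj
    · exact fun w => ⟨0, fun e' _ => B.mul_mem (pow_mem hr e') (B.algebraMap_mem w)⟩
    · rintro a b - - ⟨ea, ha⟩ ⟨eb, hb⟩
      exact ⟨max ea eb, fun e' he => by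
        rw [mul_add]
        exact B.add_mem (ha _ ((le_max_left _ _).trans he)) (hb _ ((le_max_right _ _).trans he))⟩
    · rintro a b - - ⟨ea, ha⟩ ⟨eb, hb⟩
      refine ⟨ea + eb, fun e' he => ?_⟩
      obtain ⟨e, rfl⟩ := Nat.exists_eq_add_of_le he
      rw [add_assoc, pow_add, mul_mul_mul_comm]
      exact B.mul_mem (ha _ le_rfl) (hb _ (Nat.le_add_right _ _))
  choose e he using hcoef
  obtain ⟨p, hp, hpx⟩ := hx
  set M := (Finset.range p.natDegree).sup fun i => e (p.coeff i)
  refine ⟨M, hB _ ?_⟩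
  set pL := p.map (algebraMap (Algebra.adjoin K {j}) L)
  have hdeg : pL.natDegree = p.natDegree := hp.natDegree_map _
  have hmem : ∀ i, (pL.scaleRoots (r ^ M)).coeff i ∈ B := fun i => by
    rw [coeff_scaleRoots, hdeg, coeff_map, ← pow_mul, mul_comm]
    rcases lt_trichotomy i p.natDegree with hi | hi | hi
    · refine he _ _ ((Finset.le_sup (f := fun i => e (p.coeff i)) (Finset.mem_range.mpr hi)).trans ?_)
      exact Nat.le_mul_of_pos_right _ (Nat.sub_pos_of_lt hi)
    · rw [hi, Nat.sub_self, mul_zero, pow_zero, one_mul, hp.coeff_natDegree, map_one]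
      exact B.one_mem
    · rw [coeff_eq_zero_of_natDegree_lt hi, map_zero, mul_zero]
      exact B.zero_mem
  obtain ⟨pB, hpB⟩ := (Polynomial.mem_lifts (f := algebraMap B L) _).mp
    ((Polynomial.lifts_iff_coeff_lifts _).mpr fun i => ⟨⟨_, hmem i⟩, rfl⟩)
  have hmon : pB.Monic := monic_of_injective (f := algebraMap B L) Subtype.val_injective (by
    rw [hpB]; exact monic_scaleRoots_iff _ |>.mpr (hp.map _))
  refine ⟨pB, hmon, ?_⟩
  rw [← eval_map, hpB]
  have h0 : (pL.scaleRoots (r ^ M)).eval₂ (RingHom.id L) (r ^ M * x) = 0 :=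
    scaleRoots_eval₂_eq_zero _ (by rw [eval₂_id, eval_map]; exact hpx)
  rwa [eval₂_id] at h0

end Field

variable {q : ℕ} [Fact q.Prime] {W K F F₁ F₂ : Type*}
  [CommRing W] [IsDomain W] [IsDiscreteValuationRing W] [IsAlgClosed (IsLocalRing.ResidueField W)]
  [Field K] [CharZero K] [Algebra W K] [IsFractionRing W K]
  [Field F] [Field F₁] [Field F₂] [Algebra K F] [Algebra K F₁] [Algebra K F₂]
  [Algebra W F] [Algebra W F₁] [Algebra W F₂]
  [IsScalarTower W K F] [IsScalarTower W K F₁] [IsScalarTower W K F₂]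
  {T : QTower q K F F₁ F₂} {u : F}
  (hq : maximalIdeal W = Ideal.span {(q : W)}) (D : ChartData W T u)

/-- The product over the cusps at `u(τ)`. -/
def cuspProd : F₁ := aeval (T.s u) (∏ a ∈ D.cusps, (X - Polynomial.C a))

theorem cuspProd_mem_chartRing : cuspProd D ∈ chartRing W (T.t u) :=
  chartRing_le_chartRing (mem_chartRing_of_evalTwo D.Φ D.monic D.root)
    (aeval_mem_chartRing _)

include D in
theorem map_cusp_mem {jF : F} {m : ℕ}
    (hm : aeval u (∏ a ∈ D.cusps, (X - Polynomial.C a)) ^ m * jF ∈ chartRing W u) :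
    cuspProd D ^ m * T.s jF ∈ chartRing W (T.t u) := by
  refine chartRing_le_chartRing (mem_chartRing_of_evalTwo D.Φ D.monic D.root) ?_
  have h := map_mem_chartRing T.s hm
  rwa [map_mul, map_pow, map_aeval_const] at h

variable {P : Ideal (chartRing W (T.t u))} [P.IsMaximal]
  (hqP : (q : chartRing W (T.t u)) ∈ P)

include hq hqP in
theorem loc_inv_cuspProd (hss : IsSS₁ hq D hqP) :
    cuspProd D ≠ 0 ∧ Loc (T.t u) P (cuspProd D)⁻¹ := by
  have hl : Loc (T.t u) P (cuspProd D) := chartRing_le_locRing P (cuspProd_mem_chartRing D)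
  have hs : Loc (T.t u) P (T.s u) := loc_root D D.root
  have hne : pval hq hqP (cuspProd D) ≠ 0 := by
    have e : cuspProd D = ∏ a ∈ D.cusps, (T.s u - algebraMap W F₁ a) := by
      simp [cuspProd, map_prod]
    have hv : ∀ S : Finset W, (∀ a ∈ S, a ∈ D.cusps) →
        Loc (T.t u) P (∏ a ∈ S, (T.s u - algebraMap W F₁ a)) ∧
          pval hq hqP (∏ a ∈ S, (T.s u - algebraMap W F₁ a)) ≠ 0 := by
      classical
      intro S hS
      induction S using Finset.induction_on with
      | empty =>
        refine ⟨by rw [Finset.prod_empty]; exact chartRing_le_locRing P (one_mem _), ?_⟩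
        simp [pval_one]
      | insert a S ha ih =>
        obtain ⟨i1, i2⟩ := ih fun b hb => hS b (Finset.mem_insert_of_mem hb)
        have hla : Loc (T.t u) P (T.s u - algebraMap W F₁ a) :=
          (locRing P).sub_mem hs (loc_const a)
        refine ⟨by rw [Finset.prod_insert ha]; exact hla.mul i1, ?_⟩
        rw [Finset.prod_insert ha, pval_mul hq hqP hla i1]
        refine mul_ne_zero ?_ i2
        rw [pval_sub hq hqP hs (loc_const a), pval_const, sub_ne_zero]
        intro h
        obtain ⟨hc, -, h2, -⟩ := hss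
        refine hc ⟨D.conj a, D.conj_mem a (hS a (Finset.mem_insert_self _ _)), ?_⟩
        rw [D.conj_residue a (hS a (Finset.mem_insert_self _ _)), h2, h]
    rw [e]
    exact (hv D.cusps fun a ha => ha).2
  exact (inMax_or_loc_inv hl).resolve_left fun h => hne ((pval_eq_zero_iff hq hqP hl).mpr h)

include hq in
/-- The criterion. -/
theorem loc_of_isIntegral {L : Type*} [Field L] [IsAlgClosed L] {A : ValuationSubring L}
    {k : Type*} [Field k] [IsAlgClosed k] {π : A →+* k} {E G₁ G₂ : Type*} [Field E] [Field G₁]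
    [Field G₂] [Algebra L E] [Algebra k G₁] [Algebra k G₂] [IsFunctionField1 L E]
    [IsFunctionField1 k G₁] [IsFunctionField1 k G₂] [RRSetting L E] [RRSetting k G₁]
    [RRSetting k G₂] {d : NodalDatum A π E G₁ G₂} (C : ChartLink W T u d)
    (hss : IsSS₁ hq D hqP) {jF : F} {m : ℕ}
    (hm : aeval u (∏ a ∈ D.cusps, (X - Polynomial.C a)) ^ m * jF ∈ chartRing W u)
    {l : F₁} (hl : IsIntegral (Algebra.adjoin K {T.s jF}) l) (hint : C.hom l ∈ d.int) :
    Loc (T.t u) P l := by
  have := D.finite_over₁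
  let B : Subalgebra K F₁ := (integralClosure (Algebra.adjoin K {T.t u}) F₁).restrictScalars K
  have hchart : ∀ {y : F₁}, y ∈ chartRing W (T.t u) → y ∈ B := fun hy =>
    isIntegral_adjoin_frac hy
  obtain ⟨M, hM⟩ := exists_pow_mul_mem B (r := cuspProd D ^ m)
    (hchart (pow_mem (cuspProd_mem_chartRing D) m)) (hchart (map_cusp_mem D hm))
    (fun y hy => isIntegral_trans (R := Algebra.adjoin K {T.t u}) (A :=
      integralClosure (Algebra.adjoin K {T.t u}) F₁) y hy) hl
  have h1 : Loc (T.t u) P ((cuspProd D ^ m) ^ M * l) := by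
    refine loc_of_through hq D.transcendental_t (finite_vertical₁ hq D)
      (fun V hV => rankOne₁ hq D hV) hM fun V hV _ => ?_
    have hV' : V = C.V₁ ∨ V = C.V₂ := (level1_cases hq D hV).elim
      (fun h => Or.inr (can_unique hq D hV h (C.isVertical₂ hq) C.res₂))
      (fun h => Or.inl (oth_unique hq D hV h (C.isVertical₁ hq) C.res₁))
    rcases hV' with rfl | rfl
    · exact mul_mem (pow_mem (pow_mem ((C.isVertical₁ hq).chartRing_le
        (cuspProd_mem_chartRing D)) m) M) (mem_pullRing.mpr hint.1)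
    · exact mul_mem (pow_mem (pow_mem ((C.isVertical₂ hq).chartRing_le
        (cuspProd_mem_chartRing D)) m) M) (mem_pullRing.mpr hint.2)
  obtain ⟨hne, hinv⟩ := loc_inv_cuspProd hq D hqP hss
  have e : l = ((cuspProd D)⁻¹ ^ m) ^ M * ((cuspProd D ^ m) ^ M * l) := by
    rw [inv_pow, inv_pow, inv_mul_cancel_left₀ (pow_ne_zero _ (pow_ne_zero _ hne))]
  rw [e]
  exact ((hinv.pow m).pow M).mul h1

end FermatAgent.RTLift.Sq
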