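import Fermat.Agent.RTLift.Sq.ToricBranch
import Fermat.Agent.RTLift.Sq.ToricRegular
import Fermat.Agent.MazurPrinciple.LevelRat
import Fermat.Agent.MazurPrinciple.RationalNorm
import Fermat.Agent.MazurPrinciple.LevelTwist

/-!
# Sections over the inertia field

Sections of multiples of the pole divisor of `j` lift from the glued fibre to functions over the
inertia field; these are regular at the supersingular points.
-/

set_option autoImplicit false
set_option linter.unusedSectionVars false
set_option maxHeartbeats 800000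

noncomputable section

namespace FermatAgent.RTLift.Sq

open Polynomial IsLocalRing AlgebraicCurve ModularCurve
open FermatAgent.MazurPrinciple
open FermatAgent.BadRed.Semistable FermatAgent.BadRed.Carayol FermatAgent.BadRed.Carayol.Instance
open FermatAgent.ModFun

local notation "ℚbar" => AlgebraicClosure ℚ
local notation "𝐅" N:max => laurentBaseChange ℚbar (modularFunctionFieldFull N)

section Pullback

variable {E F₁ K Eb : Type*} [Field E] [Field F₁] [Algebra E F₁] [Field K] [Field Eb] [Algebra K Eb]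
  (f : F₁ →+* Eb) (e : E →+* K) (hf : ∀ c, f (algebraMap E F₁ c) = algebraMap K Eb (e c))

include hf in
/-- Integrality over `K[f j]` descends to integrality over `E[j]` for algebraic constants. -/
theorem isIntegral_of_map (halg : ∀ c : K, ∃ p : E[X], p.Monic ∧ p.eval₂ e c = 0) {j l : F₁}
    (hl : IsIntegral (Algebra.adjoin K {f j}) (f l)) : IsIntegral (Algebra.adjoin E {j}) l := by
  let R := Algebra.adjoin E {j}
  let : Algebra R Eb := (f.comp (algebraMap R F₁)).toAlgebra
  have hK : ∀ c : K, IsIntegral R (algebraMap K Eb c) := fun c => by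
    obtain ⟨p, hp, hpc⟩ := halg c
    refine ⟨p.map (algebraMap E R), hp.map _, ?_⟩
    rw [eval₂_map]
    have h := congrArg (algebraMap K Eb) hpc
    rw [hom_eval₂, map_zero] at h
    rw [← h]
    exact eval₂_congr (RingHom.ext fun a => hf a) rfl rfl
  have hall : ∀ r : Algebra.adjoin K {f j}, IsIntegral R (r : Eb) := by
    rintro ⟨r, hr⟩
    refine Algebra.adjoin_induction (p := fun y _ => IsIntegral R y) ?_ hK
      (fun _ _ _ _ ha hb => ha.add hb) (fun _ _ _ _ ha hb => ha.mul hb) hr
    intro y hy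
    obtain rfl := Set.mem_singleton_iff.mp hy
    exact (isIntegral_algebraMap (R := R) (A := Eb) (x := ⟨j, Algebra.subset_adjoin rfl⟩))
  obtain ⟨p, hp, hpl⟩ := hl
  let inc : Algebra.adjoin K {f j} →+* integralClosure R Eb :=
    (Algebra.adjoin K {f j}).val.toRingHom.codRestrict (integralClosure R Eb).toSubring hall
  have hfl : IsIntegral R (f l) := isIntegral_trans (R := R) (A := integralClosure R Eb) _
    ⟨p.map inc, hp.map _, by rw [eval₂_map]; exact hpl⟩
  obtain ⟨P, hP, hPl⟩ := hfl
  refine ⟨P, hP, f.injective ?_⟩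
  rw [hom_eval₂, map_zero]
  exact hPl

end Pullback

attribute [local instance] ModCurveTorsion.isFunctionField1_laurent
attribute [local instance] MazurPrinciple.isAlgClosed_residue
attribute [local instance 10000] Short.algLevel Short.algRing Short.algFib Short.algBar

variable {q : ℕ} [Fact q.Prime] [NeZero q] {A : ValuationSubring ℚbar} (hA : A.LiesOverPrime q)
  {L : ℕ} [NeZero L] (hco : q.Coprime L)
  [Curve.IsFunctionField1 (IsLocalRing.ResidueField A) (FibField A L)]
  [Infinite (IsLocalRing.ResidueField A)]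
  (hqL : ¬ q ∣ L) [IsDiscreteValuationRing (inertiaRing A)]
  [IsAlgClosed (IsLocalRing.ResidueField (inertiaRing A))]

local notation "dd" => levelData q A hA hco

include hA in
theorem arch_natCast (δ : ℚbar) (hδ : δ ≠ 0) : ∃ R : ℕ, δ / ((q : A) : ℚbar) ^ R ∉ A := by
  obtain ⟨n, hn⟩ := residue_arch q A hA δ⁻¹ (q : A) (by
    rw [← map_natCast (inertiaIncl A)]; exact inertiaRes_natCast hA)
  refine ⟨n + 1, fun h => ?_⟩
  have h1 : ((q : A) : ℚbar)⁻¹ ∈ A := by
    have e : ((q : A) : ℚbar)⁻¹ =
        δ / ((q : A) : ℚbar) ^ (n + 1) * (δ⁻¹ * ((q : A) : ℚbar) ^ n) := by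
      have hq0 : ((q : A) : ℚbar) ≠ 0 := by
        push_cast; exact Nat.cast_ne_zero.mpr (Fact.out : q.Prime).ne_zero
      field_simp
      ring
    rw [e]; exact mul_mem h hn
  have h2 : A.valuation ((q : ℚbar)⁻¹) ≤ 1 := by
    push_cast at h1; exact (A.valuation_le_one_iff _).mpr h1
  rw [map_inv₀, inv_le_one₀ (zero_lt_iff.mpr (TW.natCast_val_ne_zero A Fact.out))] at h2
  exact absurd h2 (not_le.mpr hA)

variable {u : LevelField (inertiaField A) L}
  (D : ChartData (inertiaRing A) (tower (inertiaField A) L hqL) u)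
  (Cl : ChartLink (inertiaRing A) (tower (inertiaField A) L hqL) u (levelData q A hA hco))
  (hC : Cl.hom = levelHom A q L)

theorem fixed_of_mem_inertiaFun {x : 𝐅 (q * L)} (hx : x ∈ inertiaFun A (q * L)) :
    ∃ l, levelHom A q L l = x :=
  mem_range_levelHom fun σ hσ => hx σ ((IntermediateField.mem_fixingSubgroup_iff _ σ).mpr
    fun _ hc => mem_inertiaField.mp hc σ hσ)

include hC D in
theorem div_of_branch {G : Type*} [Field G] [Algebra (IsLocalRing.ResidueField A) G]
    [Curve.IsFunctionField1 (IsLocalRing.ResidueField A) G]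
    (g : GaussRed A (IsLocalRing.residue A) (𝐅 (q * L)) G)
    (hV : IsVertical (inertiaRing A) q ((tower (inertiaField A) L hqL).t u)
      (pullRing g (dd).residue_surjective Cl.hom))
    {x : 𝐅 (q * L)} (hx : x ∈ inertiaFun A (q * L)) (h : x ∈ g.integers)
    (h0 : g.red ⟨x, h⟩ = 0) : ∃ y ∈ g.integers, x = ((q : A) : ℚbar) • y := by
  obtain ⟨l, hl⟩ := fixed_of_mem_inertiaFun hx
  subst hl
  have hq := maximalIdeal_inertiaRing (Fact.out : q.Prime) hA
  have hq0 : (q : LevelField (inertiaField A) (L * q)) ≠ 0 := natCast_ne_zero₁ (T :=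
    tower (inertiaField A) L hqL) hq D
  have hmem : l / q ∈ pullRing g (dd).residue_surjective Cl.hom :=
    (disc₁ hq D hV).div_mem hV.q_mem hq0 (mem_nonunits_pullRing.mpr
      ⟨by rw [hC]; exact h, by rw [g.red_congr (RingHom.congr_fun hC l)]; exact h0⟩)
  refine ⟨Cl.hom (l / q), mem_pullRing.mp hmem, ?_⟩
  rw [Algebra.smul_def, hC, map_div₀, map_natCast]
  push_cast
  rw [mul_div_cancel₀]
  rw [← map_natCast (levelHom A q L)]
  exact (_root_.map_ne_zero _).mpr hq0

include hC D in
theorem rationalBase_inertia : RationalBase (dd) (inertiaFun A (q * L)) (q : A) where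
  unif_ne_zero := by push_cast; exact Nat.cast_ne_zero.mpr (Fact.out : q.Prime).ne_zero
  pi_unif := by rw [← map_natCast (inertiaIncl A)]; exact inertiaRes_natCast hA
  unif_mem := algebraMap_mem_fixedFun.mpr (by push_cast; exact natCast_mem _ q)
  arch := arch_natCast hA
  scalar c := by
    obtain ⟨a, ha, e⟩ := exists_lift_inertiaField Fact.out hA (IsLocalRing.residue A)
      IsLocalRing.residue_surjective c
    exact ⟨a, algebraMap_mem_fixedFun.mpr ha, e⟩
  div₁ _ hx h h0 := div_of_branch hA hco hqL D Cl hC (dd).g₁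
    (Cl.isVertical₁ (maximalIdeal_inertiaRing Fact.out hA)) hx h h0
  div₂ _ hx h h0 := div_of_branch hA hco hqL D Cl hC (dd).g₂
    (Cl.isVertical₂ (maximalIdeal_inertiaRing Fact.out hA)) hx h h0
  exists_int x _ := by
    obtain ⟨N₁, h₁⟩ := exists_pow_smul_mem (dd).g₁ (dd).residue_surjective (arch_natCast hA) x
    obtain ⟨N₂, h₂⟩ := exists_pow_smul_mem (dd).g₂ (dd).residue_surjective (arch_natCast hA) x
    exact ⟨max N₁ N₂, h₁ _ (le_max_left _ _), h₂ _ (le_max_right _ _)⟩

include hC D in
theorem exists_rational_lift : ∃ n₀ : ℕ, ∀ n, n₀ ≤ n → ∀ p ∈ (dd).C.glue n,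
    ∃ (l : LevelField (inertiaField A) (L * q)) (h : Cl.hom l ∈ (dd).int),
      (dd).red ⟨Cl.hom l, h⟩ = p ∧ Cl.hom l ∈ riemannRochSpace (n • (dd).D) := by
  refine ⟨(dd).N₀, fun n hn p hp => ?_⟩
  obtain ⟨f, hf, hfE, hfV, e⟩ := (rationalBase_inertia hA hco hqL D Cl hC).exists_lift hn
    (riemannRochSpace (n • (dd).D)) le_rfl (by
      refine rrSpace_le_span (S := inertiaField A) _ fun σ _ => ?_
      refine Finsupp.ext fun v => ?_
      have hj := ord_galN_smul σ v (jBar ℚbar (q * L))
      rw [galN_smul_jBar] at hj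
      rw [SemilinearAut.divisor_smul_apply]
      simp only [Finsupp.smul_apply, NodalDatum.D, levelData_z, poleDiv_apply]
      rw [← hj]) p (by
      rw [(dd).redImage_rrSpace (by unfold NodalDatum.N₀ at hn; omega)]; exact hp)
  obtain ⟨l, rfl⟩ := fixed_of_mem_inertiaFun hfE
  refine ⟨l, by rw [hC]; exact hf, Eq.trans ?_ e, by rw [hC]; exact hfV⟩
  exact (dd).red_congr (RingHom.congr_fun hC l) _

include hC in
theorem isIntegral_of_mem_rr {n : ℕ} {l : LevelField (inertiaField A) (L * q)}
    (hl : Cl.hom l ∈ riemannRochSpace (n • (dd).D)) :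
    IsIntegral (Algebra.adjoin (inertiaField A)
      {(tower (inertiaField A) L hqL).s (jBar (inertiaField A) L)}) l := by
  refine isIntegral_of_map (levelHom A q L) ((inertiaField A).val : inertiaField A →+* ℚbar)
    levelHom_algebraMap (fun c => ?_) ?_
  · obtain ⟨P, hP, hPc⟩ := ((AlgebraicClosure.isAlgebraic ℚ).isAlgebraic c).isIntegral
    refine ⟨P.map (algebraMap ℚ (inertiaField A)), hP.map _, ?_⟩
    rw [eval₂_map, ← hPc]
    exact eval₂_congr (RingHom.ext fun a => by simp) rfl rfl
  · rw [levelHom_s_jBar hqL, ← hC]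
    refine (Curve.isIntegral_adjoin_iff _ _).mpr fun v hv => ?_
    have hjv := hv _ rfl
    have h := hl v
    rw [Finsupp.smul_apply, NodalDatum.D, levelData_z, poleDiv_apply,
      max_eq_right (by have := (Curve.mem_iff_ord_nonneg' v).mp hjv; omega), smul_zero] at h
    exact mem_of_le_one (by simpa using h)

include hC in
theorem regularLift {m : ℕ} (hm : aeval u (∏ a ∈ D.cusps, (X - Polynomial.C a)) ^ m *
      jBar (inertiaField A) L ∈ chartRing (inertiaRing A) u) :
    RegularLift (maximalIdeal_inertiaRing (Fact.out : q.Prime) hA) D Cl := by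
  obtain ⟨n₀, hn₀⟩ := exists_rational_lift hA hco hqL D Cl hC
  refine ⟨n₀, fun n hn p hp => ?_⟩
  obtain ⟨l, hl, e, hrr⟩ := hn₀ n hn p hp
  exact ⟨l, hl, e, fun P _ hqP hss => loc_of_isIntegral _ D hqP Cl hss hm
    (isIntegral_of_mem_rr hA hco hqL Cl hC hrr) hl⟩

include hC in
theorem coordLoc {m : ℕ} (hm : aeval u (∏ a ∈ D.cusps, (X - Polynomial.C a)) ^ m *
      jBar (inertiaField A) L ∈ chartRing (inertiaRing A) u) :
    CoordLoc (maximalIdeal_inertiaRing (Fact.out : q.Prime) hA) D Cl := by
  have := charP_residue_place q A hA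
  set j := (tower (inertiaField A) L hqL).s (jBar (inertiaField A) L)
  obtain ⟨h1, e1⟩ := red₁_jBar hA hco hqL
  obtain ⟨ht, et⟩ := red₁_qExpand hA hco (coe_levelHom_t hqL (jBar (inertiaField A) L)) h1
  obtain ⟨h2, e2⟩ := levelData_red₂ hA hco (atkinLehner_levelHom_s hco hqL (jBar (inertiaField A) L)) ht
  have hz₁ : (dd).C.z₁ = jFib (IsLocalRing.ResidueField A) L :=
    level_twist_J hco (placeHom q A hA)
  have hz₂ : (dd).C.z₂ = jFib (IsLocalRing.ResidueField A) L ^ q :=
    congrArg (· ^ q) (level_twist_J hco (placeHom q A hA))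
  have hq' : (dd).g₁.red ⟨_, ht⟩ = jFib (IsLocalRing.ResidueField A) L ^ q := Subtype.ext (by
    rw [et, e1, SubmonoidClass.coe_pow, coe_jFib,
      ← coeffMap_jqModC (Int.castRingHom (IsLocalRing.ResidueField A)), pow_eq_qExpand q])
  refine ⟨j, by rw [hC]; exact h1, by rw [hC]; exact h2, ?_, ?_, fun P _ hqP hss => ?_⟩
  · rw [hz₁, ← e1]
    exact GaussRed.red_congr _ (RingHom.congr_fun hC j) _
  · rw [hz₂, ← hq', ← e2]
    exact GaussRed.red_congr _ (RingHom.congr_fun hC j) _
  · refine loc_of_isIntegral _ D hqP Cl hss hm ?_ ?_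
    · exact isIntegral_algebraMap (R := Algebra.adjoin (inertiaField A)
        {(tower (inertiaField A) L hqL).s (jBar (inertiaField A) L)})
        (A := LevelField (inertiaField A) (L * q)) (x := ⟨j, Algebra.subset_adjoin rfl⟩)
    · rw [hC]; exact ⟨h1, h2⟩

end FermatAgent.RTLift.Sq
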