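import Fermat.Agent.RTLift.Sq.ToricPlace
import Fermat.Agent.RTLift.Sq.Through
import Fermat.Agent.BadRed.Semistable.GluePoints

/-!
# Supersingular points and nodes

A supersingular point of level `Lq` is the image of one of level `Lq²`, both branches pass
through it, and every place of the first component centred at it is a node.
-/

set_option autoImplicit false
set_option linter.unusedSectionVars false

noncomputable section

namespace FermatAgent.RTLift.Sq

open Polynomial IsLocalRing AlgebraicCurve WithZero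
open FermatAgent.Curve FermatAgent.Curve.RR FermatAgent.BadRed.Semistable
open FermatAgent.BadRed.Carayol FermatAgent.MazurPrinciple

variable {q : ℕ} [Fact q.Prime] {W K F F₁ F₂ : Type*}
  [CommRing W] [IsDomain W] [IsDiscreteValuationRing W] [IsAlgClosed (IsLocalRing.ResidueField W)]
  [Field K] [CharZero K] [Algebra W K] [IsFractionRing W K]
  [Field F] [Field F₁] [Field F₂] [Algebra K F] [Algebra K F₁] [Algebra K F₂]
  [Algebra W F] [Algebra W F₁] [Algebra W F₂]
  [IsScalarTower W K F] [IsScalarTower W K F₁] [IsScalarTower W K F₂]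
  {T : QTower q K F F₁ F₂} {u : F}
  (hq : maximalIdeal W = Ideal.span {(q : W)}) (D : ChartData W T u)

/-- A supersingular point of the chart of level `Lq`. -/
def IsSS₁ {P : Ideal (chartRing W (T.t u))} [P.IsMaximal]
    (hqP : (q : chartRing W (T.t u)) ∈ P) : Prop :=
  D.IsSSVal hq (pval hq hqP (T.t u)) (pval hq hqP (T.s u))

section Over

variable {P : Ideal (chartRing W (T.t u))} [P.IsMaximal]
  {P' : Ideal (chartRing W (T.α (T.t u)))} [P'.IsMaximal]
  (hPP : ∀ z, z ∈ P → chartMap T.α z ∈ P')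
include hPP

theorem hloc_α (z : chartRing W (T.t u)) : Loc (T.α (T.t u)) P' (T.α z) :=
  chartRing_le_locRing P' (chartMap T.α z).2

theorem hmax_α (z : chartRing W (T.t u)) (hz : z ∈ P) : InMax P' (T.α z) :=
  inMax_of_mem (hPP z hz)

variable {hqP : (q : chartRing W (T.t u)) ∈ P} {hqP' : (q : chartRing W (T.α (T.t u))) ∈ P'}

/-- Values above and below agree. -/
theorem pval_α {y : F₁} (hy : Loc (T.t u) P y) :
    pval hq hqP' (T.α y) = pval hq hqP y :=
  pval_map (hqP := hqP) hq T.α (hloc_α hPP) (hmax_α hPP) hy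

include D in
theorem isSS₁_iff : IsSS₁ hq D hqP ↔ IsSSPt hq D hqP' := by
  rw [IsSS₁, IsSSPt, pval_α hq hPP (hqP := hqP) loc_self,
    pval_α hq hPP (hqP := hqP) (loc_root D D.root)]

include D in
/-- Both branches of level `Lq` pass through the image of a supersingular point. -/
theorem through_comap_α (hss : IsSSPt hq D hqP') (C : Comps W T u) :
    Through P (C.VI.comap T.α.toRingHom) ∧ Through P (C.V0.comap T.α.toRingHom) := by
  obtain ⟨hI, h0, -⟩ := ss_through hq D hqP' hss C
  exact ⟨through_comap T.α (hloc_α hPP) (hmax_α hPP) (fun w => C.vI.chartRing_le w.2) hI,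
    through_comap T.α (hloc_α hPP) (hmax_α hPP) (fun w => C.v0.chartRing_le w.2) h0⟩

end Over

include D in
/-- A supersingular point of level `Lq` lies under one of level `Lq²`. -/
theorem exists_ssPoint_over {P : Ideal (chartRing W (T.t u))} [P.IsMaximal]
    (hqP : (q : chartRing W (T.t u)) ∈ P) (hss : IsSS₁ hq D hqP) :
    ∃ x : SSPoint hq D, ∀ z, z ∈ P → chartMap T.α z ∈ x.P := by
  obtain ⟨P', hP', hqP', hPP, -⟩ := exists_point_over T.α hq P hqP
  have := hP'
  exact ⟨⟨P', hP', hqP', (isSS₁_iff hq D hPP).mp hss⟩, hPP⟩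

/-- The image of a supersingular point. -/
def SSPoint.base (x : SSPoint hq D) : Ideal (chartRing W (T.t u)) :=
  x.P.comap (chartMap T.α)

theorem SSPoint.base_isMaximal (x : SSPoint hq D) : (x.base hq D).IsMaximal := by
  let _ : Algebra (chartRing W (T.t u)) (chartRing W (T.α (T.t u))) :=
    (chartMap T.α).toAlgebra
  have : Algebra.IsIntegral (chartRing W (T.t u)) (chartRing W (T.α (T.t u))) :=
    Algebra.isIntegral_def.mpr (chartMap_isIntegral T.α)
  exact Ideal.isMaximal_comap_of_isIntegral_of_isMaximal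
    (R := chartRing W (T.t u)) x.P

theorem SSPoint.q_mem_base (x : SSPoint hq D) : (q : chartRing W (T.t u)) ∈ x.base hq D := by
  rw [SSPoint.base, Ideal.mem_comap, map_natCast]
  exact x.mem

theorem SSPoint.base_isSS₁ (x : SSPoint hq D) :
    haveI := x.base_isMaximal hq D
    IsSS₁ hq D (x.q_mem_base hq D) :=
  haveI := x.base_isMaximal hq D
  (isSS₁_iff hq D (P := x.base hq D) (fun _ h => h)).mpr x.ss

variable {L : Type*} [Field L] [IsAlgClosed L] {A : ValuationSubring L} {k : Type*} [Field k]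
  [IsAlgClosed k] {π : A →+* k} {E G₁ G₂ : Type*} [Field E] [Field G₁] [Field G₂]
  [Algebra L E] [Algebra k G₁] [Algebra k G₂] [IsFunctionField1 L E] [IsFunctionField1 k G₁]
  [IsFunctionField1 k G₂] [RRSetting L E] [RRSetting k G₁] [RRSetting k G₂]
variable {d : NodalDatum A π E G₁ G₂} (C : ChartLink W T u d)

include hq D in
/-- The first branch is the one of the components at zero and in the middle. -/
theorem V₁_eq (Cm : Comps W T u) : C.V₁ = Cm.V0.comap T.α.toRingHom :=
  oth_unique hq D (C.isVertical₁ hq) C.res₁ (Cm.v0.comap T.α)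
    ((res_comap_eq_pow_iff (σ := T.α.toRingHom) q Cm.v0.u_mem.mem
      (isVertical_x₁ hq D Cm.v0).u_mem.mem).mpr (zero_other hq D Cm.v0 Cm.zero))

include hq D in
/-- The second branch is the one of the component at infinity. -/
theorem V₂_eq (Cm : Comps W T u) : C.V₂ = Cm.VI.comap T.α.toRingHom := by
  obtain ⟨hv, hc⟩ := comap_inf hq D Cm
  exact can_unique hq D (C.isVertical₂ hq) C.res₂ hv hc

/-- Sections of high degree lift to functions regular at the supersingular points. -/
def RegularLift : Prop :=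
  ∃ n₀ : ℕ, ∀ n, n₀ ≤ n → ∀ p ∈ d.C.glue n, ∃ (l : F₁) (h : C.hom l ∈ d.int),
    d.red ⟨C.hom l, h⟩ = p ∧
      ∀ (P : Ideal (chartRing W (T.t u))) [P.IsMaximal] (hqP : (q : chartRing W (T.t u)) ∈ P),
        IsSS₁ hq D hqP → Loc (T.t u) P l

/-- The coordinates of the glued curve come from a function regular at the supersingular points. -/
def CoordLoc : Prop :=
  ∃ (j : F₁) (h₁ : C.hom j ∈ d.g₁.integers) (h₂ : C.hom j ∈ d.g₂.integers),
    d.g₁.red ⟨C.hom j, h₁⟩ = d.C.z₁ ∧ d.g₂.red ⟨C.hom j, h₂⟩ = d.C.z₂ ∧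
      ∀ (P : Ideal (chartRing W (T.t u))) [P.IsMaximal] (hqP : (q : chartRing W (T.t u)) ∈ P),
        IsSS₁ hq D hqP → Loc (T.t u) P j

include hq in
/-- Every place of the first component over a supersingular point is a node. -/
theorem exists_node_eq [Infinite k] (Cm : Comps W T u) (HL : RegularLift hq D C)
    (HJ : CoordLoc hq D C) {P : Ideal (chartRing W (T.t u))} [P.IsMaximal]
    (hqP : (q : chartRing W (T.t u)) ∈ P) (hss : IsSS₁ hq D hqP) {Q : Place k G₁}
    (HQ : Centred C d.g₁ P Q) : ∃ i, d.C.x i = Q := by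
  classical
  by_contra hne
  push Not at hne
  obtain ⟨x, hPP⟩ := exists_ssPoint_over hq D hqP hss
  have ht₂ : Through P C.V₂ := by
    rw [V₂_eq hq D C Cm]; exact (through_comap_α hq D hPP x.ss Cm).1
  obtain ⟨Q', HQ'⟩ := exists_centred (C := C) (g := d.g₂) hq hqP ht₂
    (fun z => (C.mem_int hq z.2).2) (by rw [C.red_t₂]; exact C.transc₂)
  obtain ⟨j, hj₁, hj₂, ej₁, ej₂, hjloc⟩ := HJ
  obtain ⟨cj, hcj⟩ := residue_surjective (pval hq hqP j)
  obtain ⟨_, hz₁, -⟩ := HQ.value_loc hq hqP (hjloc P hqP hss) hcj.symm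
  obtain ⟨_, hz₂, -⟩ := HQ'.value_loc hq hqP (hjloc P hqP hss) hcj.symm
  have hD₁ : d.C.D₁ Q = 0 := by
    rw [Glued.D₁, poleDiv_apply, ← ej₁]
    have := (mem_iff_ord_nonneg' _).mp (mem_of_le_one hz₁)
    omega
  have hD₂ : d.C.D₂ Q' = 0 := by
    rw [Glued.D₂, poleDiv_apply, ← ej₂]
    have := (mem_iff_ord_nonneg' _).mp (mem_of_le_one hz₂)
    omega
  obtain ⟨n₀, hn₀⟩ := HL
  set T₀ : Finset d.C.Pt := {d.C.toPt₂ Q'}
  obtain ⟨p, hp, -, -, hvan, hnvan⟩ := d.C.exists_separating (.left Q hne) T₀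
    (by simp only [T₀, Finset.mem_singleton]; exact (d.C.toPt₂_ne_left Q' Q hne).symm)
    (b := n₀ + (d.C.bound + Fintype.card d.C.ι + T₀.card + 2)) (Nat.le_add_left _ _)
  obtain ⟨l, hl, el, hlloc⟩ := hn₀ _ (Nat.le_add_right _ _) p hp
  obtain ⟨c, hc⟩ := residue_surjective (pval hq hqP l)
  obtain ⟨_, hl₁, e₁⟩ := HQ.value_loc hq hqP (hlloc P hqP hss) hc.symm
  obtain ⟨_, hl₂, e₂⟩ := HQ'.value_loc hq hqP (hlloc P hqP hss) hc.symm
  have hp₁ : d.g₁.red ⟨C.hom l, hl.1⟩ = p.1 := congrArg Prod.fst el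
  have hp₂ : d.g₂.red ⟨C.hom l, hl.2⟩ = p.2 := congrArg Prod.snd el
  rw [hp₁] at hl₁ e₁
  rw [hp₂] at hl₂ e₂
  have hv : Q.adicValuation p.1 < 1 := by
    simpa [Glued.Van, hD₁] using hvan
  rw [adicValuation_lt_one_iff hl₁, e₁] at hv
  have hnv := hnvan _ (Finset.mem_singleton_self _)
  refine absurd ((adicValuation_lt_one_iff hl₂).mpr (e₂.trans hv)) ?_
  by_cases hy : ∃ i, d.C.y i = Q'
  · obtain ⟨i, rfl⟩ := hy
    rw [d.C.toPt₂_y, d.C.van_node_iff hp] at hnv
    exact hnv
  · push Not at hy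
    rw [d.C.toPt₂_of_ne Q' hy] at hnv
    simpa [Glued.Van, hD₂] using hnv

end FermatAgent.RTLift.Sq
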