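import Fermat.Agent.RTLift.Sq.ToricFun
import Fermat.Agent.RTLift.Sq.Through
import Fermat.Agent.MazurPrinciple.Away.NodeFactor

/-!
# Pulling the ratios at the nodes back to the supersingular points

The three components of level `q²N` lie over the two components of level `qN`, and a supersingular
point is alone over its image; so functions with prescribed ratios at the nodes give functions
with prescribed ratios at the supersingular points.
-/

set_option autoImplicit false
set_option linter.unusedSectionVars false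

noncomputable section

namespace FermatAgent.RTLift.Sq

open Polynomial IsLocalRing AlgebraicCurve
open FermatAgent.Curve FermatAgent.Curve.RR FermatAgent.BadRed.Semistable
open FermatAgent.BadRed.Carayol FermatAgent.MazurPrinciple

section Generic

variable {q : ℕ} [Fact q.Prime] {W K F F₁ F₂ : Type*}
  [CommRing W] [IsDomain W] [IsDiscreteValuationRing W] [IsAlgClosed (IsLocalRing.ResidueField W)]
  [Field K] [CharZero K] [Algebra W K] [IsFractionRing W K]
  [Field F] [Field F₁] [Field F₂] [Algebra K F] [Algebra K F₁] [Algebra K F₂]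
  [Algebra W F] [Algebra W F₁] [Algebra W F₂]
  [IsScalarTower W K F] [IsScalarTower W K F₁] [IsScalarTower W K F₂]
  {T : QTower q K F F₁ F₂} {u : F}
variable {L : Type*} [Field L] [IsAlgClosed L] {A : ValuationSubring L} {k : Type*} [Field k]
  [IsAlgClosed k] {π : A →+* k} {E G₁ G₂ : Type*} [Field E] [Field G₁] [Field G₂]
  [Algebra L E] [Algebra k G₁] [Algebra k G₂] [IsFunctionField1 L E] [IsFunctionField1 k G₁]
  [IsFunctionField1 k G₂] [RRSetting L E] [RRSetting k G₁] [RRSetting k G₂] [Infinite k]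
variable {d : NodalDatum A π E G₁ G₂}
variable (C : ChartLink W T u d) (hq : maximalIdeal W = Ideal.span {(q : W)})
  (D : ChartData W T u)
include hq D

/-- The components of level `q²N` over those of level `qN`. -/
theorem comps_comap (Cp : Comps W T u) :
    Cp.VI.comap T.α.toRingHom = C.V₂ ∧ Cp.V0.comap T.α.toRingHom = C.V₁ ∧
      Cp.Vm.comap T.α.toRingHom = C.V₁ := by
  have hoth : ∀ {V : ValuationSubring F₂}, IsVertical W q (T.α (T.t u)) V →
      res V (T.α (T.t u)) = res V (T.α (T.s u)) ^ q → V.comap T.α.toRingHom = C.V₁ := by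
    intro V hV h
    have h' : res (V.comap T.α.toRingHom) (T.t u) = res (V.comap T.α.toRingHom) (T.s u) ^ q :=
      (res_comap_eq_pow_iff (σ := T.α.toRingHom) q hV.u_mem.mem
        (isVertical_x₁ hq D hV).u_mem.mem).mpr h
    exact (Away.vertical_eq C hq D (hV.comap T.α)).resolve_right fun e =>
      level1_not_both hq D (C.isVertical₂ hq) C.res₂ (e ▸ h')
  obtain ⟨hI, hI'⟩ := comap_inf hq D Cp
  exact ⟨(Away.vertical_eq C hq D hI).resolve_left fun e =>
      level1_not_both hq D (C.isVertical₁ hq) (e ▸ hI') C.res₁,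
    hoth Cp.v0 (zero_other hq D Cp.v0 Cp.zero), hoth Cp.vm Cp.mid.1⟩

omit D in
theorem loc_chartMap {P : Ideal (chartRing W (T.α (T.t u)))} [P.IsMaximal]
    (x : chartRing W (T.t u)) : Loc (T.α (T.t u)) P (T.α x) :=
  chartRing_le_locRing P (chartMap T.α x).2

/-- The point under a supersingular point determines it. -/
theorem eq_of_comap_eq {x y : SSPoint hq D}
    (h : x.P.comap (chartMap T.α) = y.P.comap (chartMap T.α))
    (hmax : (x.P.comap (chartMap T.α)).IsMaximal) : x = y := by
  have hqP : (q : chartRing W (T.t u)) ∈ x.P.comap (chartMap T.α) := by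
    rw [Ideal.mem_comap, map_natCast]; exact x.mem
  have key : ∀ z : F₁, z ∈ chartRing W (T.t u) →
      pval hq y.mem (T.α z) = pval hq x.mem (T.α z) := fun z hz => by
    rw [pval_map hq T.α (fun w => loc_chartMap hq w) (fun w hw => inMax_of_mem (x := chartMap T.α w)
        (h ▸ hw : w ∈ y.P.comap (chartMap T.α))) (chartRing_le_locRing _ hz) (hqP := hqP),
      pval_map hq T.α (fun w => loc_chartMap hq w)
        (fun w hw => inMax_of_mem (x := chartMap T.α w) hw) (chartRing_le_locRing _ hz) (hqP := hqP)]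
  have hP : y.P = x.P := eq_of_pval_eq hq D x.mem x.ss y.mem key
  cases x; cases y
  subst hP
  rfl

/-- Functions with prescribed ratios at the nodes give them at the supersingular points. -/
theorem exists_roots_of_node (Cp : Comps W T u) (node : SSPoint hq D → d.C.ι)
    (hnode : ∀ x, C.point hq (node x) = x.P.comap (chartMap T.α)) {n : ℕ}
    (hN : ∀ c : d.C.ι → k, (∀ i, c i ^ n = 1) →
      ∃ g : F₁, g ≠ 0 ∧ DivisibleOn K g n ∧ ∃ h₁ h₂ : F₁,
        IsRootOn C.V₁ n g h₁ ∧ IsRootOn C.V₂ n g h₂ ∧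
        ∃ r : IsLocalRing.ResidueField W, r ≠ 0 ∧ ∀ (i : d.C.ι) (w : W), π (C.κ w) = c i →
          haveI := C.point_isMaximal hq i
          RatioAt hq (C.point hq i) (C.q_mem_point hq i) C.V₂ C.V₁ n g h₂ h₁ (r * residue W w))
    (c : SSPoint hq D → IsLocalRing.ResidueField W) (hc : ∀ x, c x ^ n = 1) :
    ∃ g : F₁, g ≠ 0 ∧ DivisibleOn K g n ∧ ∃ (R : Roots Cp n (T.α g))
      (r : IsLocalRing.ResidueField W), r ≠ 0 ∧
      ∀ x : SSPoint hq D, x.Ratio Cp.VI Cp.V0 n (T.α g) R.hI R.h₀ (r * c x) := by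
  classical
  have hinj : Function.Injective node := fun x y h => by
    refine eq_of_comap_eq hq D ((hnode x).symm.trans ((congrArg _ h).trans (hnode y))) ?_
    rw [← hnode x]
    exact C.point_isMaximal hq _
  choose w hw using fun x => residue_surjective (c x)
  let c' : d.C.ι → k := fun i => if h : ∃ x, node x = i then π (C.κ (w h.choose)) else 1
  have hc' : ∀ x, c' (node x) = π (C.κ (w x)) := fun x => by
    have h : ∃ y, node y = node x := ⟨x, rfl⟩
    simp only [c', dif_pos h]
    rw [hinj h.choose_spec]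
  have hc'n : ∀ i, c' i ^ n = 1 := fun i => by
    by_cases h : ∃ x, node x = i
    · obtain ⟨x, rfl⟩ := h
      rw [hc', ← map_pow, ← map_pow, ← sub_eq_zero, ← map_one (π.comp C.κ), RingHom.comp_apply,
        ← map_sub, ← map_sub, C.pi_κ_eq_zero_iff hq, map_sub, map_pow, hw, hc, map_one, sub_self]
    · simp only [c', dif_neg h, one_pow]
  obtain ⟨g, hg, hdiv, h₁, h₂, r₁, r₂, r, hr, hrat⟩ := hN c' hc'n
  obtain ⟨eI, e0, em⟩ := comps_comap C hq D Cp
  refine ⟨g, hg, hdiv, ⟨T.α h₂, T.α h₁, T.α h₁, ?_, ?_, ?_⟩, r, hr, fun x => ?_⟩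
  · exact (isRootOn_comap_iff (σ := T.α.toRingHom)).mp (eI ▸ r₂)
  · exact (isRootOn_comap_iff (σ := T.α.toRingHom)).mp (e0 ▸ r₁)
  · exact (isRootOn_comap_iff (σ := T.α.toRingHom)).mp (em ▸ r₁)
  have := C.point_isMaximal hq (node x)
  have H := hrat (node x) (w x) (hc' x).symm
  rw [hw, ← eI, ← e0] at H
  obtain ⟨hI, h0, -⟩ := ss_through hq D x.mem x.ss Cp
  exact RatioAt.map hq T.α (fun z => loc_chartMap hq z)
    (fun z hz => inMax_of_mem (x := chartMap T.α z) (by rwa [hnode] at hz : z ∈ x.P.comap _))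
    (fun z => Cp.vI.chartRing_le z.2) (fun z => Cp.v0.chartRing_le z.2) hI h0 H

end Generic

end FermatAgent.RTLift.Sq
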