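import Fermat.Agent.RTLift.Sq.Final
import Fermat.Agent.RTLift.Sq.ToricPull
import Fermat.Agent.RTLift.Sq.ToricLift
import Fermat.Agent.RTLift.Sq.ToricNodes

/-!
# The toric input at `place₀ q`

Each supersingular point of level `Lq²` lies over a node of level `Lq`, and every tuple of roots
of unity at the nodes is a tuple of ratios of a function of level `Lq`.
-/

set_option autoImplicit false
set_option maxHeartbeats 1600000

noncomputable section

namespace FermatAgent.RTLift.Sq

open Polynomial IsLocalRing AlgebraicCurve ModularCurve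
open FermatAgent.Curve FermatAgent.Curve.RR
open FermatAgent.MazurPrinciple
open FermatAgent.BadRed.Semistable FermatAgent.BadRed.Carayol FermatAgent.BadRed.Carayol.Instance

attribute [local instance] neZero_prime charZero_of_algebraRat
  ModCurveTorsion.isFunctionField1_laurent MazurPrinciple.isAlgClosed_residue isAlgClosed_kRes
  charP_kRes
attribute [local instance 10000] Short.algLevel Short.algRing Short.algFib Short.algBar

section Node

variable {q : ℕ} [Fact q.Prime] {W K F F₁ F₂ : Type*}
  [CommRing W] [IsDomain W] [IsDiscreteValuationRing W] [IsAlgClosed (IsLocalRing.ResidueField W)]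
  [Field K] [CharZero K] [Algebra W K] [IsFractionRing W K]
  [Field F] [Field F₁] [Field F₂] [Algebra K F] [Algebra K F₁] [Algebra K F₂]
  [Algebra W F] [Algebra W F₁] [Algebra W F₂]
  [IsScalarTower W K F] [IsScalarTower W K F₁] [IsScalarTower W K F₂]
  {T : QTower q K F F₁ F₂} {u : F}
variable {L : Type*} [Field L] [IsAlgClosed L] {A : ValuationSubring L} {k : Type*} [Field k]
  [IsAlgClosed k] {π : A →+* k} {E G₁ G₂ : Type*} [Field E] [Field G₁] [Field G₂]
  [Algebra L E] [Algebra k G₁] [Algebra k G₂] [IsFunctionField1 L E] [IsFunctionField1 k G₁]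
  [IsFunctionField1 k G₂] [RRSetting L E] [RRSetting k G₁] [RRSetting k G₂] [Infinite k]
variable {d : NodalDatum A π E G₁ G₂}

/-- The node under a supersingular point. -/
theorem exists_node_under (hq : maximalIdeal W = Ideal.span {(q : W)}) (D : ChartData W T u)
    (C : ChartLink W T u d) (Cm : Comps W T u) (HL : RegularLift hq D C) (HJ : CoordLoc hq D C)
    (x : SSPoint hq D) : ∃ i : d.C.ι, C.point hq i = x.P.comap (chartMap T.α) := by
  have := x.base_isMaximal hq D
  have hss := x.base_isSS₁ hq D
  have hqP := x.q_mem_base hq D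
  have ht₁ : Through (x.base hq D) C.V₁ := by
    rw [V₁_eq hq D C Cm]
    exact (through_comap_α hq D (fun _ h => h) x.ss Cm).2
  obtain ⟨Q, HQ⟩ := exists_centred (C := C) (g := d.g₁) hq hqP ht₁
    (fun z => (C.mem_int hq z.2).1) (by
      rw [C.red_t₁]
      exact fun h => C.transc₁ (IsAlgebraic.of_pow (Fact.out : q.Prime).pos h))
  obtain ⟨i, rfl⟩ := exists_node_eq hq D C Cm HL HJ hqP hss HQ
  refine ⟨i, ((x.base_isMaximal hq D).eq_of_le (C.point_isMaximal hq i).ne_top fun z hz => ?_).symm⟩
  obtain ⟨_, -, h0⟩ := HQ z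
  exact h0 hz

end Node

/-- **The toric input.** -/
theorem toricRootsInput_place₀ (q : ℕ) [Fact q.Prime] [NeZero q]
    [IsDiscreteValuationRing (inertiaRing (place₀ q))] :
    ToricRootsInput q (place₀ q) (liesOverPrime_place₀ q) := by
  have := isAlgClosed_residue_inertiaRing (Fact.out : q.Prime) (liesOverPrime_place₀ q)
  intro L _ hqL _ u D C p hp hpq hu _ hm _ hs c hc
  have hco : q.Coprime L := (Nat.Prime.coprime_iff_not_dvd Fact.out).mpr hqL
  have : NeZero (q * L) := ⟨mul_ne_zero (NeZero.ne q) (NeZero.ne L)⟩
  have : IsFunctionField1 (KRes q) (modularFunctionFieldFullC (KRes q) L) :=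
    isFunctionField1_kFib q L hco
  have : Infinite (KRes q) := IsAlgClosed.instInfinite
  have : IsFunctionField1 (ResidueField (place₀ q)) (FibField (place₀ q) L) :=
    isFunctionField1_fib q (place₀ q) (liesOverPrime_place₀ q) hco
  obtain ⟨s, hs, hs1, hus⟩ := hs
  obtain ⟨m, hm⟩ := hm
  set Cl := toricLink (liesOverPrime_place₀ q) hco hqL hu hs hs1 hus D
  have hC : Cl.hom = levelHom (place₀ q) q L := toricLink_hom _ _ _ _ _ _ _ _
  choose node hnode using exists_node_under _ D Cl C
    (regularLift (liesOverPrime_place₀ q) hco hqL D Cl hC hm)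
    (coordLoc (liesOverPrime_place₀ q) hco hqL D Cl hC hm)
  exact exists_roots_of_node Cl _ D C node hnode
    (fun c' hc' => exists_ratio_function hco hqL Cl D hC hp hpq c' hc') c hc

/-- **Lowering the level to a squarefree one.** -/
theorem sqLoweringStep : Finish.SqLoweringStep :=
  sqLoweringStep_of_toric fun q _ _ _ _ => toricRootsInput_place₀ q

end FermatAgent.RTLift.Sq
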