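import Fermat.Agent.RTLift.Sq.ToricSeries

/-!
# The chart of level `Lq` inside the nodal datum

The chart coordinate `u` of level `L` gives `u(τ)`, `u(qτ)` at level `Lq`; their reductions on the
two components are `(U, U ^ q)` and `(U ^ q, U)` for a transcendental `U`.
-/

set_option autoImplicit false
set_option linter.unusedSectionVars false

noncomputable section

namespace FermatAgent.RTLift.Sq

open Polynomial IsLocalRing AlgebraicCurve ModularCurve
open FermatAgent.MazurPrinciple
open FermatAgent.BadRed.Semistable FermatAgent.BadRed.Carayol FermatAgent.BadRed.Carayol.Instance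
open FermatAgent.ModFun (jBar coe_jBar)
open FermatAgent.ModFun

local notation "ℚbar" => AlgebraicClosure ℚ
local notation "𝐅" N:max => laurentBaseChange ℚbar (modularFunctionFieldFull N)

attribute [local instance] ModCurveTorsion.isFunctionField1_laurent
attribute [local instance] MazurPrinciple.isAlgClosed_residue
attribute [local instance 10000] Short.algLevel Short.algRing Short.algFib Short.algBar

variable {q : ℕ} [Fact q.Prime] [NeZero q] {A : ValuationSubring ℚbar} (hA : A.LiesOverPrime q)
  {L : ℕ} [NeZero L] (hco : q.Coprime L)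
  [Curve.IsFunctionField1 (IsLocalRing.ResidueField A) (FibField A L)]

local notation "dd" => levelData q A hA hco

/-- Expansion in `qτ` keeps the integers and expands the reduction. -/
theorem red₁_qExpand {x y : 𝐅 (q * L)}
    (hxy : (y : LaurentSeries ℚbar) = qExpand ℚbar q (x : LaurentSeries ℚbar))
    (hx : x ∈ (dd).g₁.integers) :
    ∃ hy : y ∈ (dd).g₁.integers, (((dd).g₁.red ⟨y, hy⟩ : FibField A L) : LaurentSeries (IsLocalRing.ResidueField A)) =
      qExpand (IsLocalRing.ResidueField A) q (((dd).g₁.red ⟨x, hx⟩ : FibField A L) : LaurentSeries (IsLocalRing.ResidueField A)) := by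
  have := charP_residue_place q A hA
  obtain ⟨y₀, z₀, hz₀, hrep⟩ := (show (x : LaurentSeries ℚbar) ∈
    seriesInt A (residue A) from hx)
  have hrep' : IsSeriesRep A (residue A) (y : LaurentSeries ℚbar) (qExpand A q y₀)
      (qExpand A q z₀) := by
    refine ⟨?_, ?_⟩
    · rw [coeffMap_comm_qExpand]
      exact fun h => hz₀ (qExpand_injective (N := q) (by rw [h, map_zero]))
    · rw [hxy, coeffMap_comm_qExpand, coeffMap_comm_qExpand, ← map_mul, hrep]
  obtain ⟨hy, ey⟩ := seriesGauss_red_of_rep (q := q) (M := q * L)
    (IsLocalRing.residue_surjective (R := A)) hrep'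
  obtain ⟨hx', ex⟩ := seriesGauss_red_of_rep (q := q) (M := q * L)
    (IsLocalRing.residue_surjective (R := A)) (show IsSeriesRep A (residue A) _ y₀ z₀ from ⟨hz₀, hrep⟩)
  refine ⟨hy, ?_⟩
  show (seriesGauss q (q * L) _).red ⟨y, hy⟩ =
    qExpand (IsLocalRing.ResidueField A) q ((seriesGauss q (q * L) _).red ⟨x, hx'⟩)
  rw [ey, ex, map_div₀, coeffMap_comm_qExpand, coeffMap_comm_qExpand]

variable (hqL : ¬ q ∣ L) [IsDiscreteValuationRing (inertiaRing A)]


theorem coe_levelHom_t (x : LevelField (inertiaField A) L) :
    ((levelHom A q L) ((tower (inertiaField A) L hqL).t x) : LaurentSeries ℚbar) = qExpand ℚbar q ((levelHom A q L) ((tower (inertiaField A) L hqL).s x) : LaurentSeries ℚbar) := by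
  show ((levelHom A q L) (heckeBetaBar (inertiaField A) L q x) : LaurentSeries ℚbar) =
    qExpand ℚbar q ((levelHom A q L) (heckeAlphaBar (inertiaField A) L q x) : LaurentSeries ℚbar)
  rw [coe_levelHom, coe_levelHom, coe_heckeBetaBar, coe_heckeAlphaBar, coeffMap_comm_qExpand]

theorem levelHom_s_jBar : (levelHom A q L) ((tower (inertiaField A) L hqL).s (jBar (inertiaField A) L)) = jBar ℚbar (q * L) := Subtype.ext (by
  show ((levelHom A q L) (heckeAlphaBar (inertiaField A) L q _) : LaurentSeries ℚbar) = _
  rw [coe_levelHom, coe_heckeAlphaBar, coe_jBar, coe_jBar, coeffMap_jqModC])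

set_option quotPrecheck false in
local notation "ρ₁" => pullRed (dd).g₁ (dd).residue_surjective (levelHom A q L)
set_option quotPrecheck false in
local notation "V₀₁" => pullRing (dd).g₁ (dd).residue_surjective (levelHom A q L)

theorem levelHom_const (w : inertiaRing A) :
    levelHom A q L (algebraMap (inertiaRing A) (LevelField (inertiaField A) (L * q)) w) =
      algebraMap ℚbar (𝐅 (q * L)) (inertiaIncl A w : ℚbar) :=
  levelHom_algebraMap (p := q) (N' := L) (w : inertiaField A)

theorem red₁_jBar :
    ∃ h : levelHom A q L ((tower (inertiaField A) L hqL).s (jBar (inertiaField A) L)) ∈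
        (dd).g₁.integers,
      (dd).g₁.red ⟨_, h⟩ = jFib (IsLocalRing.ResidueField A) L := by
  obtain ⟨h, e⟩ := levelData_red₁ hA hco (x := jBar ℚbar (q * L)) (jqModC ℤ)
    (by rw [coeffMap_jqModC, coe_jBar])
  rw [levelHom_s_jBar hqL]
  exact ⟨h, Subtype.ext (by rw [e, coeffMap_jqModC, coe_jFib])⟩

variable {u : LevelField (inertiaField A) L}
  (hu : u ∈ chartRing (inertiaRing A) (jBar (inertiaField A) L))

include hu in
theorem s_mem_first :
    levelHom A q L ((tower (inertiaField A) L hqL).s u) ∈ (dd).g₁.integers :=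
  mem_pullRing.mp (chartRing_mem_of_mem
    (map_mem_chartRing (tower (inertiaField A) L hqL).s hu) V₀₁
    (algebraMap_mem_pullRing _ _ _ (inertiaIncl A) levelHom_const)
    (mem_pullRing.mpr (red₁_jBar hA hco hqL).choose))

include hu in
theorem t_mem_first :
    levelHom A q L ((tower (inertiaField A) L hqL).t u) ∈ (dd).g₁.integers :=
  (red₁_qExpand hA hco (coe_levelHom_t hqL u) (s_mem_first hA hco hqL hu)).choose

/-- The reduction of `u(τ)`. -/
def uRed : FibField A L := (dd).g₁.red ⟨_, s_mem_first hA hco hqL hu⟩

theorem coe_red_t :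
    (((dd).g₁.red ⟨_, t_mem_first hA hco hqL hu⟩ : FibField A L) :
        LaurentSeries (IsLocalRing.ResidueField A)) =
      qExpand (IsLocalRing.ResidueField A) q
        (uRed hA hco hqL hu : LaurentSeries (IsLocalRing.ResidueField A)) :=
  (red₁_qExpand hA hco (coe_levelHom_t hqL u) (s_mem_first hA hco hqL hu)).choose_spec

variable {s : LaurentSeries ℤ} (hs : Instance.PoleLE 1 s) (hs1 : s.coeff (-1) = 1)
  (hus : (u : LaurentSeries (inertiaField A)) =
    coeffMap (Int.castRingHom (inertiaField A)) s)
  (D : ChartData (inertiaRing A) (tower (inertiaField A) L hqL) u)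

include hus in
theorem coe_uRed : (uRed hA hco hqL hu : LaurentSeries (IsLocalRing.ResidueField A)) =
    coeffMap (Int.castRingHom (IsLocalRing.ResidueField A)) s := by
  obtain ⟨h, e⟩ := levelData_red₁ hA hco
    (x := levelHom A q L ((tower (inertiaField A) L hqL).s u)) s (by
      show (levelHom A q L (heckeAlphaBar (inertiaField A) L q u) : LaurentSeries ℚbar) = _
      rw [coe_levelHom, coe_heckeAlphaBar, hus, coeffMap_coeffMap]
      exact coeffMap_congr (RingHom.ext_int _ _) _)
  exact e

include hs hs1 hus in
/-- The reduction of `u(τ)` is transcendental. -/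
theorem transcendental_uRed :
    Transcendental (IsLocalRing.ResidueField A) (uRed hA hco hqL hu) := by
  rintro ⟨P, hP, h⟩
  refine hP (eq_zero_of_aeval_pole Nat.one_pos (by simpa using hs.coeffMap _)
    (x := coeffMap (Int.castRingHom (IsLocalRing.ResidueField A)) s)
    (by simp [hs1]) ?_)
  rw [← coe_uRed hA hco hqL hu hus]
  have h' := congrArg (FibField A L).val h
  rwa [← aeval_algHom_apply, map_zero] at h'

include hs hs1 hus D in
/-- The Kronecker congruence picks the branch. -/
theorem red_t_eq_pow : (dd).g₁.red ⟨_, t_mem_first hA hco hqL hu⟩ = uRed hA hco hqL hu ^ q := by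
  have h := kronecker_map (IsLocalRing.residue (inertiaRing A))
    ((algebraMap (IsLocalRing.ResidueField A) (FibField A L)).comp
      (residueEquiv (Fact.out : q.Prime) hA).toRingHom) V₀₁ ρ₁
    (algebraMap_mem_pullRing _ _ _ (inertiaIncl A) levelHom_const)
    (fun w => by
      rw [pullRed_const _ _ _ (inertiaIncl A) levelHom_const]; rfl) D.Φ D.kronecker
    (mem_pullRing.mpr (s_mem_first hA hco hqL hu)) (mem_pullRing.mpr (t_mem_first hA hco hqL hu))
    D.root
  rw [pullRed_apply, pullRed_apply] at h
  rcases mul_eq_zero.mp h with h | h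
  · exfalso
    have hfix : (uRed hA hco hqL hu : LaurentSeries (IsLocalRing.ResidueField A)) =
        qExpand (IsLocalRing.ResidueField A) q
          (uRed hA hco hqL hu : LaurentSeries (IsLocalRing.ResidueField A)) ^ q := by
      rw [← coe_red_t hA hco hqL hu, ← SubmonoidClass.coe_pow]
      exact congrArg Subtype.val (sub_eq_zero.mp h)
    refine transcendental_uRed hA hco hqL hu hs hs1 hus ?_
    have : uRed hA hco hqL hu = algebraMap (IsLocalRing.ResidueField A) (FibField A L)
        ((uRed hA hco hqL hu : LaurentSeries (IsLocalRing.ResidueField A)).coeff 0) := Subtype.ext (by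
      rw [IntermediateField.coe_algebraMap_apply, algebraMap_laurentSeries_eq_single,
        ← HahnSeries.C_apply]
      exact eq_C_of_eq_qExpand_pow (Fact.out : q.Prime).one_lt hfix)
    rw [this]
    exact isAlgebraic_algebraMap _
  · exact (sub_eq_zero.mp h).symm

theorem atkinLehner_levelHom_s (x : LevelField (inertiaField A) L) :
    atkinLehnerBar hco ℚbar (levelHom A q L ((tower (inertiaField A) L hqL).s x)) =
      levelHom A q L ((tower (inertiaField A) L hqL).t x) := by
  rw [← levelHom_swapQ hco]
  exact congrArg (levelHom A q L) (AlgHom.congr_fun (swapQ_comp_alpha (inertiaField A) L hco) x)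

theorem atkinLehner_levelHom_t (x : LevelField (inertiaField A) L) :
    atkinLehnerBar hco ℚbar (levelHom A q L ((tower (inertiaField A) L hqL).t x)) =
      levelHom A q L ((tower (inertiaField A) L hqL).s x) := by
  rw [← levelHom_swapQ hco]
  exact congrArg (levelHom A q L) (AlgHom.congr_fun (swapQ_comp_beta (inertiaField A) L hco) x)

theorem levelHom_t_jBar :
    levelHom A q L ((tower (inertiaField A) L hqL).t (jBar (inertiaField A) L)) =
      upBeta (p := q) (jBar ℚbar L) := Subtype.ext (by
  rw [coe_levelHom_t hqL, levelHom_s_jBar hqL, coe_jBar, coe_upBeta, coe_jBar])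

include hu hco in
theorem mem_place_of_chart {z : LevelField (inertiaField A) (L * q)}
    (hz : z ∈ chartRing (inertiaRing A) ((tower (inertiaField A) L hqL).t u))
    (v : Place ℚbar (𝐅 (q * L))) (hjv : jBar ℚbar (q * L) ∈ v.toValuationSubring) :
    levelHom A q L z ∈ v.toValuationSubring := by
  have hc : ∀ w : inertiaRing A, algebraMap (inertiaRing A) _ w ∈
      v.toValuationSubring.comap (levelHom A q L) := fun w => by
    rw [ValuationSubring.mem_comap, levelHom_const]
    exact v.algebraMap_mem' _
  refine ValuationSubring.mem_comap.mp (chartRing_mem_of_mem hz _ hc (chartRing_mem_of_mem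
    (map_mem_chartRing (tower (inertiaField A) L hqL).t hu) _ hc ?_))
  rw [ValuationSubring.mem_comap, levelHom_t_jBar hqL]
  exact (upBeta_jBar_mem_iff hco v).mpr hjv

include hu hs hs1 hus D in
/-- The chart of level `Lq` inside the nodal datum. -/
def toricLink : ChartLink (inertiaRing A) (tower (inertiaField A) L hqL) u (dd) where
  hom := levelHom A q L
  κ := inertiaIncl A
  commutes := levelHom_const
  pi_q := inertiaRes_natCast hA
  surjective := inertiaRes_surjective Fact.out hA
  U₁ := uRed hA hco hqL hu
  transc₁ := transcendental_uRed hA hco hqL hu hs hs1 hus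
  U₂ := uRed hA hco hqL hu
  transc₂ := transcendental_uRed hA hco hqL hu hs hs1 hus
  s_mem₁ := s_mem_first hA hco hqL hu
  t_mem₁ := t_mem_first hA hco hqL hu
  red_s₁ := rfl
  red_t₁ := red_t_eq_pow hA hco hqL hu hs hs1 hus D
  s_mem₂ :=
    (levelData_red₂ hA hco (atkinLehner_levelHom_s hco hqL u) (t_mem_first hA hco hqL hu)).choose
  t_mem₂ :=
    (levelData_red₂ hA hco (atkinLehner_levelHom_t hco hqL u) (s_mem_first hA hco hqL hu)).choose
  red_t₂ := (levelData_red₂ hA hco (atkinLehner_levelHom_t hco hqL u)
    (s_mem_first hA hco hqL hu)).choose_spec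
  red_s₂ := (levelData_red₂ hA hco (atkinLehner_levelHom_s hco hqL u)
    (t_mem_first hA hco hqL hu)).choose_spec.trans (red_t_eq_pow hA hco hqL hu hs hs1 hus D)
  poles _ hz := exists_mem_rr fun v hjv => mem_place_of_chart hco hqL hu hz v hjv

theorem toricLink_hom : (toricLink hA hco hqL hu hs hs1 hus D).hom = levelHom A q L := rfl

end FermatAgent.RTLift.Sq
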