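import Fermat.Agent.MazurPrinciple.Away.SwapLevel
import Fermat.Agent.MazurPrinciple.LevelLink
import Fermat.Agent.MazurPrinciple.Contraction

/-!
# The reductions over `ℚbar` and over `ℂ` agree

An integral function over `ℚbar` stays integral over `ℂ` with the same reduction, on both
components.
-/

set_option autoImplicit false
set_option maxHeartbeats 800000

noncomputable section

namespace FermatAgent.RTLift.Sq

open ModularCurve AlgebraicCurve
open FermatAgent.Curve FermatAgent.Curve.RR FermatAgent.BadRed.Semistable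
open FermatAgent.ModCurveTorsion FermatAgent.MazurPrinciple
open FermatAgent.ModCurve.Points (FieldC)
open FermatAgent.ModFun

local notation "ℚbar" => AlgebraicClosure ℚ

attribute [local instance] neZero_prime charZero_of_algebraRat isFunctionField1_laurent
  isAlgClosed_kRes charP_kRes
attribute [local instance] qbarAlgebraC qbarAlgebraFieldC fieldBarAlgebraC
  qbar_isScalarTower_const qbar_isScalarTower_ext qbar_isConstantExtension

variable {q : ℕ} [Fact q.Prime] {N : ℕ} [NeZero N] (hco : q.Coprime N) [NeZero (q * N)]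
  [IsFunctionField1 (KRes q) (modularFunctionFieldFullC (KRes q) N)]

local notation "dQ" => levelData q (place₀ q) (liesOverPrime_place₀ q) hco
local notation "dC" => torusDatum q N hco

theorem torus_red₁ {x : FieldBar (q * N)} (h : x ∈ (dQ).g₁.integers) :
    ∃ h' : algebraMap (FieldBar (q * N)) (FieldC (q * N)) x ∈ (dC).g₁.integers,
      (dC).g₁.red ⟨_, h'⟩ = (dQ).g₁.red ⟨x, h⟩ := by
  have := charP_residue_place q (place₀ q) (liesOverPrime_place₀ q)
  obtain ⟨y, z, hz, hrep⟩ := (show (x : LaurentSeries ℚbar) ∈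
    seriesInt (place₀ q) (IsLocalRing.residue (place₀ q)) from h)
  obtain ⟨_, e⟩ := seriesGauss_red_of_rep (q := q) (M := q * N)
    (IsLocalRing.residue_surjective (R := place₀ q))
    (show IsSeriesRep (place₀ q) (IsLocalRing.residue _) (x : LaurentSeries ℚbar) y z from
      ⟨hz, hrep⟩)
  have hc : ∀ w : LaurentSeries (place₀ q), coeffMap (residueC q) (coeffMap (inclInt q) w) =
      coeffMap (IsLocalRing.residue (place₀ q)) w := fun w => by
    rw [coeffMap_coeffMap]
    exact coeffMap_congr (RingHom.ext (residueC_inclInt q)) w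
  have hs : ∀ w : LaurentSeries (place₀ q), coeffMap (intC q).subtype (coeffMap (inclInt q) w) =
      coeffMap (algebraMap ℚbar ℂ) (coeffMap (place₀ q).subtype w) := fun w => by
    rw [coeffMap_coeffMap, coeffMap_coeffMap]
    exact coeffMap_congr (RingHom.ext fun a => rfl) w
  obtain ⟨h', e'⟩ := seriesGauss_red_of_rep (q := q) (M := q * N) (residueC_surjective q)
    (f := algebraMap (FieldBar (q * N)) (FieldC (q * N)) x)
    (y := coeffMap (inclInt q) y) (z := coeffMap (inclInt q) z)
    ⟨by rw [hc]; exact hz, by rw [coe_algebraMap_fieldBar, hs, hs, ← hrep, map_mul]⟩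
  refine ⟨h', Subtype.ext ?_⟩
  show (seriesGauss q (q * N) _).red ⟨_, h'⟩ = (seriesGauss q (q * N) _).red ⟨x, _⟩
  rw [e', e, hc, hc]

theorem torus_red₂ {x : FieldBar (q * N)} (h : x ∈ (dQ).g₂.integers) :
    ∃ h' : algebraMap (FieldBar (q * N)) (FieldC (q * N)) x ∈ (dC).g₂.integers,
      (dC).g₂.red ⟨_, h'⟩ = (dQ).g₂.red ⟨x, h⟩ := by
  obtain ⟨h', e⟩ := torus_red₁ hco (x := atkinLehnerBar hco ℚbar x) h
  have hmem : atkinLehnerBar hco ℂ (algebraMap (FieldBar (q * N)) (FieldC (q * N)) x) ∈
      (dC).g₁.integers := by rw [Away.algebraMap_alBar]; exact h'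
  exact ⟨hmem, (((dC).g₁.red_congr (Away.algebraMap_alBar hco x) hmem).trans e :)⟩

/-- Units stay units with the same reduction. -/
theorem torus_isUnitAt₁ {x : FieldBar (q * N)} (h : IsUnitAt (dQ).g₁ x) :
    IsUnitAt (dC).g₁ (algebraMap (FieldBar (q * N)) (FieldC (q * N)) x) := by
  obtain ⟨h', e⟩ := torus_red₁ hco h.1
  exact ⟨h', e ▸ h.2⟩

theorem torus_isUnitAt₂ {x : FieldBar (q * N)} (h : IsUnitAt (dQ).g₂ x) :
    IsUnitAt (dC).g₂ (algebraMap (FieldBar (q * N)) (FieldC (q * N)) x) := by
  obtain ⟨h', e⟩ := torus_red₂ hco h.1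
  exact ⟨h', e ▸ h.2⟩

end FermatAgent.RTLift.Sq
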