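import Fermat.Agent.RTLift.Sq.ToricExtend

/-!
# The function of a toric torsion point

A toric `p`-torsion point at `place₀ q` is fixed by inertia, hence given by a function over the
inertia field; each normalised reduction of this function is a `p`-th power.
-/

set_option autoImplicit false
set_option maxHeartbeats 800000

noncomputable section

namespace FermatAgent.RTLift.Sq

open ModularCurve AlgebraicCurve
open FermatAgent.Curve FermatAgent.Curve.RR FermatAgent.BadRed.Semistable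
open FermatAgent.ModCurveTorsion FermatAgent.MazurPrinciple FermatAgent.ModFun
open FermatAgent.ModCurve.Points (FieldC)
open FermatAgent.BadRed.Carayol (DivisibleOn exists_function_of_fixed_torsion fromInertia
  coe_fromInertia)
open FermatAgent.BadRed.Carayol.Instance (LevelField castLevel coe_castLevel)

section Root

variable {K : Type*} [Field K] {A : ValuationSubring K} {k : Type*} [Field k] [IsAlgClosed k]
  {π : A →+* k} {F G₀ : Type*} [Field F] [Algebra K F] [Field G₀] [Algebra k G₀]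
  (g : GaussRed A π F G₀)

/-- If `a • y H ^ n` is a unit with an `n`-th power reduction and `y` is a unit, the reduction of
`y` is an `n`-th power. -/
theorem exists_root_of_red_pow (hπ : Function.Surjective π) {n : ℕ} (hn : 0 < n) {y H : F} {a : K}
    (hy : IsUnitAt g y) (ht : IsUnitAt g (a • (y * H ^ n))) {φ : G₀}
    (hφ : g.red ⟨_, ht.1⟩ = φ ^ n) : ∃ ψ, g.red ⟨y, hy.1⟩ = ψ ^ n := by
  have hH : H ≠ 0 := fun e => ht.ne_zero (by rw [e, zero_pow hn.ne', mul_zero, smul_zero])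
  obtain ⟨b, hb, hb0⟩ := g.exists_normalize H hH
  have hbne : b ≠ 0 := fun e => hb0 (by
    rw [g.red_congr (show b • H = 0 by rw [e, zero_smul]) hb]; exact map_zero g.red)
  set s := a / b ^ n with hs
  have hyb : IsUnitAt g (y * (b • H) ^ n) := hy.mul (IsUnitAt.pow (⟨hb, hb0⟩ : IsUnitAt g (b • H)) n)
  have e : a • (y * H ^ n) = s • (y * (b • H) ^ n) := by
    rw [smul_pow, mul_smul_comm, smul_smul, hs, div_mul_cancel₀ _ (pow_ne_zero n hbne)]
  have hsA : s ∈ A := g.mem_of_smul_mem hπ hyb.1 hyb.2 (e ▸ ht.1)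
  have hπs : π ⟨s, hsA⟩ ≠ 0 := fun h0 => ht.2 (by
    rw [g.red_congr e, g.red_smul hsA hyb.1, h0, zero_smul])
  obtain ⟨σ, hσ⟩ := IsAlgClosed.exists_pow_nat_eq (π ⟨s, hsA⟩) hn
  have hσ0 : σ ≠ 0 := fun h0 => hπs (by rw [← hσ, h0, zero_pow hn.ne'])
  refine ⟨φ / (algebraMap k G₀ σ * g.red ⟨_, hb⟩), ?_⟩
  have h1 : g.red ⟨_, ht.1⟩ = algebraMap k G₀ (π ⟨s, hsA⟩) * (g.red ⟨y, hy.1⟩ *
      g.red ⟨_, hb⟩ ^ n) := by
    rw [g.red_congr e, g.red_smul hsA hyb.1, Algebra.smul_def, ← map_pow, ← map_mul]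
    rfl
  rw [hφ, ← hσ, map_pow] at h1
  rw [div_pow, eq_div_iff (pow_ne_zero n (mul_ne_zero ((_root_.map_ne_zero _).mpr hσ0) hb0)), h1,
    mul_pow]
  ring

end Root

local notation "ℚbar" => AlgebraicClosure ℚ

attribute [local instance] neZero_prime charZero_of_algebraRat isFunctionField1_laurent
  isAlgClosed_kRes charP_kRes
attribute [local instance] qbarAlgebraC qbarAlgebraFieldC fieldBarAlgebraC
  qbar_isScalarTower_const qbar_isScalarTower_ext qbar_isConstantExtension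

variable {q : ℕ} [Fact q.Prime] {N : ℕ} [NeZero N] (hco : q.Coprime N) [NeZero (q * N)]
  [IsFunctionField1 (KRes q) (modularFunctionFieldFullC (KRes q) N)] [Infinite (KRes q)]

local notation "dQ" => levelData q (place₀ q) (liesOverPrime_place₀ q) hco
local notation "dC" => torusDatum q N hco

theorem isBal_nsmul {D : Divisor ℂ (FieldC (q * N))} (h : (dC).IsBal D) :
    ∀ m : ℕ, (dC).IsBal (m • D)
  | 0 => by
    rw [zero_nsmul]
    exact ⟨fun P hP => absurd rfl hP, by rw [map_zero, map_zero, map_zero],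
      by rw [map_zero, map_zero, map_zero]⟩
  | m + 1 => by rw [succ_nsmul]; exact (isBal_nsmul h m).add _ h

theorem divisibleOn_castLevel {K : Type*} [Field K] [CharZero K] {M M' : ℕ} [NeZero M] [NeZero M']
    (h : M = M') {f : LevelField K M} {n : ℕ} (hf : DivisibleOn K f n) :
    DivisibleOn K (castLevel K h f) n := by
  subst h; exact hf

/-- **The function of a toric torsion point.** -/
theorem exists_toric_function {p : ℕ} (hp : p.Prime) (hpq : p ≠ q) {x : JZero (q * N)}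
    (hx : p • x = 0) {c : Node q N hco → KRes q} (h : HasTor q N hco x c) :
    ∃ (D : Divisor.degZero (K := ℚbar) (F := FieldBar (q * N)))
      (f : LevelField (inertiaField (place₀ q)) (N * q)), Pic0.mk D = x ∧ f ≠ 0 ∧
      DivisibleOn (inertiaField (place₀ q)) f p ∧
      p • (D : Divisor ℚbar (FieldBar (q * N))) = divisorOf (levelHom (place₀ q) q N f) ∧
      (∀ (y G : FieldBar (q * N)), G ≠ 0 → levelHom (place₀ q) q N f = y * G ^ p →
        ∀ hy : IsUnitAt (dQ).g₁ y, ∃ φ, (dQ).g₁.red ⟨y, hy.1⟩ = φ ^ p) ∧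
      ∀ (y G : FieldBar (q * N)), G ≠ 0 → levelHom (place₀ q) q N f = y * G ^ p →
        ∀ hy : IsUnitAt (dQ).g₂ y, ∃ φ, (dQ).g₂.red ⟨y, hy.1⟩ = φ ^ p := by
  have hn : p.Coprime q := (Nat.coprime_primes hp Fact.out).mpr hpq
  obtain ⟨D, f₀, hDx, -, hf₀, hpD, hdiv⟩ := exists_function_of_fixed_torsion (place₀ q) (q * N) x hx
    fun σ hσ => h.inertia_smul hn hσ hx
  set f := castLevel (inertiaField (place₀ q)) (mul_comm q N) f₀ with hfdef
  have hf : levelHom (place₀ q) q N f = fromInertia (place₀ q) (q * N) f₀ :=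
    Subtype.ext (by rw [coe_levelHom, hfdef, coe_castLevel, coe_fromInertia])
  have hf0 : f ≠ 0 := (map_ne_zero _).mpr hf₀
  rw [← hf] at hpD
  refine ⟨D, f, hDx, hf0, divisibleOn_castLevel _ hdiv, hpD, ?_⟩
  obtain ⟨D', hD', hbal, u, hu, e₁, e₂, -⟩ := h
  obtain ⟨G₁, hG₁, hGD⟩ : ∃ G : FieldC (q * N), G ≠ 0 ∧
      (D' : Divisor ℂ (FieldC (q * N))) - divBaseC (q * N) D = divisorOf G := by
    rw [← hDx, jBaseC_mk] at hD'
    have hm := (QuotientAddGroup.eq_iff_sub_mem).mp hD'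
    rw [AddSubgroup.mem_addSubgroupOf, AddSubgroupClass.coe_sub] at hm
    obtain ⟨G, hG, hGd⟩ := hm
    exact ⟨G, hG, Finsupp.ext fun P => by rw [divisorOf_apply, ← hGd P]⟩
  set fC := algebraMap (FieldBar (q * N)) (FieldC (q * N)) (levelHom (place₀ q) q N f)
  have hfC : fC ≠ 0 := (map_ne_zero _).mpr ((map_ne_zero _).mpr hf0)
  set t := fC * G₁ ^ p
  have hdt : divisorOf (K := ℂ) t = p • (D' : Divisor ℂ (FieldC (q * N))) := by
    rw [divisorOf_mul hfC (pow_ne_zero _ hG₁), ← divBaseC_divisorOf, ← hpD, map_nsmul,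
      sub_eq_iff_eq_add'.mp hGD, smul_add]
    congr 1
    ext P
    simp [Curve.ord_pow']
  obtain ⟨a, ha, ht, hun, -, hred⟩ := (dC).exists_red_of_isBal (mul_ne_zero hfC (pow_ne_zero _ hG₁))
    (hdt ▸ isBal_nsmul hco hbal p)
  rw [hdt, map_nsmul] at hred
  have hr₁ : ∃ φ, ((dC).red ⟨a • t, ht⟩).1 = φ ^ p := by
    obtain ⟨β, -, hβ⟩ := exists_const_mul_of_divisorOf_eq hun.1 (pow_ne_zero p hu.1) (k := KRes q)
      (by
        rw [← (dC).C.part₁_secDiv_zero hun, ← hred, map_nsmul, e₁]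
        ext P
        simp [Curve.ord_pow'])
    obtain ⟨γ, hγ⟩ := IsAlgClosed.exists_pow_nat_eq β hp.pos
    exact ⟨algebraMap _ _ γ * u.1, by rw [hβ, mul_pow, ← map_pow, hγ]⟩
  have hr₂ : ∃ φ, ((dC).red ⟨a • t, ht⟩).2 = φ ^ p := by
    obtain ⟨β, -, hβ⟩ := exists_const_mul_of_divisorOf_eq hun.2.1 (pow_ne_zero p hu.2.1)
      (k := KRes q) (by
        rw [← (dC).C.part₂_secDiv_zero hun, ← hred, map_nsmul, e₂]
        ext P
        simp [Curve.ord_pow'])
    obtain ⟨γ, hγ⟩ := IsAlgClosed.exists_pow_nat_eq β hp.pos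
    exact ⟨algebraMap _ _ γ * u.2, by rw [hβ, mul_pow, ← map_pow, hγ]⟩
  have et : ∀ y G : FieldBar (q * N), levelHom (place₀ q) q N f = y * G ^ p →
      a • t = a • (algebraMap (FieldBar (q * N)) (FieldC (q * N)) y *
        (algebraMap (FieldBar (q * N)) (FieldC (q * N)) G * G₁) ^ p) := fun y G e => by
    rw [show t = fC * G₁ ^ p from rfl, show fC = algebraMap (FieldBar (q * N)) (FieldC (q * N)) (y * G ^ p) from
      congrArg (algebraMap (FieldBar (q * N)) (FieldC (q * N))) e, map_mul, map_pow, mul_pow, mul_assoc]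
  constructor <;> intro y G _ e hy
  · obtain ⟨φ, hφ⟩ := hr₁
    obtain ⟨h', hred'⟩ := torus_red₁ hco hy.1
    have hz : IsUnitAt (dC).g₁ (a • (algebraMap _ _ y *
        (algebraMap (FieldBar (q * N)) (FieldC (q * N)) G * G₁) ^ p)) := by
      refine ⟨et y G e ▸ ht.1, ?_⟩
      rw [(dC).g₁.red_congr (et y G e).symm]
      exact hun.1
    obtain ⟨ψ, hψ⟩ := exists_root_of_red_pow (dC).g₁ (dC).residue_surjective hp.pos
      (torus_isUnitAt₁ hco hy) hz (φ := φ) (by
        rw [(dC).g₁.red_congr (et y G e).symm]; exact hφ)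
    exact ⟨ψ, hred' ▸ hψ⟩
  · obtain ⟨φ, hφ⟩ := hr₂
    obtain ⟨h', hred'⟩ := torus_red₂ hco hy.1
    have hz : IsUnitAt (dC).g₂ (a • (algebraMap _ _ y *
        (algebraMap (FieldBar (q * N)) (FieldC (q * N)) G * G₁) ^ p)) := by
      refine ⟨et y G e ▸ ht.2, ?_⟩
      rw [(dC).g₂.red_congr (et y G e).symm]
      exact hun.2.1
    obtain ⟨ψ, hψ⟩ := exists_root_of_red_pow (dC).g₂ (dC).residue_surjective hp.pos
      (torus_isUnitAt₂ hco hy) hz (φ := φ) (by
        rw [(dC).g₂.red_congr (et y G e).symm]; exact hφ)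
    exact ⟨ψ, hred' ▸ hψ⟩

end FermatAgent.RTLift.Sq
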