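import Fermat.Agent.RTLift.Sq.NodeRatio
import Fermat.Agent.RTLift.Sq.ToricTorsionFun
import Fermat.Agent.RTLift.Sq.ToricBranch

/-!
# Every system of roots of unity at the nodes is the system of ratios of a function

The toric `p`-torsion at `place₀ q` is as large as the group of tuples of roots of unity at the
nodes modulo constants, and each of its points has a function over the inertia field; so every
tuple is, up to a constant, the tuple of ratios of such a function.
-/

set_option autoImplicit false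
set_option maxHeartbeats 1600000

noncomputable section

namespace FermatAgent.RTLift.Sq

open Polynomial IsLocalRing AlgebraicCurve ModularCurve
open FermatAgent.Curve FermatAgent.Curve.RR
open FermatAgent.MazurPrinciple
open FermatAgent.BadRed.Semistable FermatAgent.BadRed.Carayol FermatAgent.BadRed.Carayol.Instance
open FermatAgent.ModFun

local notation "ℚbar" => AlgebraicClosure ℚ
local notation "𝐅" N:max => laurentBaseChange ℚbar (modularFunctionFieldFull N)

/-- Tuples of `p`-th roots of unity which are `1` at a given place. -/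
def normTuples (ι k : Type*) [Field k] (p : ℕ) (i₀ : ι) : Type _ :=
  {c : ι → k // (∀ i, c i ^ p = 1) ∧ c i₀ = 1}

/-- There are finitely many such tuples. -/
theorem finite_normTuples {ι k : Type*} [Finite ι] [Field k] {p : ℕ} (hp : 0 < p) (i₀ : ι) :
    Finite (normTuples ι k p i₀) := by
  classical
  have hfin : {a : k | a ^ p = 1}.Finite :=
    (nthRoots p (1 : k)).toFinset.finite_toSet.subset fun a ha => by
      simpa [mem_nthRoots hp] using ha
  have : Finite {a : k | a ^ p = 1} := hfin.to_subtype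
  refine Finite.of_injective (fun c : normTuples ι k p i₀ => fun i =>
    (⟨c.1 i, c.2.1 i⟩ : {a : k | a ^ p = 1})) fun c c' h => Subtype.ext (funext fun i => ?_)
  exact congrArg Subtype.val (congrFun h i)

attribute [local instance] neZero_prime charZero_of_algebraRat
  ModCurveTorsion.isFunctionField1_laurent MazurPrinciple.isAlgClosed_residue isAlgClosed_kRes
  charP_kRes
attribute [local instance 10000] Short.algLevel Short.algRing Short.algFib Short.algBar

variable {q : ℕ} [Fact q.Prime] {N : ℕ} [NeZero N] (hco : q.Coprime N) (hqN : ¬ q ∣ N)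
  [NeZero (q * N)] [IsDiscreteValuationRing (inertiaRing (place₀ q))]
  [IsFunctionField1 (KRes q) (modularFunctionFieldFullC (KRes q) N)] [Infinite (KRes q)]
  [IsAlgClosed (IsLocalRing.ResidueField (inertiaRing (place₀ q)))]

local notation "dQ" => levelData q (place₀ q) (liesOverPrime_place₀ q) hco
local notation "hqW" => maximalIdeal_inertiaRing (Fact.out : q.Prime) (liesOverPrime_place₀ q)

variable {u : LevelField (inertiaField (place₀ q)) N}
  (C : ChartLink (inertiaRing (place₀ q)) (tower (inertiaField (place₀ q)) N hqN) u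
    (levelData q (place₀ q) (liesOverPrime_place₀ q) hco))
  (D : ChartData (inertiaRing (place₀ q)) (tower (inertiaField (place₀ q)) N hqN) u)
  (hC : C.hom = levelHom (place₀ q) q N)

include D hC in
/-- A toric torsion point has a function with ratios given by its invariant over `ℚbar`. -/
theorem exists_ratios_of_hasTor {p : ℕ} (hp : p.Prime) (hpq : p ≠ q) {x : JZero (q * N)}
    (hx : p • x = 0) {c : Node q N hco → KRes q} (h : HasTor q N hco x c) :
    ∃ c' : (dQ).C.ι → KRes q, (∀ i, c' i ^ p = 1) ∧ (dQ).HasToric x c' ∧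
      ∃ g : LevelField (inertiaField (place₀ q)) (N * q), g ≠ 0 ∧
        DivisibleOn (inertiaField (place₀ q)) g p ∧ ∃ h₁ h₂ : LevelField (inertiaField (place₀ q)) (N * q),
          IsRootOn C.V₁ p g h₁ ∧ IsRootOn C.V₂ p g h₂ ∧
          ∀ (i : (dQ).C.ι) (r : inertiaRing (place₀ q)), residue (place₀ q) (C.κ r) = c' i →
            haveI := C.point_isMaximal hqW i
            RatioAt hqW (C.point hqW i) (C.q_mem_point hqW i) C.V₂ C.V₁ p g h₂ h₁
              (residue (inertiaRing (place₀ q)) r) := by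
  obtain ⟨E, f, hEx, hf0, hdiv, hpE, hpow₁, hpow₂⟩ := exists_toric_function hco hp hpq hx h
  have hqW0 := hqW
  -- normalisation on the first component
  have hqK : (q : inertiaField (place₀ q)) ≠ 0 := natCast_ne_zero_frac hqW0
  have hq0 : (q : LevelField (inertiaField (place₀ q)) (N * q)) ≠ 0 := by
    rw [← map_natCast (algebraMap (inertiaField (place₀ q)) _)]
    exact (_root_.map_ne_zero _).mpr hqK
  obtain ⟨m, hm⟩ := disc₁ hqW0 D (C.isVertical₁ hqW0) f hf0
  set cst : inertiaField (place₀ q) := ((q : inertiaField (place₀ q)) ^ m)⁻¹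
  set f' := f ^ 1 * algebraMap (inertiaField (place₀ q)) (LevelField (inertiaField (place₀ q)) (N * q)) cst
    with hf'
  have hfm : f' = f / (q : LevelField (inertiaField (place₀ q)) (N * q)) ^ m := by
    rw [hf', pow_one, map_inv₀, map_zpow₀, map_natCast, div_eq_mul_inv]
  have hu : MazurPrinciple.IsUnitAt (dQ).g₁ (C.hom f') := by
    rw [hfm]
    refine ⟨hm.mem, fun h0 => ?_⟩
    have := hm.res_ne_zero
    exact this (res_eq_zero_of_mem_nonunits (mem_nonunits_pullRing.mpr ⟨hm.mem, h0⟩))
  set cb : ℚbar := (cst : ℚbar)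
  have hcb : cb ≠ 0 := fun e => inv_ne_zero (zpow_ne_zero m hqK) (Subtype.ext e)
  have hom' : C.hom f' = C.hom f * algebraMap ℚbar (𝐅 (q * N)) cb := by
    rw [hf', pow_one, map_mul, hC, levelHom_algebraMap]
  obtain ⟨γ, hγ⟩ := IsAlgClosed.exists_pow_nat_eq cb hp.pos
  have hγ0 : γ ≠ 0 := fun e => hcb (by rw [← hγ, e, zero_pow hp.ne_zero])
  have key : ∀ g : LevelField (inertiaField (place₀ q)) (N * q), C.hom (f' / g ^ p) ≠ 0 →
      C.hom g / algebraMap ℚbar (𝐅 (q * N)) γ ≠ 0 ∧ levelHom (place₀ q) q N f =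
        C.hom (f' / g ^ p) * (C.hom g / algebraMap ℚbar (𝐅 (q * N)) γ) ^ p := fun g hg => by
    have hg0 : C.hom g ≠ 0 := fun e => hg (by
      rw [map_div₀, map_pow, e, zero_pow hp.ne_zero, div_zero])
    refine ⟨div_ne_zero hg0 ((_root_.map_ne_zero _).mpr hγ0), ?_⟩
    rw [map_div₀, map_pow, hom', div_pow, ← map_pow (algebraMap ℚbar (𝐅 (q * N))), hγ, ← hC]
    have h1 : C.hom g ^ p ≠ 0 := pow_ne_zero _ hg0
    have h2 : algebraMap ℚbar (𝐅 (q * N)) cb ≠ 0 := (_root_.map_ne_zero _).mpr hcb
    field_simp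
  have hD' : p • (E : Divisor ℚbar (𝐅 (q * N))) = divisorOf (C.hom f') := by
    rw [hpE, hom', ← hC]
    refine Finsupp.ext fun P => ?_
    rw [divisorOf_apply, divisorOf_apply,
      P.ord_mul ((_root_.map_ne_zero _).mpr hf0) ((_root_.map_ne_zero _).mpr hcb),
      Curve.ord_algebraMap_const, add_zero]
  obtain ⟨g, hg, c', hc', hrep, h₁, h₂, r₁, r₂, hrat⟩ := exists_node_ratios C hqW0 D
    (fun z => by rw [hC]; exact levelHom_surj₁ (liesOverPrime_place₀ q) hco z)
    (fun z => by rw [hC]; exact levelHom_surj₂ (liesOverPrime_place₀ q) hco z)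
    hp.pos (hdiv.mul_const 1 (inv_ne_zero (zpow_ne_zero m hqK))) hu
    (fun g hg => hpow₁ _ _ (key g hg.ne_zero).1 (key g hg.ne_zero).2 hg)
    (fun g hg => hpow₂ _ _ (key g hg.ne_zero).1 (key g hg.ne_zero).2 hg) hD'
  refine ⟨c', hc', ?_, f', ?_, hdiv.mul_const 1 (inv_ne_zero (zpow_ne_zero m hqK)),
    h₁, h₂, r₁, r₂, hrat⟩
  · refine ⟨⟨(E : Divisor ℚbar (𝐅 (q * N))) - divisorOf (C.hom g), ?_⟩, ?_, hrep⟩
    · rw [Divisor.mem_degZero, map_sub, E.2, degree_divisorOf, sub_zero]
    · rw [← hEx]
      refine QuotientAddGroup.eq.mpr ?_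
      rw [AddSubgroup.mem_addSubgroupOf]
      exact ⟨C.hom g, (_root_.map_ne_zero _).mpr hg, fun P => by simp⟩
  · exact fun e => hu.ne_zero (by rw [e, map_zero])

include D hC in
/-- **Every tuple of roots of unity at the nodes comes from a function.** -/
theorem exists_ratio_function {p : ℕ} (hp : p.Prime) (hpq : p ≠ q)
    (c : (dQ).C.ι → KRes q) (hc : ∀ i, c i ^ p = 1) :
    ∃ g : LevelField (inertiaField (place₀ q)) (N * q), g ≠ 0 ∧
      DivisibleOn (inertiaField (place₀ q)) g p ∧ ∃ h₁ h₂ : LevelField (inertiaField (place₀ q)) (N * q),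
        IsRootOn C.V₁ p g h₁ ∧ IsRootOn C.V₂ p g h₂ ∧
        ∃ r : IsLocalRing.ResidueField (inertiaRing (place₀ q)), r ≠ 0 ∧
          ∀ (i : (dQ).C.ι) (w : inertiaRing (place₀ q)), residue (place₀ q) (C.κ w) = c i →
            haveI := C.point_isMaximal hqW i
            RatioAt hqW (C.point hqW i) (C.q_mem_point hqW i) C.V₂ C.V₁ p g h₂ h₁
              (r * residue (inertiaRing (place₀ q)) w) := by
  classical
  have hqW0 := hqW
  have hn : p.Coprime q := (Nat.coprime_primes hp Fact.out).mpr hpq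
  obtain ⟨i₀⟩ := (dQ).C.nonempty
  obtain ⟨j₀⟩ := (torusDatum q N hco).C.nonempty
  have hcard : Fintype.card (Node q N hco) = Fintype.card (dQ).C.ι := by
    have h1 := card_node q N hco
    have := charP_residue_place q (place₀ q) (liesOverPrime_place₀ q)
    have h2 := card_levelDatum_nodes hco (placeHom q (place₀ q) (liesOverPrime_place₀ q))
      (liesOverPrime_place₀ q)
    exact_mod_cast h1.trans h2.symm
  let e₀ := Fintype.equivOfCardEq hcard
  let e : Node q N hco ≃ (dQ).C.ι := e₀.trans (Equiv.swap (e₀ j₀) i₀)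
  have he : e j₀ = i₀ := by simp [e]
  have hex : ∀ s : normTuples (dQ).C.ι (KRes q) p i₀, ∃ (x : JZero (q * N))
      (c' : (dQ).C.ι → KRes q), p • x = 0 ∧ HasTor q N hco x (s.1 ∘ e) ∧ (∀ i, c' i ^ p = 1) ∧
        (dQ).HasToric x c' ∧
        ∃ g : LevelField (inertiaField (place₀ q)) (N * q), g ≠ 0 ∧
          DivisibleOn (inertiaField (place₀ q)) g p ∧
          ∃ h₁ h₂ : LevelField (inertiaField (place₀ q)) (N * q),
            IsRootOn C.V₁ p g h₁ ∧ IsRootOn C.V₂ p g h₂ ∧
            ∀ (i : (dQ).C.ι) (r : inertiaRing (place₀ q)), residue (place₀ q) (C.κ r) = c' i →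
              haveI := C.point_isMaximal hqW0 i
              RatioAt hqW0 (C.point hqW0 i) (C.q_mem_point hqW0 i) C.V₂ C.V₁ p g h₂ h₁
                (residue (inertiaRing (place₀ q)) r) := fun s => by
    obtain ⟨x, hx, hxc⟩ := exists_hasTor (hco := hco) hn (s.1 ∘ e) fun j => s.2.1 (e j)
    obtain ⟨c', hc', ht, rest⟩ := exists_ratios_of_hasTor hco hqN C D hC hp hpq hx hxc
    exact ⟨x, c', hx, hxc, hc', ht, rest⟩
  choose xF cF hxF hTF hcF htF hgF using hex
  let F : normTuples (dQ).C.ι (KRes q) p i₀ → normTuples (dQ).C.ι (KRes q) p i₀ := fun s =>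
    ⟨fun i => cF s i / cF s i₀, fun i => by rw [div_pow, hcF, hcF, div_one],
      div_self ((htF s).ne_zero _ i₀)⟩
  have hinj : Function.Injective F := fun s s' hss' => by
    have hprop : ∀ i, cF s i / cF s i₀ = cF s' i / cF s' i₀ :=
      fun i => congrFun (congrArg Subtype.val hss') i
    have hxx : xF s = xF s' := by
      refine sub_eq_zero.mp ?_
      rw [sub_eq_add_neg]
      refine NodalDatum.eq_zero_of_hasToric_const _ (natCast_kRes_ne_zero hn) ?_
        ((htF s).add _ ((htF s').neg _)) fun i j => ?_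
      · rw [nsmul_add, neg_nsmul, hxF, hxF, neg_zero, add_zero]
      · simp only [Pi.mul_apply, Pi.inv_apply]
        have e1 := hprop i
        have e2 := hprop j
        rw [div_eq_div_iff ((htF s).ne_zero _ i₀) ((htF s').ne_zero _ i₀)] at e1 e2
        rw [← div_eq_mul_inv, ← div_eq_mul_inv,
          div_eq_div_iff ((htF s').ne_zero _ i) ((htF s').ne_zero _ j)]
        refine mul_right_cancel₀ ((htF s').ne_zero _ i₀) ?_
        linear_combination (cF s' j) * e1 - (cF s' i) * e2
    obtain ⟨a, -, ha⟩ := (hTF s).unique _ (show (torusDatum q N hco).HasToric _ (s'.1 ∘ e) from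
      hxx ▸ hTF s')
    have ha1 : a = 1 := by
      have := ha j₀
      simpa [Function.comp, he, s.2.2, s'.2.2] using this.symm
    refine Subtype.ext (funext fun i => ?_)
    have := ha (e.symm i)
    simpa [Function.comp, ha1] using this.symm
  have := finite_normTuples (k := KRes q) hp.pos i₀
  obtain ⟨s, hs⟩ := Finite.injective_iff_surjective.mp hinj
    ⟨fun i => c i / c i₀, fun i => by rw [div_pow, hc, hc, div_one],
      div_self fun h0 => by have := hc i₀; rw [h0, zero_pow hp.ne_zero] at this; exact zero_ne_one this⟩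
  obtain ⟨g, hg, hgd, h₁, h₂, r₁, r₂, hrat⟩ := hgF s
  have hci₀ : c i₀ ≠ 0 := fun h0 => by
    have := hc i₀; rw [h0, zero_pow hp.ne_zero] at this; exact zero_ne_one this
  obtain ⟨ρ, hρ⟩ := C.surjective (cF s i₀ / c i₀)
  have hρ0 : residue (inertiaRing (place₀ q)) ρ ≠ 0 := fun h0 =>
    div_ne_zero ((htF s).ne_zero _ i₀) hci₀ (hρ ▸ (C.pi_κ_eq_zero_iff hqW0 ρ).mpr h0)
  refine ⟨g, hg, hgd, h₁, h₂, r₁, r₂, residue _ ρ, hρ0, fun i w hw => ?_⟩
  rw [← map_mul]
  refine hrat i (ρ * w) ?_
  rw [map_mul, map_mul, hw, show residue (place₀ q) (C.κ ρ) = _ from hρ]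
  have hi : cF s i / cF s i₀ = c i / c i₀ := congrFun (congrArg Subtype.val hs) i
  rw [div_eq_div_iff ((htF s).ne_zero _ i₀) hci₀] at hi
  rw [div_mul_eq_mul_div, div_eq_iff hci₀]
  linear_combination -hi

end FermatAgent.RTLift.Sq
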