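import Fermat.Agent.RTLift.Sq.ToricShortcuts
import Fermat.Agent.MazurPrinciple.NodeChart

/-!
# Places of a component centred at a point of the chart

A reduction of the chart into a function field; a place of that field is centred at a point `P`
when the reductions of the chart are regular there and those of `P` vanish.  Values at such a
place are the values at `P`.
-/

set_option autoImplicit false
set_option linter.unusedSectionVars false

noncomputable section

namespace FermatAgent.RTLift.Sq

open Polynomial IsLocalRing AlgebraicCurve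
open FermatAgent.Curve FermatAgent.Curve.RR FermatAgent.BadRed.Semistable
open FermatAgent.BadRed.Carayol FermatAgent.MazurPrinciple

variable {q : ℕ} [Fact q.Prime] {W K F F₁ F₂ : Type*}
  [CommRing W] [IsDomain W] [IsDiscreteValuationRing W] [IsAlgClosed (IsLocalRing.ResidueField W)]
  [Field K] [CharZero K] [Algebra W K] [IsFractionRing W K]
  [Field F] [Field F₁] [Field F₂] [Algebra K F] [Algebra K F₁] [Algebra K F₂]
  [Algebra W F] [Algebra W F₁] [Algebra W F₂]
  [IsScalarTower W K F] [IsScalarTower W K F₁] [IsScalarTower W K F₂]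
  {T : QTower q K F F₁ F₂} {u : F}
variable {L : Type*} [Field L] [IsAlgClosed L] {A : ValuationSubring L} {k : Type*} [Field k]
  [IsAlgClosed k] {π : A →+* k} {E G₁ G₂ : Type*} [Field E] [Field G₁] [Field G₂]
  [Algebra L E] [Algebra k G₁] [Algebra k G₂] [IsFunctionField1 L E] [IsFunctionField1 k G₁]
  [IsFunctionField1 k G₂] [RRSetting L E] [RRSetting k G₁] [RRSetting k G₂]
variable {d : NodalDatum A π E G₁ G₂}
variable {G : Type*} [Field G] [Algebra k G] [IsFunctionField1 k G]

/-- The place `Q` is centred at `P` for the reduction `g`. -/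
def Centred (C : ChartLink W T u d) (g : GaussRed A π E G) (P : Ideal (chartRing W (T.t u)))
    (Q : Place k G) : Prop :=
  ∀ z : chartRing W (T.t u), ∃ h : C.hom z ∈ g.integers,
    Q.adicValuation (g.red ⟨C.hom z, h⟩) ≤ 1 ∧ (z ∈ P → valueAt Q (g.red ⟨C.hom z, h⟩) = 0)

variable {C : ChartLink W T u d} {g : GaussRed A π E G} {P : Ideal (chartRing W (T.t u))}
  [P.IsMaximal] {Q : Place k G} (hq : maximalIdeal W = Ideal.span {(q : W)})
  (hqP : (q : chartRing W (T.t u)) ∈ P)

theorem Centred.value_const (H : Centred C g P Q) (w : W) :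
    valueAt Q (g.red ⟨_, (H (algebraMap W _ w)).choose⟩) = π (C.κ w) := by
  rw [g.red_congr (show C.hom ((algebraMap W (chartRing W (T.t u)) w : chartRing W (T.t u)) : F₁) =
    algebraMap L E (C.κ w : L) from C.commutes w), g.red_algebraMap, valueAt_algebraMap]

include hq hqP in
/-- Values at the place of elements of the chart are values at the point. -/
theorem Centred.value_chart (H : Centred C g P Q) (z : chartRing W (T.t u)) {c : W}
    (hc : pval hq hqP (z : F₁) = residue W c) :
    valueAt Q (g.red ⟨_, (H z).choose⟩) = π (C.κ c) := by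
  set p : chartRing W (T.t u) := z - algebraMap W _ c
  have hp : p ∈ P := mem_of_inMax (by
    have h := (pval_eq_iff hq hqP (chartRing_le_locRing P z.2) (loc_const c)).mp
      (by rw [pval_const, hc])
    simpa [p] using h)
  obtain ⟨hm, hle, h0⟩ := H p
  obtain ⟨hw, hwle, -⟩ := H (algebraMap W _ c)
  have e : (⟨C.hom z, (H z).choose⟩ : g.integers) = ⟨C.hom p, hm⟩ + ⟨_, hw⟩ := Subtype.ext (by
    show C.hom (z : F₁) = C.hom (p : F₁) + C.hom _
    rw [← map_add]
    simp [p])
  rw [e, map_add, valueAt_add Q (mem_of_le_one hle) (mem_of_le_one hwle), h0 hp, zero_add]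
  exact H.value_const c

include hq hqP in
/-- Values at the place of elements of the local ring are values at the point. -/
theorem Centred.value_loc (H : Centred C g P Q) {y : F₁} (hy : Loc (T.t u) P y) {c : W}
    (hc : pval hq hqP y = residue W c) :
    ∃ h : C.hom y ∈ g.integers, Q.adicValuation (g.red ⟨C.hom y, h⟩) ≤ 1 ∧
      valueAt Q (g.red ⟨C.hom y, h⟩) = π (C.κ c) := by
  obtain ⟨s, a, hs, hsa⟩ := id hy
  obtain ⟨cs, hcs⟩ := residue_surjective (pval hq hqP (s : F₁))
  have hval : pval hq hqP (a : F₁) = residue W (cs * c) := by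
    rw [← hsa, pval_mul hq hqP (chartRing_le_locRing P s.2) hy, ← hcs, hc, map_mul]
  have hcs0 : residue W cs ≠ 0 := by
    rw [hcs]
    exact fun h => hs (mem_of_inMax ((pval_eq_zero_iff hq hqP (chartRing_le_locRing P s.2)).mp h))
  have es := H.value_chart hq hqP s hcs.symm
  have ea := H.value_chart hq hqP a hval
  have hs0 : valueAt Q (g.red ⟨_, (H s).choose⟩) ≠ 0 := by
    rw [es, Ne, C.pi_κ_eq_zero_iff hq]; exact hcs0
  have hne : g.red ⟨_, (H s).choose⟩ ≠ 0 := fun h => hs0 (by
    rw [h, ← map_zero (algebraMap k G), valueAt_algebraMap])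
  have hsi := g.inv_mem d.residue_surjective (H s).choose hne
  have hmem : C.hom y ∈ g.integers := by
    have h0 : C.hom (s : F₁) ≠ 0 := fun h => hne (by rw [g.red_congr h]; exact map_zero g.red)
    rw [← inv_mul_cancel_left₀ h0 (C.hom y), ← map_mul, hsa]
    exact mul_mem hsi.choose (H a).choose
  exact ⟨hmem, value_red_mul g Q hsa hmem (H s).choose_spec.1 es (H a).choose_spec.1 ea
    (by rw [← es]; exact hs0) (by rw [map_mul, map_mul])⟩

include hq hqP in
/-- A point on a component is the centre of a place of the component. -/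
theorem exists_centred (hthr : Through P (pullRing g d.residue_surjective C.hom))
    (hint : ∀ z : chartRing W (T.t u), C.hom z ∈ g.integers)
    (htr : Transcendental k (g.red ⟨C.hom (T.t u), hint ⟨_, self_mem_chartRing⟩⟩)) :
    ∃ Q : Place k G, Centred C g P Q := by
  let ρ : chartRing W (T.t u) →+* G :=
    g.red.comp ((C.hom.comp (chartRing W (T.t u)).val.toRingHom).codRestrict g.integers hint)
  have hρ : ∀ z, ρ z = g.red ⟨C.hom z, hint z⟩ := fun _ => rfl
  have hker : RingHom.ker ρ ≤ P := fun z hz => hthr z (mem_nonunits_pullRing.mpr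
    ⟨hint z, hz⟩)
  let R : Subring G := ρ.range
  let θ : chartRing W (T.t u) →+* R := ρ.rangeRestrict
  have hθ : Function.Surjective θ := ρ.rangeRestrict_surjective
  have hkθ : RingHom.ker θ = RingHom.ker ρ := by
    ext z
    exact ⟨fun h => congrArg Subtype.val h, fun h => Subtype.ext h⟩
  let Q₀ : Ideal R := P.map θ
  have hQ₀ : Q₀.IsPrime := Ideal.map_isPrime_of_surjective hθ (hkθ.trans_le hker)
  have hmemQ : ∀ z, θ z ∈ Q₀ ↔ z ∈ P := fun z => by
    rw [← Ideal.mem_comap, Ideal.comap_map_of_surjective θ hθ, ← RingHom.ker_eq_comap_bot, hkθ,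
      sup_eq_left.mpr hker]
  obtain ⟨V, hV⟩ := (LocalSubring.ofPrime R Q₀).exists_le_valuationSubring
  have hle : ∀ z, ρ z ∈ V := fun z => hV.1 (LocalSubring.le_ofPrime R Q₀ (θ z).2)
  have hnu : ∀ z, z ∈ P → ρ z ∈ V.nonunits := fun z hz => by
    rw [show ρ z = ((⟨ρ z, hle z⟩ : V) : G) from rfl, ValuationSubring.coe_mem_nonunits_iff]
    refine (IsLocalRing.mem_maximalIdeal _).mpr fun hu => ?_
    have hloc : IsLocalHom (Subring.inclusion hV.1) := hV.2
    have hu' : IsUnit (algebraMap R (LocalSubring.ofPrime R Q₀).toSubring (θ z)) :=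
      hloc.map_nonunit _ hu
    exact ((IsLocalization.AtPrime.isUnit_to_map_iff (LocalSubring.ofPrime R Q₀).toSubring Q₀
      (θ z)).mp hu') ((hmemQ z).mpr hz)
  have hK : ∀ a : k, algebraMap k G a ∈ V := fun a => by
    obtain ⟨w, rfl⟩ := C.surjective a
    have := hle (algebraMap W _ w)
    rwa [hρ, g.red_congr (show C.hom ((algebraMap W (chartRing W (T.t u)) w :
      chartRing W (T.t u)) : F₁) = algebraMap L E (C.κ w : L) from C.commutes w),
      g.red_algebraMap] at this
  have htop : V ≠ ⊤ := fun h => by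
    obtain ⟨c, hc⟩ := residue_surjective (pval hq hqP (T.t u))
    set p : chartRing W (T.t u) := ⟨T.t u, self_mem_chartRing⟩ - algebraMap W _ c
    have hp : p ∈ P := mem_of_inMax (by
      have h := (pval_eq_iff hq hqP loc_self (loc_const c)).mp (by rw [pval_const, hc])
      simpa [p] using h)
    have hne : ρ p ≠ 0 := fun h0 => htr (by
      rw [map_sub, sub_eq_zero] at h0
      rw [show g.red ⟨C.hom (T.t u), hint ⟨_, self_mem_chartRing⟩⟩ = ρ ⟨_, self_mem_chartRing⟩ from rfl,
        h0, hρ, g.red_congr (show C.hom ((algebraMap W (chartRing W (T.t u)) c :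
        chartRing W (T.t u)) : F₁) = algebraMap L E (C.κ c : L) from C.commutes c),
        g.red_algebraMap]
      exact isAlgebraic_algebraMap _)
    rcases V.inv_mem_nonunits_iff.mp (show (ρ p)⁻¹⁻¹ ∈ V.nonunits by rw [inv_inv]; exact hnu p hp)
      with h1 | h1
    · exact hne (inv_eq_zero.mp h1)
    · exact h1 (by rw [h]; trivial)
  refine ⟨Curve.placeOfValuationSubring V hK htop, fun z => ⟨hint z, ?_, fun hz => ?_⟩⟩
  · exact (mem_iff_adicValuation_le_one _).mp (hle z)
  · refine (valueAt_eq_zero_iff (Curve.placeOfValuationSubring V hK htop) (hle z)).mpr ?_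
    exact (mem_nonunits_iff_ord_pos (Curve.placeOfValuationSubring V hK htop)).mp (hnu z hz)

end FermatAgent.RTLift.Sq
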