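import Fermat.Agent.RTLift.Sq.ToricShortcuts

/-!
# Maps of charts into fields with a reduction

Series fixed by the Kronecker relation are constant; valuation rings containing the chart and
the Kronecker congruence after a reduction map.
-/

set_option autoImplicit false
set_option maxHeartbeats 200000

noncomputable section

namespace FermatAgent.RTLift.Sq

open Polynomial IsLocalRing AlgebraicCurve ModularCurve
open FermatAgent.MazurPrinciple
open FermatAgent.BadRed.Semistable FermatAgent.BadRed.Carayol FermatAgent.BadRed.Carayol.Instance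
open FermatAgent.ModFun (jBar coe_jBar)

local notation "ℚbar" => AlgebraicClosure ℚ
local notation "𝐅" N:max => laurentBaseChange ℚbar (modularFunctionFieldFull N)

section Series

variable {k : Type*} [Field k] {q : ℕ} [NeZero q]

/-- A series equal to the `q`-th power of its own expansion is constant. -/
theorem eq_C_of_eq_qExpand_pow (hq : 1 < q) {f : LaurentSeries k}
    (h : f = qExpand k q f ^ q) : f = HahnSeries.C (f.coeff 0) := by
  have key : ∀ i : ℕ, ∀ n : ℤ, f.coeff n ≠ 0 → ((q ^ i : ℕ) : ℤ) ∣ n := by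
    have hex : ∀ i : ℕ, ∃ g : LaurentSeries k, f = qExpand k (q ^ i) g := by
      intro i
      induction i with
      | zero => exact ⟨f, by rw [qExpand_congr (pow_zero q), qExpand_one_apply]⟩
      | succ i ih =>
        obtain ⟨g, hg⟩ := ih
        refine ⟨g ^ q, ?_⟩
        conv_lhs => rw [h, ← map_pow, hg, ← map_pow, qExpand_qExpand]
        exact qExpand_congr (pow_succ' q i).symm _
    intro i n hn
    obtain ⟨g, hg⟩ := hex i
    by_contra hnd
    exact hn (by rw [hg]; exact qExpand_coeff_of_not_dvd _ _ hnd)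
  ext n
  rw [HahnSeries.C_apply, HahnSeries.coeff_single]
  rcases eq_or_ne n 0 with rfl | hn
  · simp
  rw [if_neg hn]
  by_contra hne
  have h1 := key n.natAbs n hne
  rw [Int.natCast_dvd] at h1
  exact absurd (Nat.le_of_dvd (Int.natAbs_pos.mpr hn) h1) (not_le.mpr (Nat.lt_pow_self hq))

end Series

section Chart

variable {W : Type*} [CommRing W] {F : Type*} [Field F] [Algebra W F]

/-- A valuation ring with the constants and the coordinate contains the chart. -/
theorem chartRing_mem_of_mem {z x : F} (hx : x ∈ chartRing W z) (V : ValuationSubring F)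
    (hc : ∀ w : W, algebraMap W F w ∈ V) (hz : z ∈ V) : x ∈ V :=
  Curve.mem_valuationSubring_of_isIntegral V (fun r => Algebra.adjoin_induction
    (p := fun y _ => y ∈ V) (fun y hy => by rw [Set.mem_singleton_iff.mp hy]; exact hz) hc
    (fun _ _ _ _ ha hb => add_mem ha hb) (fun _ _ _ _ ha hb => mul_mem ha hb) r.2) hx

/-- The Kronecker congruence after a map. -/
theorem kronecker_map {G k₀ : Type*} [Field G] [CommRing k₀] (π₀ : W →+* k₀) (ι : k₀ →+* G)
    (V : ValuationSubring F) (ρ : V →+* G) (hc : ∀ w : W, algebraMap W F w ∈ V)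
    (hρ : ∀ w : W, ρ ⟨_, hc w⟩ = ι (π₀ w)) {n : ℕ} (Φ : Polynomial (Polynomial W))
    (hΦ : Φ.map (mapRingHom π₀) = (X - C (X ^ n)) * (X ^ n - C X))
    {s t : F} (hs : s ∈ V) (ht : t ∈ V) (hroot : evalTwo Φ s t = 0) :
    (ρ ⟨s, hs⟩ - ρ ⟨t, ht⟩ ^ n) * (ρ ⟨s, hs⟩ ^ n - ρ ⟨t, ht⟩) = 0 := by
  let cW : W →+* V := (algebraMap W F).codRestrict V.toSubring hc
  let e₀ : Polynomial (Polynomial W) →+* V := eval₂RingHom (eval₂RingHom cW ⟨t, ht⟩) ⟨s, hs⟩
  let e₁ : Polynomial (Polynomial k₀) →+* G :=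
    eval₂RingHom (eval₂RingHom ι (ρ ⟨t, ht⟩)) (ρ ⟨s, hs⟩)
  have h0 : e₀ Φ = 0 := by
    refine Subtype.coe_injective ?_
    show V.subtype (e₀ Φ) = V.subtype 0
    rw [map_zero, ← hroot, evalTwo_eq, ← RingHom.comp_apply]
    refine RingHom.congr_fun (Polynomial.ringHom_ext' (Polynomial.ringHom_ext' ?_ ?_) ?_) _
    · exact RingHom.ext fun w => by simp [e₀, evalTwoHom, cW]
    · simp [e₀, evalTwoHom]
    · simp [e₀, evalTwoHom]
  have hcomp : ρ.comp e₀ = e₁.comp (mapRingHom (mapRingHom π₀)) := by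
    refine Polynomial.ringHom_ext' (Polynomial.ringHom_ext' ?_ ?_) ?_
    · refine RingHom.ext fun w => ?_
      simp only [RingHom.comp_apply, coe_eval₂RingHom, eval₂_C, coe_mapRingHom, map_C, e₀, e₁]
      exact hρ w
    · simp [e₀, e₁]
    · simp [e₀, e₁]
  have h1 := RingHom.congr_fun hcomp Φ
  rw [RingHom.comp_apply, RingHom.comp_apply, h0, map_zero, coe_mapRingHom, hΦ] at h1
  simp only [e₁, coe_eval₂RingHom, eval₂_mul, eval₂_sub, eval₂_X, eval₂_C, eval₂_pow] at h1
  exact h1.symm

end Chart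

section Pull

variable {K Eb k G F₁ : Type*} [Field K] [Field Eb] [Algebra K Eb] [Field k] [Field G]
  [Algebra k G] [Field F₁] [IsAlgClosed K] [IsAlgClosed k]
  [Curve.IsFunctionField1 K Eb] [Curve.RR.RRSetting K Eb] {A₁ : ValuationSubring K} {π : A₁ →+* k}
  (g : GaussRed A₁ π Eb G) (hπ : Function.Surjective π) (f : F₁ →+* Eb)

/-- The reduction on a pulled back valuation ring. -/
def pullRed : pullRing g hπ f →+* G :=
  g.red.comp ((f.comp (pullRing g hπ f).subtype).codRestrict g.integers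
    fun x => mem_pullRing.mp x.2)

theorem pullRed_apply {x : F₁} (h : x ∈ pullRing g hπ f) :
    pullRed g hπ f ⟨x, h⟩ = g.red ⟨f x, mem_pullRing.mp h⟩ := rfl

theorem algebraMap_mem_pullRing {W : Type*} [CommRing W] [Algebra W F₁] (κ : W →+* A₁)
    (hf : ∀ w, f (algebraMap W F₁ w) = algebraMap K Eb (κ w : K)) (w : W) :
    algebraMap W F₁ w ∈ pullRing g hπ f :=
  mem_pullRing.mpr (by rw [hf]; exact g.algebraMap_mem _)

theorem pullRed_const {W : Type*} [CommRing W] [Algebra W F₁] (κ : W →+* A₁)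
    (hf : ∀ w, f (algebraMap W F₁ w) = algebraMap K Eb (κ w : K)) (w : W) :
    pullRed g hπ f ⟨_, algebraMap_mem_pullRing g hπ f κ hf w⟩ = algebraMap k G (π (κ w)) := by
  rw [pullRed_apply, g.red_congr (hf w)]
  exact g.red_algebraMap _

end Pull

end FermatAgent.RTLift.Sq
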