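import Fermat.Agent.RTLift.Sq.Interface
import Fermat.Agent.MazurPrinciple.LevelSurj

/-!
# Shortcuts for slow searches of algebra structures

Abbreviations of the structures found by the standard search, to be used as local instances.
-/

set_option autoImplicit false

noncomputable section

namespace FermatAgent.RTLift.Sq.Short

open ModularCurve
open FermatAgent.MazurPrinciple
open FermatAgent.BadRed.Carayol.Instance (LevelField inertiaRing)

local notation "ℚbar" => AlgebraicClosure ℚ

variable (A : ValuationSubring ℚbar) (M : ℕ) [NeZero M]

/-- Scalars of the inertia field. -/
abbrev algLevel : Algebra (inertiaField A) (LevelField (inertiaField A) M) := inferInstance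

/-- Integral scalars of the inertia field. -/
abbrev algRing : Algebra (inertiaRing A) (LevelField (inertiaField A) M) := inferInstance

/-- Scalars of the fibre. -/
abbrev algFib : Algebra (IsLocalRing.ResidueField A) (FibField A M) := inferInstance

/-- Constants of the geometric field. -/
abbrev algBar : Algebra ℚbar (laurentBaseChange ℚbar (modularFunctionFieldFull M)) := inferInstance

end FermatAgent.RTLift.Sq.Short
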