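import Fermat.Agent.RTLift.Sq.Corr

/-!
# Ratios under the correspondence

If `corrOp f` is a constant times `f'` times an `n`-th power, then up to one constant the ratio
of `f'` at a point is the product of the ratios of `f` at the points below.
-/

set_option autoImplicit false
set_option linter.unusedSectionVars false
set_option maxHeartbeats 800000

noncomputable section

namespace FermatAgent.RTLift.Sq

open Polynomial IsLocalRing
open FermatAgent.BadRed.Carayol

variable {q : ℕ} [Fact q.Prime] {W K F F₁ F₂ : Type*}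
  [CommRing W] [IsDomain W] [IsDiscreteValuationRing W] [IsAlgClosed (IsLocalRing.ResidueField W)]
  [Field K] [CharZero K] [Algebra W K] [IsFractionRing W K]
  [Field F] [Field F₁] [Field F₂] [Algebra K F] [Algebra K F₁] [Algebra K F₂]
  [Algebra W F] [Algebra W F₁] [Algebra W F₂]
  [IsScalarTower W K F] [IsScalarTower W K F₁] [IsScalarTower W K F₂]
  {T : QTower q K F F₁ F₂} {u : F}
  {hq : maximalIdeal W = Ideal.span {(q : W)}} {D : ChartData W T u}

theorem IsRootOn.ne_zero {L : Type*} [Field L] {V : ValuationSubring L} {n : ℕ} {f h : L}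
    (H : IsRootOn V n f h) (hn : 0 < n) : h ≠ 0 := fun e => by
  have := H.isUnitAt.ne_zero
  rw [e, zero_pow hn.ne', div_zero] at this
  exact this rfl

theorem IsRootOn.f_ne_zero {L : Type*} [Field L] {V : ValuationSubring L} {n : ℕ} {f h : L}
    (H : IsRootOn V n f h) : f ≠ 0 := fun e => by
  have := H.isUnitAt.ne_zero
  rw [e, zero_div] at this
  exact this rfl

include hq in
/-- Two residual roots differ by a constant root of unity. -/
theorem IsRootOn.exists_const {V : ValuationSubring F₂}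
    (hV : IsVertical W q (T.α (T.t u)) V) {n : ℕ} (hn : 0 < n) {f h h' : F₂}
    (H : IsRootOn V n f h) (H' : IsRootOn V n f h') :
    ∃ ζ : W, residue W ζ ^ n = 1 ∧ IsUnitAt V (h' / h) ∧
      res V (h' / h) = res V (algebraMap W F₂ ζ) := by
  have hh := H.ne_zero hn
  have hh' := H'.ne_zero hn
  have hf := H.f_ne_zero
  have e : (h' / h) ^ n = (f / h ^ n) / (f / h' ^ n) := by rw [div_pow]; field_simp
  have hu : IsUnitAt V (h' / h) := by
    have h1 : IsUnitAt V ((h' / h) ^ n) := e ▸ H.isUnitAt.div H'.isUnitAt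
    rw [IsUnitAt, map_pow] at h1
    exact (pow_eq_one_iff.mp h1).resolve_right hn.ne'
  have hp : res V (h' / h) ^ n = res V (algebraMap W F₂ (1 : W)) := by
    rw [← res_pow hu.mem, e, res_div H.mem H'.isUnitAt, H, H', map_one, res_one, div_one]
  obtain ⟨ζ, hζ⟩ := exists_const_of_pow_eq hq hV hn hp
  refine ⟨ζ, ?_, hu, hζ⟩
  rw [hζ, map_one, res_one, ← constRes_residue hq hV, ← map_pow] at hp
  exact (constRes hq hV).injective (hp.trans (map_one _).symm)

/-- Rescaling the two roots rescales the ratio. -/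
theorem SSPoint.Ratio.change (x : SSPoint hq D) {V V' : ValuationSubring F₂}
    (hV : IsVertical W q (T.α (T.t u)) V) (hV' : IsVertical W q (T.α (T.t u)) V') {n : ℕ}
    (hT : Through x.P V) (hT' : Through x.P V') {f h h' h₂ h₂' : F₂}
    {r : IsLocalRing.ResidueField W} {ζ ζ' : W} (hζ : residue W ζ ≠ 0)
    (hh : h ≠ 0) (hh' : h' ≠ 0)
    (e : res V (h₂ / h) = res V (algebraMap W F₂ ζ)) (hm : h₂ / h ∈ V)
    (e' : res V' (h₂' / h') = res V' (algebraMap W F₂ ζ')) (hm' : h₂' / h' ∈ V')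
    (H : x.Ratio V V' n f h h' r) :
    x.Ratio V V' n f h₂ h₂' (r * (residue W ζ' / residue W ζ)) := by
  obtain ⟨ε, γ, y, y', hε0, hγ, hε, hεi, hf, hy, hy', hyV, hyV', ey, ey', hne, hr⟩ := H.exists_lifts
  have hA : ∀ w : chartRing W (T.α (T.t u)), (w : F₂) ∈ V := fun w => hV.chartRing_le w.2
  have hA' : ∀ w : chartRing W (T.α (T.t u)), (w : F₂) ∈ V' := fun w => hV'.chartRing_le w.2
  refine ⟨ε, γ, y * algebraMap W F₂ ζ, y' * algebraMap W F₂ ζ', hε0, hγ, hε, hεi, hf,
    hy.mul (loc_const ζ), hy'.mul (loc_const ζ'), ?_, ?_, ?_, ?_, ?_, ?_⟩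
  · rw [show h₂ / γ = h / γ * (h₂ / h) by field_simp]; exact mul_mem hyV hm
  · rw [show h₂' / γ = h' / γ * (h₂' / h') by field_simp]; exact mul_mem hyV' hm'
  · rw [show h₂ / γ = h / γ * (h₂ / h) by field_simp, res_mul hyV hm,
      res_mul (hT.mem hA hy) (hV.const_mem ζ), ey, e]
  · rw [show h₂' / γ = h' / γ * (h₂' / h') by field_simp, res_mul hyV' hm',
      res_mul (hT'.mem hA' hy') (hV'.const_mem ζ'), ey', e']
  · rw [pval_mul hq x.mem hy (loc_const ζ), pval_const]; exact mul_ne_zero hne hζ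
  · rw [pval_mul hq x.mem hy (loc_const ζ), pval_mul hq x.mem hy' (loc_const ζ'), pval_const,
      pval_const, hr]
    field_simp

theorem SSPoint.Ratio.mul (x : SSPoint hq D) {C : Comps W T u} {V V' : ValuationSubring F₂}
    (hV : IsComp C V) (hV' : IsComp C V') {n : ℕ} {f h h' f₁ h₁ h₁' : F₂}
    {r r₁ : IsLocalRing.ResidueField W} (H : x.Ratio V V' n f h h' r)
    (H₁ : x.Ratio V V' n f₁ h₁ h₁' r₁) : x.Ratio V V' n (f * f₁) (h * h₁) (h' * h₁') (r * r₁) :=
  RatioAt.mul hq hV.isVertical (x.through_comp hq D hV) hV'.isVertical (x.through_comp hq D hV')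
    H H₁

theorem SSPoint.Ratio.pow (x : SSPoint hq D) {C : Comps W T u} {V V' : ValuationSubring F₂}
    (hV : IsComp C V) (hV' : IsComp C V') {n : ℕ} {f h h' : F₂} {r : IsLocalRing.ResidueField W}
    (H : x.Ratio V V' n f h h' r) (k : ℕ) :
    x.Ratio V V' n (f ^ k) (h ^ k) (h' ^ k) (r ^ k) := by
  induction k with
  | zero =>
    simp only [pow_zero]
    exact ratioAt_one hq hV.isVertical hV'.isVertical
  | succ k ih => simp only [pow_succ]; exact ih.mul x hV hV' H

theorem SSPoint.Ratio.unique (x : SSPoint hq D) {C : Comps W T u} {V V' : ValuationSubring F₂}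
    (hV : IsComp C V) (hV' : IsComp C V') {n : ℕ} (hn : 0 < n) {f h h' : F₂}
    {r r₁ : IsLocalRing.ResidueField W} (H : x.Ratio V V' n f h h' r)
    (H₁ : x.Ratio V V' n f h h' r₁) : r = r₁ :=
  RatioAt.unique hq hV.isVertical (x.through_comp hq D hV) hV'.isVertical
    (x.through_comp hq D hV') hn H H₁

/-- An `n`-th power times a constant reducing to one has ratio one. -/
theorem ratio_self (x : SSPoint hq D) {V V' : ValuationSubring F₂}
    (_hV : IsVertical W q (T.α (T.t u)) V) (_hV' : IsVertical W q (T.α (T.t u)) V') {n : ℕ}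
    {γ : F₂} (hγ : γ ≠ 0) {e : Wˣ} :
    x.Ratio V V' n (algebraMap W F₂ (e : W) * γ ^ n) γ γ 1 := by
  have h1 : Loc (T.α (T.t u)) x.P (1 : F₂) := chartRing_le_locRing x.P (one_mem _)
  have he : algebraMap W F₂ (e : W) * algebraMap W F₂ ((e⁻¹ : Wˣ) : W) = 1 := by
    rw [← map_mul, Units.mul_inv, map_one]
  refine ⟨algebraMap W F₂ (e : W), γ, 1, 1, left_ne_zero_of_mul_eq_one he, hγ, loc_const _, ?_, rfl,
    h1, h1, ?_, ?_, ?_, ?_, ?_, ?_⟩
  · rw [← eq_inv_of_mul_eq_one_right he]; exact loc_const _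
  · rw [div_self hγ]; exact one_mem _
  · rw [div_self hγ]; exact one_mem _
  · rw [div_self hγ]
  · rw [div_self hγ]
  · rw [pval_one hq x.mem]; exact one_ne_zero
  · rw [pval_one hq x.mem, one_mul]

include hq D in
/-- A constant with a residual root on one component has the same root on every one. -/
theorem exists_const_roots {C : Comps W T u} {n : ℕ} (hn : 0 < n) {c : K} (hc : c ≠ 0) {g : F₂}
    (H : IsRootOn C.VI n (algebraMap K F₂ c) g) :
    ∃ (κ : F₂) (e : Wˣ), κ ≠ 0 ∧ algebraMap K F₂ c = algebraMap W F₂ (e : W) * κ ^ n ∧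
      residue W (e : W) = 1 := by
  have hq0 := natCast_ne_zero₂ hq D
  obtain ⟨j, w, rfl⟩ := exists_zpow_mul_unit hq hc
  obtain ⟨i, hi⟩ := exists_hasExp_of_disc (disc_inf hq D C.vI C.inf) hq0 (H.ne_zero hn)
  have hw : ∀ v : Wˣ, IsUnitAt C.VI (algebraMap W F₂ (v : W)) := fun v =>
    isUnitAt_const hq C.vI (v.isUnit.map (residue W)).ne_zero
  have hj : j = (n : ℤ) * i := by
    have h1 : HasExp q C.VI (algebraMap K F₂ ((q : K) ^ j * algebraMap W K (w : W))) j := by
      rw [map_mul, map_zpow₀, map_natCast, ← IsScalarTower.algebraMap_apply]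
      simpa using (hasExp_zpow (V := C.VI) j).mul (hasExp_zero_iff.mpr (hw w)) hq0
    refine h1.unique ?_ hq0 C.vI.q_mem
    rw [HasExp, H.val_eq, hi, ← zpow_natCast, ← zpow_mul, mul_comm]
  obtain ⟨r, hr⟩ := IsAlgClosed.exists_pow_nat_eq (residue W (w : W)) hn
  have hr0 : r ≠ 0 := fun h => (w.isUnit.map (residue W)).ne_zero (by
    rw [← hr, h, zero_pow hn.ne'])
  obtain ⟨ω, rfl⟩ := residue_surjective r
  have hωu : IsUnit ω := by
    by_contra h
    exact hr0 ((residue_eq_zero_iff _).mpr h)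
  refine ⟨(q : F₂) ^ i * algebraMap W F₂ ω, w * (hωu.unit ^ n)⁻¹, mul_ne_zero
    (zpow_ne_zero i hq0) ?_, ?_, ?_⟩
  · exact (isUnitAt_const hq C.vI hr0).ne_zero
  · have h2 : (algebraMap W F₂ ((hωu.unit ^ n)⁻¹ : Wˣ)) * algebraMap W F₂ ω ^ n = 1 := by
      rw [← map_pow, ← map_mul]
      have : ((hωu.unit ^ n : Wˣ) : W) = ω ^ n := by rw [Units.val_pow_eq_pow_val, hωu.unit_spec]
      rw [← this, Units.inv_mul, map_one]
    rw [map_mul, map_zpow₀, map_natCast, ← IsScalarTower.algebraMap_apply, mul_pow,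
      Units.val_mul, map_mul, hj, ← zpow_natCast ((q : F₂) ^ i), ← zpow_mul, mul_comm (i : ℤ)]
    linear_combination -((q : F₂) ^ ((n : ℤ) * i) * algebraMap W F₂ (w : W)) * h2
  · rw [Units.val_mul, map_mul, ← hr, map_units_inv, Units.val_pow_eq_pow_val, map_pow,
      hωu.unit_spec, mul_inv_cancel₀ (pow_ne_zero n hr0)]

variable {G G₁ G₂ : Type*} [Field G] [Field G₁] [Field G₂] [Algebra K G] [Algebra K G₁]
  [Algebra K G₂] [Algebra W G] [Algebra W G₁] [Algebra W G₂]
  [IsScalarTower W K G] [IsScalarTower W K G₁] [IsScalarTower W K G₂]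
  {T' : QTower q K G G₁ G₂} {u' : G}
  (D' : ChartData W T' u') (a b : TowerMap W T T' u u') (C : Comps W T u) (C' : Comps W T' u')

include hq in
theorem IsRootOn.of_eq {V : ValuationSubring F₂} (hV : IsVertical W q (T.α (T.t u)) V) {n : ℕ}
    (hn : 0 < n) {g f' w κ h : F₂} (hf' : f' ≠ 0) (hw : w ≠ 0) (hκ : κ ≠ 0) {e : Wˣ}
    (he : residue W (e : W) = 1) (hg : g = algebraMap W F₂ (e : W) * κ ^ n * f' * w ^ n)
    (H : IsRootOn V n g h) : IsRootOn V n f' (h / (κ * w)) := by
  have h0 := H.ne_zero hn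
  have hc : IsUnitAt V (algebraMap W F₂ (e : W)) :=
    isUnitAt_const hq hV (e.isUnit.map (residue W)).ne_zero
  have hE : f' / (h / (κ * w)) ^ n = (g / h ^ n) / algebraMap W F₂ (e : W) := by
    have := hc.ne_zero
    rw [hg, div_pow, mul_pow]; field_simp
  rw [IsRootOn, hE, res_div H.mem hc, H, ← constRes_residue hq hV, he, map_one, div_one]

include hq D D' C' in
/-- The roots of `f'` given by those of `f`. -/
theorem exists_transport_roots {n : ℕ} (hn : 0 < n) {f f' w κ : F₂} (hf' : f' ≠ 0) (hw : w ≠ 0)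
    (hκ : κ ≠ 0) {e : Wˣ} (he : residue W (e : W) = 1) (R : Roots C n f)
    (hg : corrOp a b f = algebraMap W F₂ (e : W) * κ ^ n * f' * w ^ n) : Nonempty (Roots C n f') :=
  ⟨⟨_, _, _,
    IsRootOn.of_eq (hq := hq) C.vI hn hf' hw hκ he hg
      (isRootOn_corrOp hq D D' a b C C' (Or.inl rfl) R.rootI),
    IsRootOn.of_eq (hq := hq) C.v0 hn hf' hw hκ he hg
      (isRootOn_corrOp hq D D' a b C C' (Or.inr (Or.inl rfl)) R.root₀),
    IsRootOn.of_eq (hq := hq) C.vm hn hf' hw hκ he hg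
      (isRootOn_corrOp hq D D' a b C C' (Or.inr (Or.inr rfl)) R.rootm)⟩⟩

variable (hq) (D) in
/-- The points below a point. -/
def below (x : SSPoint hq D) : Fin a.deg → SSPoint hq D :=
  (exists_points hq D D' a b C C' x).choose

/-- **Transport of ratios.** -/
theorem exists_ratio_below {n : ℕ} (hn : 0 < n) {f f' w κ : F₂} (hdiv' : DivisibleOn K f' n)
    (hw : w ≠ 0) (hκ : κ ≠ 0) {e : Wˣ} (he : residue W (e : W) = 1)
    (hg : corrOp a b f = algebraMap W F₂ (e : W) * κ ^ n * f' * w ^ n)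
    {V V' : ValuationSubring F₂} (hV : IsComp C V) (hV' : IsComp C V') {h h' h₂ h₂' : F₂}
    (H : IsRootOn V n f h) (H' : IsRootOn V' n f h') (R : Roots C n f')
    (H₂ : IsRootOn V n f' h₂) (H₂' : IsRootOn V' n f' h₂') :
    ∃ η : IsLocalRing.ResidueField W, η ^ n = 1 ∧ ∀ (x : SSPoint hq D)
      (r : Fin a.deg → IsLocalRing.ResidueField W),
      (∀ i, (below hq D D' a b C C' x i).Ratio V V' n f h h' (r i)) →
      x.Ratio V V' n f' h₂ h₂' (η * ∏ i, r i) := by
  have hf' := R.rootI.f_ne_zero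
  have K₁ := IsRootOn.of_eq (hq := hq) hV.isVertical hn hf' hw hκ he hg
    (isRootOn_corrOp hq D D' a b C C' hV H)
  have K₁' := IsRootOn.of_eq (hq := hq) hV'.isVertical hn hf' hw hκ he hg
    (isRootOn_corrOp hq D D' a b C C' hV' H')
  obtain ⟨ζ, hζ, hu, eζ⟩ := K₁.exists_const (hq := hq) hV.isVertical hn H₂
  obtain ⟨ζ', hζ', hu', eζ'⟩ := K₁'.exists_const (hq := hq) hV'.isVertical hn H₂'
  have hζ0 : residue W ζ ≠ 0 := fun h0 => by
    rw [h0, zero_pow hn.ne'] at hζ; exact zero_ne_one hζ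
  refine ⟨residue W ζ' / residue W ζ, by rw [div_pow, hζ, hζ', div_one], fun x r hr => ?_⟩
  obtain ⟨r₀, -, hr₀⟩ := x.exists_ratio hn hf' hdiv' R hV.isVertical (x.through_comp hq D hV)
    hV'.isVertical (x.through_comp hq D hV') K₁ K₁'
  have h1 := SSPoint.Ratio.mul x hV hV' hr₀
    (ratio_self x hV.isVertical hV'.isVertical (n := n) (γ := κ * w) (e := e) (mul_ne_zero hκ hw))
  rw [mul_one, div_mul_cancel₀ _ (mul_ne_zero hκ hw), div_mul_cancel₀ _ (mul_ne_zero hκ hw),
    show f' * (algebraMap W F₂ (e : W) * (κ * w) ^ n) = corrOp a b f by rw [hg]; ring] at h1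
  have h2 := (exists_points hq D D' a b C C' x).choose_spec V V' hV hV' hn f h h' r r₀ hr h1
  rw [← h2, mul_comm]
  exact hr₀.change x hV.isVertical hV'.isVertical (x.through_comp hq D hV)
    (x.through_comp hq D hV') hζ0 (K₁.ne_zero hn) (K₁'.ne_zero hn) eζ hu.mem eζ' hu'.mem

end FermatAgent.RTLift.Sq
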