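import Fermat.Agent.BadRed.Carayol.Instance.JLine

/-!
# `j` as a function of the coordinate of level `4`

`j · (u (u + 16)) ^ 4 = P(u)` with `P` monic of degree `9` and `|P 0| = 2 ^ 48`.
-/

set_option autoImplicit false
set_option maxHeartbeats 800000

noncomputable section

open UpperHalfPlane hiding I
open Complex Filter Function Polynomial
open scoped Real Topology MatrixGroups ModularForm
open FermatAgent.ModFun
open FermatAgent.BadRed.Carayol.Instance

namespace FermatAgent.RTLift.Sq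

local notation "Δ" => ModularForm.discriminant
local notation "𝕢" => Function.Periodic.qParam

section Top

variable {R : Type*} [CommRing R]

/-- A pole of order at most `n` with leading coefficient `c`. -/
def TopAt (n : ℕ) (c : R) (s : LaurentSeries R) : Prop := PoleLE n s ∧ s.coeff (-(n : ℤ)) = c

theorem TopAt.mul {n k : ℕ} {c d : R} {s t : LaurentSeries R} (hs : TopAt n c s)
    (ht : TopAt k d t) : TopAt (n + k) (c * d) (s * t) := by
  refine ⟨hs.1.mul ht.1, ?_⟩
  rw [HahnSeries.coeff_mul, Finset.sum_eq_single (-(n : ℤ), -(k : ℤ)), hs.2, ht.2]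
  · intro ij hij hne
    simp only [Finset.mem_antidiagonal, HahnSeries.mem_support] at hij
    rcases (by
      by_contra hh
      rw [not_or, not_lt, not_lt] at hh
      refine hne (Prod.ext ?_ ?_) <;> push_cast at hij hh ⊢ <;> linarith :
        ij.1 < -(n : ℤ) ∨ ij.2 < -(k : ℤ)) with h | h
    · exact absurd (hs.1 _ h) hij.1
    · exact absurd (ht.1 _ h) hij.2.1
  · intro hni
    simp only [Finset.mem_antidiagonal, HahnSeries.mem_support, not_and_or, not_not] at hni
    rcases hni with h | h | h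
    · rw [h, zero_mul]
    · rw [h, mul_zero]
    · exact absurd (by push_cast; ring) h

theorem TopAt.pow {n : ℕ} {c : R} {s : LaurentSeries R} (hs : TopAt n c s) :
    ∀ i : ℕ, TopAt (n * i) (c ^ i) (s ^ i)
  | 0 => by simpa [TopAt] using poleLE_one
  | i + 1 => by rw [pow_succ, pow_succ, mul_add, mul_one]; exact (hs.pow i).mul hs

theorem coeff_zsmul_series (a : ℤ) (t : LaurentSeries ℤ) (m : ℤ) :
    (algebraMap ℤ (LaurentSeries ℤ) a * t).coeff m = a * t.coeff m := by
  rw [eq_intCast, ← map_intCast (HahnSeries.C : ℤ →+* LaurentSeries ℤ), HahnSeries.C_apply,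
    HahnSeries.coeff_single_mul, sub_zero, Int.cast_id]

/-- The top coefficient of a polynomial in a series with a simple pole. -/
theorem topAt_aeval {s : LaurentSeries ℤ} (hs : TopAt 1 1 s) (P : ℤ[X]) {n : ℕ}
    (hn : P.natDegree ≤ n) : TopAt n (P.coeff n) (aeval s P) := by
  rw [aeval_eq_sum_range' (Nat.lt_succ_of_le hn)]
  constructor
  · intro m hm
    rw [HahnSeries.coeff_sum]
    refine Finset.sum_eq_zero fun i hi => ?_
    rw [Algebra.smul_def, coeff_zsmul_series, (hs.pow i).1 m (by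
      rw [Finset.mem_range] at hi; rw [one_mul]; omega), mul_zero]
  · rw [HahnSeries.coeff_sum, Finset.sum_eq_single n]
    · have h := (hs.pow n).2
      rw [one_mul, one_pow] at h
      rw [Algebra.smul_def, coeff_zsmul_series, h, mul_one]
    · intro i hi hne
      rw [Finset.mem_range] at hi
      rw [Algebra.smul_def, coeff_zsmul_series, (hs.pow i).1 _ (by rw [one_mul]; omega), mul_zero]
    · simp

end Top

/-- The polynomial with the cusp values of the coordinate of level `4` as roots. -/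
def cusp4 : ℤ[X] := X ^ 2 + C 16 * X

variable {q : ℕ} [Fact q.Prime] [NeZero q] (hq : ¬ 2 ∣ q)

omit [NeZero q] [Fact q.Prime] in
theorem topAt_uSeries : TopAt 1 1 (uSeries (hauptmodul4 q hq)) :=
  ⟨poleLE_uSeries _, by simpa using coeff_uSeries_top (hauptmodul4 q hq)⟩

theorem topAt_jqModC : TopAt 1 1 (ModularCurve.jqModC ℤ) := by
  refine ⟨fun m hm => ?_, ?_⟩
  · exact ModularCurve.coeff_jqModC_of_lt ℤ (by omega)
  · exact ModularCurve.coeff_jqModC_neg_one ℤ

omit [NeZero q] in
/-- `j R(u) ^ 4` as a monic polynomial in the expansion of `u`. -/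
theorem exists_monic_uPoly : ∃ P : ℤ[X], P.Monic ∧ P.natDegree = 9 ∧
    aeval (uSeries (hauptmodul4 q hq)) P =
      ModularCurve.jqModC ℤ * aeval (uSeries (hauptmodul4 q hq)) cusp4 ^ 4 := by
  obtain ⟨P, hP⟩ := exists_j_eq_eval _ (hauptmodul4_isCuspPoly (q := q) hq)
  refine ⟨P, ?_⟩
  have hs := topAt_uSeries hq
  have hR : TopAt 2 1 (aeval (uSeries (hauptmodul4 q hq)) cusp4) := by
    have := topAt_aeval hs cusp4 (n := 2) (by rw [cusp4]; compute_degree)
    rwa [show cusp4.coeff 2 = 1 by simp [cusp4, coeff_X]] at this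
  have hrhs := topAt_jqModC.mul (hR.pow 4)
  rw [one_pow, one_mul] at hrhs
  have hP' : aeval (uSeries (hauptmodul4 q hq)) P =
      ModularCurve.jqModC ℤ * aeval (uSeries (hauptmodul4 q hq)) cusp4 ^ 4 := hP
  have hdeg : P.natDegree ≤ 9 := by
    by_contra h
    push Not at h
    have h1 := (topAt_aeval hs P le_rfl).2
    rw [hP', hrhs.1 _ (by omega)] at h1
    rw [coeff_natDegree, eq_comm, leadingCoeff_eq_zero] at h1
    rw [h1, natDegree_zero] at h
    omega
  have h9 : P.coeff 9 = 1 := by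
    have h1 := (topAt_aeval hs P hdeg).2
    rw [hP', hrhs.2] at h1
    exact h1.symm
  have hd : P.natDegree = 9 := le_antisymm hdeg (le_natDegree_of_ne_zero (by rw [h9]; exact one_ne_zero))
  exact ⟨by rw [Monic, leadingCoeff, hd, h9], hd, hP'⟩

omit [Fact (Nat.Prime q)] [NeZero q] in
/-- The series identity holds for the functions. -/
theorem eval_uPoly {P : ℤ[X]} (hP : aeval (uSeries (hauptmodul4 q hq)) P =
    ModularCurve.jqModC ℤ * aeval (uSeries (hauptmodul4 q hq)) cusp4 ^ 4) (τ : ℍ) :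
    evalInt (u4 τ) P = jFun τ * (u4 τ ^ 2 + 16 * u4 τ) ^ 4 := by
  set uc : cuspRing := ⟨u4, levelRing_le_cuspRing _ u4_mem⟩ with huc
  have heval : ∀ Q : ℤ[X], qLaurentHom (eval₂ (Int.castRingHom cuspRing) uc Q)
      = ModularCurve.coeffMap (Int.castRingHom ℂ) (aeval (uSeries (hauptmodul4 q hq)) Q) := fun Q => by
    rw [← AlgHom.coe_toRingHom, hom_eval₂, aeval_def, hom_eval₂]
    refine eval₂_congr (RingHom.ext_int _ _) ?_ rfl
    exact qLaurent_u_eq (hauptmodul4 q hq)
  have e : eval₂ (Int.castRingHom cuspRing) uc P =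
      (⟨jFun, jFun_mem_cuspRing⟩ : cuspRing) * eval₂ (Int.castRingHom cuspRing) uc cusp4 ^ 4 := by
    refine qLaurentHom_injective ?_
    rw [heval, hP, map_mul (ModularCurve.coeffMap _), map_pow (ModularCurve.coeffMap _), ← heval,
      map_mul, map_pow, ModularCurve.coeffMap_jqModC]
    congr 1
    exact qLaurent_jFun.symm
  have h := congrArg (evalC τ) e
  rw [map_mul, map_pow, hom_eval₂, hom_eval₂] at h
  simp only [evalC_apply, huc, cusp4, eval₂_add, eval₂_X_pow, eval₂_mul, eval₂_C, eval₂_X] at h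
  rw [RingHom.ext_int ((evalC τ).comp (Int.castRingHom cuspRing)) (Int.castRingHom ℂ)] at h
  simpa using h

theorem dil_four_S (τ : ℍ) : dil 4 (ModularGroup.S • τ) = ModularGroup.S • Igusa.ut 1 4 0 τ := by
  refine UpperHalfPlane.ext ?_
  rw [coe_dil, UpperHalfPlane.modular_S_smul, UpperHalfPlane.modular_S_smul]
  simp only [Igusa.coe_ut]
  have := τ.ne_zero
  push_cast
  rw [add_zero, one_mul]
  field_simp

theorem tendsto_discriminant_quarter :
    Tendsto (fun τ => Δ (Igusa.ut 1 4 0 τ) / wExp (1 / 4) τ) atImInfty (𝓝 1) := by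
  have h : Tendsto (fun τ => Δ τ / wExp 1 τ) atImInfty (𝓝 1) :=
    ModularForm.tendsto_atImInfty_tprod_one_sub_eta_q_pow.congr fun τ => by
      have hq : wExp 1 τ = 𝕢 1 (τ : ℂ) := by simp [wExp, Periodic.qParam]
      rw [hq, ModularForm.discriminant_eq_q_prod,
        mul_div_cancel_left₀ _ (Periodic.qParam_ne_zero _)]
  refine (h.comp (tendsto_ut_atImInfty 1 4 0)).congr fun τ => ?_
  simp [wExp_ut]

/-- The size of the coordinate near the cusp `0`. -/
theorem tendsto_norm_u4_S :
    Tendsto (fun τ => ‖u4 (ModularGroup.S • τ)‖ ^ 3 * Real.exp (2 * π * (3 / 4) * τ.im))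
      atImInfty (𝓝 ((4 : ℝ) ^ 12)) := by
  have h : Tendsto (fun τ => Δ τ / wExp 1 τ) atImInfty (𝓝 1) :=
    ModularForm.tendsto_atImInfty_tprod_one_sub_eta_q_pow.congr fun τ => by
      have hq : wExp 1 τ = 𝕢 1 (τ : ℂ) := by simp [wExp, Periodic.qParam]
      rw [hq, ModularForm.discriminant_eq_q_prod,
        mul_div_cancel_left₀ _ (Periodic.qParam_ne_zero _)]
  have h2 := ((h.div tendsto_discriminant_quarter one_ne_zero).norm).const_mul ((4 : ℝ) ^ 12)
  rw [div_one, norm_one, mul_one] at h2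
  refine h2.congr fun τ => ?_
  have hu : u4 (ModularGroup.S • τ) ^ 3 = 4 ^ 12 * (Δ τ / Δ (Igusa.ut 1 4 0 τ)) := by
    have hd : dil 1 (ModularGroup.S • τ) = ModularGroup.S • τ :=
      UpperHalfPlane.ext (by simp)
    have hne := τ.ne_zero
    have := ModularForm.discriminant_ne_zero (Igusa.ut 1 4 0 τ)
    rw [u4, etaQuot_pow (by norm_num) (by norm_num), hd, dil_four_S, Igusa.discriminant_smul_eq,
      Igusa.discriminant_smul_eq]
    simp [ModularGroup.coe_S, Igusa.coe_ut]
    field_simp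
  rw [← norm_pow, hu, Pi.div_apply]
  simp only [norm_mul, norm_div, norm_pow, norm_wExp, RCLike.norm_ofNat]
  rw [show Real.exp (2 * π * (3 / 4) * τ.im) =
      Real.exp (-2 * π * (1 / 4) * τ.im) / Real.exp (-2 * π * 1 * τ.im) by
    rw [← Real.exp_sub]; congr 1; ring]
  field_simp

omit [Fact (Nat.Prime q)] [NeZero q] in
/-- The constant coefficient is a power of `2` up to sign. -/
theorem natAbs_coeff_zero {P : ℤ[X]} (hP : aeval (uSeries (hauptmodul4 q hq)) P =
    ModularCurve.jqModC ℤ * aeval (uSeries (hauptmodul4 q hq)) cusp4 ^ 4) :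
    (P.coeff 0).natAbs = 2 ^ 48 := by
  have := atImInfty_neBot
  have hS : (ModularGroup.S : SL(2, ℤ)) ∉ CongruenceSubgroup.Gamma0 4 :=
    not_mem_Gamma0_four.mpr (by simp [ModularGroup.coe_S])
  have hw : Tendsto (fun τ => u4 (ModularGroup.S • τ)) atImInfty (𝓝 0) := by
    have := tendsto_val4 _ hS
    rwa [val4, if_neg (by simp [ModularGroup.coe_S])] at this
  have h1 : Tendsto (fun τ => ‖evalInt (u4 (ModularGroup.S • τ)) P‖ ^ 3) atImInfty
      (𝓝 (‖(P.coeff 0 : ℂ)‖ ^ 3)) := by
    have := ((((P.map (Int.castRingHom ℂ)).continuous).continuousAt.tendsto.comp hw).norm).pow 3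
    rw [← coeff_zero_eq_eval_zero, coeff_map, eq_intCast] at this
    exact this.congr fun τ => by simp [eval_map]
  have hj : Tendsto (fun τ : ℍ => ‖jFun τ‖ * Real.exp (-2 * π * 1 * τ.im)) atImInfty (𝓝 1) :=
    norm_jFun_comp_tendsto (g := id) one_pos fun τ => (one_mul _).symm
  have h16 := ((hw.add_const 16).norm).pow 12
  have h2 := ((hj.pow 3).mul (tendsto_norm_u4_S.pow 4)).mul h16
  have h3 : ‖(P.coeff 0 : ℂ)‖ ^ 3 = (2 ^ 48 : ℝ) ^ 3 := by
    refine (tendsto_nhds_unique (h1.congr fun τ => ?_) h2).trans ?_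
    · set w := u4 (ModularGroup.S • τ)
      have he : Real.exp (-2 * π * 1 * τ.im) ^ 3 * Real.exp (2 * π * (3 / 4) * τ.im) ^ 4 = 1 := by
        rw [← Real.exp_nat_mul, ← Real.exp_nat_mul, ← Real.exp_add, Real.exp_eq_one_iff]
        push_cast; ring
      rw [eval_uPoly hq hP, jFun_smul]
      show ‖jFun τ * (w ^ 2 + 16 * w) ^ 4‖ ^ 3 = _
      rw [show w ^ 2 + 16 * w = w * (w + 16) by ring, norm_mul, norm_pow, norm_mul]
      linear_combination -(‖jFun τ‖ ^ 3 * ‖w‖ ^ 12 * ‖w + 16‖ ^ 12) * he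
    · simp only [zero_add, RCLike.norm_ofNat]
      norm_num
  have h4 := (pow_left_inj₀ (norm_nonneg _) (by positivity) (by norm_num)).mp h3
  rw [Complex.norm_intCast] at h4
  have h5 : (((P.coeff 0).natAbs : ℤ) : ℝ) = ((2 ^ 48 : ℕ) : ℤ) := by
    rw [Int.natCast_natAbs, Int.cast_abs, h4]; norm_num
  exact_mod_cast h5

end FermatAgent.RTLift.Sq
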